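import Mathlib

/-!
# S59, package LL / SQ, abstract algebra for step (T) (helper40)

* `exists_eigenvector_of_eigenfunctional`: a commuting family of endomorphisms of a
  finite-dimensional vector space which has a nonzero simultaneous eigen-FUNCTIONAL with
  eigenvalues `t` has a nonzero simultaneous eigenvector with the same eigenvalues.
* `exists_eigen_of_map_eigen`: if `φ : Y → J` is equivariant for two families of operators
  (commuting on `Y`, `Y` finite-dimensional) and `φ y` is a nonzero simultaneous eigenvector in `J`,
  then `Y` contains a nonzero simultaneous eigenvector with the same eigenvalues.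
  [Use: `x = α^* y + β^* y'` in `J₀(M'q²)[p]`, `φ = α^* + β^*` on `J₀(M'q)[p]²`.]
-/

set_option autoImplicit false

namespace Fermat.Agent.S59.LL.SQ.H40

open Module

/-- A commuting family of nilpotent endomorphisms of a nonzero finite-dimensional space has a
common kernel vector. -/
theorem exists_common_kernel_of_nilpotent {k : Type*} [Field k] {ι : Type*} :
    ∀ (n : ℕ) (M : Type*) [AddCommGroup M] [Module k M] [FiniteDimensional k M]
      (U : ι → Module.End k M), finrank k M = n → n ≠ 0 →
      (∀ i j, Commute (U i) (U j)) → (∀ i, IsNilpotent (U i)) →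
      ∃ m : M, m ≠ 0 ∧ ∀ i, U i m = 0 := by
  intro n
  induction n using Nat.strong_induction_on with
  | _ n ih =>
    intro M _ _ _ U hn hn0 hcomm hnil
    by_cases hall : ∀ i, U i = 0
    · have : Nontrivial M := Module.nontrivial_of_finrank_pos (R := k) (by omega)
      obtain ⟨m, hm⟩ := exists_ne (0 : M)
      exact ⟨m, hm, fun i => by rw [hall i]; rfl⟩
    · push Not at hall
      obtain ⟨i₁, hi₁⟩ := hall
      -- `N = ker (U i₁)` is proper, nonzero and stable
      set N : Submodule k M := LinearMap.ker (U i₁) with hN
      have hNtop : N ≠ ⊤ := by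
        intro h
        apply hi₁
        exact LinearMap.ker_eq_top.mp h
      have hNbot : N ≠ ⊥ := by
        intro h
        have hinj : Function.Injective (U i₁) := LinearMap.ker_eq_bot.mp h
        obtain ⟨d, hd⟩ := hnil i₁
        have : Nontrivial M := Module.nontrivial_of_finrank_pos (R := k) (by omega)
        obtain ⟨m, hm⟩ := exists_ne (0 : M)
        have hinjd : Function.Injective ((U i₁) ^ d) := by
          rw [Module.End.coe_pow]
          exact hinj.iterate d
        apply hm
        apply hinjd
        rw [hd]
        simp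
      have hstab : ∀ i, ∀ x ∈ N, U i x ∈ N := by
        intro i x hx
        rw [hN, LinearMap.mem_ker] at hx ⊢
        have := (hcomm i₁ i).eq
        calc U i₁ (U i x) = (U i₁ * U i) x := rfl
          _ = (U i * U i₁) x := by rw [this]
          _ = U i (U i₁ x) := rfl
          _ = 0 := by rw [hx, map_zero]
      let U' : ι → Module.End k N := fun i => (U i).restrict (hstab i)
      have hlt : finrank k N < n := by
        rw [← hn]
        exact Submodule.finrank_lt hNtop
      have hpos : finrank k N ≠ 0 := by
        intro h
        exact hNbot (Submodule.finrank_eq_zero.mp h)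
      have hcomm' : ∀ i j, Commute (U' i) (U' j) := by
        intro i j
        apply LinearMap.ext
        intro x
        apply Subtype.ext
        show U i (U j x) = U j (U i x)
        have := (hcomm i j).eq
        calc U i (U j x) = (U i * U j) x := rfl
          _ = (U j * U i) x := by rw [this]
          _ = U j (U i x) := rfl
      have hnil' : ∀ i, IsNilpotent (U' i) := by
        intro i
        obtain ⟨d, hd⟩ := hnil i
        refine ⟨d, ?_⟩
        apply LinearMap.ext
        intro x
        apply Subtype.ext
        have h1 : ∀ (e : ℕ) (y : N), (((U' i) ^ e) y : M) = ((U i) ^ e) (y : M) := by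
          intro e
          induction e with
          | zero => intro y; rfl
          | succ e ihe =>
            intro y
            rw [pow_succ, pow_succ, Module.End.mul_apply, Module.End.mul_apply, ihe]
            rfl
        rw [h1, hd]
        rfl
      obtain ⟨m, hm0, hm⟩ := ih (finrank k N) hlt N U' rfl hpos hcomm' hnil'
      refine ⟨(m : M), fun h => hm0 (Subtype.ext h), fun i => ?_⟩
      have := congrArg Subtype.val (hm i)
      exact this

/-- **Eigen-functional ⟹ eigenvector**, for a commuting family on a finite-dimensional space. -/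
theorem exists_eigenvector_of_eigenfunctional {k : Type*} [Field k] {ι : Type*} :
    ∀ (n : ℕ) (M : Type*) [AddCommGroup M] [Module k M] [FiniteDimensional k M]
      (T : ι → Module.End k M) (t : ι → k) (lam : M →ₗ[k] k), finrank k M = n →
      (∀ i j, Commute (T i) (T j)) → lam ≠ 0 → (∀ i m, lam (T i m) = t i * lam m) →
      ∃ m : M, m ≠ 0 ∧ ∀ i, T i m = t i • m := by
  intro n
  induction n using Nat.strong_induction_on with
  | _ n ih =>
    intro M _ _ _ T t lam hn hcomm hlam0 hlam
    have hMnt : ∃ m₀ : M, lam m₀ ≠ 0 := by
      by_contra h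
      push Not at h
      exact hlam0 (LinearMap.ext h)
    obtain ⟨m₀, hm₀⟩ := hMnt
    have hn0 : n ≠ 0 := by
      intro h
      rw [h] at hn
      have : Subsingleton M := Module.finrank_zero_iff.mp hn
      apply hm₀
      rw [Subsingleton.elim m₀ 0, map_zero]
    let U : ι → Module.End k M := fun i => T i - t i • (1 : Module.End k M)
    have hUcomm : ∀ i j, Commute (U i) (U j) := by
      intro i j
      have h1 : Commute (T i) (t j • (1 : Module.End k M)) :=
        (Commute.one_right (T i)).smul_right (t j)
      have h2 : Commute (t i • (1 : Module.End k M)) (T j) :=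
        (Commute.one_left (T j)).smul_left (t i)
      have h3 : Commute (t i • (1 : Module.End k M)) (t j • (1 : Module.End k M)) :=
        ((Commute.one_left (1 : Module.End k M)).smul_left (t i)).smul_right (t j)
      exact ((hcomm i j).sub_right h1).sub_left (h2.sub_right h3)
    have hlamU : ∀ i m, lam (U i m) = 0 := by
      intro i m
      show lam (T i m - (t i • (1 : Module.End k M)) m) = 0
      rw [map_sub, hlam, LinearMap.smul_apply, Module.End.one_apply, map_smul, smul_eq_mul,
        sub_self]
    have hlamUd : ∀ i (d : ℕ), d ≠ 0 → ∀ m, lam (((U i) ^ d) m) = 0 := by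
      intro i d hd m
      obtain ⟨e, rfl⟩ := Nat.exists_eq_succ_of_ne_zero hd
      rw [pow_succ', Module.End.mul_apply]
      exact hlamU i _
    by_cases hallnil : ∀ i, IsNilpotent (U i)
    · obtain ⟨m, hm0, hm⟩ := exists_common_kernel_of_nilpotent n M U hn hn0 hUcomm hallnil
      refine ⟨m, hm0, fun i => ?_⟩
      have := hm i
      have h2 : T i m - t i • m = 0 := this
      exact sub_eq_zero.mp h2
    · push Not at hallnil
      obtain ⟨i₀, hi₀⟩ := hallnil
      -- Fitting decomposition for `U i₀`
      have hev := LinearMap.eventually_isCompl_ker_pow_range_pow (U i₀)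
      obtain ⟨d, hd⟩ := (hev.and (Filter.eventually_ge_atTop 1)).exists
      obtain ⟨hcompl, hd1⟩ := hd
      set M₀ : Submodule k M := LinearMap.ker ((U i₀) ^ d) with hM₀
      have hM₀top : M₀ ≠ ⊤ := by
        intro h
        apply hi₀
        exact ⟨d, LinearMap.ker_eq_top.mp h⟩
      have hstab : ∀ i, ∀ x ∈ M₀, T i x ∈ M₀ := by
        intro i x hx
        rw [hM₀, LinearMap.mem_ker] at hx ⊢
        have hc : Commute ((U i₀) ^ d) (T i) := by
          have h1 : Commute (U i₀) (T i) := by
            have h2 : Commute (t i₀ • (1 : Module.End k M)) (T i) :=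
              (Commute.one_left (T i)).smul_left (t i₀)
            exact (hcomm i₀ i).sub_left h2
          exact h1.pow_left d
        calc ((U i₀) ^ d) (T i x) = ((U i₀) ^ d * T i) x := rfl
          _ = (T i * (U i₀) ^ d) x := by rw [hc.eq]
          _ = T i (((U i₀) ^ d) x) := rfl
          _ = 0 := by rw [hx, map_zero]
      -- `lam` is nonzero on `M₀`
      have hlamM₀ : lam.comp M₀.subtype ≠ 0 := by
        intro h
        apply hm₀
        have hsum : m₀ ∈ M₀ ⊔ LinearMap.range ((U i₀) ^ d) := by
          rw [hcompl.sup_eq_top]
          exact Submodule.mem_top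
        obtain ⟨a, ha, b, hb, hab⟩ := Submodule.mem_sup.mp hsum
        obtain ⟨c, rfl⟩ := hb
        rw [← hab, map_add, hlamUd i₀ d (by omega) c, add_zero]
        have := LinearMap.congr_fun h ⟨a, ha⟩
        exact this
      let T' : ι → Module.End k M₀ := fun i => (T i).restrict (hstab i)
      have hlt : finrank k M₀ < n := by
        rw [← hn]
        exact Submodule.finrank_lt hM₀top
      have hcomm' : ∀ i j, Commute (T' i) (T' j) := by
        intro i j
        apply LinearMap.ext
        intro x
        apply Subtype.ext
        show T i (T j x) = T j (T i x)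
        have := (hcomm i j).eq
        calc T i (T j x) = (T i * T j) x := rfl
          _ = (T j * T i) x := by rw [this]
          _ = T j (T i x) := rfl
      obtain ⟨m, hm0, hm⟩ := ih (finrank k M₀) hlt M₀ T' t (lam.comp M₀.subtype) rfl hcomm'
        hlamM₀ (fun i m => hlam i m)
      refine ⟨(m : M), fun h => hm0 (Subtype.ext h), fun i => ?_⟩
      have := congrArg Subtype.val (hm i)
      exact this

/-- **Eigenvectors in the image of an equivariant map come from eigenvectors.** -/
theorem exists_eigen_of_map_eigen {k : Type*} [Field k] {ι : Type*} {Y J : Type*}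
    [AddCommGroup Y] [Module k Y] [FiniteDimensional k Y] [AddCommGroup J] [Module k J]
    (TY : ι → Module.End k Y) (TJ : ι → Module.End k J)
    (hcomm : ∀ i j, Commute (TY i) (TY j)) (φ : Y →ₗ[k] J)
    (hφ : ∀ i y, φ (TY i y) = TJ i (φ y)) (t : ι → k) (y : Y) (hx0 : φ y ≠ 0)
    (hx : ∀ i, TJ i (φ y) = t i • φ y) :
    ∃ z : Y, z ≠ 0 ∧ ∀ i, TY i z = t i • z := by
  classical
  -- `Y₀ = φ⁻¹ (k · x)`
  set x : J := φ y with hxdef
  set Y₀ : Submodule k Y := (Submodule.span k {x}).comap φ with hY₀
  have hstab : ∀ i, ∀ z ∈ Y₀, TY i z ∈ Y₀ := by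
    intro i z hz
    rw [hY₀, Submodule.mem_comap] at hz ⊢
    obtain ⟨c, hc⟩ := Submodule.mem_span_singleton.mp hz
    rw [hφ, ← hc, map_smul, hx i, smul_smul]
    exact Submodule.smul_mem _ _ (Submodule.mem_span_singleton_self x)
  -- the coordinate functional on `span {x}`
  -- functional on `Y₀`
  have hex : ∀ z : Y₀, ∃! c : k, c • x = φ z := by
    intro z
    obtain ⟨c, hc⟩ := Submodule.mem_span_singleton.mp z.2
    refine ⟨c, hc, fun c' hc' => ?_⟩
    have : (c' - c) • x = 0 := by rw [sub_smul, hc', hc, sub_self]
    rcases smul_eq_zero.mp this with h | h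
    · exact sub_eq_zero.mp h
    · exact absurd h hx0
  choose coord hcoord huniq using hex
  let lam : Y₀ →ₗ[k] k :=
    { toFun := coord
      map_add' := fun a b => by
        apply (huniq (a + b) _ _).symm
        rw [add_smul, hcoord, hcoord]
        simp
      map_smul' := fun c a => by
        apply (huniq (c • a) _ _).symm
        rw [RingHom.id_apply, smul_eq_mul, mul_smul, hcoord]
        simp }
  have hyY₀ : y ∈ Y₀ := by
    rw [hY₀, Submodule.mem_comap]
    exact Submodule.mem_span_singleton_self x
  have hlam0 : lam ≠ 0 := by
    intro h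
    have h1 : lam ⟨y, hyY₀⟩ = 0 := by rw [h]; rfl
    have h2 := hcoord ⟨y, hyY₀⟩
    have h3 : coord ⟨y, hyY₀⟩ = 0 := h1
    rw [h3, zero_smul] at h2
    exact hx0 h2.symm
  let T' : ι → Module.End k Y₀ := fun i => (TY i).restrict (hstab i)
  have hlam : ∀ i (m : Y₀), lam (T' i m) = t i * lam m := by
    intro i m
    apply (huniq (T' i m) _ _).symm
    show (t i * coord m) • x = φ (TY i m)
    rw [hφ, ← hcoord m, map_smul, hx i, smul_smul, mul_comm]
  have hcomm' : ∀ i j, Commute (T' i) (T' j) := by
    intro i j
    apply LinearMap.ext
    intro z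
    apply Subtype.ext
    show TY i (TY j z) = TY j (TY i z)
    have := (hcomm i j).eq
    calc TY i (TY j z) = (TY i * TY j) z := rfl
      _ = (TY j * TY i) z := by rw [this]
      _ = TY j (TY i z) := rfl
  obtain ⟨m, hm0, hm⟩ := exists_eigenvector_of_eigenfunctional (finrank k Y₀) Y₀ T' t lam rfl
    hcomm' hlam0 hlam
  refine ⟨(m : Y), fun h => hm0 (Subtype.ext h), fun i => ?_⟩
  have := congrArg Subtype.val (hm i)
  exact this

end Fermat.Agent.S59.LL.SQ.H40
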