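import Fermat.Agent.S36.NU.H23_Mod1
import Fermat.Agent.GTor.H2_HKalg

/-!
# S59 / LL / SQ, leaf (E) COMP-EIS at `q²` (helper33): interface of NORM-VAL3

Level `N = M q²`, `q ∤ M`, `A` over `q`, `ℓ ∤ N` a prime.  `T_ℓ` on Kummer functions is
`f ↦ heckeNormFn f = N_α (β f)` (`α, β : F_N → F_{N ℓ}`).

* `IsVU V x` : `x` is a unit of the valuation ring `V`;
* `NV20At`, `NV11At`, `NV02At` : **NORM-VAL** for one valuation: `T_ℓ` maps inertia-fixed
  `V_i`-units to `V_i`-units (`i = 20, 11, 02`);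
* `Stmt_NV20`, `Stmt_NV11`, `Stmt_NV02` : the same for all levels.

Owners: NV20, NV02 helper33 (`H33_CompEisNV.lean`); NV11 helper87 (on helper35's tower at `ℓ`).
-/

set_option autoImplicit false
set_option linter.style.haveILetI false
set_option linter.unusedSectionVars false

noncomputable section

open ModularCurve AlgebraicCurve
open Fermat.Agent.S24 Fermat.Agent.S36.NU.H88 Fermat.Agent.S36.NU.H23

namespace Fermat.Agent.S59.LL.SQ.H33

/-- `x` is a unit of the valuation ring `V`. -/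
def IsVU {F : Type} [Field F] (V : ValuationSubring F) (x : F) : Prop :=
  x ≠ 0 ∧ x ∈ V ∧ x⁻¹ ∈ V

section Defs

variable (A : ValuationSubring Kbar) (q M : ℕ) (B k : ℤ) (hB : B * M + k * q = 1) (hq : q.Prime)
  [NeZero M] [NeZero q] [NeZero (M * q * q)]

/-- **NORM-VAL for `V₂₀`** at level `M q²`: `T_ℓ` maps inertia-fixed units to units. -/
def NV20At : Prop :=
  ∀ (ℓ : ℕ) [NeZero ℓ], ℓ.Prime → ¬ ℓ ∣ M * q * q →
    ∀ f : FN (M * q * q), f ∈ L0 A (M * q * q) → IsVU (V20 A (M * q * q)) f →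
      IsVU (V20 A (M * q * q)) (Fermat.Agent.GTor.H2.heckeNormFn Kbar (M * q * q) ℓ f)

/-- **NORM-VAL for `V₁₁`** at level `M q²`: `T_ℓ` maps inertia-fixed units to units. -/
def NV11At : Prop :=
  ∀ (ℓ : ℕ) [NeZero ℓ], ℓ.Prime → ¬ ℓ ∣ M * q * q →
    ∀ f : FN (M * q * q), f ∈ L0 A (M * q * q) →
      IsVU (V11 A (M * q * q) q M B k (lvl q M) hB hq) f →
      IsVU (V11 A (M * q * q) q M B k (lvl q M) hB hq)
        (Fermat.Agent.GTor.H2.heckeNormFn Kbar (M * q * q) ℓ f)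

/-- **NORM-VAL for `V₀₂`** at level `M q²`: `T_ℓ` maps inertia-fixed units to units. -/
def NV02At : Prop :=
  ∀ (ℓ : ℕ) [NeZero ℓ], ℓ.Prime → ¬ ℓ ∣ M * q * q →
    ∀ f : FN (M * q * q), f ∈ L0 A (M * q * q) →
      IsVU (V02 A (M * q * q) q M B k (lvl q M) hB) f →
      IsVU (V02 A (M * q * q) q M B k (lvl q M) hB)
        (Fermat.Agent.GTor.H2.heckeNormFn Kbar (M * q * q) ℓ f)

end Defs

/-- **NV20**, all levels. -/
def Stmt_NV20 : Prop :=
  ∀ (A : ValuationSubring Kbar) (q M : ℕ) (hq : q.Prime)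
    [NeZero M] [NeZero q] [NeZero (M * q * q)], ¬ q ∣ M → A.LiesOverPrime q → NV20At A q M

/-- **NV11**, all levels. -/
def Stmt_NV11 : Prop :=
  ∀ (A : ValuationSubring Kbar) (q M : ℕ) (B k : ℤ) (hB : B * M + k * q = 1) (hq : q.Prime)
    [NeZero M] [NeZero q] [NeZero (M * q * q)], ¬ q ∣ M → A.LiesOverPrime q →
    NV11At A q M B k hB hq

/-- **NV02**, all levels. -/
def Stmt_NV02 : Prop :=
  ∀ (A : ValuationSubring Kbar) (q M : ℕ) (B k : ℤ) (hB : B * M + k * q = 1) (hq : q.Prime)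
    [NeZero M] [NeZero q] [NeZero (M * q * q)], ¬ q ∣ M → A.LiesOverPrime q →
    NV02At A q M B k hB

end Fermat.Agent.S59.LL.SQ.H33
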