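import Fermat.Agent.S59.LL.SQ.H35_MidRed
import Fermat.Agent.S59.LL.SQ.H33_CompEisDefs
attribute [local instance 10000] SubalgebraClass.toAlgebra
attribute [local instance 10000] HahnSeries.powerSeriesAlgebra

/-!
# S59 / LL / SQ, leaf (E), sub-leaf NV11 (helper87): NORM-RED and NORM-VAL for `V₁₁`

Level `N = M q²`, `q ∤ M`, `ℓ ∤ N` a prime, `A` over `q`.  On the inertia-fixed functions the
valuation `V₁₁` has the residue field `Ft A M` (helper23), and by helper35's tower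
(`H35_MidTower`, `H35_MidRed`) the degeneracy maps `α, β : F_N → F_{N ℓ}` are compatible with
`V₁₁` and induce `α~, β~ : Ft A M → Ft A (M ℓ)` on the residue fields.  As
`[L0 (N ℓ) : L0 N] = ℓ + 1 = [Ft (M ℓ) : Ft M]`, the norm commutes with the reduction
(`RED.H10.stmt_NormRedAbs`):

* `heckeL0`  : `T_ℓ f = N_α (β f)` as an element of `L0 A N`;
* `hnorm11`  : **NORM-RED for `V₁₁`**: `T_ℓ f ∈ V₁₁` and `r₁₁ (T_ℓ f) = N_{α~} (β~ (r₁₁ f))`;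
* `stmt_NV11` : `H33.Stmt_NV11` (`T_ℓ` maps inertia-fixed `V₁₁`-units to `V₁₁`-units).

This file contains no `sorry`.
-/

set_option autoImplicit false
set_option linter.style.haveILetI false
set_option linter.unusedSectionVars false
set_option synthInstance.maxHeartbeats 400000
set_option maxHeartbeats 1000000

noncomputable section

open AlgebraicCurve ModularCurve
open Fermat.Agent.S24 Fermat.Agent.BAD Fermat.Agent.BAD.H88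
open Fermat.Agent.S28 Fermat.Agent.S28.H73 Fermat.Agent.RED.H73 Fermat.Agent.RED.H17
open Fermat.Agent.S36.NU.H88 Fermat.Agent.S36.NU.H23 Fermat.Agent.S36.NU.H26
open Fermat.Agent.S43.Old.H35 Fermat.Agent.Lib.HeckeComm Fermat.Agent.S59.LL.SQ.H35

namespace Fermat.Agent.S59.LL.SQ.H87

section Hecke

variable (A : ValuationSubring Kbar) (N ℓ : ℕ) [NeZero N] [NeZero ℓ] [NeZero (N * ℓ)]

/-- `β f` as an element of `L0 A (N ℓ)`. -/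
def betaL0 : ↥(L0 A N) →+* ↥(L0 A (N * ℓ)) :=
  mapL0 A (heckeBetaBar Kbar N ℓ) (arithEquivariant_beta N ℓ)

theorem coe_betaL0 (f : ↥(L0 A N)) :
    ((betaL0 A N ℓ f : ↥(L0 A (N * ℓ))) : FN (N * ℓ)) = heckeBetaBar Kbar N ℓ (f : FN N) := rfl

/-- `L0 A (N ℓ)` as an algebra over `L0 A N` along `α`. -/
@[reducible] def algAlphaL0 : Algebra ↥(L0 A N) ↥(L0 A (N * ℓ)) :=
  algL0Along A (heckeAlphaBar Kbar N ℓ) (arithEquivariant_alpha N ℓ)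

theorem coe_algebraMap_algAlphaL0 (a : ↥(L0 A N)) :
    ((@algebraMap ↥(L0 A N) ↥(L0 A (N * ℓ)) _ _ (algAlphaL0 A N ℓ) a : ↥(L0 A (N * ℓ))) :
      FN (N * ℓ)) = heckeAlphaBar Kbar N ℓ (a : FN N) := rfl

/-- `T_ℓ f = N_α (β f)` on the inertia-fixed functions. -/
def heckeL0 (f : ↥(L0 A N)) : ↥(L0 A N) :=
  letI := algAlphaL0 A N ℓ
  Algebra.norm ↥(L0 A N) (betaL0 A N ℓ f)

theorem finiteAlong_alpha : FiniteAlong Kbar (heckeAlphaBar Kbar N ℓ) :=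
  (Fermat.Agent.RED.H51.stmt_HKA N ℓ).2.2.2.1

/-- `heckeL0` is `heckeNormFn`. -/
theorem coe_heckeL0 (f : ↥(L0 A N)) :
    ((heckeL0 A N ℓ f : ↥(L0 A N)) : FN N)
      = Fermat.Agent.GTor.H2.heckeNormFn Kbar N ℓ (f : FN N) :=
  (norm_L0_along A (heckeAlphaBar Kbar N ℓ) (arithEquivariant_alpha N ℓ)
    (finiteAlong_alpha N ℓ) (betaL0 A N ℓ f)).symm

theorem heckeL0_mul (f g : ↥(L0 A N)) :
    heckeL0 A N ℓ (f * g) = heckeL0 A N ℓ f * heckeL0 A N ℓ g := by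
  letI := algAlphaL0 A N ℓ
  show Algebra.norm ↥(L0 A N) (betaL0 A N ℓ (f * g)) = _
  rw [map_mul, map_mul]
  rfl

theorem heckeL0_one : heckeL0 A N ℓ 1 = 1 := by
  letI := algAlphaL0 A N ℓ
  show Algebra.norm ↥(L0 A N) (betaL0 A N ℓ 1) = _
  rw [map_one, map_one]

end Hecke

/-! ## NORM-RED for `V₁₁` -/

section NormRed

variable (A : ValuationSubring Kbar) (q M ℓ : ℕ) (B k B' k' : ℤ) (hB : B * M + k * q = 1)
  (hB' : B' * ((M * ℓ : ℕ) : ℤ) + k' * q = 1) (hq : q.Prime) (hℓ : ℓ.Prime)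
  [NeZero M] [NeZero q] [NeZero ℓ] [NeZero (M * q * q)] [NeZero (M * q * q * ℓ)]
  [NeZero (M * ℓ)]
  (hqM : ¬ q ∣ M) (hℓN : ¬ ℓ ∣ M * q * q) (hA : A.LiesOverPrime q)

omit [NeZero M] [NeZero q] [NeZero ℓ] [NeZero (M * q * q)] [NeZero (M * q * q * ℓ)]
  [NeZero (M * ℓ)] in
theorem lvlUp2 : M * q * q * ℓ = M * ℓ * q * q := by ring

omit [NeZero M] [NeZero q] [NeZero ℓ] [NeZero (M * q * q)] [NeZero (M * q * q * ℓ)]
  [NeZero (M * ℓ)] in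
include hq hℓ hqM hℓN in
theorem not_dvd_up : ¬ q ∣ M * ℓ := by
  have hqℓ : q ≠ ℓ := by
    rintro rfl
    exact hℓN (Dvd.intro_left (M * q) rfl)
  intro hd
  rcases (Nat.Prime.dvd_mul hq).mp hd with hd | hd
  · exact hqM hd
  · exact hqℓ ((Nat.prime_dvd_prime_iff_eq hq hℓ).mp hd)

omit [NeZero M] [NeZero q] [NeZero ℓ] [NeZero (M * q * q)] [NeZero (M * q * q * ℓ)]
  [NeZero (M * ℓ)] in
include hq hℓ hℓN in
theorem coprime_up : Nat.Coprime ℓ q := by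
  rw [Nat.coprime_primes hℓ hq]
  rintro rfl
  exact hℓN (Dvd.intro_left (M * ℓ) rfl)

/-- The valuation ring `V₁₁` of `L0 A N`. -/
abbrev VLow : ValuationSubring ↥(L0 A (M * q * q)) :=
  V11g A (M * q * q) q M B k (lvl q M) hB hq

/-- The valuation ring `V₁₁` of `L0 A (N ℓ)`. -/
abbrev VUp : ValuationSubring ↥(L0 A (M * q * q * ℓ)) :=
  V11g A (M * q * q * ℓ) q (M * ℓ) B' k' (lvlUp q M ℓ) hB' hq

/-- The residue map of `V₁₁` at level `N`. -/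
abbrev rLow : ↥(VLow A q M B k hB hq) →+* ↥(Ft A M) :=
  r11g A (M * q * q) q M B k (lvl q M) hB hq hqM hA rfl

/-- The residue map of `V₁₁` at level `N ℓ`. -/
abbrev rUp : ↥(VUp A q M ℓ B' k' hB' hq) →+* ↥(Ft A (M * ℓ)) :=
  r11g A (M * q * q * ℓ) q (M * ℓ) B' k' (lvlUp q M ℓ) hB' hq
    (not_dvd_up q M ℓ hq hℓ hqM hℓN) hA (lvlUp2 q M ℓ)

include hB hℓ hℓN hA in
theorem mem_VUp_alpha_iff (a : ↥(L0 A (M * q * q))) :
    a ∈ VLow A q M B k hB hq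
      ↔ @algebraMap ↥(L0 A (M * q * q)) ↥(L0 A (M * q * q * ℓ)) _ _
          (algAlphaL0 A (M * q * q) ℓ) a ∈ VUp A q M ℓ B' k' hB' hq :=
  (alpha_mem_V11_iff A q M ℓ B k B' k' hB hB' hq hA (coprime_up q M ℓ hq hℓ hℓN)
    (a : FN (M * q * q)) a.2).symm

include hB in
theorem betaL0_mem_VUp (f : ↥(L0 A (M * q * q))) (hf : f ∈ VLow A q M B k hB hq) :
    betaL0 A (M * q * q) ℓ f ∈ VUp A q M ℓ B' k' hB' hq :=
  beta_mem_V11 A q M ℓ B k B' k' hB hB' hq (f : FN (M * q * q)) hf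

/-- `r' (α a) = α~ (r a)`. -/
theorem rUp_alpha (a : ↥(VLow A q M B k hB hq))
    (ha : @algebraMap ↥(L0 A (M * q * q)) ↥(L0 A (M * q * q * ℓ)) _ _
      (algAlphaL0 A (M * q * q) ℓ) (a : ↥(L0 A (M * q * q))) ∈ VUp A q M ℓ B' k' hB' hq) :
    rUp A q M ℓ B' k' hB' hq hℓ hqM hℓN hA ⟨_, ha⟩
      = alphaT A M ℓ (rLow A q M B k hB hq hqM hA a) := by
  apply Subtype.ext
  rw [coe_alphaT, coe_r11g, coe_r11g]
  exact red_alpha A q M ℓ B k B' k' hB hB' hq hA (coprime_up q M ℓ hq hℓ hℓN)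
    ((a : ↥(L0 A (M * q * q))) : FN (M * q * q)) (a : ↥(L0 A (M * q * q))).2 a.2 ha

/-- `r' (β f) = β~ (r f)`. -/
theorem rUp_beta (f : ↥(VLow A q M B k hB hq))
    (hf : betaL0 A (M * q * q) ℓ (f : ↥(L0 A (M * q * q))) ∈ VUp A q M ℓ B' k' hB' hq) :
    rUp A q M ℓ B' k' hB' hq hℓ hqM hℓN hA ⟨_, hf⟩
      = betaT A M ℓ (rLow A q M B k hB hq hqM hA f) := by
  apply Subtype.ext
  rw [coe_betaT, coe_r11g, coe_r11g]
  exact red_beta A q M ℓ B k B' k' hB hB' hq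
    ((f : ↥(L0 A (M * q * q))) : FN (M * q * q)) f.2 hf

include hℓ hℓN in
theorem finrank_algAlphaL0 :
    @Module.finrank ↥(L0 A (M * q * q)) ↥(L0 A (M * q * q * ℓ)) _ _
      (algAlphaL0 A (M * q * q) ℓ).toModule = ℓ + 1 :=
  (finrank_L0_along A (heckeAlphaBar Kbar (M * q * q) ℓ) (arithEquivariant_alpha (M * q * q) ℓ)
    (finiteAlong_alpha (M * q * q) ℓ)).trans (finrank_alpha_bar (M * q * q) ℓ hℓ hℓN)

include hq hℓ hqM hℓN hA in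
theorem finrank_alphaT' :
    @Module.finrank ↥(Ft A M) ↥(Ft A (M * ℓ)) _ _ (algebraAlong (alphaT A M ℓ)).toModule
      = ℓ + 1 :=
  finrank_alphaT A M ℓ q hℓ (fun hd => hℓN (Dvd.dvd.mul_right (Dvd.dvd.mul_right hd q) q)) hq
    (not_dvd_up q M ℓ hq hℓ hqM hℓN) hA

include hB' hℓ hℓN in
/-- **NORM-RED for `V₁₁`**, with the Bezout data of level `M ℓ`. -/
theorem hnorm11_aux (f : ↥(VLow A q M B k hB hq)) :
    ∃ h : heckeL0 A (M * q * q) ℓ (f : ↥(L0 A (M * q * q))) ∈ VLow A q M B k hB hq,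
      rLow A q M B k hB hq hqM hA ⟨_, h⟩
        = normAlong (alphaT A M ℓ) (betaT A M ℓ (rLow A q M B k hB hq hqM hA f)) := by
  letI iA : Algebra ↥(L0 A (M * q * q)) ↥(L0 A (M * q * q * ℓ)) := algAlphaL0 A (M * q * q) ℓ
  letI iA' : Algebra ↥(Ft A M) ↥(Ft A (M * ℓ)) := algebraAlong (alphaT A M ℓ)
  haveI : Module.Finite ↥(L0 A (M * q * q)) ↥(L0 A (M * q * q * ℓ)) :=
    finite_L0_along A (heckeAlphaBar Kbar (M * q * q) ℓ) (arithEquivariant_alpha (M * q * q) ℓ)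
      (finiteAlong_alpha (M * q * q) ℓ)
  have hβ := betaL0_mem_VUp A q M ℓ B k B' k' hB hB' hq (f : ↥(L0 A (M * q * q))) f.2
  obtain ⟨hN, hNeq⟩ := Fermat.Agent.RED.H10.stmt_NormRedAbs ↥(L0 A (M * q * q))
    ↥(L0 A (M * q * q * ℓ)) ↥(Ft A M) ↥(Ft A (M * ℓ))
    (VLow A q M B k hB hq) (VUp A q M ℓ B' k' hB' hq)
    (rLow A q M B k hB hq hqM hA) (rUp A q M ℓ B' k' hB' hq hℓ hqM hℓN hA)
    (mem_VUp_alpha_iff A q M ℓ B k B' k' hB hB' hq hℓ hℓN hA)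
    (r11g_surjective A (M * q * q * ℓ) q (M * ℓ) B' k' (lvlUp q M ℓ) hB' hq
      (not_dvd_up q M ℓ hq hℓ hqM hℓN) hA (lvlUp2 q M ℓ))
    (r11g_eq_zero_iff A (M * q * q * ℓ) q (M * ℓ) B' k' (lvlUp q M ℓ) hB' hq
      (not_dvd_up q M ℓ hq hℓ hqM hℓN) hA (lvlUp2 q M ℓ))
    (rUp_alpha A q M ℓ B k B' k' hB hB' hq hℓ hqM hℓN hA)
    ((finrank_algAlphaL0 A q M ℓ hℓ hℓN).trans
      (finrank_alphaT' A q M ℓ hq hℓ hqM hℓN hA).symm)
    ⟨_, hβ⟩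
  refine ⟨hN, hNeq.trans ?_⟩
  rw [rUp_beta A q M ℓ B k B' k' hB hB' hq hℓ hqM hℓN hA f hβ]
  rfl

include hq hℓ hqM hℓN in
omit [NeZero M] [NeZero q] [NeZero ℓ] [NeZero (M * q * q)] [NeZero (M * q * q * ℓ)]
  [NeZero (M * ℓ)] in
theorem exists_bezout_up : ∃ B' k' : ℤ, B' * ((M * ℓ : ℕ) : ℤ) + k' * q = 1 := by
  have hcop : Nat.Coprime (M * ℓ) q :=
    ((Nat.Prime.coprime_iff_not_dvd hq).mpr (not_dvd_up q M ℓ hq hℓ hqM hℓN)).symm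
  obtain ⟨u, v, huv⟩ := Nat.isCoprime_iff_coprime.mpr hcop
  exact ⟨u, v, huv⟩

include hℓ hℓN in
/-- **NORM-RED for `V₁₁`** (helper35's `hnorm11`): for `f ∈ V₁₁ ∩ L0 A N`, `T_ℓ f = N_α (β f)`
lies in `V₁₁` and `r₁₁ (T_ℓ f) = N_{α~} (β~ (r₁₁ f))`. -/
theorem hnorm11 (f : ↥(VLow A q M B k hB hq)) :
    ∃ h : heckeL0 A (M * q * q) ℓ (f : ↥(L0 A (M * q * q))) ∈ VLow A q M B k hB hq,
      rLow A q M B k hB hq hqM hA ⟨_, h⟩
        = normAlong (alphaT A M ℓ) (betaT A M ℓ (rLow A q M B k hB hq hqM hA f)) := by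
  obtain ⟨B', k', hB'⟩ := exists_bezout_up q M ℓ hq hℓ hqM hℓN
  exact hnorm11_aux A q M ℓ B k B' k' hB hB' hq hℓ hqM hℓN hA f

include hℓ hqM hℓN hA in
/-- `T_ℓ` maps `V₁₁ ∩ L0` into itself. -/
theorem heckeL0_mem (f : ↥(L0 A (M * q * q))) (hf : f ∈ VLow A q M B k hB hq) :
    heckeL0 A (M * q * q) ℓ f ∈ VLow A q M B k hB hq :=
  (hnorm11 A q M ℓ B k hB hq hℓ hqM hℓN hA ⟨f, hf⟩).1

end NormRed

/-! ## NORM-VAL for `V₁₁` -/

/-- **NV11** (helper33's interface): `T_ℓ` maps the inertia-fixed `V₁₁`-units to `V₁₁`-units. -/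
theorem stmt_NV11 : Fermat.Agent.S59.LL.SQ.H33.Stmt_NV11 := by
  intro A q M B k hB hq _ _ _ hqM hA ℓ _ hℓ hℓN f hf hU
  obtain ⟨hf0, hfV, hfV'⟩ := hU
  haveI : NeZero (M * q * q * ℓ) := ⟨Nat.mul_ne_zero (NeZero.ne (M * q * q)) (NeZero.ne ℓ)⟩
  haveI : NeZero (M * ℓ) := ⟨Nat.mul_ne_zero (NeZero.ne M) (NeZero.ne ℓ)⟩
  set F : ↥(L0 A (M * q * q)) := ⟨f, hf⟩ with hF
  have hF0 : F ≠ 0 := fun h => hf0 (congrArg Subtype.val h)
  have h1 : heckeL0 A (M * q * q) ℓ F ∈ VLow A q M B k hB hq :=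
    heckeL0_mem A q M ℓ B k hB hq hℓ hqM hℓN hA F hfV
  have h2 : heckeL0 A (M * q * q) ℓ F⁻¹ ∈ VLow A q M B k hB hq :=
    heckeL0_mem A q M ℓ B k hB hq hℓ hqM hℓN hA F⁻¹ hfV'
  have hinv : heckeL0 A (M * q * q) ℓ F⁻¹ = (heckeL0 A (M * q * q) ℓ F)⁻¹ := by
    have h3 : heckeL0 A (M * q * q) ℓ F * heckeL0 A (M * q * q) ℓ F⁻¹ = 1 := by
      rw [← heckeL0_mul, mul_inv_cancel₀ hF0, heckeL0_one]
    exact eq_inv_of_mul_eq_one_right h3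
  have e : ((heckeL0 A (M * q * q) ℓ F : ↥(L0 A (M * q * q))) : FN (M * q * q))
      = Fermat.Agent.GTor.H2.heckeNormFn Kbar (M * q * q) ℓ f := coe_heckeL0 A (M * q * q) ℓ F
  refine ⟨Fermat.Agent.GTor.H2.heckeNormFn_ne_zero Kbar (M * q * q) ℓ
    (finiteAlong_alpha (M * q * q) ℓ) hf0, ?_, ?_⟩
  · rw [← e]
    exact h1
  · rw [← e, ← Subfield.coe_inv, ← hinv]
    exact h2

end Fermat.Agent.S59.LL.SQ.H87
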