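import Fermat.Agent.S59.LL.SQ.H33_CompEisMain
import Fermat.Agent.S59.LL.SQ.H87_NV11

/-!
# S59 / LL / SQ, leaf (E) COMP-EIS at `q²` (helper33): the final statement

`stmt_CompEisSq : SQ.Stmt_CompEisSq`, from the assembly `stmt_CompEisSq_of` (`H33_CompEisMain`)
and helper87's `H87.stmt_NV11` (NORM-VAL for `V₁₁`).
-/

set_option autoImplicit false

namespace Fermat.Agent.S59.LL.SQ.H33

/-- **(E) COMP-EIS at `q²`**, at all levels `M q²`, `q ∤ M`, `p ≠ q` odd. -/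
theorem stmt_CompEisSq : Fermat.Agent.S59.LL.SQ.Stmt_CompEisSq :=
  stmt_CompEisSq_of Fermat.Agent.S59.LL.SQ.H87.stmt_NV11

end Fermat.Agent.S59.LL.SQ.H33
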