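import Fermat.Agent.S59.LL.SQ.H35_MidTower
import Fermat.Agent.S43.Old.H35_LevelN

/-!
# S59 / LL / SQ, leaf OLD-RED at `q²` (helper35): NORM-RED for the valuation `V₁₁`

Level `N = M q²`, `q ∤ M`, `ℓ` a prime not dividing `N`, `A` a valuation ring of `ℚ̄` over `q`.
On the inertia-fixed functions `L0 A N` the valuation `V₁₁` (middle cusp) has the residue field
`F~_M = Ft A M` (helper23, RES11).

* `V11g`, `s11g`, `r11g` : the valuation ring, its residue map with values in `k((t))` and in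
  `Ft A M'`, for a level `N'` given with a proof of `N' = M' q²` (so that the level `N ℓ` can be
  used in the form `M * q * q * ℓ`);
* `exists_inertia_mid`, `alpha_mem_V11_iff`, `red_alpha`, `beta_mem_V11`, `red_beta` :
  compatibility of `α`, `β : F_N → F_{N ℓ}` with `V₁₁` and its residue map on `L0`.
-/

set_option autoImplicit false
set_option linter.style.haveILetI false
set_option linter.unusedSectionVars false
set_option synthInstance.maxHeartbeats 400000
set_option maxHeartbeats 1000000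

noncomputable section

open AlgebraicCurve ModularCurve
open Fermat.Agent.S24 Fermat.Agent.BAD Fermat.Agent.BAD.H88
open Fermat.Agent.S28 Fermat.Agent.S28.H73 Fermat.Agent.RED.H73 Fermat.Agent.RED.H17
open Fermat.Agent.S36.NU.H88 Fermat.Agent.S36.NU.H23 Fermat.Agent.S36.NU.H26
open Fermat.Agent.S43.Old.H35 Fermat.Agent.Lib.HeckeComm

namespace Fermat.Agent.S59.LL.SQ.H35

/-! ## The valuation `V₁₁` on `L0`, for a level given up to equality -/

section Gen

variable (A : ValuationSubring Kbar) (N q M' : ℕ) (B' k' : ℤ) (hN : N = M' * (q * q))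
  (hB' : B' * M' + k' * q = 1) (hq : q.Prime) [NeZero N] [NeZero q] [NeZero M']

/-- `V₁₁` on `L0 A N`, `N = M' q²`. -/
def V11g : ValuationSubring ↥(L0 A N) := resV0 (L0 A N) (V11 A N q M' B' k' hN hB' hq)

theorem mem_V11g_iff (x : ↥(L0 A N)) :
    x ∈ V11g A N q M' B' k' hN hB' hq
      ↔ cMid N q M' B' k' hN hB' hq (x : FN N) ∈ gaussRingV A := Iff.rfl

/-- The residue map of `V11g`, with values in `k((t))`. -/
def s11g : ↥(V11g A N q M' B' k' hN hB' hq) →+* LaurentSeries (kV A) :=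
  (IntermediateField.val _).toRingHom.comp
    (resRed (L0 A N) (V11 A N q M' B' k' hN hB' hq) (red11 A N q M' B' k' hN hB' hq))

theorem s11g_mk (x : ↥(L0 A N)) (h : x ∈ V11g A N q M' B' k' hN hB' hq) :
    s11g A N q M' B' k' hN hB' hq ⟨x, h⟩
      = gaussRedV A ⟨cMid N q M' B' k' hN hB' hq (x : FN N), h⟩ := rfl

theorem s11g_eq_zero_iff (x : ↥(V11g A N q M' B' k' hN hB' hq)) :
    s11g A N q M' B' k' hN hB' hq x = 0 ↔ ¬ IsUnit x := by
  constructor
  · intro h0 hu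
    exact (hu.map (s11g A N q M' B' k' hN hB' hq)).ne_zero h0
  · intro hx
    have h1 := resRed_eq_zero_of_not_isUnit (L0 A N) (V11 A N q M' B' k' hN hB' hq)
      (red11 A N q M' B' k' hN hB' hq) (red11_eq_zero_iff A N q M' B' k' hN hB' hq) x hx
    show ((resRed (L0 A N) (V11 A N q M' B' k' hN hB' hq)
      (red11 A N q M' B' k' hN hB' hq) x : F11 A N q M' B' k' hN hB' hq) :
        LaurentSeries (kV A)) = 0
    rw [h1]
    rfl

variable (hqM' : ¬ q ∣ M') (hA : A.LiesOverPrime q) (hN2 : N = M' * q * q)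

include hqM' hA hN2 in
/-- **RES11** for a level given up to equality. -/
theorem s11g_mem (x : ↥(V11g A N q M' B' k' hN hB' hq)) :
    s11g A N q M' B' k' hN hB' hq x ∈ Ft A M' := by
  subst hN2
  exact s11_memM A q M' B' k' hB' hq hqM' hA x

include hqM' hA hN2 in
theorem s11g_surj (y : LaurentSeries (kV A)) (hy : y ∈ Ft A M') :
    ∃ x : ↥(V11g A N q M' B' k' hN hB' hq), s11g A N q M' B' k' hN hB' hq x = y := by
  subst hN2
  obtain ⟨x, hx⟩ := r11_surjective A q M' B' k' hB' hq hqM' hA ⟨y, hy⟩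
  exact ⟨x, congrArg Subtype.val hx⟩

/-- The residue map of `V11g`, with values in the reduced field of level `M'`. -/
def r11g : ↥(V11g A N q M' B' k' hN hB' hq) →+* ↥(Ft A M') :=
  (s11g A N q M' B' k' hN hB' hq).codRestrict (Ft A M').toSubring
    (fun x => s11g_mem A N q M' B' k' hN hB' hq hqM' hA hN2 x)

theorem coe_r11g (x : ↥(V11g A N q M' B' k' hN hB' hq)) :
    ((r11g A N q M' B' k' hN hB' hq hqM' hA hN2 x : ↥(Ft A M')) : LaurentSeries (kV A))
      = s11g A N q M' B' k' hN hB' hq x := rfl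

theorem r11g_surjective :
    Function.Surjective (r11g A N q M' B' k' hN hB' hq hqM' hA hN2) := by
  intro y
  obtain ⟨x, hx⟩ := s11g_surj A N q M' B' k' hN hB' hq hqM' hA hN2 y.1 y.2
  exact ⟨x, Subtype.ext hx⟩

theorem r11g_eq_zero_iff (x : ↥(V11g A N q M' B' k' hN hB' hq)) :
    r11g A N q M' B' k' hN hB' hq hqM' hA hN2 x = 0 ↔ ¬ IsUnit x := by
  rw [← s11g_eq_zero_iff A N q M' B' k' hN hB' hq x]
  constructor
  · intro h
    have := congrArg Subtype.val h
    rwa [coe_r11g] at this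
  · intro h
    apply Subtype.ext
    rw [coe_r11g, h]
    rfl

end Gen

/-! ## The tower -/

section Tower

variable (A : ValuationSubring Kbar) (q M ℓ : ℕ) (B k B' k' : ℤ) (hB : B * M + k * q = 1)
  (hB' : B' * ((M * ℓ : ℕ) : ℤ) + k' * q = 1) (hq : q.Prime)
  [NeZero M] [NeZero q] [NeZero ℓ] [NeZero (M * q * q)] [NeZero (M * q * q * ℓ)]

omit [NeZero M] [NeZero ℓ] [NeZero (M * q * q)] [NeZero (M * q * q * ℓ)] in
/-- An element of the inertia group moving the root of unity of the middle cusp of level `N` to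
that of level `N ℓ`. -/
theorem exists_inertia_mid (hA : A.LiesOverPrime q) (hℓq : Nat.Coprime ℓ q)
    (hB : B * M + k * q = 1) (hB' : B' * ((M * ℓ : ℕ) : ℤ) + k' * q = 1) (hq : q.Prime) :
    ∃ σ ∈ A.inertiaSubgroupIn ℚ, σ (zetaK q ^ B) = zetaK q ^ B' := by
  obtain ⟨m, -, hm⟩ := Nat.exists_mul_mod_eq_one_of_coprime hℓq hq.one_lt
  have hmq : m.Coprime q := by
    rw [Nat.coprime_comm, Nat.Prime.coprime_iff_not_dvd hq]
    intro hd
    have h0 : ℓ * m % q = 0 := Nat.mod_eq_zero_of_dvd (hd.mul_left ℓ)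
    omega
  obtain ⟨σ, hσ, hσμ⟩ := exists_inertia_pow A q hq hA m hmq
  refine ⟨σ, hσ, ?_⟩
  have h1 : ℓ * m = 1 + q * (ℓ * m / q) := by
    have := Nat.div_add_mod (ℓ * m) q
    omega
  rw [hσμ _ (zMid_pow q B), ← zMid_up_pow q M ℓ B k B' k' hB hB', ← pow_mul, h1, pow_add,
    pow_one, pow_mul, zMid_pow q B', one_pow, mul_one]

variable (hA : A.LiesOverPrime q) (hℓq : Nat.Coprime ℓ q)

include hB in
theorem cMup_alpha_of_mem (σ : Kbar ≃ₐ[ℚ] Kbar) (hσ : σ ∈ A.inertiaSubgroupIn ℚ)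
    (hσz : σ (zetaK q ^ B) = zetaK q ^ B') (x : FN (M * q * q)) (hx : x ∈ L0 A (M * q * q)) :
    cMup q M ℓ B' k' hB' hq (heckeAlphaBar Kbar (M * q * q) ℓ x)
      = coeffMap (σ : Kbar →+* Kbar) (cM q M B k hB hq x) := by
  have h := cMup_alpha_arith q M ℓ B k B' k' hB hB' hq σ hσz x
  rwa [hx σ hσ] at h

omit [NeZero M] [NeZero q] [NeZero ℓ] [NeZero (M * q * q)] [NeZero (M * q * q * ℓ)] in
theorem coeffMap_inv_cancel (σ : Kbar ≃ₐ[ℚ] Kbar) (y : LaurentSeries Kbar) :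
    coeffMap ((σ⁻¹ : Kbar ≃ₐ[ℚ] Kbar) : Kbar →+* Kbar) (coeffMap (σ : Kbar →+* Kbar) y) = y := by
  rw [coeffMap_coeffMap,
    coeffMap_congr (g := RingHom.id Kbar) (RingHom.ext fun a => σ.symm_apply_apply a) y,
    coeffMap_id]

include hB hA hℓq in
/-- `α x ∈ V₁₁ (N ℓ) ↔ x ∈ V₁₁ (N)` for `x` fixed by inertia. -/
theorem alpha_mem_V11_iff (x : FN (M * q * q)) (hx : x ∈ L0 A (M * q * q)) :
    cMup q M ℓ B' k' hB' hq (heckeAlphaBar Kbar (M * q * q) ℓ x) ∈ gaussRingV A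
      ↔ cM q M B k hB hq x ∈ gaussRingV A := by
  obtain ⟨σ, hσ, hσz⟩ := exists_inertia_mid A q M ℓ B k B' k' hA hℓq hB hB' hq
  rw [cMup_alpha_of_mem A q M ℓ B k B' k' hB hB' hq σ hσ hσz x hx]
  constructor
  · intro h
    have h2 := Fermat.Agent.BAD.H91.coeffMap_mem_gaussRingV
      (Fermat.Agent.BAD.H91.inertialOn_of_mem_inertia A (inv_mem hσ)) h
    rwa [coeffMap_inv_cancel] at h2
  · exact Fermat.Agent.BAD.H91.coeffMap_mem_gaussRingV
      (Fermat.Agent.BAD.H91.inertialOn_of_mem_inertia A hσ)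

include hB hA hℓq in
/-- The reduction at `V₁₁` of `α x` is that of `x`, for `x` fixed by inertia. -/
theorem red_alpha (x : FN (M * q * q)) (hx : x ∈ L0 A (M * q * q))
    (h : cM q M B k hB hq x ∈ gaussRingV A)
    (h' : cMup q M ℓ B' k' hB' hq (heckeAlphaBar Kbar (M * q * q) ℓ x) ∈ gaussRingV A) :
    gaussRedV A ⟨cMup q M ℓ B' k' hB' hq (heckeAlphaBar Kbar (M * q * q) ℓ x), h'⟩
      = gaussRedV A ⟨cM q M B k hB hq x, h⟩ := by
  obtain ⟨σ, hσ, hσz⟩ := exists_inertia_mid A q M ℓ B k B' k' hA hℓq hB hB' hq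
  have e := cMup_alpha_of_mem A q M ℓ B k B' k' hB hB' hq σ hσ hσz x hx
  have h'' : coeffMap (σ : Kbar →+* Kbar) (cM q M B k hB hq x) ∈ gaussRingV A := e ▸ h'
  have e2 : (⟨cMup q M ℓ B' k' hB' hq (heckeAlphaBar Kbar (M * q * q) ℓ x), h'⟩ : gaussRingV A)
      = ⟨coeffMap (σ : Kbar →+* Kbar) (cM q M B k hB hq x), h''⟩ := Subtype.ext e
  rw [e2]
  exact Fermat.Agent.BAD.H91.gaussRedV_coeffMap
    (Fermat.Agent.BAD.H91.inertialOn_of_mem_inertia A hσ) h h''

include hB in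
/-- `β` maps `V₁₁ (N)` into `V₁₁ (N ℓ)`. -/
theorem beta_mem_V11 (x : FN (M * q * q)) (h : cM q M B k hB hq x ∈ gaussRingV A) :
    cMup q M ℓ B' k' hB' hq (heckeBetaBar Kbar (M * q * q) ℓ x) ∈ gaussRingV A := by
  rw [cMup_beta q M ℓ B k B' k' hB hB' hq x]
  exact Fermat.Agent.RED.H73.qExpand_mem_gaussRingV A ℓ h

include hB in
/-- The reduction at `V₁₁` of `β x`. -/
theorem red_beta (x : FN (M * q * q)) (h : cM q M B k hB hq x ∈ gaussRingV A)
    (h' : cMup q M ℓ B' k' hB' hq (heckeBetaBar Kbar (M * q * q) ℓ x) ∈ gaussRingV A) :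
    gaussRedV A ⟨cMup q M ℓ B' k' hB' hq (heckeBetaBar Kbar (M * q * q) ℓ x), h'⟩
      = qExpand (kV A) ℓ (gaussRedV A ⟨cM q M B k hB hq x, h⟩) := by
  have e := cMup_beta q M ℓ B k B' k' hB hB' hq x
  have h'' : qExpand Kbar ℓ (cM q M B k hB hq x) ∈ gaussRingV A := e ▸ h'
  have e2 : (⟨cMup q M ℓ B' k' hB' hq (heckeBetaBar Kbar (M * q * q) ℓ x), h'⟩ : gaussRingV A)
      = ⟨qExpand Kbar ℓ (cM q M B k hB hq x), h''⟩ := Subtype.ext e
  rw [e2]
  exact Fermat.Agent.RED.H73.gaussRedV_qExpand A ℓ ⟨_, h⟩ h''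

end Tower

end Fermat.Agent.S59.LL.SQ.H35
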