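import Fermat.Agent.S59.LL.SQ.H35_Scale20
import Fermat.Agent.S59.LL.SQ.H35_MidRed
import Fermat.Agent.S43.Old.H35_Eigen
attribute [local instance 10000] SubalgebraClass.toAlgebra
attribute [local instance 10000] HahnSeries.powerSeriesAlgebra

/-!
# S59 / LL / SQ, leaf OLD-RED at `q²` (helper35): HECKE-RED for the component `11`

Level `N = M q²`, `q ∤ M`, `A` over `q`, `ℓ ∤ N` a prime, `L₀ = L0 A N`.

* `NormRed11At` : **NORM-RED** for `V₁₁` on `L₀` (helper87):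
  `r₁₁ (N_α (β f)) = N_α~ (β~ (r₁₁ f))`;
* `eigRed11` : **HECKE-RED11**.  If `p D = div f` with `f ∈ L₀` a unit for `V₂₀` and `V₁₁`,
  `p D' = div (r₁₁ f)` on the reduced field of level `M` and `T_ℓ D - t D` is principal, then
  `T~_ℓ D' - t D'` is principal.

Proof: `N_α (β f) f ^ b = c f ^ a h ^ p` (`t = a - b`) with `h ∈ L₀` and `c` a constant fixed by
inertia (`root_L0`); scaling `h` by a power of `q` makes it a unit for `V₂₀` (`exact20`); then
`c` is a unit of `A` (NORM-VAL at `V₂₀`, helper33), hence `h` is a unit for `V₁₁`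
(NORM-RED at `V₁₁`, value groups are torsion-free); reduce by `r₁₁`.
-/

set_option autoImplicit false
set_option linter.style.haveILetI false
set_option linter.unusedSectionVars false
set_option synthInstance.maxHeartbeats 400000
set_option maxHeartbeats 1000000

noncomputable section

open AlgebraicCurve ModularCurve
open Fermat.Agent.S24 Fermat.Agent.BAD Fermat.Agent.BAD.H88
open Fermat.Agent.S28 Fermat.Agent.S28.H73 Fermat.Agent.RED.H73 Fermat.Agent.RED.H17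
open Fermat.Agent.S36.NU.H88 Fermat.Agent.S36.NU.H23 Fermat.Agent.S36.NU.H26
open Fermat.Agent.S43.Old.H35 Fermat.Agent.RED

namespace Fermat.Agent.S59.LL.SQ.H35

section EigRed

variable (A : ValuationSubring Kbar) (q M : ℕ) (B k : ℤ) (hB : B * M + k * q = 1) (hq : q.Prime)
  [NeZero M] [NeZero q] [NeZero (M * q * q)] (hqM : ¬ q ∣ M) (hA : A.LiesOverPrime q)

/-- **NORM-RED for `V₁₁`** on the inertia-fixed functions, at `ℓ`. -/
def NormRed11At (ℓ : ℕ) [NeZero ℓ] : Prop :=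
  ∀ (f : ↥(L0 A (M * q * q))) (h11 : f ∈ V11o A q M B k hB hq) (nf : ↥(L0 A (M * q * q))),
    (nf : FN (M * q * q))
      = Fermat.Agent.GTor.H2.heckeNormFn Kbar (M * q * q) ℓ (f : FN (M * q * q)) →
    ∃ hn : nf ∈ V11o A q M B k hB hq,
      r11 A q M B k hB hq hqM hA ⟨nf, hn⟩
        = normAlong (alphaT A M ℓ) (betaT A M ℓ (r11 A q M B k hB hq hqM hA ⟨f, h11⟩))

/-! ### Units -/

theorem val20_of_s20 (f : ↥(L0 A (M * q * q))) (h20 : f ∈ V20o A q M)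
    (hs : s20 A q M ⟨f, h20⟩ ≠ 0) :
    (V20 A (M * q * q)).valuation (f : FN (M * q * q)) = 1 := by
  have hu : IsUnit (⟨f, h20⟩ : ↥(V20o A q M)) := by
    by_contra hcon
    exact hs (s20_eq_zero_of_not_isUnit A q M _ hcon)
  exact (val_res_eq_one_iff (L0 A (M * q * q)) (V20 A (M * q * q)) f).1
    (val_one_of_isUnit (V20o A q M) ⟨f, h20⟩ hu)

theorem val11_of_s11 (f : ↥(L0 A (M * q * q))) (h11 : f ∈ V11o A q M B k hB hq)
    (hs : s11 A q M B k hB hq ⟨f, h11⟩ ≠ 0) :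
    (V11 A (M * q * q) q M B k (lvl q M) hB hq).valuation (f : FN (M * q * q)) = 1 := by
  have hu : IsUnit (⟨f, h11⟩ : ↥(V11o A q M B k hB hq)) := by
    by_contra hcon
    exact hs (s11_eq_zero_of_not_isUnit A q M B k hB hq _ hcon)
  exact (val_res_eq_one_iff (L0 A (M * q * q))
    (V11 A (M * q * q) q M B k (lvl q M) hB hq) f).1
    (val_one_of_isUnit (V11o A q M B k hB hq) ⟨f, h11⟩ hu)

theorem s11_ne_zero_of_r11 (x : ↥(V11o A q M B k hB hq))
    (h : r11 A q M B k hB hq hqM hA x ≠ 0) : s11 A q M B k hB hq x ≠ 0 := by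
  intro h0
  apply h
  apply Subtype.ext
  rw [coe_r11, h0]
  rfl

theorem r11_ne_zero_of_s11 (x : ↥(V11o A q M B k hB hq))
    (h : s11 A q M B k hB hq x ≠ 0) : r11 A q M B k hB hq hqM hA x ≠ 0 := by
  intro h0
  apply h
  rw [← coe_r11 A q M B k hB hq hqM hA, h0]
  rfl

theorem r11_ne_zero_of_val (y : ↥(L0 A (M * q * q)))
    (hv : (V11 A (M * q * q) q M B k (lvl q M) hB hq).valuation (y : FN (M * q * q)) = 1) :
    ∃ hm : y ∈ V11o A q M B k hB hq, r11 A q M B k hB hq hqM hA ⟨y, hm⟩ ≠ 0 := by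
  have hm : y ∈ V11o A q M B k hB hq :=
    val_one_mem (V11 A (M * q * q) q M B k (lvl q M) hB hq) hv
  have hv' : (V11o A q M B k hB hq).valuation y = 1 :=
    (val_res_eq_one_iff (L0 A (M * q * q)) (V11 A (M * q * q) q M B k (lvl q M) hB hq) y).2 hv
  have hu : IsUnit (⟨y, hm⟩ : ↥(V11o A q M B k hB hq)) :=
    val_one_isUnit (V11o A q M B k hB hq) hv' hm
  exact ⟨hm, (hu.map (r11 A q M B k hB hq hqM hA)).ne_zero⟩

/-- The reduction at `V₁₁` of a constant. -/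
theorem r11_const (c : Kbar) (hcA : c ∈ A)
    (hcL : algebraMap Kbar (FN (M * q * q)) c ∈ L0 A (M * q * q))
    (h11 : (⟨algebraMap Kbar (FN (M * q * q)) c, hcL⟩ : ↥(L0 A (M * q * q)))
      ∈ V11o A q M B k hB hq) :
    ∃ c' : kV A, r11 A q M B k hB hq hqM hA ⟨⟨algebraMap Kbar (FN (M * q * q)) c, hcL⟩, h11⟩
      = algebraMap (kV A) (FM A M) c' := by
  refine ⟨resV A ⟨c, hcA⟩, Subtype.ext ?_⟩
  rw [coe_r11]
  show ((red11 A (M * q * q) q M B k (lvl q M) hB hq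
    ⟨algebraMap Kbar (FN (M * q * q)) ((⟨c, hcA⟩ : ↥A) : Kbar), h11⟩ :
      F11 A (M * q * q) q M B k (lvl q M) hB hq) : LaurentSeries (kV A)) = _
  rw [red11_const A (M * q * q) q M B k (lvl q M) hB hq ⟨c, hcA⟩ h11]
  rfl

/-- The inclusion of `V₁₁ ∩ L₀` in `F_N`. -/
def iota11 : ↥(V11o A q M B k hB hq) →+* FN (M * q * q) :=
  (L0 A (M * q * q)).subtype.comp (V11o A q M B k hB hq).subtype

theorem iota11_mk (x : FN (M * q * q)) (hL : x ∈ L0 A (M * q * q))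
    (hV : (⟨x, hL⟩ : ↥(L0 A (M * q * q))) ∈ V11o A q M B k hB hq) :
    iota11 A q M B k hB hq ⟨⟨x, hL⟩, hV⟩ = x := rfl

theorem iota11_injective : Function.Injective (iota11 A q M B k hB hq) := fun _ _ h =>
  Subtype.ext (Subtype.ext h)

/-! ### HECKE-RED11 -/

include hqM hA in
/-- **HECKE-RED11.** -/
theorem eigRed11 (p : ℕ) (hp : p ≠ 0) (ℓ : ℕ) [NeZero ℓ] (hℓ : ℓ.Prime)
    (hℓN : ¬ ℓ ∣ M * q * q)
    (hnorm : NormRed11At A q M B k hB hq hqM hA ℓ)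
    (hα : HeckeAlphaBarIntegral Kbar (M * q * q) ℓ)
    (hβ : HeckeBetaBarIntegral Kbar (M * q * q) ℓ)
    [HasPrincipalDivisors Kbar ↥(modularFunctionFieldBar (M * q * q * ℓ))]
    (hα' : (alphaT A M ℓ).toRingHom.IsIntegral) (hβ' : (betaT A M ℓ).toRingHom.IsIntegral)
    [HasPrincipalDivisors (kV A) ↥(Ft A (M * ℓ))]
    (D : Divisor Kbar (FN (M * q * q))) (f : ↥(L0 A (M * q * q)))
    (h20 : f ∈ V20o A q M) (hs20 : s20 A q M ⟨f, h20⟩ ≠ 0)
    (h11 : f ∈ V11o A q M B k hB hq) (hs11 : s11 A q M B k hB hq ⟨f, h11⟩ ≠ 0)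
    (hD : ∀ P : Place Kbar (FN (M * q * q)), (p : ℤ) * D P = P.ord (f : FN (M * q * q)))
    (D' : Divisor (kV A) ↥(Ft A M))
    (hD' : ∀ Q : Place (kV A) ↥(Ft A M),
      (p : ℤ) * D' Q = Q.ord (r11 A q M B k hB hq hqM hA ⟨f, h11⟩))
    (t : ℤ) (heig : Divisor.IsPrincipal (heckeDivBar hα hβ D - t • D)) :
    Divisor.IsPrincipal (K := kV A) (F := ↥(Ft A M))
      (Divisor.correspondence (betaT A M ℓ) (alphaT A M ℓ) hβ' hα' D' - t • D') := by
  classical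
  have hℓq : ℓ ≠ q := fun h => hℓN (h ▸ dvd_mul_left ℓ (M * q))
  have hqMℓ : ¬ q ∣ M * ℓ := by
    intro h
    rcases (Nat.Prime.dvd_mul hq).1 h with h1 | h1
    · exact hqM h1
    · exact hℓq ((Nat.prime_dvd_prime_iff_eq hq hℓ).1 h1).symm
  obtain ⟨-, -, -, hfin, -, hNF⟩ := RED.H51.stmt_HKA (M * q * q) ℓ
  have TI := towerInputs (A := A) (M := M) (ℓ := ℓ) hq hA hqMℓ
  -- the units `f`
  have hv20f := val20_of_s20 A q M f h20 hs20
  have hv11f := val11_of_s11 A q M B k hB hq f h11 hs11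
  have hf0 : (f : FN (M * q * q)) ≠ 0 := val_one_ne_zero _ hv20f
  have hg0 : r11 A q M B k hB hq hqM hA ⟨f, h11⟩ ≠ 0 :=
    r11_ne_zero_of_s11 A q M B k hB hq hqM hA _ hs11
  -- the norm
  obtain ⟨nfF, hnfF⟩ : ∃ nfF : FN (M * q * q), nfF
      = Fermat.Agent.GTor.H2.heckeNormFn Kbar (M * q * q) ℓ (f : FN (M * q * q)) := ⟨_, rfl⟩
  have hnfF' : nfF = normAlong (heckeAlphaBar Kbar (M * q * q) ℓ)
      (heckeBetaBar Kbar (M * q * q) ℓ (f : FN (M * q * q))) := hnfF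
  have hnfL : nfF ∈ L0 A (M * q * q) := by
    rw [hnfF']
    exact norm_mem_L0 A (heckeAlphaBar Kbar (M * q * q) ℓ)
      (arithEquivariant_alpha (M * q * q) ℓ) hfin _
      (map_mem_L0 A (heckeBetaBar Kbar (M * q * q) ℓ) (arithEquivariant_beta (M * q * q) ℓ) _ f.2)
  have hv20nf : (V20 A (M * q * q)).valuation nfF = 1 := by
    rw [hnfF]
    exact (isVU_iff_val _ _).1 (H33.nv20 q M hq hqM ℓ hℓ hℓN A hA (f : FN (M * q * q))
      ((isVU_iff_val _ _).2 hv20f))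
  obtain ⟨hn11, hnred⟩ := hnorm f h11 ⟨nfF, hnfL⟩ hnfF
  have hβg : betaT A M ℓ (r11 A q M B k hB hq hqM hA ⟨f, h11⟩) ≠ 0 := by
    intro h0
    exact hg0 ((betaT A M ℓ).toRingHom.injective (by simpa using h0))
  have hnred0 : r11 A q M B k hB hq hqM hA ⟨⟨nfF, hnfL⟩, hn11⟩ ≠ 0 := by
    rw [hnred]
    exact normAlong_ne_zero (alphaT A M ℓ) TI.hfin hβg
  have hv11nf : (V11 A (M * q * q) q M B k (lvl q M) hB hq).valuation nfF = 1 :=
    val11_of_s11 A q M B k hB hq ⟨nfF, hnfL⟩ hn11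
      (s11_ne_zero_of_r11 A q M B k hB hq hqM hA _ hnred0)
  have hnf0 : nfF ≠ 0 := val_one_ne_zero _ hv20nf
  have hordnf : ∀ P : Place Kbar (FN (M * q * q)), P.ord nfF
      = (p : ℤ) * Divisor.correspondence (heckeBetaBar Kbar (M * q * q) ℓ)
        (heckeAlphaBar Kbar (M * q * q) ℓ) hβ hα D P := fun P => by
    rw [hnfF']
    exact (corr_ord (heckeBetaBar Kbar (M * q * q) ℓ) (heckeAlphaBar Kbar (M * q * q) ℓ) hβ hα
      hfin hNF (p : ℤ) D hf0 hD P).symm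
  -- the eigen-equation
  obtain ⟨h, hh0, hh⟩ := heig
  obtain ⟨a, b, hab⟩ : ∃ a b : ℕ, t = (a : ℤ) - (b : ℤ) :=
    ⟨t.toNat, (-t).toNat, by omega⟩
  have hfa0 : (f : FN (M * q * q)) ^ a ≠ 0 := pow_ne_zero _ hf0
  have hfb0 : (f : FN (M * q * q)) ^ b ≠ 0 := pow_ne_zero _ hf0
  obtain ⟨G, hG⟩ : ∃ G : FN (M * q * q), G
      = nfF * (f : FN (M * q * q)) ^ b * ((f : FN (M * q * q)) ^ a)⁻¹ := ⟨_, rfl⟩
  have hG0 : G ≠ 0 := by
    rw [hG]
    exact mul_ne_zero (mul_ne_zero hnf0 hfb0) (inv_ne_zero hfa0)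
  have hGL : G ∈ L0 A (M * q * q) := by
    rw [hG]
    exact (L0 A (M * q * q)).mul_mem ((L0 A (M * q * q)).mul_mem hnfL
      ((L0 A (M * q * q)).pow_mem f.2 b)) ((L0 A (M * q * q)).inv_mem
      ((L0 A (M * q * q)).pow_mem f.2 a))
  have hordG : ∀ P : Place Kbar (FN (M * q * q)), P.ord G = (p : ℤ) * P.ord h := by
    intro P
    have h1 : P.ord h = Divisor.correspondence (heckeBetaBar Kbar (M * q * q) ℓ)
        (heckeAlphaBar Kbar (M * q * q) ℓ) hβ hα D P - t * D P := by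
      rw [← hh P, Finsupp.sub_apply, Finsupp.smul_apply, smul_eq_mul]
      rfl
    rw [hG, P.ord_mul (mul_ne_zero hnf0 hfb0) (inv_ne_zero hfa0), P.ord_mul hnf0 hfb0,
      P.ord_inv, ord_pow, ord_pow, hordnf P, h1, ← hD P, hab]
    ring
  obtain ⟨c0, h₀, hc0, hc0fix, hh₀0, hh₀L, -, hGeq⟩ := root_L0 A p hp G hG0 hGL h hh0 hordG
  -- the scaling at `V₂₀`
  obtain ⟨j, y, hyL, hv20y, hh₀y⟩ := exists_scale20_L0 A q M B k hB hq hqM hA h₀ hh₀0 hh₀L
  obtain ⟨c1, hc1⟩ : ∃ c1 : Kbar, c1 = c0 * (((q : ℕ) : Kbar) ^ j) ^ p := ⟨_, rfl⟩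
  have hGeq' : G = algebraMap Kbar (FN (M * q * q)) c1 * y ^ p := by
    rw [hGeq, hh₀y, mul_pow, hc1, map_mul, map_pow]
    ring
  have hv20G : (V20 A (M * q * q)).valuation G = 1 := by
    rw [hG, map_mul, map_mul, map_inv₀, map_pow, map_pow, hv20nf, hv20f, one_pow, one_pow,
      inv_one, mul_one, mul_one]
  have hv20c : (V20 A (M * q * q)).valuation (algebraMap Kbar (FN (M * q * q)) c1) = 1 := by
    have h1 := hv20G
    rw [hGeq', map_mul, map_pow, hv20y, one_pow, mul_one] at h1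
    exact h1
  obtain ⟨hcA, hcA'⟩ := const_unit_of_val20 A q M c1 hv20c
  have hc10 : c1 ≠ 0 := by
    intro h0
    have h1 := val_one_ne_zero _ hv20c
    rw [h0, map_zero] at h1
    exact h1 rfl
  have hv11c := val11_const A q M B k hB hq c1 hc10 hcA hcA'
  have hv11G : (V11 A (M * q * q) q M B k (lvl q M) hB hq).valuation G = 1 := by
    rw [hG, map_mul, map_mul, map_inv₀, map_pow, map_pow, hv11nf, hv11f, one_pow, one_pow,
      inv_one, mul_one, mul_one]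
  have hv11y : (V11 A (M * q * q) q M B k (lvl q M) hB hq).valuation y = 1 := by
    apply val_eq_one_of_pow _ y p hp
    have h1 := hv11G
    rw [hGeq', map_mul, map_pow, hv11c, one_mul] at h1
    exact h1
  obtain ⟨hy11, hyred⟩ := r11_ne_zero_of_val A q M B k hB hq hqM hA ⟨y, hyL⟩ hv11y
  -- the constant
  have hc1fix : ∀ σ ∈ A.inertiaSubgroupIn ℚ, σ c1 = c1 := by
    intro σ hσ
    rw [hc1, map_mul, map_pow, map_zpow₀, map_natCast, hc0fix σ hσ]
  have hcL : algebraMap Kbar (FN (M * q * q)) c1 ∈ L0 A (M * q * q) :=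
    (const_mem_L0_iff A c1).2 hc1fix
  have hc11 : (⟨algebraMap Kbar (FN (M * q * q)) c1, hcL⟩ : ↥(L0 A (M * q * q)))
      ∈ V11o A q M B k hB hq :=
    val_one_mem (V11 A (M * q * q) q M B k (lvl q M) hB hq) hv11c
  obtain ⟨c', hc'⟩ := r11_const A q M B k hB hq hqM hA c1 hcA hcL hc11
  -- the relation in `V₁₁ ∩ L₀`
  have hrelV : (⟨⟨nfF, hnfL⟩, hn11⟩ : ↥(V11o A q M B k hB hq)) * ⟨f, h11⟩ ^ b
      = ⟨⟨algebraMap Kbar (FN (M * q * q)) c1, hcL⟩, hc11⟩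
        * (⟨f, h11⟩ ^ a * ⟨⟨y, hyL⟩, hy11⟩ ^ p) := by
    apply iota11_injective A q M B k hB hq
    rw [map_mul, map_pow, map_mul, map_mul, map_pow, map_pow, iota11_mk, iota11_mk, iota11_mk]
    show nfF * (f : FN (M * q * q)) ^ b
      = algebraMap Kbar (FN (M * q * q)) c1 * ((f : FN (M * q * q)) ^ a * y ^ p)
    have h1 : nfF * (f : FN (M * q * q)) ^ b = G * (f : FN (M * q * q)) ^ a := by
      rw [hG, inv_mul_cancel_right₀ hfa0]
    rw [h1, hGeq']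
    ring
  have hrel := congrArg (r11 A q M B k hB hq hqM hA) hrelV
  rw [map_mul, map_pow, map_mul, map_mul, map_pow, map_pow, hnred, hc'] at hrel
  have hc'0 : c' ≠ 0 := by
    rintro rfl
    rw [map_zero, zero_mul] at hrel
    exact mul_ne_zero (normAlong_ne_zero (alphaT A M ℓ) TI.hfin hβg) (pow_ne_zero _ hg0) hrel
  rw [hab]
  exact eig_of_rel (alphaT A M ℓ) (betaT A M ℓ) hα' hβ' TI.hfin TI.hNF p hp a b D'
    (r11 A q M B k hB hq hqM hA ⟨f, h11⟩) hg0 hD' c' hc'0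
    (r11 A q M B k hB hq hqM hA ⟨⟨y, hyL⟩, hy11⟩) hyred hrel

end EigRed

end Fermat.Agent.S59.LL.SQ.H35
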