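import Fermat.Agent.S59.LL.SQ.H35_RDefs
import Fermat.Agent.S59.LL.SQ.H35_EigRed11
import Fermat.Agent.S59.LL.SQ.H87_NV11
import Fermat.Agent.S43.Old.H35_OldRed
attribute [local instance 10000] SubalgebraClass.toAlgebra
attribute [local instance 10000] HahnSeries.powerSeriesAlgebra

/-!
# S59 / LL / SQ, leaf (R) OLD-RED at `q²` (helper35): the assembly

Level `N = M q²`, `q ∤ M`, `A` over `q`.

* `normRed11At` : NORM-RED for `V₁₁` (helper87's `hnorm11`) in the form `NormRed11At`;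
* `oldRedSqAt_of` : `Reg11At p → CPow2002At p → SQ.OldRedSqAt A q M B k hB hq p`;
* `stmt_OldRedSq_of` : the same for all levels.

Proof of `oldRedSqAt_of`: `x = [D]`, `p D = div h`, `h ∈ L₀` a unit for the three valuations.
`g = r₁₁ h`, `p D' = div g` (REG).  If `D'` is principal then `s₁₁ h` is a constant times a
`p`-th power, and with B2 at `20`, `02` the point `x` is in the toric part.  Otherwise lift `D'`
to a divisor `D_z` of degree `0` of level `M` (LIFT-PT); `r_* T_ℓ = T~_ℓ r_*` (`hr_div`) and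
HECKE-RED11 (`eigRed11`) give `red (T_ℓ z) = t_ℓ red z`.
-/

set_option autoImplicit false
set_option linter.style.haveILetI false
set_option linter.unusedSectionVars false
set_option linter.unusedVariables false
set_option synthInstance.maxHeartbeats 400000
set_option maxHeartbeats 1600000

noncomputable section

open AlgebraicCurve ModularCurve
open Fermat.Agent.S24 Fermat.Agent.BAD Fermat.Agent.BAD.H88
open Fermat.Agent.S28 Fermat.Agent.S28.H73 Fermat.Agent.RED.H73 Fermat.Agent.RED.H17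
open Fermat.Agent.S36.NU.H88 Fermat.Agent.S36.NU.H23 Fermat.Agent.S36.NU.H26
open Fermat.Agent.S43.Old.H35 Fermat.Agent.RED Fermat.Agent.S43.BadQ
open Fermat.Agent.S44 Fermat.Agent.S35.H89

namespace Fermat.Agent.S59.LL.SQ.H35

section Asm

variable (A : ValuationSubring Kbar) (q M : ℕ) (B k : ℤ) (hB : B * M + k * q = 1) (hq : q.Prime)
  [NeZero M] [NeZero q] [NeZero (M * q)] [NeZero (M * q * q)]
  (hqM : ¬ q ∣ M) (hA : A.LiesOverPrime q)

/-- **NORM-RED for `V₁₁`** (helper87). -/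
theorem normRed11At (ℓ : ℕ) [NeZero ℓ] (hℓ : ℓ.Prime) (hℓN : ¬ ℓ ∣ M * q * q) :
    NormRed11At A q M B k hB hq hqM hA ℓ := by
  intro f h11 nf hnf
  haveI : NeZero (M * q * q * ℓ) := ⟨Nat.mul_ne_zero (NeZero.ne (M * q * q)) (NeZero.ne ℓ)⟩
  haveI : NeZero (M * ℓ) := ⟨Nat.mul_ne_zero (NeZero.ne M) (NeZero.ne ℓ)⟩
  obtain ⟨h, e⟩ := H87.hnorm11 A q M ℓ B k hB hq hℓ hqM hℓN hA ⟨f, h11⟩
  have hnf' : nf = H87.heckeL0 A (M * q * q) ℓ f :=
    Subtype.ext (hnf.trans (H87.coe_heckeL0 A (M * q * q) ℓ f).symm)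
  subst hnf'
  exact ⟨h, e⟩

include hqM hA in
/-- **(R) OLD-RED at `q²`** from REG and B2. -/
theorem oldRedSqAt_of (p : ℕ) (hp : p.Prime)
    (hreg : Reg11At A q M B k hB hq hqM hA p) (hcp : CPow2002At A q M B k hB hq p) :
    SQ.OldRedSqAt A q M B k hB hq p := by
  intro r hr hmove S t x hpx hnew hI hG3 hT3 hT
  haveI : IsAlgClosed (kV A) := isAlgClosed_kV A
  -- function field facts
  have hFFM := H95.stmt_HKA_isFF M
  have hFt := isFF_redField_bar M q hq hqM A hA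
  have HM := H17.ffHyp_of_isFF _ _ hFFM
  have Ht := H17.ffHyp_of_isFF _ _ hFt
  have hpZ : (p : ℤ) ≠ 0 := by exact_mod_cast hp.ne_zero
  -- the data of the finite part
  obtain ⟨h, hKum, hU3⟩ := hG3
  obtain ⟨D, hxD, hD⟩ := hKum
  have hU3' := hU3
  obtain ⟨⟨h20, hs20⟩, ⟨h11, hs11⟩, -⟩ := hU3'
  have hg0 : r11 A q M B k hB hq hqM hA ⟨h, h11⟩ ≠ 0 :=
    r11_ne_zero_of_s11 A q M B k hB hq hqM hA _ hs11
  have hdvdM : ∀ Q : Place (kV A) ↥(Ft A M),
      (p : ℤ) ∣ Q.ord (r11 A q M B k hB hq hqM hA ⟨h, h11⟩) :=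
    fun Q => hreg h (D : Divisor Kbar (FN (M * q * q))) hD hU3 h11 Q
  -- the divisor `D' = div (r₁₁ h) / p`
  obtain ⟨Dg, hDg, hDg0⟩ := Ht.principal.exists_divisor
    (r11 A q M B k hB hq hqM hA ⟨h, h11⟩) hg0
  obtain ⟨D', hD'⟩ := Fermat.Agent.S43.Old.exists_divisor_div p hp.ne_zero Dg
    (fun Q => by rw [hDg Q]; exact hdvdM Q)
  have hD'g : ∀ Q : Place (kV A) ↥(Ft A M),
      (p : ℤ) * D' Q = Q.ord (r11 A q M B k hB hq hqM hA ⟨h, h11⟩) := fun Q => by
    rw [hD' Q, hDg Q]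
  have hpD' : (p : ℤ) • D' = Dg := by
    ext Q
    rw [Finsupp.smul_apply, smul_eq_mul, hD' Q]
  have hD'deg : Divisor.degree D' = 0 := by
    have h2 : (p : ℤ) • Divisor.degree D' = 0 := by rw [← map_zsmul, hpD', hDg0]
    rcases smul_eq_zero.mp h2 with h | h
    · exact absurd h hpZ
    · exact h
  have hDgp : Dg ∈ Divisor.principal (K := kV A) (F := ↥(Ft A M)) :=
    ⟨r11 A q M B k hB hq hqM hA ⟨h, h11⟩, hg0, hDg⟩
  -- NONZERO
  have hD'np : D' ∉ Divisor.principal (K := kV A) (F := ↥(Ft A M)) := by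
    rintro ⟨g', hg'0, hg'⟩
    apply hT3
    obtain ⟨⟨h20', c20, g20, hc20, hg20, e20⟩, ⟨h02', c02, g02, hc02, hg02, e02⟩⟩ :=
      hcp x h hpx hnew hI ⟨D, hxD, hD⟩ hU3
    -- `r₁₁ h = c g' ^ p`
    have hgp0 : g' ^ p ≠ 0 := pow_ne_zero p hg'0
    have hu : ∀ Q : Place (kV A) ↥(Ft A M),
        Q.ord (r11 A q M B k hB hq hqM hA ⟨h, h11⟩ * (g' ^ p)⁻¹) = 0 := by
      intro Q
      rw [Q.ord_mul hg0 (inv_ne_zero hgp0), Q.ord_inv, ord_pow, ← hD'g Q, hg' Q]
      ring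
    obtain ⟨c, hc⟩ := H36.const_of_ord_eq_zero hFt _ (mul_ne_zero hg0 (inv_ne_zero hgp0)) hu
    have hc0 : c ≠ 0 := by
      rintro rfl
      rw [map_zero] at hc
      exact mul_ne_zero hg0 (inv_ne_zero hgp0) hc
    have hrel : r11 A q M B k hB hq hqM hA ⟨h, h11⟩ = algebraMap (kV A) ↥(Ft A M) c * g' ^ p := by
      rw [← hc, inv_mul_cancel_right₀ hgp0]
    obtain ⟨G', hG'⟩ := r11_surjective A q M B k hB hq hqM hA g'
    refine ⟨h, ⟨D, hxD, hD⟩, ⟨h20', c20, g20, hc20, hg20, e20⟩, ⟨h11, c, G', hc0, ?_, ?_⟩,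
      ⟨h02', c02, g02, hc02, hg02, e02⟩⟩
    · apply s11_ne_zero_of_r11 A q M B k hB hq hqM hA
      rw [hG']
      exact hg'0
    · have h1 := congrArg (fun z : ↥(Ft A M) => (z : LaurentSeries (kV A))) hrel
      rw [← hG'] at h1
      exact h1
  -- LIFT-PT
  obtain ⟨Dz, hDz⟩ := Fermat.Agent.S43.Old.H75.exists_degZero_mapDomain_eq A
    (hasScale_laurentBaseChange A M) hr HM.principal HM.deg_one Ht.deg_one D' hD'deg
  refine ⟨Pic0.mk Dz, ?_, ?_, ?_⟩
  · rw [H36.redPic_mk, hDz]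
    intro h0
    exact hD'np ((QuotientAddGroup.eq_zero_iff _).mp h0)
  · rw [H36.redPic_mk, hDz]
    have h1 : (p : ℤ) • (QuotientAddGroup.mk D' : Pic (kV A) ↥(redField A
        (modularFunctionFieldBar M) (hasScale_laurentBaseChange A M)))
        = QuotientAddGroup.mk ((p : ℤ) • D') := rfl
    rw [h1, hpD']
    exact (QuotientAddGroup.eq_zero_iff _).mpr hDgp
  · intro ℓ hℓS hℓN hℓp
    haveI : NeZero (ℓ : ℕ) := ⟨ℓ.2.ne_zero⟩
    have hℓq : (ℓ : ℕ) ≠ q := fun h => hℓN (h ▸ dvd_mul_left (ℓ : ℕ) (M * q))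
    have hqMℓ : ¬ q ∣ M * (ℓ : ℕ) := by
      intro h
      rcases (Nat.Prime.dvd_mul hq).1 h with h1 | h1
      · exact hqM h1
      · exact hℓq ((Nat.prime_dvd_prime_iff_eq hq ℓ.2).1 h1).symm
    have TI := towerInputs (A := A) (M := M) (ℓ := (ℓ : ℕ)) hq hA hqMℓ
    haveI := TI.hP
    obtain ⟨hαN, hβN, hPN, hfinN, hFIN, hNFN⟩ := H51.stmt_HKA (M * q * q) (ℓ : ℕ)
    obtain ⟨hαM, hβM, hPM, hfinM, hFIM, hNFM⟩ := H51.stmt_HKA M (ℓ : ℕ)
    -- the eigen-equation at level `N`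
    have heig : Divisor.IsPrincipal (heckeDivBar hαN hβN
        (D : Divisor (AlgebraicClosure ℚ) ↥(FNbar (M * q * q)))
        - t ℓ • (D : Divisor (AlgebraicClosure ℚ) ↥(FNbar (M * q * q)))) := by
      have h1 := hT ℓ hℓS hℓN hℓp
      rw [hxD, heckeOperatorBar_apply, heckeOperatorAlong_eq hαN hβN hFIN hfinN hNFN] at h1
      have hmk : heckePic0Bar hαN hβN hFIN hfinN hNFN (Pic0.mk D)
          = Pic0.mk (Pic0.degZeroCorrespondence
              (heckeBetaBar (AlgebraicClosure ℚ) (M * q * q) (ℓ : ℕ))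
              (heckeAlphaBar (AlgebraicClosure ℚ) (M * q * q) (ℓ : ℕ)) hβN hαN hFIN D) := rfl
      have h2 : t (ℓ : ℕ) • Pic0.mk D = Pic0.mk (t (ℓ : ℕ) • D) := rfl
      rw [hmk, h2] at h1
      have h3 := (QuotientAddGroup.eq (s := (Divisor.principal (K := AlgebraicClosure ℚ)
        (F := ↥(FNbar (M * q * q)))).addSubgroupOf
        (Divisor.degZero (K := AlgebraicClosure ℚ) (F := ↥(FNbar (M * q * q)))))).mp h1.symm
      rw [AddSubgroup.mem_addSubgroupOf] at h3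
      have h4 : (heckeDivBar hαN hβN (D : Divisor (AlgebraicClosure ℚ) ↥(FNbar (M * q * q)))
          - t ℓ • (D : Divisor (AlgebraicClosure ℚ) ↥(FNbar (M * q * q))))
          = -(t ℓ • (D : Divisor (AlgebraicClosure ℚ) ↥(FNbar (M * q * q))))
            + heckeDivBar hαN hβN (D : Divisor (AlgebraicClosure ℚ) ↥(FNbar (M * q * q))) := by
        abel
      rw [h4]
      exact h3
    have hcD' : Divisor.IsPrincipal (K := kV A) (F := ↥(Ft A M))
        (Divisor.correspondence (betaT A M (ℓ : ℕ)) (alphaT A M (ℓ : ℕ)) TI.hβ TI.hα D'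
          - t ℓ • D') :=
      eigRed11 A q M B k hB hq hqM hA p hp.ne_zero (ℓ : ℕ) ℓ.2 hℓN
        (normRed11At A q M B k hB hq hqM hA (ℓ : ℕ) ℓ.2 hℓN) hαN hβN TI.hα TI.hβ
        (D : Divisor Kbar (FN (M * q * q))) h h20 hs20 h11 hs11 hD D' hD'g (t ℓ) heig
    have hbDz := hr_div A q M (ℓ : ℕ) hq ℓ.2 hℓq hqM hA hαM hβM TI.hα TI.hβ r hr hmove
      (Dz : Divisor (AlgebraicClosure ℚ) ↥(modularFunctionFieldBar M))
    rw [hDz] at hbDz
    -- conclusion
    rw [heckeOperatorBar_apply, heckeOperatorAlong_eq hαM hβM hFIM hfinM hNFM]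
    have hmkM : heckePic0Bar hαM hβM hFIM hfinM hNFM (Pic0.mk Dz)
        = Pic0.mk (Pic0.degZeroCorrespondence (heckeBetaBar (AlgebraicClosure ℚ) M (ℓ : ℕ))
            (heckeAlphaBar (AlgebraicClosure ℚ) M (ℓ : ℕ)) hβM hαM hFIM Dz) := rfl
    rw [hmkM, H36.redPic_mk, H36.redPic_mk, hDz]
    have h5 : t (ℓ : ℕ) • (QuotientAddGroup.mk D' : Pic (kV A) ↥(redField A
        (modularFunctionFieldBar M) (hasScale_laurentBaseChange A M)))
        = QuotientAddGroup.mk (t (ℓ : ℕ) • D') := rfl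
    rw [h5]
    refine (QuotientAddGroup.eq (s := Divisor.principal (K := kV A)
      (F := ↥(redField A (modularFunctionFieldBar M) (hasScale_laurentBaseChange A M))))).mpr ?_
    have h6 := (Divisor.principal (K := kV A) (F := ↥(redField A (modularFunctionFieldBar M)
      (hasScale_laurentBaseChange A M)))).neg_mem hcD'
    convert h6 using 1
    show -(Finsupp.mapDomain r (heckeDivBar hαM hβM (Dz : Divisor (AlgebraicClosure ℚ)
      ↥(modularFunctionFieldBar M)))) + t (ℓ : ℕ) • D' = _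
    rw [hbDz]
    abel

end Asm

/-- **(R) at all levels**, from REG and B2 at all levels. -/
theorem stmt_OldRedSq_of
    (hreg : ∀ (p : ℕ), p.Prime → p ≠ 2 → ∀ (q M : ℕ) (B k : ℤ) (hB : B * M + k * q = 1)
      (hq : q.Prime) [NeZero M] [NeZero q] [NeZero (M * q)] [NeZero (M * q * q)], q ≠ p →
      ∀ (hqM : ¬ q ∣ M) (A : ValuationSubring Kbar) (hA : A.LiesOverPrime q),
        Reg11At A q M B k hB hq hqM hA p)
    (hcp : ∀ (p : ℕ), p.Prime → p ≠ 2 → ∀ (q M : ℕ) (B k : ℤ) (hB : B * M + k * q = 1)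
      (hq : q.Prime) [NeZero M] [NeZero q] [NeZero (M * q)] [NeZero (M * q * q)], q ≠ p →
      ¬ q ∣ M → ∀ (A : ValuationSubring Kbar), A.LiesOverPrime q →
        CPow2002At A q M B k hB hq p) :
    SQ.Stmt_OldRedSq := by
  intro p hp hp2 q M B k hB hq _ _ _ _ hqp hqM A hA
  exact oldRedSqAt_of A q M B k hB hq hqM hA p hp
    (hreg p hp hp2 q M B k hB hq hqp hqM A hA) (hcp p hp hp2 q M B k hB hq hqp hqM A hA)

end Fermat.Agent.S59.LL.SQ.H35
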