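import Fermat.Agent.S59.LL.SQ.Defs
import Fermat.Agent.S59.LL.SQ.H33_CompEisFinal
import Fermat.Agent.S59.LL.SQ.H35_OldRedSq
import Fermat.Agent.S59.LL.H40_LLec0
import Fermat.Agent.RED.HR.H78_HRMain
import Fermat.Agent.S36.NU.H10_Tame

/-!
# S59, package LL / SQ (helper58): the package SQ at the TAME levels

The chart geometry of NU-B at the level `M q²` exists at the tame levels only
(`S36.NU.H81.TameNU (M * q) q`: `q` odd and `4 ∣ M`, or `q = 2` and `9 ∣ M`); the wiring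
`LL.H40.llec0_at` of helper40 needs the package SQ at the levels `M q²`, `q` odd, `4 ∣ M`
(`LL.H40.SqNewTameAt`), and at `q = 2` (`LL.H40.SqNewTwoAt`, from the levels `q = 2`, `9 ∣ M` by
the leaves UP for `p ≥ 5`, from SQ23 for `p = 3`).  The trichotomy at one level is
`SQ.hasSqNewPartAt_of`.

* `Stmt_Reg11Tame`      : REG for the component `11` at the tame levels (helper16);
* `Stmt_CPow2002Tame`   : B2 for the components `20`, `02` at the tame levels (helper87);
* `Stmt_TorSpanSqTame`  : **(T′)** at the tame levels;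
* `hasSqNewPartAt_tame` : the package SQ at one tame level `M q²`;
* `sqNewTameAt_of : Stmt_Reg11Tame → Stmt_CPow2002Tame → Stmt_TorSpanSqTame →
    ∀ p, p.Prime → p ≠ 2 → LL.H40.SqNewTameAt p`
  (with (E) of helper33, (R) of helper35 and `HRcore` of helper78 plugged);
* `sqNewTwoTame_of`     : the same at `q = 2`, `9 ∣ M` (the input of the leaves UP).
-/

set_option autoImplicit false
set_option synthInstance.maxHeartbeats 400000
set_option maxHeartbeats 1000000
set_option linter.unusedSectionVars false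
set_option linter.unusedVariables false
set_option linter.style.haveILetI false

noncomputable section

open ModularCurve AlgebraicCurve
open Fermat.Agent.S24 Fermat.Agent.S28 Fermat.Agent.S28.H73 Fermat.Agent.RED.H73
open Fermat.Agent.RED Fermat.Agent.S36.NU.H23 Fermat.Agent.S44 Fermat.Agent.S35.H89
open Fermat.Agent.S36.NU.H81

namespace Fermat.Agent.S59.LL.SQ.H58

/-- **REG for the component `11` at the tame levels** `M q²`. -/
def Stmt_Reg11Tame : Prop :=
  ∀ (p : ℕ), p.Prime → p ≠ 2 → ∀ (q M : ℕ) (B k : ℤ) (hB : B * M + k * q = 1) (hq : q.Prime)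
    [NeZero M] [NeZero q] [NeZero (M * q)] [NeZero (M * q * q)], q ≠ p → TameNU (M * q) q →
    ∀ (hqM : ¬ q ∣ M) (A : ValuationSubring Kbar) (hA : A.LiesOverPrime q),
      H35.Reg11At A q M B k hB hq hqM hA p

/-- **B2 for the components `20` and `02` at the tame levels.** -/
def Stmt_CPow2002Tame : Prop :=
  ∀ (p : ℕ), p.Prime → p ≠ 2 → ∀ (q M : ℕ) (B k : ℤ) (hB : B * M + k * q = 1) (hq : q.Prime)
    [NeZero M] [NeZero q] [NeZero (M * q)] [NeZero (M * q * q)], q ≠ p → TameNU (M * q) q →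
    ¬ q ∣ M → ∀ (A : ValuationSubring Kbar), A.LiesOverPrime q →
      H35.CPow2002At A q M B k hB hq p

/-- **(T′) at the tame levels.** -/
def Stmt_TorSpanSqTame : Prop :=
  ∀ (p : ℕ), p.Prime → p ≠ 2 → ∀ (q M : ℕ) (B k : ℤ) (hB : B * M + k * q = 1) (hq : q.Prime)
    [NeZero M] [NeZero q] [NeZero (M * q)] [NeZero (M * q * q)], q ≠ p → TameNU (M * q) q →
    ¬ q ∣ M → ∀ A : ValuationSubring Kbar, A.LiesOverPrime q → TorSpanSqAt A q M B k hB hq p

/-- **The package SQ at one tame level** `M q²`, from REG, B2 and (T′) at the tame levels. -/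
theorem hasSqNewPartAt_tame (hreg : Stmt_Reg11Tame) (hcp : Stmt_CPow2002Tame)
    (hT : Stmt_TorSpanSqTame) (p : ℕ) (hp : p.Prime) (hp2 : p ≠ 2) (q M : ℕ)
    [NeZero M] [NeZero q] [NeZero (M * q)] (hq : q.Prime) (hqp : q ≠ p) (hqM : ¬ q ∣ M)
    (ht : TameNU (M * q) q) (A : ValuationSubring Kbar) (hA : A.LiesOverPrime q) :
    H40.HasSqNewPartAt p (M * q) q A := by
  haveI : NeZero (M * q * q) :=
    ⟨mul_ne_zero (mul_ne_zero (NeZero.ne M) hq.ne_zero) hq.ne_zero⟩
  have hcop : IsCoprime (M : ℤ) (q : ℤ) :=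
    Nat.isCoprime_iff_coprime.2 ((Nat.Prime.coprime_iff_not_dvd hq).2 hqM).symm
  obtain ⟨B, k, hB⟩ := hcop
  exact hasSqNewPartAt_of Fermat.Agent.RED.H78.stmt_HRcore p hp q M B k hB hq hqM A hA
    (H33.stmt_CompEisSq p hp hp2 q M B k hB hq hqp hqM A hA)
    (H35.oldRedSqAt_of A q M B k hB hq hqM hA p hp
      (hreg p hp hp2 q M B k hB hq hqp ht hqM A hA)
      (hcp p hp hp2 q M B k hB hq hqp ht hqM A hA))
    (torSqAt_of_span A q M B k hB hq hp (hT p hp hp2 q M B k hB hq hqp ht hqM A hA))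

/-- **The package SQ at the tame levels with `q` odd** (`LL.H40.SqNewTameAt`). -/
theorem sqNewTameAt_of (hreg : Stmt_Reg11Tame) (hcp : Stmt_CPow2002Tame)
    (hT : Stmt_TorSpanSqTame) (p : ℕ) (hp : p.Prime) (hp2 : p ≠ 2) :
    Fermat.Agent.S59.LL.H40.SqNewTameAt p := by
  intro M q _ _ hq hqp hq2 hqM hq2M h4 A hA
  obtain ⟨M', rfl⟩ : ∃ M', M = M' * q := ⟨M / q, (Nat.div_mul_cancel hqM).symm⟩
  have hqM' : ¬ q ∣ M' := by
    rintro ⟨c, rfl⟩
    exact hq2M ⟨c, by ring⟩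
  have hM'0 : M' ≠ 0 := by
    rintro rfl
    exact hqM' (dvd_zero q)
  haveI : NeZero M' := ⟨hM'0⟩
  exact hasSqNewPartAt_tame hreg hcp hT p hp hp2 q M' hq hqp hqM' (Or.inl ⟨hq2, h4⟩) A hA

/-- **The package SQ at the tame levels with `q = 2`**: the levels `4 M`, `M` odd, `9 ∣ M`. -/
theorem sqNewTwoTame_of (hreg : Stmt_Reg11Tame) (hcp : Stmt_CPow2002Tame)
    (hT : Stmt_TorSpanSqTame) (p : ℕ) (hp : p.Prime) (hp2 : p ≠ 2) (M : ℕ) [NeZero M]
    (hM2 : ¬ 2 ∣ M) (h9 : 9 ∣ M) (A : ValuationSubring Kbar) (hA : A.LiesOverPrime 2) :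
    H40.HasSqNewPartAt p (M * 2) 2 A :=
  hasSqNewPartAt_tame hreg hcp hT p hp hp2 2 M Nat.prime_two (fun h => hp2 h.symm) hM2
    (Or.inr ⟨rfl, Dvd.dvd.mul_right h9 2⟩) A hA

end Fermat.Agent.S59.LL.SQ.H58
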