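import Fermat.Agent.S59.LL.SQ.H16_RegFinal
import Fermat.Agent.S59.LL.SQ.H58_Tame

/-!
# S59 / LL / SQ, leaf R1 REG-TAME (helper16): helper58's `Stmt_Reg11Tame`

`stmt_Reg11Tame : H58.Stmt_Reg11Tame`, unconditionally (from `H16.reg11At_tame`).
-/

set_option autoImplicit false
set_option synthInstance.maxHeartbeats 400000
set_option maxHeartbeats 1000000
set_option linter.unusedVariables false

noncomputable section

namespace Fermat.Agent.S59.LL.SQ.H16

/-- **REG for the component `11` at the tame levels** (helper58's statement), unconditionally. -/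
theorem stmt_Reg11Tame : Fermat.Agent.S59.LL.SQ.H58.Stmt_Reg11Tame :=
  fun p hp _ q M B k hB hq _ _ _ _ _ htame hqM A hA =>
    reg11At_tame A q M B k hB hq hqM hA htame p hp.pos

end Fermat.Agent.S59.LL.SQ.H16
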