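import Fermat.Agent.S59.LL.SQ.H40_SpanTors
import Fermat.Agent.S36.NU.H23_Mod1
import Fermat.Agent.S43.Old.LiftEig
import Fermat.Agent.S59.H61_Stab
import Fermat.Agent.RED.H36_AllRed
attribute [local instance 10000] SubalgebraClass.toAlgebra
attribute [local instance 10000] HahnSeries.powerSeriesAlgebra

/-!
# S59, package LL, piece SQ (coordinator helper58): interface of the geometric leaves

Target: `SQ.H40.Stmt_SqNew` (`S59/LL/SQ/H40_Step0.lean`, helper40), hence `LL.Stmt_SqQ`.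
Plan: `NOTES/plan/S59_LL.md` §7 (SQ v3).

Level `N = M q²`, `q ∤ M`, `A` a valuation ring of `ℚ̄` over `q`, `I` its inertia group,
`L₀ = L0 A N` the functions of level `N` with coefficients fixed by `I` (helper23), and the three
valuation rings `V₂₀`, `V₁₁`, `V₀₂` of `L₀` over `q` (`H23.V20o`, `H23.V11o`, `H23.V02o`) with
their residue maps `s₂₀`, `s₁₁`, `s₀₂` (values in `k((t))`, `k = kV A`).

* `IsKum n x h`   : `h ∈ L₀` is a Kummer function of the class `x` for the exponent `n`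
                    (`x = [D]`, `n D = div h`);
* `IsUnit3 h`     : `h` is a unit for the three valuations;
* `IsCPow3 n h`   : the three reductions of `h` are constants times `n`-th powers of reductions;
* `InG3 n x`      : the FINITE part: `x` has a Kummer function in `L₀` which is a unit for the
                    three valuations (trivial class in the group of components);
* `InT3 n x`      : the TORIC part: `x` has a Kummer function in `L₀` whose three reductions are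
                    constants times `n`-th powers.

Leaves (per level; the point `x` is `q`-new, `p`-torsion, fixed by `I`):
* `CompEisSqAt`   **(E)** an eigenvector which is not Eisenstein is in the finite part;
* `OldRedSqAt`    **(R)** an eigenvector of the finite part outside the toric part gives a class
                    `z` of level `M` with non-zero reduction killed by `p` and
                    `red (T_ℓ z) = t_ℓ red z` (the input of `S43.Old.liftEig_of`);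
* `TorSqAt`       **(T)** a non-zero eigenvector of the toric part comes from level `M q`;
* `TorSpanSqAt`   **(T′)** a point of the toric part is `α^* y + β^* y'` with `y`, `y'` torsion
                    points of level `M q` (gives **(T)** by `H40.eig_of_pull_span`).

Wiring: `torSqAt_of_span`, `hasSqNewPartAt_of`, `sqNew_of_leaves`,
`sqQ_of_leaves : HRcore → (E) → (R) → (T) → LL.Stmt_SqQ`, `sqQ_of_leaves' ` with **(T′)**.
-/

set_option autoImplicit false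
set_option synthInstance.maxHeartbeats 400000
set_option maxHeartbeats 1000000
set_option linter.unusedSectionVars false
set_option linter.unusedVariables false
set_option linter.style.haveILetI false

noncomputable section

open ModularCurve AlgebraicCurve
open Fermat.Agent.S24 Fermat.Agent.S28 Fermat.Agent.S28.H73 Fermat.Agent.RED.H73
open Fermat.Agent.RED Fermat.Agent.S36.NU.H23 Fermat.Agent.S44 Fermat.Agent.S35.H89

namespace Fermat.Agent.S59.LL.SQ

section Defs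

variable (A : ValuationSubring Kbar) (q M : ℕ) (B k : ℤ) (hB : B * M + k * q = 1) (hq : q.Prime)
  [NeZero M] [NeZero q] [NeZero (M * q)] [NeZero (M * q * q)]

/-- `h` is a **Kummer function** of the class `x` for the exponent `n`, with coefficients fixed by
the inertia group of `A`. -/
def IsKum (n : ℕ) (x : JZero (M * q * q)) (h : ↥(L0 A (M * q * q))) : Prop :=
  ∃ D : Divisor.degZero (K := Kbar) (F := ↥(modularFunctionFieldBar (M * q * q))),
    x = Pic0.mk D ∧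
    ∀ P : Place Kbar ↥(modularFunctionFieldBar (M * q * q)),
      (n : ℤ) * (D : Divisor Kbar ↥(modularFunctionFieldBar (M * q * q))) P
        = P.ord ((h : FN (M * q * q)))

/-- `h` is a **unit for the three valuations** `V₂₀`, `V₁₁`, `V₀₂`. -/
def IsUnit3 (h : ↥(L0 A (M * q * q))) : Prop :=
  (∃ h20 : h ∈ V20o A q M, s20 A q M ⟨h, h20⟩ ≠ 0) ∧
  (∃ h11 : h ∈ V11o A q M B k hB hq, s11 A q M B k hB hq ⟨h, h11⟩ ≠ 0) ∧
  (∃ h02 : h ∈ V02o A q M B k hB, s02 A q M B k hB ⟨h, h02⟩ ≠ 0)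

/-- The three reductions of `h` are **constants times `n`-th powers** (of reductions of functions
of `L₀`; in particular `h` is a unit for the three valuations). -/
def IsCPow3 (n : ℕ) (h : ↥(L0 A (M * q * q))) : Prop :=
  (∃ (h20 : h ∈ V20o A q M) (c : kV A) (g : ↥(V20o A q M)), c ≠ 0 ∧ s20 A q M g ≠ 0 ∧
    s20 A q M ⟨h, h20⟩ = algebraMap (kV A) (LaurentSeries (kV A)) c * s20 A q M g ^ n) ∧
  (∃ (h11 : h ∈ V11o A q M B k hB hq) (c : kV A) (g : ↥(V11o A q M B k hB hq)), c ≠ 0 ∧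
    s11 A q M B k hB hq g ≠ 0 ∧
    s11 A q M B k hB hq ⟨h, h11⟩
      = algebraMap (kV A) (LaurentSeries (kV A)) c * s11 A q M B k hB hq g ^ n) ∧
  (∃ (h02 : h ∈ V02o A q M B k hB) (c : kV A) (g : ↥(V02o A q M B k hB)), c ≠ 0 ∧
    s02 A q M B k hB g ≠ 0 ∧
    s02 A q M B k hB ⟨h, h02⟩
      = algebraMap (kV A) (LaurentSeries (kV A)) c * s02 A q M B k hB g ^ n)

/-- **The finite part** `G₃` (exponent `n`). -/
def InG3 (n : ℕ) (x : JZero (M * q * q)) : Prop :=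
  ∃ h : ↥(L0 A (M * q * q)), IsKum A q M n x h ∧ IsUnit3 A q M B k hB hq h

/-- **The toric part** `T₃` (exponent `n`). -/
def InT3 (n : ℕ) (x : JZero (M * q * q)) : Prop :=
  ∃ h : ↥(L0 A (M * q * q)), IsKum A q M n x h ∧ IsCPow3 A q M B k hB hq n h

theorem IsCPow3.isUnit3 {n : ℕ} {h : ↥(L0 A (M * q * q))}
    (H : IsCPow3 A q M B k hB hq n h) : IsUnit3 A q M B k hB hq h := by
  obtain ⟨⟨h20, c, g, hc, hg, e⟩, ⟨h11, c', g', hc', hg', e'⟩, ⟨h02, c'', g'', hc'', hg'', e''⟩⟩ := H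
  refine ⟨⟨h20, ?_⟩, ⟨h11, ?_⟩, ⟨h02, ?_⟩⟩
  · rw [e]
    exact mul_ne_zero ((map_ne_zero _).2 hc) (pow_ne_zero _ hg)
  · rw [e']
    exact mul_ne_zero ((map_ne_zero _).2 hc') (pow_ne_zero _ hg')
  · rw [e'']
    exact mul_ne_zero ((map_ne_zero _).2 hc'') (pow_ne_zero _ hg'')

theorem InT3.inG3 {n : ℕ} {x : JZero (M * q * q)} (H : InT3 A q M B k hB hq n x) :
    InG3 A q M B k hB hq n x := by
  obtain ⟨h, h1, h2⟩ := H
  exact ⟨h, h1, h2.isUnit3⟩

/-! ## The leaves, per level -/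

/-- **(E) COMP-EIS at `q²`.**  A `q`-new inertia-fixed common eigenvector of the Hecke operators in
`J₀(M q²)[p]` which is not Eisenstein lies in the finite part. -/
def CompEisSqAt (p : ℕ) : Prop :=
  ∀ (S : Finset ℕ) (t : ℕ → ℤ) (x : JZero (M * q * q)), (p : ℤ) • x = 0 →
    IsQNew (M * q) q x →
    (∀ σ ∈ A.inertiaSubgroupIn ℚ, σ • x = x) →
    (∀ ℓ : Nat.Primes, (ℓ : ℕ) ∉ S → ¬ (ℓ : ℕ) ∣ M * q * q → (ℓ : ℕ) ≠ p →
      heckeOperatorBar (M * q * q) ℓ x = t ℓ • x) →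
    (∃ ℓ : ℕ, ℓ.Prime ∧ ℓ ∉ S ∧ ¬ ℓ ∣ M * q * q ∧ ℓ ≠ p ∧
      ((t ℓ : ℤ) : ZMod p) ≠ 1 + (ℓ : ZMod p)) →
    InG3 A q M B k hB hq p x

/-- **(R) OLD-RED at `q²`.**  A `q`-new inertia-fixed common eigenvector in the finite part,
outside the toric part, gives a class `z` of level `M` whose reduction is a non-zero class killed
by `p` with `red (T_ℓ z) = t_ℓ red z` (the class of `div (s_i h) / p` on one of the three
components; for a `q`-new point only the component `11` can occur, and only if `p ∣ q - 1`). -/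
def OldRedSqAt (p : ℕ) : Prop :=
  ∀ (r : Place Kbar ↥(modularFunctionFieldBar M) →
      Place (kV A) ↥(redField A (modularFunctionFieldBar M) (hasScale_laurentBaseChange A M)))
    (hr : IsRed A (hasScale_laurentBaseChange A M) r),
    HasMove A (hasScale_laurentBaseChange A M) r →
  ∀ (S : Finset ℕ) (t : ℕ → ℤ) (x : JZero (M * q * q)), (p : ℤ) • x = 0 →
    IsQNew (M * q) q x →
    (∀ σ ∈ A.inertiaSubgroupIn ℚ, σ • x = x) →
    InG3 A q M B k hB hq p x → ¬ InT3 A q M B k hB hq p x →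
    (∀ ℓ : Nat.Primes, (ℓ : ℕ) ∉ S → ¬ (ℓ : ℕ) ∣ M * q * q → (ℓ : ℕ) ≠ p →
      heckeOperatorBar (M * q * q) ℓ x = t ℓ • x) →
    ∃ z : JZero M,
      H36.redPic A (hasScale_laurentBaseChange A M) hr z ≠ 0 ∧
      (p : ℤ) • H36.redPic A (hasScale_laurentBaseChange A M) hr z = 0 ∧
      ∀ ℓ : Nat.Primes, (ℓ : ℕ) ∉ S → ¬ (ℓ : ℕ) ∣ M * q * q → (ℓ : ℕ) ≠ p →
        H36.redPic A (hasScale_laurentBaseChange A M) hr (heckeOperatorBar M ℓ z)
          = t ℓ • H36.redPic A (hasScale_laurentBaseChange A M) hr z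

/-- **(T) TOR at `q²`.**  A non-zero `q`-new inertia-fixed common eigenvector in the toric part
of `J₀(M q²)[p]` comes from level `M q`. -/
def TorSqAt (p : ℕ) : Prop :=
  ∀ (S : Finset ℕ) (t : ℕ → ℤ) (x : JZero (M * q * q)), x ≠ 0 → (p : ℤ) • x = 0 →
    IsQNew (M * q) q x →
    (∀ σ ∈ A.inertiaSubgroupIn ℚ, σ • x = x) →
    InT3 A q M B k hB hq p x →
    (∀ ℓ : Nat.Primes, (ℓ : ℕ) ∉ S → ¬ (ℓ : ℕ) ∣ M * q * q → (ℓ : ℕ) ≠ p →
      heckeOperatorBar (M * q * q) ℓ x = t ℓ • x) →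
    ∃ (g : CuspForm (CongruenceSubgroup.Gamma0 (M * q)) 2) (𝔪 : Ideal (integralClosure ℤ ℂ)),
      g.IsNormalizedEigenform ∧ 𝔪.IsMaximal ∧ (p : integralClosure ℤ ℂ) ∈ 𝔪 ∧
      ∀ ℓ : ℕ, ℓ.Prime → ℓ ∉ S → ¬ ℓ ∣ M * q * q → ℓ ≠ p →
        ∃ a : integralClosure ℤ ℂ, (a : ℂ) = ModularFormClass.qCoeff g ℓ ∧
          a - ((t ℓ : ℤ) : integralClosure ℤ ℂ) ∈ 𝔪

/-- **(T′) TOR-SPAN at `q²`.**  A non-zero `q`-new inertia-fixed point of the toric part of
`J₀(M q²)[p]` is `α^* y + β^* y'` with torsion points `y`, `y'` of level `M q` (of any order). -/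
def TorSpanSqAt (p : ℕ) : Prop :=
  ∀ (x : JZero (M * q * q)), x ≠ 0 → (p : ℤ) • x = 0 →
    IsQNew (M * q) q x →
    (∀ σ ∈ A.inertiaSubgroupIn ℚ, σ • x = x) →
    InT3 A q M B k hB hq p x →
    ∃ (y y' : JZero (M * q)) (n n' : ℕ), n ≠ 0 ∧ n' ≠ 0 ∧ n • y = 0 ∧ n' • y' = 0 ∧
      x = H40.alphaPull (M * q) q y + H40.betaPull (M * q) q y'

theorem torSqAt_of_span {p : ℕ} (hp : p.Prime) (h : TorSpanSqAt A q M B k hB hq p) :
    TorSqAt A q M B k hB hq p := by
  intro S t x hx0 hxp hnew hI hT3 hxT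
  obtain ⟨y, y', n, n', hn, hn', hy, hy', hx⟩ := h x hx0 hxp hnew hI hT3
  exact H40.eig_of_pull_span p hp (M * q) q S t x hx0 hxp hxT y y' n n' hn hn' hy hy' hx

end Defs

/-! ## The leaves -/

/-- **(E)** at all levels `M q²`, `q ∤ M`, `p ≠ q` odd. -/
def Stmt_CompEisSq : Prop :=
  ∀ (p : ℕ), p.Prime → p ≠ 2 → ∀ (q M : ℕ) (B k : ℤ) (hB : B * M + k * q = 1) (hq : q.Prime)
    [NeZero M] [NeZero q] [NeZero (M * q)] [NeZero (M * q * q)], q ≠ p → ¬ q ∣ M →
    ∀ A : ValuationSubring Kbar, A.LiesOverPrime q → CompEisSqAt A q M B k hB hq p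

/-- **(R)** at all levels `M q²`, `q ∤ M`, `p ≠ q` odd. -/
def Stmt_OldRedSq : Prop :=
  ∀ (p : ℕ), p.Prime → p ≠ 2 → ∀ (q M : ℕ) (B k : ℤ) (hB : B * M + k * q = 1) (hq : q.Prime)
    [NeZero M] [NeZero q] [NeZero (M * q)] [NeZero (M * q * q)], q ≠ p → ¬ q ∣ M →
    ∀ A : ValuationSubring Kbar, A.LiesOverPrime q → OldRedSqAt A q M B k hB hq p

/-- **(T)** at all levels `M q²`, `q ∤ M`, `p ≠ q` odd. -/
def Stmt_TorSq : Prop :=
  ∀ (p : ℕ), p.Prime → p ≠ 2 → ∀ (q M : ℕ) (B k : ℤ) (hB : B * M + k * q = 1) (hq : q.Prime)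
    [NeZero M] [NeZero q] [NeZero (M * q)] [NeZero (M * q * q)], q ≠ p → ¬ q ∣ M →
    ∀ A : ValuationSubring Kbar, A.LiesOverPrime q → TorSqAt A q M B k hB hq p

/-- **(T′)** at all levels `M q²`, `q ∤ M`, `p ≠ q` odd. -/
def Stmt_TorSpanSq : Prop :=
  ∀ (p : ℕ), p.Prime → p ≠ 2 → ∀ (q M : ℕ) (B k : ℤ) (hB : B * M + k * q = 1) (hq : q.Prime)
    [NeZero M] [NeZero q] [NeZero (M * q)] [NeZero (M * q * q)], q ≠ p → ¬ q ∣ M →
    ∀ A : ValuationSubring Kbar, A.LiesOverPrime q → TorSpanSqAt A q M B k hB hq p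

theorem torSq_of_span (h : Stmt_TorSpanSq) : Stmt_TorSq := by
  intro p hp hp2 q M B k hB hq _ _ _ _ hqp hqM A hA
  exact torSqAt_of_span A q M B k hB hq hp (h p hp hp2 q M B k hB hq hqp hqM A hA)

/-! ## The wiring -/

/-- **The assembly at one level**: `(E)`, `(R)`, `(T)` and the stability of the kernel of the
reduction under the Hecke operators (`HRcore`) give "BAD at `q²`" for the `q`-new points of
`J₀(M q²)[p]`. -/
theorem hasSqNewPartAt_of (hcore : H51.Stmt_HRcore) (p : ℕ) (hp : p.Prime)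
    (q M : ℕ) (B k : ℤ) (hB : B * M + k * q = 1) (hq : q.Prime)
    [NeZero M] [NeZero q] [NeZero (M * q)] [NeZero (M * q * q)] (hqM : ¬ q ∣ M)
    (A : ValuationSubring Kbar) (hA : A.LiesOverPrime q)
    (hE : CompEisSqAt A q M B k hB hq p) (hR : OldRedSqAt A q M B k hB hq p)
    (hT : TorSqAt A q M B k hB hq p) :
    H40.HasSqNewPartAt p (M * q) q A := by
  classical
  intro S t x hx0 hxp hnew hI hxT hNE
  have hG := hE S t x hxp hnew hI hxT hNE
  by_cases hT3 : InT3 A q M B k hB hq p x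
  · exact hT S t x hx0 hxp hnew hI hT3 hxT
  · obtain ⟨r, hr, hmove⟩ := H36.stmt_RM M q hq hqM A hA
    obtain ⟨z, hz0, hzp, hzT⟩ := hR r hr hmove S t x hxp hnew hI hG hT3 hxT
    set S' : Finset ℕ := insert p (insert q S) with hS'
    have hS'1 : ∀ ℓ : ℕ, ℓ ∉ S' → ℓ ∉ S ∧ ℓ ≠ p ∧ ℓ ≠ q := by
      intro ℓ hℓ
      rw [hS', Finset.mem_insert, Finset.mem_insert] at hℓ
      push Not at hℓ
      exact ⟨hℓ.2.2, hℓ.1, hℓ.2.1⟩
    have hdvd : ∀ ℓ : ℕ, ℓ.Prime → ℓ ≠ q → ¬ ℓ ∣ M → ¬ ℓ ∣ M * q * q := by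
      intro ℓ hℓ hℓq hℓM h
      rcases (Nat.Prime.dvd_mul hℓ).1 h with h | h
      · rcases (Nat.Prime.dvd_mul hℓ).1 h with h | h
        · exact hℓM h
        · exact hℓq ((Nat.prime_dvd_prime_iff_eq hℓ hq).1 h)
      · exact hℓq ((Nat.prime_dvd_prime_iff_eq hℓ hq).1 h)
    obtain ⟨g₀, 𝔪, hg₀, h𝔪, hp𝔪, hc⟩ := Fermat.Agent.S43.Old.liftEig_of hcore p hp M q hq hqM A hA
      r hr hmove S' t z hz0 hzp (by
        intro ℓ hℓS' hℓM
        obtain ⟨hℓS, hℓp, hℓq⟩ := hS'1 ℓ hℓS'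
        exact hzT ℓ hℓS (hdvd ℓ ℓ.2 hℓq hℓM) hℓp)
    obtain ⟨g, hg, hgc⟩ := Fermat.Agent.S59.H61.stmt_Stab M q hq hqM g₀ hg₀
    refine ⟨g, 𝔪, hg, h𝔪, hp𝔪, fun ℓ hℓ hℓS hℓN hℓp => ?_⟩
    have hℓq : ℓ ≠ q := by
      rintro rfl
      exact hℓN (dvd_mul_left _ _)
    have hℓM : ¬ ℓ ∣ M := fun h => hℓN ((h.mul_right q).mul_right q)
    obtain ⟨a, ha, hac⟩ := hc ℓ hℓ (by
      rw [hS', Finset.mem_insert, Finset.mem_insert]
      push Not
      exact ⟨hℓp, hℓq, hℓS⟩) hℓM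
    exact ⟨a, by rw [ha, hgc ℓ hℓ hℓq], hac⟩

/-- **`Stmt_SqNew` from the three leaves** and `HRcore`. -/
theorem sqNew_of_leaves (hcore : H51.Stmt_HRcore) (hE : Stmt_CompEisSq) (hR : Stmt_OldRedSq)
    (hT : Stmt_TorSq) : H40.Stmt_SqNew := by
  intro p hp hp2 M q _ _ hq hqp hqM hq2M A hA
  obtain ⟨M', rfl⟩ : ∃ M', M = M' * q := ⟨M / q, (Nat.div_mul_cancel hqM).symm⟩
  have hqM' : ¬ q ∣ M' := by
    rintro ⟨c, rfl⟩
    exact hq2M ⟨c, by ring⟩
  have hM'0 : M' ≠ 0 := by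
    rintro rfl
    exact hqM' (dvd_zero q)
  haveI : NeZero M' := ⟨hM'0⟩
  haveI : NeZero (M' * q * q) := ⟨mul_ne_zero (mul_ne_zero hM'0 hq.ne_zero) hq.ne_zero⟩
  have hcop : IsCoprime (M' : ℤ) (q : ℤ) :=
    Nat.isCoprime_iff_coprime.2 ((Nat.Prime.coprime_iff_not_dvd hq).2 hqM').symm
  obtain ⟨B, k, hB⟩ := hcop
  exact hasSqNewPartAt_of hcore p hp q M' B k hB hq hqM' A hA
    (hE p hp hp2 q M' B k hB hq hqp hqM' A hA) (hR p hp hp2 q M' B k hB hq hqp hqM' A hA)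
    (hT p hp hp2 q M' B k hB hq hqp hqM' A hA)

/-- **The package SQ from the three leaves** and `HRcore`. -/
theorem sqQ_of_leaves (hcore : H51.Stmt_HRcore) (hE : Stmt_CompEisSq) (hR : Stmt_OldRedSq)
    (hT : Stmt_TorSq) : Stmt_SqQ :=
  H40.sqQ_of_new (sqNew_of_leaves hcore hE hR hT)

/-- **The package SQ from `(E)`, `(R)`, `(T′)`** and `HRcore`. -/
theorem sqQ_of_leaves' (hcore : H51.Stmt_HRcore) (hE : Stmt_CompEisSq) (hR : Stmt_OldRedSq)
    (hT : Stmt_TorSpanSq) : Stmt_SqQ :=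
  sqQ_of_leaves hcore hE hR (torSq_of_span hT)

end Fermat.Agent.S59.LL.SQ
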