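import Fermat.Agent.S59.LL.SQ.Defs
import Fermat.Agent.S36.NU.H23_Mod3
attribute [local instance 10000] SubalgebraClass.toAlgebra
attribute [local instance 10000] HahnSeries.powerSeriesAlgebra

/-!
# S59 / LL / SQ, leaf (R) OLD-RED at `q²` (helper35): the two geometric inputs

Level `N = M q²`, `q ∤ M`, `A` over `q`, `L₀ = L0 A N`.

* `Reg11At p` : **REG** for the component `11`: if `p D = div h` on the generic fibre, `h ∈ L₀` a
  unit for the three valuations, then `p` divides the divisor of the reduction `r₁₁ h` on the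
  reduced curve of level `M` (owners: helper16 REG-TAME, helper94 REG-UP);
* `CPow2002At p` : **B2** for the components `20` and `02`: the reductions at `V₂₀` and `V₀₂` of
  a Kummer function of a `q`-new inertia-fixed `p`-torsion point, unit for the three valuations,
  are constants times `p`-th powers (owner: helper87).
-/

set_option autoImplicit false
set_option synthInstance.maxHeartbeats 400000
set_option maxHeartbeats 1000000
set_option linter.unusedSectionVars false
set_option linter.unusedVariables false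
set_option linter.style.haveILetI false

noncomputable section

open ModularCurve AlgebraicCurve
open Fermat.Agent.S24 Fermat.Agent.S28 Fermat.Agent.S28.H73 Fermat.Agent.RED.H73
open Fermat.Agent.RED Fermat.Agent.S36.NU.H23 Fermat.Agent.S44 Fermat.Agent.S35.H89
open Fermat.Agent.BAD.H88

namespace Fermat.Agent.S59.LL.SQ.H35

section Defs

variable (A : ValuationSubring Kbar) (q M : ℕ) (B k : ℤ) (hB : B * M + k * q = 1) (hq : q.Prime)
  [NeZero M] [NeZero q] [NeZero (M * q)] [NeZero (M * q * q)]
  (hqM : ¬ q ∣ M) (hA : A.LiesOverPrime q)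

/-- **REG** for the component `11`. -/
def Reg11At (p : ℕ) : Prop :=
  ∀ (h : ↥(L0 A (M * q * q))) (D : Divisor Kbar (FN (M * q * q))),
    (∀ P : Place Kbar (FN (M * q * q)), (p : ℤ) * D P = P.ord (h : FN (M * q * q))) →
    SQ.IsUnit3 A q M B k hB hq h →
    ∀ (h11 : h ∈ V11o A q M B k hB hq) (Q : Place (kV A) (FM A M)),
      (p : ℤ) ∣ Q.ord (r11 A q M B k hB hq hqM hA ⟨h, h11⟩)

/-- **B2** for the components `20` and `02`. -/
def CPow2002At (p : ℕ) : Prop :=
  ∀ (x : JZero (M * q * q)) (h : ↥(L0 A (M * q * q))), (p : ℤ) • x = 0 →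
    IsQNew (M * q) q x →
    (∀ σ ∈ A.inertiaSubgroupIn ℚ, σ • x = x) → SQ.IsKum A q M p x h →
    SQ.IsUnit3 A q M B k hB hq h →
    (∃ (h20 : h ∈ V20o A q M) (c : kV A) (g : ↥(V20o A q M)), c ≠ 0 ∧ s20 A q M g ≠ 0 ∧
        s20 A q M ⟨h, h20⟩ = algebraMap (kV A) (LaurentSeries (kV A)) c * s20 A q M g ^ p) ∧
    (∃ (h02 : h ∈ V02o A q M B k hB) (c : kV A) (g : ↥(V02o A q M B k hB)), c ≠ 0 ∧
        s02 A q M B k hB g ≠ 0 ∧
        s02 A q M B k hB ⟨h, h02⟩
          = algebraMap (kV A) (LaurentSeries (kV A)) c * s02 A q M B k hB g ^ p)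

end Defs

end Fermat.Agent.S59.LL.SQ.H35
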