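import Fermat.Agent.S59.LL.SQ.H87_CPow
import Fermat.Agent.S59.LL.SQ.Defs
import Fermat.Agent.S36.NU.H26_NormPow0
import Fermat.Agent.S36.NU.H81_NUCore
import Fermat.Agent.S59.LL.SQ.H35_RDefs

/-!
# S59 / LL / SQ, leaf (R), hypothesis `CPow2002At` (helper87)

For a `q`-new class `x ∈ J₀(M q²)[p]` with a Kummer function `h` (inertia-fixed, a unit for the
three valuations), the reductions of `h` on the components `20` and `02` are constants times
`p`-th powers:

* `isNormPow0_of_isKum` : the norms of `h` along `α`, `β` are constants times `p`-th powers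
  (helper26's DIV→NORM);
* `cpow2002At` : the statement `CPow2002At` of helper35's (R), for every `p > 0`
  (`cpow02`, `cpow20` of `H87_CPow.lean`), unfolded;
* `cpow2002At_H35 : H35.CPow2002At A q M B k hB hq p` for `p > 0`, at every level `M q²`, `q ∤ M`
  (no tameness hypothesis);
* `stmt_CPow2002All` : the same, quantified as in `SQ.H58.Stmt_CPow2002Tame`.

This file contains no `sorry`.
-/

set_option autoImplicit false
set_option synthInstance.maxHeartbeats 400000
set_option maxHeartbeats 1000000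
set_option linter.style.haveILetI false
set_option linter.unusedSectionVars false

noncomputable section

open ModularCurve AlgebraicCurve
open Fermat.Agent.S24 Fermat.Agent.BAD Fermat.Agent.BAD.H88 Fermat.Agent.S28 Fermat.Agent.S28.H73
open Fermat.Agent.RED.H73 Fermat.Agent.RED Fermat.Agent.S36.NU.H23 Fermat.Agent.S36.NU.H10
open Fermat.Agent.Lib.HeckeComm Fermat.Agent.S36.H44 Fermat.Agent.S35.H89 Fermat.Agent.S44

namespace Fermat.Agent.S59.LL.SQ.H87

section At

variable (A : ValuationSubring Kbar) (q M : ℕ) (B k : ℤ) (hB : B * M + k * q = 1) (hq : q.Prime)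
  [NeZero M] [NeZero q] [NeZero (M * q)] [NeZero (M * q * q)] (hqM : ¬ q ∣ M)
  (hA : A.LiesOverPrime q)

/-- The norms along `α` and `β` of a Kummer function of a `q`-new class are constants times
`p`-th powers. -/
theorem isNormPow0_of_isKum (p : ℕ) (hp : 0 < p) (x : JZero (M * q * q))
    (h : ↥(L0 A (M * q * q))) (h0 : (h : FN (M * q * q)) ≠ 0)
    (hnew : IsQNew (M * q) q x) (hK : Fermat.Agent.S59.LL.SQ.IsKum A q M p x h) :
    IsNormPow0 A q M (heckeAlphaBar Kbar (M * q) q) p (h : FN (M * q * q)) ∧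
    IsNormPow0 A q M (heckeBetaBar Kbar (M * q) q) p (h : FN (M * q * q)) := by
  obtain ⟨D, rfl, hDh⟩ := hK
  obtain ⟨hpa, hpb⟩ := (isQNew_iff (M * q) q _).mp hnew
  have hDα := (pic0Push_mk_eq_zero_iff _ _ _ _ D).mp hpa
  have hDβ := (pic0Push_mk_eq_zero_iff _ _ _ _ D).mp hpb
  set Df : Divisor Kbar (FN (M * q * q)) :=
    (p : ℤ) • (D : Divisor Kbar (FN (M * q * q))) with hDf
  have hDf' : ∀ P, Df P = P.ord (h : FN (M * q * q)) := by
    intro P
    rw [← hDh P, hDf]
    simp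
  have hpush : ∀ (φ : FN (M * q) →ₐ[Kbar] FN (M * q * q)) (hφ : φ.toRingHom.IsIntegral),
      (Divisor.pushforwardAlong φ hφ (D : Divisor Kbar (FN (M * q * q)))).IsPrincipal →
      ∃ g : FN (M * q), g ≠ 0 ∧ ∀ Q : Place Kbar (FN (M * q)),
        Divisor.pushforwardAlong φ hφ Df Q = p * Q.ord g := by
    rintro φ hφ ⟨g, hg0, hg⟩
    refine ⟨g, hg0, fun Q => ?_⟩
    rw [hDf, map_zsmul, Finsupp.smul_apply, smul_eq_mul, hg Q]
  exact Fermat.Agent.S36.NU.H26.stmt_NormPow0 A q M p hp (h : FN (M * q * q)) h0 h.2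
    (alpha_integral (M * q) q) (beta_integral (M * q) q) Df hDf'
    (hpush _ _ hDα) (hpush _ _ hDβ)

include hqM hA in
/-- **`CPow2002At`** (hypothesis of helper35's (R)), for `p > 0`: the reductions on the components
`20` and `02` of a Kummer unit of a `q`-new class are constants times `p`-th powers. -/
theorem cpow2002At (p : ℕ) (hp : 0 < p) :
    ∀ (x : JZero (M * q * q)) (h : ↥(L0 A (M * q * q))), (p : ℤ) • x = 0 →
      IsQNew (M * q) q x →
      (∀ σ ∈ A.inertiaSubgroupIn ℚ, σ • x = x) →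
      Fermat.Agent.S59.LL.SQ.IsKum A q M p x h →
      Fermat.Agent.S59.LL.SQ.IsUnit3 A q M B k hB hq h →
      (∃ (h20 : h ∈ V20o A q M) (c : kV A) (g : ↥(V20o A q M)), c ≠ 0 ∧ s20 A q M g ≠ 0 ∧
        s20 A q M ⟨h, h20⟩
          = algebraMap (kV A) (LaurentSeries (kV A)) c * s20 A q M g ^ p) ∧
      (∃ (h02 : h ∈ V02o A q M B k hB) (c : kV A) (g : ↥(V02o A q M B k hB)), c ≠ 0 ∧
        s02 A q M B k hB g ≠ 0 ∧
        s02 A q M B k hB ⟨h, h02⟩
          = algebraMap (kV A) (LaurentSeries (kV A)) c * s02 A q M B k hB g ^ p) := by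
  intro x h _ hnew _ hK hU
  obtain ⟨⟨h20, hs20⟩, -, ⟨h02, hs02⟩⟩ := hU
  have h0 : (h : FN (M * q * q)) ≠ 0 := by
    intro h0
    apply hs20
    have e : (⟨h, h20⟩ : ↥(V20o A q M)) = 0 := Subtype.ext (Subtype.ext h0)
    rw [e, map_zero]
  obtain ⟨hNα, hNβ⟩ := isNormPow0_of_isKum A q M p hp x h h0 hnew hK
  refine ⟨?_, ?_⟩
  · obtain ⟨c, g, hc, hg, e⟩ := cpow20 A q M B k hB hq hqM hA p hp h h20 hs20 hNβ
    exact ⟨h20, c, g, hc, hg, e⟩
  · obtain ⟨c, g, hc, hg, e⟩ := cpow02 A q M B k hB hq hqM hA p hp h h02 hs02 hNα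
    exact ⟨h02, c, g, hc, hg, e⟩

include hqM hA in
/-- **`H35.CPow2002At`** for `p > 0`, at every level `M q²` with `q ∤ M`. -/
theorem cpow2002At_H35 (p : ℕ) (hp : 0 < p) :
    Fermat.Agent.S59.LL.SQ.H35.CPow2002At A q M B k hB hq p :=
  cpow2002At A q M B k hB hq hqM hA p hp

end At

/-- **B2 for the components `20` and `02`, at all levels** (in particular at the tame levels:
`Stmt_CPow2002Tame`). -/
theorem stmt_CPow2002All (p : ℕ) (hp : 0 < p) (q M : ℕ) (B k : ℤ) (hB : B * M + k * q = 1)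
    (hq : q.Prime) [NeZero M] [NeZero q] [NeZero (M * q)] [NeZero (M * q * q)]
    (hqM : ¬ q ∣ M) (A : ValuationSubring Kbar) (hA : A.LiesOverPrime q) :
    Fermat.Agent.S59.LL.SQ.H35.CPow2002At A q M B k hB hq p :=
  cpow2002At_H35 A q M B k hB hq hqM hA p hp

end Fermat.Agent.S59.LL.SQ.H87
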