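import Fermat.Agent.S59.LL.SQ.H69_StRankFAbs

/-!
# S59 / LL / SQ, leaf ST-RANK (f), abstract part 2: the regular part (helper69)

`S : BAD.SSD K F k F₁ F₂`, `L` a subfield of `F`, `n = p ^ j`.

* `reg_of_nodes` : if `f` is a unit for the two valuations, `n ∣ div f` and `n` divides the orders
  of `rd₁ f` at the first branches of the nodes, then `n ∣ div (rd₁ f)` and `n ∣ div (rd₂ f)`
  (divisor identity at the regular points, conservation at the nodes);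
* `InGregA S L n x` : **the regular part**: `x` has a Kummer function in `L`, unit for the two
  valuations, whose reductions have divisors divisible by `n`;  `T ⊆ G_reg ⊆ G`;
* `card_inGregA_le` : **(f2)** `#G_reg ≤ #Pic⁰(F₁)[n] · #Pic⁰(F₂)[n] · #T`;
* `card_inGA_le_inGregA` : **(f1)** `#G ≤ p ^ δ · #G_reg` (`δ` the number of nodes) if
  `p ^ (j - 1)` divides the orders of `rd₁ f` at the first branches of the nodes for all Kummer
  functions `f` of the finite part (true if all thicknesses divide `12` and `p` is odd);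
* `card_inGA_le_weak` : **ST-RANK (f), weak form** `#G ≤ p ^ δ · #Pic⁰(F₁)[n] · #Pic⁰(F₂)[n] · #T`.

This file contains no unproved statement.
-/

set_option autoImplicit false
set_option linter.style.haveILetI false
set_option linter.unusedSectionVars false
set_option maxHeartbeats 1000000

noncomputable section

open AlgebraicCurve

attribute [local instance] Classical.propDecidable

namespace Fermat.Agent.S59.LL.SQ.H69

open Fermat.Agent.RED.H17 Fermat.Agent.RED Fermat.Agent.BAD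

section Abs2

variable {K F k F₁ F₂ : Type*} [Field K] [Field F] [Algebra K F] [Field k] [Field F₁]
  [Algebra k F₁] [Field F₂] [Algebra k F₂]

/-- Divisibility of the push-forward of the divisor of a function whose orders are divisible
by `n`. -/
theorem dvd_mapDomain_dv {X : Type*} (hP : HasPrincipalDivisors K F) (r : Place K F → X) (n : ℕ)
    {f : F} (hdiv : ∀ P : Place K F, (n : ℤ) ∣ P.ord f) (D : Divisor K F)
    (hD : ∀ P, D P = P.ord f) (x : X) : (n : ℤ) ∣ Finsupp.mapDomain r D x := by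
  have e : D = (n : ℤ) • rootDiv hP n f := by
    rw [zsmul_rootDiv hP hdiv]
    exact eq_dv hP hD
  rw [e, Finsupp.mapDomain_smul, Finsupp.smul_apply, smul_eq_mul]
  exact dvd_mul_right _ _

/-- **REG from the nodes.** -/
theorem reg_of_nodes (S : SSD K F k F₁ F₂) (hP : HasPrincipalDivisors K F) (n : ℕ) {f : F}
    (G₁ : S.c₁.IsGU f) (G₂ : S.c₂.IsGU f) (hdiv : ∀ P : Place K F, (n : ℤ) ∣ P.ord f)
    (hnode : ∀ s ∈ S.nodes, (n : ℤ) ∣ s.1.ord (S.c₁.rd f)) :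
    (∀ Q : Place k F₁, (n : ℤ) ∣ Q.ord (S.c₁.rd f)) ∧
      (∀ Q : Place k F₂, (n : ℤ) ∣ Q.ord (S.c₂.rd f)) := by
  have h1 : ∀ Q : Place k F₁, (n : ℤ) ∣ Q.ord (S.c₁.rd f) := by
    intro Q
    by_cases hQ : Q ∈ S.c₁.good
    · rw [S.c₁.ord_rd_eq_sum hP G₁ Q hQ]
      refine Finset.dvd_sum fun P _ => ?_
      split_ifs
      · exact hdiv P
      · exact dvd_zero _
    · rw [S.good₁] at hQ
      push Not at hQ
      obtain ⟨s, hs, rfl⟩ := hQ
      exact hnode s hs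
  refine ⟨h1, fun Q => ?_⟩
  by_cases hQ : Q ∈ S.c₂.good
  · rw [S.c₂.ord_rd_eq_sum hP G₂ Q hQ]
    refine Finset.dvd_sum fun P _ => ?_
    split_ifs
    · exact hdiv P
    · exact dvd_zero _
  · rw [S.good₂] at hQ
    push Not at hQ
    obtain ⟨s, hs, rfl⟩ := hQ
    have hDI := S.DIn s hs ⟨f, G₁.1⟩ ⟨f, G₂.1⟩
      (by rw [← S.c₁.rd_of_mem G₁.1]; exact G₁.2)
      (by rw [← S.c₂.rd_of_mem G₂.1]; exact G₂.2)
      ⟨1, by rw [map_one, one_mul]⟩ (dv hP f) (fun P => dv_apply hP f P)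
    have h2 := dvd_mapDomain_dv hP S.c₁.r n hdiv (dv hP f) (fun P => dv_apply hP f P)
      (some s.1)
    rw [hDI, ← S.c₁.rd_of_mem G₁.1, ← S.c₂.rd_of_mem G₂.1] at h2
    exact (dvd_add_right (h1 s.1)).mp h2

/-- **The regular part** (exponent `n`): the classes with a Kummer function in `L`, unit for the
two valuations, whose reductions have divisors divisible by `n`. -/
def InGregA (S : SSD K F k F₁ F₂) (L : Subfield F) (n : ℕ) (x : Pic0 K F) : Prop :=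
  ∃ f : F, f ∈ L ∧ IsKumA n x f ∧ S.c₁.IsGU f ∧ S.c₂.IsGU f ∧
    (∀ Q : Place k F₁, (n : ℤ) ∣ Q.ord (S.c₁.rd f)) ∧
      (∀ Q : Place k F₂, (n : ℤ) ∣ Q.ord (S.c₂.rd f))

theorem InGregA.inGA {S : SSD K F k F₁ F₂} {L : Subfield F} {n : ℕ} {x : Pic0 K F}
    (h : InGregA S L n x) : InGA S L n x := by
  obtain ⟨f, hfL, hK, h₁, h₂, -⟩ := h
  exact ⟨f, hfL, hK, h₁, h₂⟩

theorem InTA.inGregA {S : SSD K F k F₁ F₂} {L : Subfield F} {n : ℕ} {x : Pic0 K F}
    (h : InTA S L n x) : InGregA S L n x := by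
  obtain ⟨f, hfL, hK, h₁, h₂, ψ₁, ψ₂, e₁, e₂⟩ := h
  refine ⟨f, hfL, hK, h₁, h₂, fun Q => ?_, fun Q => ?_⟩
  · rw [e₁, ord_pow]
    exact dvd_mul_right _ _
  · rw [e₂, ord_pow]
    exact dvd_mul_right _ _

/-- **(f2)**: `#G_reg ≤ #Pic⁰(F₁)[n] · #Pic⁰(F₂)[n] · #T`. -/
theorem card_inGregA_le [IsAlgClosed k] (S : SSD K F k F₁ F₂) (L : Subfield F)
    (H₁ : FFHyp k F₁) (H₂ : FFHyp k F₂) (n : ℕ) (hn : n ≠ 0)
    [Finite (Pic0.torsion k F₁ n)] [Finite (Pic0.torsion k F₂ n)]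
    (hT : {x : Pic0 K F | InTA S L n x}.Finite) :
    Nat.card {x : Pic0 K F | InGregA S L n x} ≤
      Nat.card (Pic0.torsion k F₁ n) * Nat.card (Pic0.torsion k F₂ n) *
        Nat.card {x : Pic0 K F | InTA S L n x} := by
  have hex : ∀ x : {x : Pic0 K F | InGregA S L n x}, ∃ f : F, f ∈ L ∧
      IsKumA n (x : Pic0 K F) f ∧ S.c₁.IsGU f ∧ S.c₂.IsGU f ∧
      (∀ Q : Place k F₁, (n : ℤ) ∣ Q.ord (S.c₁.rd f)) ∧
        (∀ Q : Place k F₂, (n : ℤ) ∣ Q.ord (S.c₂.rd f)) := fun x => x.2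
  choose φ hφL hφK hφ₁ hφ₂ hR₁ hR₂ using hex
  let c : {x : Pic0 K F | InGregA S L n x} → Pic0.torsion k F₁ n × Pic0.torsion k F₂ n :=
    fun x => (⟨rootCls H₁.principal n hn (S.c₁.rd (φ x)) (hR₁ x),
        rootCls_mem_torsion H₁.principal n hn (hφ₁ x).rd_ne_zero (hR₁ x)⟩,
      ⟨rootCls H₂.principal n hn (S.c₂.rd (φ x)) (hR₂ x),
        rootCls_mem_torsion H₂.principal n hn (hφ₂ x).rd_ne_zero (hR₂ x)⟩)
  have key := card_le_of_fibres {x : Pic0 K F | InGregA S L n x} {x : Pic0 K F | InTA S L n x}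
    hT c (by
      intro x y hxy
      have h1 : rootCls H₁.principal n hn (S.c₁.rd (φ x)) (hR₁ x)
          = rootCls H₁.principal n hn (S.c₁.rd (φ y)) (hR₁ y) :=
        congrArg (fun z : Pic0.torsion k F₁ n × Pic0.torsion k F₂ n => (z.1 : Pic0 k F₁)) hxy
      have h2 : rootCls H₂.principal n hn (S.c₂.rd (φ x)) (hR₂ x)
          = rootCls H₂.principal n hn (S.c₂.rd (φ y)) (hR₂ y) :=
        congrArg (fun z : Pic0.torsion k F₁ n × Pic0.torsion k F₂ n => (z.2 : Pic0 k F₂)) hxy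
      obtain ⟨g₁, -, hg₁⟩ := eq_of_rootCls_eq H₁ n hn (hφ₁ x).rd_ne_zero (hφ₁ y).rd_ne_zero
        (hR₁ x) (hR₁ y) h1
      obtain ⟨g₂, -, hg₂⟩ := eq_of_rootCls_eq H₂ n hn (hφ₂ x).rd_ne_zero (hφ₂ y).rd_ne_zero
        (hR₂ x) (hR₂ y) h2
      refine ⟨φ x / φ y, L.div_mem (hφL x) (hφL y),
        (hφK x).div (hφK y) (hφ₁ x).ne_zero (hφ₁ y).ne_zero,
        (hφ₁ x).div (hφ₁ y), (hφ₂ x).div (hφ₂ y), g₁, g₂, ?_, ?_⟩
      · rw [(hφ₁ x).rd_div (hφ₁ y), hg₁]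
      · rw [(hφ₂ x).rd_div (hφ₂ y), hg₂])
  rwa [Nat.card_prod] at key

/-- **(f1)**: `#G ≤ p ^ δ · #G_reg`, if `p ^ (j - 1)` divides the orders of the first reductions
of the Kummer functions of the finite part at the first branches of the nodes. -/
theorem card_inGA_le_inGregA (S : SSD K F k F₁ F₂) (L : Subfield F)
    (hP : HasPrincipalDivisors K F) (p j : ℕ) (hp : p.Prime)
    (hweak : ∀ f : F, f ∈ L → S.c₁.IsGU f → S.c₂.IsGU f →
      (∀ P : Place K F, ((p ^ j : ℕ) : ℤ) ∣ P.ord f) →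
      ∀ s ∈ S.nodes, ((p ^ (j - 1) : ℕ) : ℤ) ∣ s.1.ord (S.c₁.rd f))
    (hfin : {x : Pic0 K F | InGregA S L (p ^ j) x}.Finite) :
    Nat.card {x : Pic0 K F | InGA S L (p ^ j) x} ≤
      p ^ S.nodes.card * Nat.card {x : Pic0 K F | InGregA S L (p ^ j) x} := by
  haveI : NeZero p := ⟨hp.ne_zero⟩
  have hex : ∀ x : {x : Pic0 K F | InGA S L (p ^ j) x}, ∃ f : F, f ∈ L ∧
      IsKumA (p ^ j) (x : Pic0 K F) f ∧ S.c₁.IsGU f ∧ S.c₂.IsGU f := fun x => x.2
  choose φ hφL hφK hφ₁ hφ₂ using hex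
  let c : {x : Pic0 K F | InGA S L (p ^ j) x} → (↥S.nodes → ZMod p) :=
    fun x s => ((s.1.1.ord (S.c₁.rd (φ x)) / ((p ^ (j - 1) : ℕ) : ℤ) : ℤ) : ZMod p)
  have key := card_le_of_fibres {x : Pic0 K F | InGA S L (p ^ j) x}
    {x : Pic0 K F | InGregA S L (p ^ j) x} hfin c (by
      intro x y hxy
      have hG₁ : S.c₁.IsGU (φ x / φ y) := (hφ₁ x).div (hφ₁ y)
      have hG₂ : S.c₂.IsGU (φ x / φ y) := (hφ₂ x).div (hφ₂ y)
      have hK : IsKumA (p ^ j) ((x : Pic0 K F) - (y : Pic0 K F)) (φ x / φ y) :=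
        (hφK x).div (hφK y) (hφ₁ x).ne_zero (hφ₁ y).ne_zero
      have hnode : ∀ s ∈ S.nodes, ((p ^ j : ℕ) : ℤ) ∣ s.1.ord (S.c₁.rd (φ x / φ y)) := by
        intro s hs
        rw [(hφ₁ x).rd_div (hφ₁ y), ord_div s.1 (hφ₁ x).rd_ne_zero (hφ₁ y).rd_ne_zero]
        obtain ⟨u, hu⟩ := hweak (φ x) (hφL x) (hφ₁ x) (hφ₂ x) (hφK x).dvd s hs
        obtain ⟨v, hv⟩ := hweak (φ y) (hφL y) (hφ₁ y) (hφ₂ y) (hφK y).dvd s hs
        have hpj0 : ((p ^ (j - 1) : ℕ) : ℤ) ≠ 0 := by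
          exact_mod_cast pow_ne_zero _ hp.ne_zero
        have hc := congrFun hxy ⟨s, hs⟩
        simp only [c] at hc
        rw [hu, hv, Int.mul_ediv_cancel_left _ hpj0, Int.mul_ediv_cancel_left _ hpj0] at hc
        have hpuv : (p : ℤ) ∣ u - v := by
          rw [← ZMod.intCast_zmod_eq_zero_iff_dvd]
          push_cast
          rw [hc, sub_self]
        rw [hu, hv, ← mul_sub]
        rcases Nat.eq_zero_or_pos j with h0 | hpos
        · subst h0
          simp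
        · obtain ⟨w, hw⟩ := hpuv
          refine ⟨w, ?_⟩
          have e : ((p ^ j : ℕ) : ℤ) = ((p ^ (j - 1) : ℕ) : ℤ) * (p : ℤ) := by
            rw [← Nat.cast_mul, ← pow_succ]
            congr 2
            omega
          rw [e, hw]
          ring
      obtain ⟨hR₁, hR₂⟩ := reg_of_nodes S hP (p ^ j) hG₁ hG₂ hK.dvd hnode
      exact ⟨φ x / φ y, L.div_mem (hφL x) (hφL y), hK, hG₁, hG₂, hR₁, hR₂⟩)
  have hX : Nat.card (↥S.nodes → ZMod p) = p ^ S.nodes.card := by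
    rw [Nat.card_fun, Nat.card_eq_fintype_card (α := ↥S.nodes), Fintype.card_coe,
      Nat.card_eq_fintype_card, ZMod.card]
  rwa [hX] at key

/-- **ST-RANK (f), weak form**: `#G ≤ p ^ δ · #Pic⁰(F₁)[n] · #Pic⁰(F₂)[n] · #T`, `n = p ^ j`. -/
theorem card_inGA_le_weak [IsAlgClosed k] (S : SSD K F k F₁ F₂) (L : Subfield F)
    (hP : HasPrincipalDivisors K F) (H₁ : FFHyp k F₁) (H₂ : FFHyp k F₂) (p j : ℕ)
    (hp : p.Prime)
    (hweak : ∀ f : F, f ∈ L → S.c₁.IsGU f → S.c₂.IsGU f →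
      (∀ P : Place K F, ((p ^ j : ℕ) : ℤ) ∣ P.ord f) →
      ∀ s ∈ S.nodes, ((p ^ (j - 1) : ℕ) : ℤ) ∣ s.1.ord (S.c₁.rd f))
    [Finite (Pic0.torsion k F₁ (p ^ j))] [Finite (Pic0.torsion k F₂ (p ^ j))]
    (hfin : {x : Pic0 K F | InGA S L (p ^ j) x}.Finite) :
    Nat.card {x : Pic0 K F | InGA S L (p ^ j) x} ≤
      p ^ S.nodes.card * (Nat.card (Pic0.torsion k F₁ (p ^ j)) *
        Nat.card (Pic0.torsion k F₂ (p ^ j)) *
          Nat.card {x : Pic0 K F | InTA S L (p ^ j) x}) := by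
  have hfinR : {x : Pic0 K F | InGregA S L (p ^ j) x}.Finite :=
    hfin.subset (fun x hx => InGregA.inGA hx)
  have hfinT : {x : Pic0 K F | InTA S L (p ^ j) x}.Finite :=
    hfin.subset (fun x hx => InTA.inGA hx)
  exact (card_inGA_le_inGregA S L hP p j hp hweak hfinR).trans
    (Nat.mul_le_mul_left _
      (card_inGregA_le S L H₁ H₂ (p ^ j) (pow_ne_zero _ hp.ne_zero) hfinT))

end Abs2

end Fermat.Agent.S59.LL.SQ.H69
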