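import Fermat.Agent.S59.LL.SQ.H83_StRankG
import Fermat.Agent.S59.LL.SQ.H69_StRankFAbs2
import Fermat.Agent.BAD.ABS

/-!
# S59 / LL / SQ, leaf ST-RANK (owner helper20): the toric family and the abstract assembly

`S : BAD.SSD K F k F₁ F₂` a semistable Deuring datum, `L` a subfield of `F`, `n = p ^ e`.
`T = {x | InTA S L n x}` (helper69): the classes with a Kummer function `f ∈ L`, a unit for the two
valuations, with reductions `φ₁ ^ n`, `φ₂ ^ n`.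

* `isKumA_mul_pow`, `eq_of_isKumA_pow` : Kummer functions modulo `n`-th powers;
* `torMonoid S L n` : the functions `f y ^ n`, `f ∈ L` a unit for the two valuations;
* `exists_isTor_of_toric` : the moving lemma puts a toric Kummer function in good position:
  `f y ^ n` is as in `S15.Desc.H83.IsTor`;
* `exists_isTor_of_inTA` : the same for a class of `T`;
* `exists_glue_of_card` : if `p ^ (2 e (δ - 1)) ≤ p ^ (e + c') · #T ^ 2` with `c' < e`, every vector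
  `θ : nodes → μ_p` is the glue vector of `f y ^ n`, `f ∈ L` (helper83's `exists_tor_of_count`);
* `card_chain` : the arithmetic of the counts (a), (b), (d), (f);
* `exists_glue_of_counts` : the abstract assembly.

This file contains no unproved statement.
-/

set_option autoImplicit false
set_option linter.style.haveILetI false
set_option linter.unusedSectionVars false
set_option linter.unusedVariables false
set_option maxHeartbeats 1000000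

noncomputable section

open AlgebraicCurve

attribute [local instance] Classical.propDecidable

namespace Fermat.Agent.S59.LL.SQ.H20

open Fermat.Agent.RED.H17 Fermat.Agent.RED Fermat.Agent.BAD Fermat.Agent.S15.Desc.H83
open Fermat.Agent.S59.LL.SQ.H69

/-! ### Kummer functions modulo `n`-th powers -/

section Kum

variable {K F : Type*} [Field K] [Field F] [Algebra K F]

/-- `y ^ n` is a Kummer function of the class `0`. -/
theorem isKumA_zero_pow (hP : HasPrincipalDivisors K F) (n : ℕ) {y : F} (hy : y ≠ 0) :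
    IsKumA n (0 : Pic0 K F) (y ^ n) := by
  refine ⟨⟨dv hP y, Divisor.mem_degZero.mpr (degree_dv hP y)⟩, ?_, fun P => ?_⟩
  · symm
    rw [Pic0.mk, QuotientAddGroup.eq_zero_iff, AddSubgroup.mem_addSubgroupOf]
    exact dv_mem_principal hP hy
  · show (n : ℤ) * dv hP y P = _
    rw [dv_apply, ord_pow]

/-- The product of two Kummer functions. -/
theorem isKumA_mul {n : ℕ} {x x' : Pic0 K F} {f f' : F} (h : IsKumA n x f)
    (h' : IsKumA n x' f') (hf : f ≠ 0) (hf' : f' ≠ 0) : IsKumA n (x + x') (f * f') := by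
  obtain ⟨D, rfl, hD⟩ := h
  obtain ⟨D', rfl, hD'⟩ := h'
  refine ⟨D + D', rfl, fun P => ?_⟩
  rw [P.ord_mul hf hf', ← hD P, ← hD' P]
  show (n : ℤ) * ((D : Divisor K F) + (D' : Divisor K F)) P = _
  rw [Finsupp.add_apply]
  ring

/-- A Kummer function may be multiplied by an `n`-th power. -/
theorem isKumA_mul_pow (hP : HasPrincipalDivisors K F) {n : ℕ} {x : Pic0 K F} {f : F}
    (h : IsKumA n x f) (hf : f ≠ 0) {y : F} (hy : y ≠ 0) : IsKumA n x (f * y ^ n) := by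
  have h1 := isKumA_mul h (isKumA_zero_pow hP n hy) hf (pow_ne_zero n hy)
  rwa [add_zero] at h1

/-- A class with an `n`-th power as Kummer function is `0`. -/
theorem eq_zero_of_isKumA_pow {n : ℕ} (hn : n ≠ 0) {z : Pic0 K F} {w : F} (hw : w ≠ 0)
    (h : IsKumA n z (w ^ n)) : z = 0 := by
  obtain ⟨D, rfl, hD⟩ := h
  rw [Pic0.mk, QuotientAddGroup.eq_zero_iff, AddSubgroup.mem_addSubgroupOf]
  refine ⟨w, hw, fun P => ?_⟩
  have hnZ : (n : ℤ) ≠ 0 := by exact_mod_cast hn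
  have h1 := hD P
  rw [ord_pow] at h1
  exact mul_left_cancel₀ hnZ h1

/-- Two classes whose Kummer functions differ by an `n`-th power are equal. -/
theorem eq_of_isKumA_pow {n : ℕ} (hn : n ≠ 0) {x x' : Pic0 K F} {f f' : F} (h : IsKumA n x f)
    (h' : IsKumA n x' f') (hf : f ≠ 0) (hf' : f' ≠ 0) (hw : ∃ w : F, w ^ n * f' = f) :
    x = x' := by
  obtain ⟨w, hw⟩ := hw
  have hw0 : w ≠ 0 := by
    rintro rfl
    rw [zero_pow hn, zero_mul] at hw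
    exact hf hw.symm
  have h1 := h.div h' hf hf'
  have e : f / f' = w ^ n := by
    rw [← hw]
    field_simp
  rw [e] at h1
  exact sub_eq_zero.mp (eq_zero_of_isKumA_pow hn hw0 h1)

end Kum

/-! ### The toric family -/

section Fam

variable {K F k F₁ F₂ : Type} [Field K] [Field F] [Algebra K F] [Field k] [Field F₁]
  [Algebra k F₁] [Field F₂] [Algebra k F₂]

/-- The functions `f y ^ n`, `f ∈ L` a unit for the two valuations. -/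
def torMonoid (S : SSD K F k F₁ F₂) (L : Subfield F) (n : ℕ) : Submonoid F where
  carrier := {g | ∃ f ∈ L, S.c₁.IsGU f ∧ S.c₂.IsGU f ∧ ∃ y : F, g = f * y ^ n}
  one_mem' := ⟨1, L.one_mem, S.c₁.isGU_one, S.c₂.isGU_one, 1, by rw [one_pow, mul_one]⟩
  mul_mem' := by
    rintro a b ⟨f, hf, h₁, h₂, y, rfl⟩ ⟨f', hf', h₁', h₂', y', rfl⟩
    exact ⟨f * f', L.mul_mem hf hf', h₁.mul h₁', h₂.mul h₂', y * y', by ring⟩

theorem mem_torMonoid {S : SSD K F k F₁ F₂} {L : Subfield F} {n : ℕ} {g : F} :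
    g ∈ torMonoid S L n ↔
      ∃ f ∈ L, S.c₁.IsGU f ∧ S.c₂.IsGU f ∧ ∃ y : F, g = f * y ^ n := Iff.rfl

/-- **Moving a toric Kummer function to good position.**  If `f` is a unit for the two
valuations with reductions `φ₁ ^ n`, `φ₂ ^ n` and `n ∣ div f`, then for some `y ≠ 0` the function
`f y ^ n` is toric in good position. -/
theorem exists_isTor_of_toric [Infinite k] (S : SSD K F k F₁ F₂)
    (H : FFHyp K F) (H₁ : FFHyp k F₁) (H₂ : FFHyp k F₂)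
    (g g₁ g₂ : ℕ) (c c₁ c₂ : ℤ) (hR : IsGenus K F g c) (hR₁ : IsGenus k F₁ g₁ c₁)
    (hR₂ : IsGenus k F₂ g₂ c₂) (hnum : g + 1 ≤ g₁ + g₂ + S.nodes.card)
    (n : ℕ) (hn : (n : k) ≠ 0) {f : F} (G₁ : S.c₁.IsGU f) (G₂ : S.c₂.IsGU f)
    {φ₁ : F₁} {φ₂ : F₂} (e₁ : S.c₁.rd f = φ₁ ^ n) (e₂ : S.c₂.rd f = φ₂ ^ n)
    (hdiv : ∀ P : Place K F, (n : ℤ) ∣ P.ord f) :
    ∃ (y : F) (ψ₁ : F₁) (ψ₂ : F₂), y ≠ 0 ∧ IsTor S n (f * y ^ n) ψ₁ ψ₂ := by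
  have hn0 : n ≠ 0 := by
    rintro rfl
    exact hn Nat.cast_zero
  have hφ₁ : φ₁ ≠ 0 := by
    rintro rfl
    rw [zero_pow hn0] at e₁
    exact G₁.rd_ne_zero e₁
  have hφ₂ : φ₂ ≠ 0 := by
    rintro rfl
    rw [zero_pow hn0] at e₂
    exact G₂.rd_ne_zero e₂
  obtain ⟨X₁, hX₁m, hX₁r⟩ := S.c₁.exists_rd_eq φ₁
  obtain ⟨X₂, hX₂m, hX₂r⟩ := S.c₂.exists_rd_eq φ₂
  have hX₁ : S.c₁.IsGU X₁ := ⟨hX₁m, by rw [hX₁r]; exact hφ₁⟩
  have hX₂ : S.c₂.IsGU X₂ := ⟨hX₂m, by rw [hX₂r]; exact hφ₂⟩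
  have hX₁0 : X₁ ≠ 0 := hX₁.ne_zero
  have hX₂0 : X₂ ≠ 0 := hX₂.ne_zero
  have hf0 : f ≠ 0 := G₁.ne_zero
  set f' : F := f / X₁ ^ n with hf'
  set ϑ : F := X₂ / X₁ with hϑ
  have hϑ0 : ϑ ≠ 0 := div_ne_zero hX₂0 hX₁0
  have hf'GU : S.c₁.IsGU f' := G₁.div (hX₁.pow n)
  have hf'rd : S.c₁.rd f' = 1 := by
    rw [hf', G₁.rd_div (hX₁.pow n), e₁, S.c₁.rd_pow hX₁m, hX₁r, div_self (pow_ne_zero _ hφ₁)]
  have key : f' / ϑ ^ n = f / X₂ ^ n := by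
    rw [hf', hϑ, div_pow]
    have h1 : X₁ ^ n ≠ 0 := pow_ne_zero _ hX₁0
    have h2 : X₂ ^ n ≠ 0 := pow_ne_zero _ hX₂0
    field_simp
  have hf'₂ : S.c₂.IsGU (f' / ϑ ^ n) := by
    rw [key]
    exact G₂.div (hX₂.pow n)
  have hf'₂rd : S.c₂.rd (f' / ϑ ^ n) = 1 := by
    rw [key, G₂.rd_div (hX₂.pow n), e₂, S.c₂.rd_pow hX₂m, hX₂r, div_self (pow_ne_zero _ hφ₂)]
  have hf'0 : f' ≠ 0 := hf'GU.ne_zero
  have hdiv' : ∀ P : Place K F, (n : ℤ) ∣ P.ord f' := by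
    intro P
    rw [hf', ord_div P hf0 (pow_ne_zero _ hX₁0), ord_pow]
    exact dvd_sub (hdiv P) (dvd_mul_right _ _)
  let x : S.Twist n :=
    { f := f'
      ϑ := ϑ
      hϑ := hϑ0
      hf₁ := hf'GU.1
      hrd₁ := hf'rd
      hf₂ := hf'₂
      hdiv := hdiv'
      hγ := fun s _ => by rw [hf'₂rd, Place.ord_one] }
  obtain ⟨h, hhG₁, hhG₂, hnode⟩ :=
    stmt_Moving K F k F₁ F₂ S H H₁ H₂ g g₁ g₂ c c₁ c₂ hR hR₁ hR₂ hnum n hn x
  change S.c₂.IsGU (ϑ * h) at hhG₂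
  change ∀ P : Place K F, S.IsNodeP P → P.ord (f' * h ^ n) = 0 at hnode
  have hh0 : h ≠ 0 := hhG₁.ne_zero
  have hy0 : h / X₁ ≠ 0 := div_ne_zero hh0 hX₁0
  have hFy : f * (h / X₁) ^ n = f' * h ^ n := by
    rw [hf', div_pow]
    have h1 : X₁ ^ n ≠ 0 := pow_ne_zero _ hX₁0
    field_simp
  have eFh : f' * h ^ n = (f' / ϑ ^ n) * (ϑ * h) ^ n := by
    have hϑn : ϑ ^ n ≠ 0 := pow_ne_zero _ hϑ0
    rw [mul_pow]
    field_simp
  refine ⟨h / X₁, S.c₁.rd h, S.c₂.rd (ϑ * h), hy0, ?_⟩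
  rw [hFy]
  exact
    { gu₁ := hf'GU.mul (hhG₁.pow n)
      gu₂ := by
        rw [eFh]
        exact hf'₂.mul (hhG₂.pow n)
      rd₁ := by
        rw [S.c₁.rd_mul hf'GU.1 (hhG₁.pow n).1, hf'rd, one_mul, S.c₁.rd_pow hhG₁.1]
      rd₂ := by
        rw [eFh, S.c₂.rd_mul hf'₂.1 (hhG₂.pow n).1, hf'₂rd, one_mul, S.c₂.rd_pow hhG₂.1]
      node := hnode
      dvd := fun P => by
        rw [P.ord_mul hf'0 (pow_ne_zero _ hh0), ord_pow]
        exact dvd_add (hdiv' P) (dvd_mul_right _ _) }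

/-- A class of the toric part has a toric Kummer function in good position of the form
`f y ^ n`, `f ∈ L`. -/
theorem exists_isTor_of_inTA [Infinite k] (S : SSD K F k F₁ F₂)
    (H : FFHyp K F) (H₁ : FFHyp k F₁) (H₂ : FFHyp k F₂)
    (g g₁ g₂ : ℕ) (c c₁ c₂ : ℤ) (hR : IsGenus K F g c) (hR₁ : IsGenus k F₁ g₁ c₁)
    (hR₂ : IsGenus k F₂ g₂ c₂) (hnum : g + 1 ≤ g₁ + g₂ + S.nodes.card)
    (n : ℕ) (hn : (n : k) ≠ 0) (L : Subfield F) {x : Pic0 K F} (hx : InTA S L n x) :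
    ∃ (G : F) (ψ₁ : F₁) (ψ₂ : F₂), G ∈ torMonoid S L n ∧ IsKumA n x G ∧ IsTor S n G ψ₁ ψ₂ := by
  obtain ⟨f, hfL, hK, G₁, G₂, φ₁, φ₂, e₁, e₂⟩ := hx
  obtain ⟨y, ψ₁, ψ₂, hy0, hT⟩ := exists_isTor_of_toric S H H₁ H₂ g g₁ g₂ c c₁ c₂ hR hR₁ hR₂ hnum
    n hn G₁ G₂ e₁ e₂ hK.dvd
  exact ⟨f * y ^ n, ψ₁, ψ₂, ⟨f, hfL, G₁, G₂, y, rfl⟩,
    isKumA_mul_pow H.principal hK G₁.ne_zero hy0, hT⟩

/-- **ST-RANK from the count of the toric part.**  If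
`p ^ (2 e (δ - 1)) ≤ p ^ (e + c') · #T ^ 2` with `c' < e`, then every vector `θ : nodes → μ_p` is
the glue vector of a toric function `f y ^ (p ^ e)` in good position, `f ∈ L`. -/
theorem exists_glue_of_card (S : SSD K F k F₁ F₂) [IsAlgClosed K] [IsAlgClosed k]
    (H : FFHyp K F) (H₁ : FFHyp k F₁) (H₂ : FFHyp k F₂)
    (g g₁ g₂ : ℕ) (c c₁ c₂ : ℤ) (hR : IsGenus K F g c) (hR₁ : IsGenus k F₁ g₁ c₁)
    (hR₂ : IsGenus k F₂ g₂ c₂) (hnum : g + 1 ≤ g₁ + g₂ + S.nodes.card)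
    (p e c' : ℕ) (hp : p.Prime) (hpk : (p : k) ≠ 0) (hce : c' < e) (L : Subfield F)
    (hfin : {x : Pic0 K F | InTA S L (p ^ e) x}.Finite)
    (hcard : p ^ (2 * e * (S.nodes.card - 1)) ≤
      p ^ (e + c') * Nat.card ↥{x : Pic0 K F | InTA S L (p ^ e) x} ^ 2)
    (θ : Place k F₁ × Place k F₂ → k) (hθ : ∀ s ∈ S.nodes, θ s ^ p = 1) :
    ∃ (f y : F) (ψ₁ : F₁) (ψ₂ : F₂), f ∈ L ∧ S.c₁.IsGU f ∧ S.c₂.IsGU f ∧
      IsTor S (p ^ e) (f * y ^ (p ^ e)) ψ₁ ψ₂ ∧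
      ∀ s ∈ S.nodes, ∃ a b : k, b ≠ 0 ∧ VanAt s.1 (ψ₁ - algebraMap k F₁ a) ∧
        VanAt s.2 (ψ₂ - algebraMap k F₂ b) ∧ a = θ s * b := by
  haveI : Infinite k := IsAlgClosed.instInfinite
  letI : Fintype ↥{x : Pic0 K F | InTA S L (p ^ e) x} := hfin.fintype
  have hn0 : p ^ e ≠ 0 := pow_ne_zero _ hp.ne_zero
  have hnk : ((p ^ e : ℕ) : k) ≠ 0 := by
    rw [Nat.cast_pow]
    exact pow_ne_zero _ hpk
  have hex : ∀ t : ↥{x : Pic0 K F | InTA S L (p ^ e) x}, ∃ (G : F) (ψ₁ : F₁) (ψ₂ : F₂),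
      G ∈ torMonoid S L (p ^ e) ∧ IsKumA (p ^ e) (t : Pic0 K F) G ∧ IsTor S (p ^ e) G ψ₁ ψ₂ :=
    fun t => exists_isTor_of_inTA S H H₁ H₂ g g₁ g₂ c c₁ c₂ hR hR₁ hR₂ hnum (p ^ e) hnk L t.2
  choose G ψ₁ ψ₂ hGM hGK hGT using hex
  have hinj : ∀ t t' : ↥{x : Pic0 K F | InTA S L (p ^ e) x},
      (∃ h : F, h ^ (p ^ e) * G t' = G t) → t = t' := fun t t' hw =>
    Subtype.ext (eq_of_isKumA_pow hn0 (hGK t) (hGK t') (hGT t).gu₁.ne_zero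
      (hGT t').gu₁.ne_zero hw)
  have hcard' : p ^ (2 * e * (S.nodes.card - 1)) ≤
      p ^ (e + c') * Fintype.card ↥{x : Pic0 K F | InTA S L (p ^ e) x} ^ 2 := by
    rwa [Nat.card_eq_fintype_card] at hcard
  obtain ⟨G', ψ₁', ψ₂', hM', hT', hv⟩ := Fermat.Agent.S59.LL.SQ.H83.exists_tor_of_count S H H₁ H₂
    g g₁ g₂ c c₁ c₂ hR hR₁ hR₂ hnum p e c' hp hpk hce (torMonoid S L (p ^ e))
    ↥{x : Pic0 K F | InTA S L (p ^ e) x} G ψ₁ ψ₂ hGM hGT hinj hcard' θ hθ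
  obtain ⟨f, hfL, hf₁, hf₂, y, rfl⟩ := hM'
  exact ⟨f, y, ψ₁', ψ₂', hfL, hf₁, hf₂, hT', hv⟩

/-- **The arithmetic of the counts.** -/
theorem card_chain (p e δ g g₁ g₂ NT NVI NG : ℕ) (hp : p.Prime)
    (hnum : g + 1 = g₁ + g₂ + δ)
    (h1 : p ^ (2 * g * e) ≤ NT * NVI) (h2 : NVI ≤ p ^ e * NG)
    (h3 : NG ≤ p ^ δ * (p ^ (2 * g₁ * e) * p ^ (2 * g₂ * e) * NT)) :
    p ^ (2 * e * (δ - 1)) ≤ p ^ (e + δ) * NT ^ 2 := by
  have hpos : 0 < p := hp.pos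
  have hNT : 0 < NT := by
    rcases Nat.eq_zero_or_pos NT with h0 | h0
    · rw [h0, zero_mul] at h1
      have := pow_pos hpos (2 * g * e)
      omega
    · exact h0
  rcases Nat.eq_zero_or_pos δ with hδ | hδ
  · subst hδ
    have h4 : 0 < p ^ (e + 0) * NT ^ 2 := Nat.mul_pos (pow_pos hpos _) (pow_pos hNT 2)
    have h5 : p ^ (2 * e * (0 - 1)) = 1 := by
      rw [Nat.zero_sub, Nat.mul_zero, pow_zero]
    rw [h5]
    exact h4
  have h5 : p ^ (2 * g * e) ≤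
      p ^ (2 * g₁ * e + 2 * g₂ * e) * (p ^ (e + δ) * NT ^ 2) := by
    calc p ^ (2 * g * e) ≤ NT * NVI := h1
      _ ≤ NT * (p ^ e * NG) := Nat.mul_le_mul_left _ h2
      _ ≤ NT * (p ^ e * (p ^ δ * (p ^ (2 * g₁ * e) * p ^ (2 * g₂ * e) * NT))) :=
          Nat.mul_le_mul_left _ (Nat.mul_le_mul_left _ h3)
      _ = p ^ (2 * g₁ * e + 2 * g₂ * e) * (p ^ (e + δ) * NT ^ 2) := by
          rw [pow_add, pow_add]
          ring
  have h6 : 2 * g * e = (2 * g₁ * e + 2 * g₂ * e) + 2 * e * (δ - 1) := by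
    obtain ⟨d, rfl⟩ : ∃ d, δ = d + 1 := ⟨δ - 1, by omega⟩
    have hg : g = g₁ + g₂ + d := by omega
    subst hg
    simp only [Nat.add_sub_cancel]
    ring
  rw [h6, pow_add] at h5
  exact Nat.le_of_mul_le_mul_left h5 (pow_pos hpos _)

/-- **ST-RANK, abstract assembly**: the counts (a) `#V = p ^ (2 g e)`, (b)+(c) `#V ≤ #T · #V^I`,
(d) `#V^I ≤ p ^ e · #G`, (f) `#G ≤ p ^ δ · #Pic⁰(F₁)[n] · #Pic⁰(F₂)[n] · #T`, the counts on the
components and `g + 1 = g₁ + g₂ + δ` give: every vector `θ : nodes → μ_p` is the glue vector of a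
toric function `f y ^ (p ^ e)` in good position, `f ∈ L`, if `δ < e`. -/
theorem exists_glue_of_counts (S : SSD K F k F₁ F₂) [IsAlgClosed K] [IsAlgClosed k]
    (H : FFHyp K F) (H₁ : FFHyp k F₁) (H₂ : FFHyp k F₂)
    (g g₁ g₂ : ℕ) (c c₁ c₂ : ℤ) (hR : IsGenus K F g c) (hR₁ : IsGenus k F₁ g₁ c₁)
    (hR₂ : IsGenus k F₂ g₂ c₂) (hnum : g + 1 = g₁ + g₂ + S.nodes.card)
    (p e : ℕ) (hp : p.Prime) (hpk : (p : k) ≠ 0) (he : S.nodes.card < e) (L : Subfield F)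
    (hfin : {x : Pic0 K F | InTA S L (p ^ e) x}.Finite)
    (NVI NG : ℕ)
    (h1 : p ^ (2 * g * e) ≤ Nat.card ↥{x : Pic0 K F | InTA S L (p ^ e) x} * NVI)
    (h2 : NVI ≤ p ^ e * NG)
    (h3 : NG ≤ p ^ S.nodes.card * (p ^ (2 * g₁ * e) * p ^ (2 * g₂ * e) *
      Nat.card ↥{x : Pic0 K F | InTA S L (p ^ e) x}))
    (θ : Place k F₁ × Place k F₂ → k) (hθ : ∀ s ∈ S.nodes, θ s ^ p = 1) :
    ∃ (f y : F) (ψ₁ : F₁) (ψ₂ : F₂), f ∈ L ∧ S.c₁.IsGU f ∧ S.c₂.IsGU f ∧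
      IsTor S (p ^ e) (f * y ^ (p ^ e)) ψ₁ ψ₂ ∧
      ∀ s ∈ S.nodes, ∃ a b : k, b ≠ 0 ∧ VanAt s.1 (ψ₁ - algebraMap k F₁ a) ∧
        VanAt s.2 (ψ₂ - algebraMap k F₂ b) ∧ a = θ s * b :=
  exists_glue_of_card S H H₁ H₂ g g₁ g₂ c c₁ c₂ hR hR₁ hR₂ hnum.le p e S.nodes.card hp hpk he L
    hfin (card_chain p e S.nodes.card g g₁ g₂ _ NVI NG hp hnum h1 h2 h3) θ hθ

end Fam

end Fermat.Agent.S59.LL.SQ.H20
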