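import Fermat.Agent.S59.LL.SQ.H56_StRankDMod

/-!
# S59 / LL / SQ, ST-RANK (c), input M2 LOWVAL (helper56)

`A` over the prime `q`, level `M q`, `S` a semistable Deuring datum of `F_{M q} · ℚ̄` whose two
valuation rings are `V1 A q M` and `V2 A q M a b hab hq` (for `S43.H91.modSSD`: `modSSD_c₁_V`,
`modSSD_c₂_V`, both `rfl`), `p = algebraMap ℚ̄ F (q : ℚ̄)`.

* `lowVal₁`, `lowVal₂` : every `f ≠ 0` of `L0 A (M q)` is `p ^ m` times a unit, for the first and
  for the second valuation;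
* `isGU_zpow_q_imp₁`, `isGU_zpow_q_imp₂` : `p ^ m` is a unit only for `m = 0`.

This file contains no unproved statement.
-/

set_option autoImplicit false
set_option linter.style.haveILetI false
set_option linter.unusedSectionVars false
set_option synthInstance.maxHeartbeats 400000
set_option maxHeartbeats 1000000

noncomputable section

open ModularCurve AlgebraicCurve
open Fermat.Agent.S24 Fermat.Agent.BAD.H88 Fermat.Agent.S28 Fermat.Agent.S28.H73
open Fermat.Agent.RED.H73 Fermat.Agent.RED.H17 Fermat.Agent.S36.NU.H88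
open Fermat.Agent.S36.NU.H23 Fermat.Agent.BAD Fermat.Agent.S36.NU.H82
open Fermat.Agent.S36.NU.H51 Fermat.Agent.S59.LL.SQ.H69

attribute [local instance] Classical.propDecidable

namespace Fermat.Agent.S59.LL.SQ.H56

section Mod

variable (A : ValuationSubring Kbar) (q M : ℕ) (a b : ℤ) (hab : a * q + b * M = 1)
  (hq : q.Prime) [NeZero (M * q)] (hA : A.LiesOverPrime q)
  {k F₁ F₂ : Type} [Field k] [Field F₁] [Algebra k F₁] [Field F₂] [Algebra k F₂]
  (S : SSD Kbar (FN (M * q)) k F₁ F₂)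
  (hV₁ : S.c₁.V = V1 A q M) (hV₂ : S.c₂.V = V2 A q M a b hab hq)

omit [NeZero (M * q)] in
theorem qc_eq_zpow (m : ℤ) :
    qc Kbar (FN (M * q)) q m = algebraMap Kbar (FN (M * q)) (q : Kbar) ^ m := by
  unfold qc
  rw [map_zpow₀]

include hq hA hV₁ hV₂ in
/-- **M2 LOWVAL**, first valuation. -/
theorem lowVal₁ (f : FN (M * q)) (hf : f ∈ L0 A (M * q)) (hf0 : f ≠ 0) :
    ∃ m : ℤ, S.c₁.IsGU (f / algebraMap Kbar (FN (M * q)) (q : Kbar) ^ m) := by
  obtain ⟨m, hm⟩ := ((intScale_mod A q M a b hab hq hA S hV₁ hV₂).1 f hf hf0).1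
  refine ⟨-m, ?_⟩
  rw [qc_eq_zpow] at hm
  rwa [zpow_neg, div_inv_eq_mul, mul_comm f]

include hq hA hV₁ hV₂ in
/-- **M2 LOWVAL**, second valuation. -/
theorem lowVal₂ (f : FN (M * q)) (hf : f ∈ L0 A (M * q)) (hf0 : f ≠ 0) :
    ∃ m : ℤ, S.c₂.IsGU (f / algebraMap Kbar (FN (M * q)) (q : Kbar) ^ m) := by
  obtain ⟨m, hm⟩ := ((intScale_mod A q M a b hab hq hA S hV₁ hV₂).1 f hf hf0).2
  refine ⟨-m, ?_⟩
  rw [qc_eq_zpow] at hm
  rwa [zpow_neg, div_inv_eq_mul, mul_comm f]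

include hq hA hV₁ hV₂ in
/-- `p ^ m` is a unit for the first valuation only for `m = 0`. -/
theorem isGU_zpow_q_imp₁ (m : ℤ)
    (h : S.c₁.IsGU (algebraMap Kbar (FN (M * q)) (q : Kbar) ^ m)) : m = 0 := by
  rw [← qc_eq_zpow] at h
  exact (intScale_mod A q M a b hab hq hA S hV₁ hV₂).2.1 m h

include hq hA hV₁ hV₂ in
/-- `p ^ m` is a unit for the second valuation only for `m = 0`. -/
theorem isGU_zpow_q_imp₂ (m : ℤ)
    (h : S.c₂.IsGU (algebraMap Kbar (FN (M * q)) (q : Kbar) ^ m)) : m = 0 := by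
  rw [← qc_eq_zpow] at h
  exact (intScale_mod A q M a b hab hq hA S hV₁ hV₂).2.2 m h

end Mod

end Fermat.Agent.S59.LL.SQ.H56

end
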