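import Fermat.Agent.S59.LL.SQ.H56_LowVal
import Fermat.Agent.BAD.H28_NodeRad
import Fermat.Agent.S05.H37_Inertia

/-!
# S59 / LL / SQ, ST-RANK (c), input M3 CONST (helper56)

`A` over the prime `q`, level `M q`, `I = A.inertiaSubgroupIn ℚ`, `S` a semistable Deuring datum
of `F_{M q} · ℚ̄` whose first valuation ring is `V1 A q M` (for `S43.H91.modSSD`: `modSSD_c₁_V`,
`rfl`).  `S.IsCU c` : the constant `c` is a unit (`BAD.SSD.IsCU`).

* `isCU_of_mem` : a unit of `A` is a unit constant;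
* `m3a` : `σ a / a` is a unit constant for `σ ∈ I`, `a ≠ 0`;
* `m3b` : an `I`-fixed constant `Y ≠ 0` is `q ^ m` times a unit constant;
* `m3c` : `q ^ m` is a unit constant only for `m = 0`.

This file contains no unproved statement.
-/

set_option autoImplicit false
set_option linter.style.haveILetI false
set_option linter.unusedSectionVars false
set_option synthInstance.maxHeartbeats 400000
set_option maxHeartbeats 1000000

noncomputable section

open ModularCurve AlgebraicCurve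
open Fermat.Agent.S24 Fermat.Agent.BAD.H88 Fermat.Agent.S28 Fermat.Agent.S28.H73
open Fermat.Agent.RED.H73 Fermat.Agent.RED.H17 Fermat.Agent.S36.NU.H88
open Fermat.Agent.S36.NU.H23 Fermat.Agent.BAD Fermat.Agent.S36.NU.H82
open Fermat.Agent.S36.NU.H51

attribute [local instance] Classical.propDecidable

namespace Fermat.Agent.S59.LL.SQ.H56

section Abs

variable {K F k F' : Type*} [Field K] [Field F] [Algebra K F] [Field k] [Field F']
  [Algebra k F']

/-- A function which is integral with integral inverse is a unit. -/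
theorem isGU_of_mem_of_inv_mem (c : PRed K F k F') {f : F} (hf : f ∈ c.V) (hf' : f⁻¹ ∈ c.V)
    (hf0 : f ≠ 0) : c.IsGU f := by
  rw [c.isGU_iff_isUnit hf]
  exact isUnit_iff_exists_inv.2 ⟨⟨f⁻¹, hf'⟩, Subtype.ext (mul_inv_cancel₀ hf0)⟩

end Abs

section Mod

variable (A : ValuationSubring Kbar) (q M : ℕ) [NeZero (M * q)]
  {k F₁ F₂ : Type} [Field k] [Field F₁] [Algebra k F₁] [Field F₂] [Algebra k F₂]
  (S : SSD Kbar (FN (M * q)) k F₁ F₂) (hV₁ : S.c₁.V = V1 A q M)

include hV₁ in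
/-- A unit of `A` is a unit constant. -/
theorem isCU_of_mem {c : Kbar} (hc : c ∈ A) (hc' : c⁻¹ ∈ A) (hc0 : c ≠ 0) : S.IsCU c := by
  have h1 : algebraMap Kbar (FN (M * q)) c ∈ S.c₁.V := by
    rw [hV₁]
    exact (const_mem1 A q M c).2 hc
  have h2 : (algebraMap Kbar (FN (M * q)) c)⁻¹ ∈ S.c₁.V := by
    rw [hV₁, ← map_inv₀]
    exact (const_mem1 A q M c⁻¹).2 hc'
  exact isGU_of_mem_of_inv_mem S.c₁ h1 h2
    ((map_ne_zero_iff _ (algebraMap Kbar (FN (M * q))).injective).mpr hc0)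

include hV₁ in
/-- A constant of valuation `1` is a unit constant. -/
theorem isCU_of_val_eq_one {c : Kbar} (hc : A.valuation c = 1) : S.IsCU c := by
  have hc0 : c ≠ 0 := by
    rintro rfl
    rw [map_zero] at hc
    exact zero_ne_one hc
  have h2 : A.valuation c⁻¹ = 1 := by rw [map_inv₀, hc, inv_one]
  exact isCU_of_mem A q M S hV₁ ((A.valuation_le_one_iff _).mp hc.le)
    ((A.valuation_le_one_iff _).mp h2.le) hc0

include hV₁ in
/-- **M3a**: `σ a / a` is a unit constant for `σ` in the inertia group. -/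
theorem m3a (σ : Kbar ≃ₐ[ℚ] Kbar) (hσ : σ ∈ A.inertiaSubgroupIn ℚ) (a : Kbar) (ha : a ≠ 0) :
    S.IsCU (σ a / a) := by
  haveI : Algebra.IsAlgebraic ℚ Kbar := AlgebraicClosure.isAlgebraic ℚ
  have hdec := Fermat.Agent.S05.H37.mem_decomposition_of_mem_inertiaIn A hσ
  have hv := Fermat.Agent.S05.H37.valuation_apply_eq_of_mem_decomposition A hdec a
  refine isCU_of_val_eq_one A q M S hV₁ ?_
  rw [map_div₀, hv]
  exact div_self ((map_ne_zero _).mpr ha)

include hV₁ in
/-- **M3b**: an inertia-fixed constant is `q ^ m` times a unit constant. -/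
theorem m3b (hq : q.Prime) (hA : A.LiesOverPrime q) (Y : Kbar) (hY : Y ≠ 0)
    (hfix : ∀ σ ∈ A.inertiaSubgroupIn ℚ, σ Y = Y) :
    ∃ m : ℤ, S.IsCU (Y / (q : Kbar) ^ m) := by
  obtain ⟨m, hm⟩ := valuation_Kur A hq hA Y hfix hY
  refine ⟨m, isCU_of_val_eq_one A q M S hV₁ ?_⟩
  have hq0 : (q : Kbar) ≠ 0 := Nat.cast_ne_zero.2 hq.ne_zero
  rw [map_div₀, map_zpow₀, hm]
  exact div_self (zpow_ne_zero _ ((map_ne_zero _).mpr hq0))

end Mod

section Mod2

variable (A : ValuationSubring Kbar) (q M : ℕ) (a b : ℤ) (hab : a * q + b * M = 1)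
  (hq : q.Prime) [NeZero (M * q)] (hA : A.LiesOverPrime q)
  {k F₁ F₂ : Type} [Field k] [Field F₁] [Algebra k F₁] [Field F₂] [Algebra k F₂]
  (S : SSD Kbar (FN (M * q)) k F₁ F₂)
  (hV₁ : S.c₁.V = V1 A q M) (hV₂ : S.c₂.V = V2 A q M a b hab hq)

include hq hA hV₁ hV₂ in
/-- **M3c**: `q ^ m` is a unit constant only for `m = 0`. -/
theorem m3c (m : ℤ) (h : S.IsCU ((q : Kbar) ^ m)) : m = 0 := by
  have h1 : S.c₁.IsGU (algebraMap Kbar (FN (M * q)) ((q : Kbar) ^ m)) := h
  rw [map_zpow₀] at h1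
  exact isGU_zpow_q_imp₁ A q M a b hab hq hA S hV₁ hV₂ m h1

end Mod2

end Fermat.Agent.S59.LL.SQ.H56

end
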