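import Fermat.Agent.BAD.H28_PRed
import Fermat.Agent.BAD.SSD

/-!
# S59 / LL / SQ, leaf ST-RANK (f), abstract part (helper69)

`S : BAD.SSD K F k F₁ F₂` a semistable Deuring datum, `L` a subfield of `F` (modular: the
functions fixed by the inertia group), `n ≠ 0`.

* `IsKumA n x f` : `f` is a Kummer function of the class `x` (`x = [D]`, `n D = div f`);
* `InGA S L n x` : **the finite part**: `x` has a Kummer function in `L` which is a unit for the
  two valuations;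
* `InTA S L n x` : **the toric part**: moreover the two reductions are `n`-th powers;
* `card_le_of_fibres` : counting along the fibres of a map;
* `rootCls` : the class of `(1/n) div ψ` in `Pic⁰[n]`, and `eq_of_rootCls_eq`;
* `card_inGA_le` : **ST-RANK (f), abstract form**: if the reductions of the Kummer functions of
  the finite part have divisors divisible by `n` (REG), then
  `#G ≤ #Pic⁰(F₁)[n] · #Pic⁰(F₂)[n] · #T`.

This file contains no unproved statement.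
-/

set_option autoImplicit false
set_option linter.style.haveILetI false
set_option linter.unusedSectionVars false
set_option maxHeartbeats 1000000

noncomputable section

open AlgebraicCurve

attribute [local instance] Classical.propDecidable

namespace Fermat.Agent.S59.LL.SQ.H69

open Fermat.Agent.RED.H17 Fermat.Agent.RED Fermat.Agent.BAD

/-! ### Counting along the fibres of a map -/

/-- If two elements of `Gs` with the same image under `c` differ by an element of the finite set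
`Ts`, then `#Gs ≤ #X · #Ts`. -/
theorem card_le_of_fibres {G X : Type*} [AddCommGroup G] [Finite X] (Gs Ts : Set G)
    (hT : Ts.Finite) (c : Gs → X) (h : ∀ x y : Gs, c x = c y → (x : G) - (y : G) ∈ Ts) :
    Nat.card Gs ≤ Nat.card X * Nat.card Ts := by
  rcases isEmpty_or_nonempty Gs with he | hne
  · rw [Nat.card_of_isEmpty]
    exact Nat.zero_le _
  haveI : Finite Ts := hT
  have hinv : ∀ x : Gs, c (Function.invFun c (c x)) = c x :=
    fun x => Function.invFun_eq ⟨x, rfl⟩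
  let φ : Gs → X × Ts := fun x =>
    (c x, ⟨(x : G) - ((Function.invFun c (c x) : Gs) : G), h x _ (hinv x).symm⟩)
  have hφ : Function.Injective φ := by
    intro x y hxy
    have h1 : c x = c y := congrArg Prod.fst hxy
    have h2 : (x : G) - ((Function.invFun c (c x) : Gs) : G)
        = (y : G) - ((Function.invFun c (c y) : Gs) : G) :=
      congrArg (fun z : X × Ts => (z.2 : G)) hxy
    rw [h1] at h2
    exact Subtype.ext (sub_left_injective h2)
  have := Nat.card_le_card_of_injective φ hφ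
  rwa [Nat.card_prod] at this

/-! ### The class of `(1/n) div ψ` -/

section Root

variable {k E : Type*} [Field k] [Field E] [Algebra k E]

/-- The divisor `(1/n) div ψ`. -/
def rootDiv (hP : HasPrincipalDivisors k E) (n : ℕ) (ψ : E) : Divisor k E :=
  (dv hP ψ).mapRange (fun m : ℤ => m / (n : ℤ)) (by simp)

theorem rootDiv_apply (hP : HasPrincipalDivisors k E) (n : ℕ) (ψ : E) (Q : Place k E) :
    rootDiv hP n ψ Q = Q.ord ψ / (n : ℤ) := by
  unfold rootDiv
  rw [Finsupp.mapRange_apply, dv_apply]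

theorem zsmul_rootDiv (hP : HasPrincipalDivisors k E) {n : ℕ} {ψ : E}
    (hdvd : ∀ Q : Place k E, (n : ℤ) ∣ Q.ord ψ) : (n : ℤ) • rootDiv hP n ψ = dv hP ψ := by
  ext Q
  rw [Finsupp.smul_apply, rootDiv_apply, dv_apply, smul_eq_mul,
    Int.mul_ediv_cancel' (hdvd Q)]

theorem degree_rootDiv (hP : HasPrincipalDivisors k E) {n : ℕ} (hn : n ≠ 0) {ψ : E}
    (hdvd : ∀ Q : Place k E, (n : ℤ) ∣ Q.ord ψ) : Divisor.degree (rootDiv hP n ψ) = 0 := by
  have h := congrArg Divisor.degree (zsmul_rootDiv hP hdvd)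
  rw [map_zsmul, degree_dv, smul_eq_mul] at h
  rcases mul_eq_zero.mp h with h0 | h0
  · exact absurd (by exact_mod_cast h0) hn
  · exact h0

/-- The class of `(1/n) div ψ`. -/
def rootCls (hP : HasPrincipalDivisors k E) (n : ℕ) (hn : n ≠ 0) (ψ : E)
    (hdvd : ∀ Q : Place k E, (n : ℤ) ∣ Q.ord ψ) : Pic0 k E :=
  Pic0.mk ⟨rootDiv hP n ψ, degree_rootDiv hP hn hdvd⟩

theorem rootCls_mem_torsion (hP : HasPrincipalDivisors k E) (n : ℕ) (hn : n ≠ 0) {ψ : E}
    (hψ : ψ ≠ 0) (hdvd : ∀ Q : Place k E, (n : ℤ) ∣ Q.ord ψ) :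
    rootCls hP n hn ψ hdvd ∈ Pic0.torsion k E n := by
  rw [Pic0.mem_torsion]
  have e : (n : ℤ) • rootCls hP n hn ψ hdvd
      = Pic0.mk ((n : ℤ) • (⟨rootDiv hP n ψ, degree_rootDiv hP hn hdvd⟩ :
          Divisor.degZero (K := k) (F := E))) := rfl
  rw [e, Pic0.mk, QuotientAddGroup.eq_zero_iff, AddSubgroup.mem_addSubgroupOf]
  show (n : ℤ) • rootDiv hP n ψ ∈ Divisor.principal (K := k) (F := E)
  rw [zsmul_rootDiv hP hdvd]
  exact dv_mem_principal hP hψ

/-- Two functions with the same class `(1/n) div` differ by an `n`-th power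
(`k` algebraically closed). -/
theorem eq_of_rootCls_eq [IsAlgClosed k] (H : FFHyp k E) (n : ℕ) (hn : n ≠ 0) {ψ ψ' : E}
    (hψ : ψ ≠ 0) (hψ' : ψ' ≠ 0) (hdvd : ∀ Q : Place k E, (n : ℤ) ∣ Q.ord ψ)
    (hdvd' : ∀ Q : Place k E, (n : ℤ) ∣ Q.ord ψ')
    (h : rootCls H.principal n hn ψ hdvd = rootCls H.principal n hn ψ' hdvd') :
    ∃ g : E, g ≠ 0 ∧ ψ / ψ' = g ^ n := by
  have h2 := (QuotientAddGroup.eq).1 h
  rw [AddSubgroup.mem_addSubgroupOf] at h2
  obtain ⟨g₀, hg₀, hg₀D⟩ := h2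
  have hD : ∀ Q : Place k E,
      Q.ord g₀ = rootDiv H.principal n ψ' Q - rootDiv H.principal n ψ Q := by
    intro Q
    rw [← hg₀D Q]
    show (-(rootDiv H.principal n ψ) + rootDiv H.principal n ψ') Q = _
    rw [Finsupp.add_apply, Finsupp.neg_apply]
    ring
  have hnZ : (n : ℤ) ≠ 0 := by exact_mod_cast hn
  -- `w = ψ / ψ' * g₀ ^ n` has no zero and no pole
  have hw0 : ψ / ψ' * g₀ ^ n ≠ 0 :=
    mul_ne_zero (div_ne_zero hψ hψ') (pow_ne_zero _ hg₀)
  have hword : ∀ Q : Place k E, Q.ord (ψ / ψ' * g₀ ^ n) = 0 := by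
    intro Q
    rw [Q.ord_mul (div_ne_zero hψ hψ') (pow_ne_zero _ hg₀), ord_div Q hψ hψ', ord_pow, hD Q,
      rootDiv_apply, rootDiv_apply, mul_sub, Int.mul_ediv_cancel' (hdvd Q),
      Int.mul_ediv_cancel' (hdvd' Q)]
    ring
  obtain ⟨a, ha⟩ := H.const_of_regular (f := ψ / ψ' * g₀ ^ n)
    (fun Q => le_of_eq (hword Q).symm)
  have ha0 : a ≠ 0 := by
    rintro rfl
    rw [map_zero] at ha
    exact hw0 ha
  obtain ⟨α, hα⟩ := IsAlgClosed.exists_pow_nat_eq a (Nat.pos_of_ne_zero hn)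
  have hα0 : α ≠ 0 := by
    rintro rfl
    rw [zero_pow hn] at hα
    exact ha0 hα.symm
  refine ⟨algebraMap k E α * g₀⁻¹, mul_ne_zero
    ((map_ne_zero_iff _ (algebraMap k E).injective).mpr hα0) (inv_ne_zero hg₀), ?_⟩
  rw [mul_pow, ← map_pow, hα, ← ha, inv_pow]
  field_simp

end Root

/-! ### The finite part and the toric part -/

section Abs

variable {K F k F₁ F₂ : Type*} [Field K] [Field F] [Algebra K F] [Field k] [Field F₁]
  [Algebra k F₁] [Field F₂] [Algebra k F₂]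

/-- `f` is a **Kummer function** of the class `x` for the exponent `n`: `x = [D]`,
`n D = div f`. -/
def IsKumA (n : ℕ) (x : Pic0 K F) (f : F) : Prop :=
  ∃ D : Divisor.degZero (K := K) (F := F), x = Pic0.mk D ∧
    ∀ P : Place K F, (n : ℤ) * (D : Divisor K F) P = P.ord f

/-- **The finite part** (exponent `n`): the classes with a Kummer function in `L` which is a
unit for the two valuations. -/
def InGA (S : SSD K F k F₁ F₂) (L : Subfield F) (n : ℕ) (x : Pic0 K F) : Prop :=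
  ∃ f : F, f ∈ L ∧ IsKumA n x f ∧ S.c₁.IsGU f ∧ S.c₂.IsGU f

/-- **The toric part** (exponent `n`): the classes with a Kummer function in `L` which is a
unit for the two valuations, with reductions `ψ₁ ^ n` and `ψ₂ ^ n`. -/
def InTA (S : SSD K F k F₁ F₂) (L : Subfield F) (n : ℕ) (x : Pic0 K F) : Prop :=
  ∃ f : F, f ∈ L ∧ IsKumA n x f ∧ S.c₁.IsGU f ∧ S.c₂.IsGU f ∧
    ∃ (ψ₁ : F₁) (ψ₂ : F₂), S.c₁.rd f = ψ₁ ^ n ∧ S.c₂.rd f = ψ₂ ^ n

theorem InTA.inGA {S : SSD K F k F₁ F₂} {L : Subfield F} {n : ℕ} {x : Pic0 K F}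
    (h : InTA S L n x) : InGA S L n x := by
  obtain ⟨f, hfL, hK, h₁, h₂, -⟩ := h
  exact ⟨f, hfL, hK, h₁, h₂⟩

theorem IsKumA.dvd {n : ℕ} {x : Pic0 K F} {f : F} (h : IsKumA n x f) (P : Place K F) :
    (n : ℤ) ∣ P.ord f := by
  obtain ⟨D, -, hD⟩ := h
  exact ⟨_, (hD P).symm⟩

theorem IsKumA.div {n : ℕ} {x x' : Pic0 K F} {f f' : F} (h : IsKumA n x f)
    (h' : IsKumA n x' f') (hf : f ≠ 0) (hf' : f' ≠ 0) : IsKumA n (x - x') (f / f') := by
  obtain ⟨D, rfl, hD⟩ := h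
  obtain ⟨D', rfl, hD'⟩ := h'
  refine ⟨D - D', rfl, fun P => ?_⟩
  rw [ord_div P hf hf', ← hD P, ← hD' P]
  show (n : ℤ) * ((D : Divisor K F) - (D' : Divisor K F)) P = _
  rw [Finsupp.sub_apply]
  ring

theorem IsKumA.zsmul_eq_zero {n : ℕ} {x : Pic0 K F} {f : F} (h : IsKumA n x f) (hf : f ≠ 0) :
    (n : ℤ) • x = 0 := by
  obtain ⟨D, rfl, hD⟩ := h
  have e : (n : ℤ) • (Pic0.mk D : Pic0 K F) = Pic0.mk ((n : ℤ) • D) := rfl
  rw [e, Pic0.mk, QuotientAddGroup.eq_zero_iff, AddSubgroup.mem_addSubgroupOf]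
  refine ⟨f, hf, fun P => ?_⟩
  rw [← hD P]
  show ((n : ℤ) • (D : Divisor K F)) P = _
  rw [Finsupp.smul_apply, smul_eq_mul]

theorem InGA.mem_torsion {S : SSD K F k F₁ F₂} {L : Subfield F} {n : ℕ} {x : Pic0 K F}
    (h : InGA S L n x) : x ∈ Pic0.torsion K F n := by
  obtain ⟨f, -, hK, h₁, -⟩ := h
  exact Pic0.mem_torsion.mpr (hK.zsmul_eq_zero h₁.ne_zero)

/-- **ST-RANK (f), abstract form.**  If the reductions of the Kummer functions of the finite part
have divisors divisible by `n`, then `#G ≤ #Pic⁰(F₁)[n] · #Pic⁰(F₂)[n] · #T`. -/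
theorem card_inGA_le [IsAlgClosed k] (S : SSD K F k F₁ F₂) (L : Subfield F)
    (H₁ : FFHyp k F₁) (H₂ : FFHyp k F₂) (n : ℕ) (hn : n ≠ 0)
    (hreg : ∀ f : F, f ∈ L → S.c₁.IsGU f → S.c₂.IsGU f →
      (∀ P : Place K F, (n : ℤ) ∣ P.ord f) →
      (∀ Q : Place k F₁, (n : ℤ) ∣ Q.ord (S.c₁.rd f)) ∧
        (∀ Q : Place k F₂, (n : ℤ) ∣ Q.ord (S.c₂.rd f)))
    [Finite (Pic0.torsion k F₁ n)] [Finite (Pic0.torsion k F₂ n)]
    (hT : {x : Pic0 K F | InTA S L n x}.Finite) :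
    Nat.card {x : Pic0 K F | InGA S L n x} ≤
      Nat.card (Pic0.torsion k F₁ n) * Nat.card (Pic0.torsion k F₂ n) *
        Nat.card {x : Pic0 K F | InTA S L n x} := by
  -- the chosen Kummer functions
  have hex : ∀ x : {x : Pic0 K F | InGA S L n x}, ∃ f : F, f ∈ L ∧ IsKumA n (x : Pic0 K F) f ∧
      S.c₁.IsGU f ∧ S.c₂.IsGU f := fun x => x.2
  choose φ hφL hφK hφ₁ hφ₂ using hex
  have hR : ∀ x : {x : Pic0 K F | InGA S L n x},
      (∀ Q : Place k F₁, (n : ℤ) ∣ Q.ord (S.c₁.rd (φ x))) ∧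
        (∀ Q : Place k F₂, (n : ℤ) ∣ Q.ord (S.c₂.rd (φ x))) :=
    fun x => hreg (φ x) (hφL x) (hφ₁ x) (hφ₂ x) (hφK x).dvd
  let c : {x : Pic0 K F | InGA S L n x} → Pic0.torsion k F₁ n × Pic0.torsion k F₂ n :=
    fun x => (⟨rootCls H₁.principal n hn (S.c₁.rd (φ x)) (hR x).1,
        rootCls_mem_torsion H₁.principal n hn (hφ₁ x).rd_ne_zero (hR x).1⟩,
      ⟨rootCls H₂.principal n hn (S.c₂.rd (φ x)) (hR x).2,
        rootCls_mem_torsion H₂.principal n hn (hφ₂ x).rd_ne_zero (hR x).2⟩)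
  have key := card_le_of_fibres {x : Pic0 K F | InGA S L n x} {x : Pic0 K F | InTA S L n x}
    hT c (by
      intro x y hxy
      have h1 : rootCls H₁.principal n hn (S.c₁.rd (φ x)) (hR x).1
          = rootCls H₁.principal n hn (S.c₁.rd (φ y)) (hR y).1 :=
        congrArg (fun z : Pic0.torsion k F₁ n × Pic0.torsion k F₂ n => (z.1 : Pic0 k F₁)) hxy
      have h2 : rootCls H₂.principal n hn (S.c₂.rd (φ x)) (hR x).2
          = rootCls H₂.principal n hn (S.c₂.rd (φ y)) (hR y).2 :=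
        congrArg (fun z : Pic0.torsion k F₁ n × Pic0.torsion k F₂ n => (z.2 : Pic0 k F₂)) hxy
      obtain ⟨g₁, -, hg₁⟩ := eq_of_rootCls_eq H₁ n hn (hφ₁ x).rd_ne_zero (hφ₁ y).rd_ne_zero
        (hR x).1 (hR y).1 h1
      obtain ⟨g₂, -, hg₂⟩ := eq_of_rootCls_eq H₂ n hn (hφ₂ x).rd_ne_zero (hφ₂ y).rd_ne_zero
        (hR x).2 (hR y).2 h2
      refine ⟨φ x / φ y, L.div_mem (hφL x) (hφL y),
        (hφK x).div (hφK y) (hφ₁ x).ne_zero (hφ₁ y).ne_zero,
        (hφ₁ x).div (hφ₁ y), (hφ₂ x).div (hφ₂ y), g₁, g₂, ?_, ?_⟩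
      · rw [(hφ₁ x).rd_div (hφ₁ y), hg₁]
      · rw [(hφ₂ x).rd_div (hφ₂ y), hg₂])
  rwa [Nat.card_prod] at key

end Abs

end Fermat.Agent.S59.LL.SQ.H69
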