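import Fermat.Agent.BAD.ABS
import Fermat.Agent.BAD.H28_NodeRad
import Fermat.Agent.S59.LL.SQ.H69_StRankFAbs

/-!
# S59 / LL / SQ, leaf ST-RANK (c), abstract part (helper64)

`S : BAD.SSD K F k F₁ F₂` a semistable Deuring datum, `K`, `k` algebraically closed, `I` a set of
inertial semilinear automorphisms, `π` a uniformiser of the fixed constants, `L` a subfield of
`I`-fixed functions with values in `v(π)^ℤ` for both valuations, containing a function with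
valuation vector `(0, 1)`.

`inTA_abs` : if `h ∈ L` is a Kummer function of the class of `(σ - 1) D`, `n D = div h₀`
(`h = a (σ h₀ / h₀) w ^ n`), then `b h v ^ n` is, for suitable `b`, `v ∈ L`, a unit for both
valuations with reductions `ψ₁ ^ n`, `ψ₂ ^ n`.

Proof: `f = σ H / H` (`H` the Gauss unit multiple of `h₀`) has reductions `1` and a constant; the
moving lemma (`BAD.stmt_Moving`, twist `1`) puts it in good position, `G₁ = f h₁ ^ n`; for `τ ∈ I`,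
`τ G₁ / G₁ = t ^ n` (`BAD.H28.stmt_TIss`), and `rd₁ t = rd₂ t` is a constant (gluing at a node);
`τ h = h` gives that `τ d / d` reduces to `1` for the ratio `d` of the two scaling constants of
`w / h₁`; by Kummer theory `d` is a unit times a power of `π`, i.e. the slope of `h` is divisible
by `n`.

This file contains no unproved statement.
-/

set_option autoImplicit false
set_option linter.style.haveILetI false
set_option linter.unusedSectionVars false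
set_option maxHeartbeats 1000000

noncomputable section

open AlgebraicCurve

attribute [local instance] Classical.propDecidable

namespace Fermat.Agent.S59.LL.SQ.H64

open Fermat.Agent.RED.H17 Fermat.Agent.RED Fermat.Agent.BAD

/-! ### Roots of unity -/

/-- An `n`-th root of `1` in an extension of an algebraically closed field is a constant. -/
theorem exists_const_of_pow_eq_one {k E : Type*} [Field k] [Field E] [Algebra k E]
    [IsAlgClosed k] {n : ℕ} (hn : n ≠ 0) {x : E} (hx : x ^ n = 1) :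
    ∃ a : k, x = algebraMap k E a ∧ a ^ n = 1 := by
  have hint : IsIntegral k x := by
    refine ⟨Polynomial.X ^ n - 1, Polynomial.monic_X_pow_sub_C (1 : k) hn, ?_⟩
    simp [hx]
  have hdeg := IsAlgClosed.degree_eq_one_of_irreducible k (minpoly.irreducible hint)
  obtain ⟨a, ha⟩ := minpoly.mem_range_of_degree_eq_one k x hdeg
  refine ⟨a, ha.symm, ?_⟩
  apply (algebraMap k E).injective
  rw [map_pow, ha, hx, map_one]

section PRedLemmas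

variable {K F k F' : Type*} [Field K] [Field F] [Algebra K F] [Field k] [Field F']
  [Algebra k F'] {S : PRed K F k F'}

/-- A function is a Gauss unit iff its valuation is `1`. -/
theorem isGU_iff_valuation_eq_one (f : F) : S.IsGU f ↔ S.V.valuation f = 1 := by
  constructor
  · intro h
    have hu := (S.isGU_iff_isUnit h.1).1 h
    exact (ValuationSubring.valuation_eq_one_iff S.V ⟨f, h.1⟩).1 hu
  · intro h
    have hm : f ∈ S.V := (ValuationSubring.valuation_le_one_iff S.V f).1 h.le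
    exact (S.isGU_iff_isUnit hm).2 ((ValuationSubring.valuation_eq_one_iff S.V ⟨f, hm⟩).2 h)

/-- A root of a Gauss unit is a Gauss unit. -/
theorem isGU_of_pow {n : ℕ} (hn : n ≠ 0) {t : F} (h : S.IsGU (t ^ n)) : S.IsGU t := by
  rw [isGU_iff_valuation_eq_one] at h ⊢
  rw [map_pow] at h
  exact (pow_eq_one_iff_left hn).mp h

/-- Multiplying a Gauss unit by a constant: the product is a Gauss unit iff the constant is. -/
theorem isGU_const_of_mul {c : K} {f : F} (hf : S.IsGU f)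
    (h : S.IsGU (algebraMap K F c * f)) : S.IsGU (algebraMap K F c) := by
  have := h.div hf
  rwa [mul_div_assoc, div_self hf.ne_zero, mul_one] at this


/-- A root of unity of order prime to the residue characteristic which reduces to `1` is `1`. -/
theorem eq_one_of_pow_eq_one {n : ℕ} (hn : (n : k) ≠ 0) {ζ : K} (hζ : ζ ^ n = 1)
    (hcu : S.IsGU (algebraMap K F ζ)) (hrd : S.rd (algebraMap K F ζ) = 1) : ζ = 1 := by
  by_contra hne
  have h1 : (∑ i ∈ Finset.range n, ζ ^ i) * (ζ - 1) = ζ ^ n - 1 := geom_sum_mul ζ n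
  rw [hζ, sub_self] at h1
  have h2 : ∑ i ∈ Finset.range n, ζ ^ i = 0 := by
    rcases mul_eq_zero.1 h1 with h | h
    · exact h
    · exact absurd (sub_eq_zero.1 h) hne
  have e : ∑ i ∈ Finset.range n, (algebraMap K F ζ) ^ i = 0 := by
    rw [← map_zero (algebraMap K F), ← h2, map_sum]
    exact Finset.sum_congr rfl fun i _ => (map_pow _ _ _).symm
  obtain ⟨-, h4⟩ := S.rd_sum (Finset.range n) (fun i => (algebraMap K F ζ) ^ i)
    (fun i _ => (hcu.pow i).1)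
  rw [e, S.rd_zero] at h4
  have h5 : ∑ i ∈ Finset.range n, S.rd ((algebraMap K F ζ) ^ i) = (n : F') := by
    rw [Finset.sum_congr rfl (fun i _ => by rw [S.rd_pow hcu.1, hrd, one_pow]),
      Finset.sum_const, Finset.card_range, nsmul_eq_mul, mul_one]
  rw [h5] at h4
  have h6 : algebraMap k F' (n : k) = 0 := by
    rw [map_natCast]
    exact h4.symm
  exact hn ((map_eq_zero_iff _ (algebraMap k F').injective).1 h6)

/-! ### Gauss units with reduction an `n`-th power -/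

/-- `x` is a Gauss unit whose reduction is an `n`-th power. -/
def IsNP (S : PRed K F k F') (n : ℕ) (x : F) : Prop := S.IsGU x ∧ ∃ ψ : F', S.rd x = ψ ^ n

theorem IsNP.mul {n : ℕ} {x y : F} (hx : IsNP S n x) (hy : IsNP S n y) : IsNP S n (x * y) := by
  obtain ⟨hx1, ψ, hψ⟩ := hx
  obtain ⟨hy1, φ, hφ⟩ := hy
  exact ⟨hx1.mul hy1, ψ * φ, by rw [S.rd_mul hx1.1 hy1.1, hψ, hφ, mul_pow]⟩

theorem isNP_pow {n : ℕ} {x : F} (hx : S.IsGU x) : IsNP S n (x ^ n) :=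
  ⟨hx.pow n, S.rd x, S.rd_pow hx.1 n⟩

theorem isNP_of_rd_one {n : ℕ} {x : F} (hx : S.IsGU x) (h1 : S.rd x = 1) : IsNP S n x :=
  ⟨hx, 1, by rw [h1, one_pow]⟩

theorem isNP_const [IsAlgClosed k] {n : ℕ} (hn : n ≠ 0) {c : K}
    (hc : S.IsGU (algebraMap K F c)) : IsNP S n (algebraMap K F c) := by
  obtain ⟨c', hc'⟩ := S.rd_const_eq c hc.1
  obtain ⟨β, hβ⟩ := IsAlgClosed.exists_pow_nat_eq c' (Nat.pos_of_ne_zero hn)
  exact ⟨hc, algebraMap k F' β, by rw [hc', ← hβ, map_pow]⟩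

/-- An inertial automorphism maps a Gauss unit to a Gauss unit with the same reduction. -/
theorem isGU_smul_of {τ : SemilinearAut K F} (hm : ∀ f : F, f ∈ S.V → τ • f ∈ S.V)
    (hr : ∀ (f : F) (h : f ∈ S.V) (h' : τ • f ∈ S.V), S.red ⟨_, h'⟩ = S.red ⟨f, h⟩)
    {f : F} (hf : S.IsGU f) : S.IsGU (τ • f) ∧ S.rd (τ • f) = S.rd f := by
  have hm' := hm f hf.1
  have hrd : S.rd (τ • f) = S.rd f := by
    rw [S.rd_of_mem hm', S.rd_of_mem hf.1]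
    exact hr f hf.1 hm'
  exact ⟨⟨hm', by rw [hrd]; exact hf.2⟩, hrd⟩

/-- `τ f / f` is a Gauss unit with reduction `1`, for `τ` inertial and `f` a Gauss unit. -/
theorem isGU_ratio_of {τ : SemilinearAut K F} (hm : ∀ f : F, f ∈ S.V → τ • f ∈ S.V)
    (hr : ∀ (f : F) (h : f ∈ S.V) (h' : τ • f ∈ S.V), S.red ⟨_, h'⟩ = S.red ⟨f, h⟩)
    {f : F} (hf : S.IsGU f) : S.IsGU ((τ • f) / f) ∧ S.rd ((τ • f) / f) = 1 := by
  obtain ⟨h1, h2⟩ := isGU_smul_of hm hr hf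
  exact ⟨h1.div hf, by rw [h1.rd_div hf, h2, div_self hf.2]⟩

end PRedLemmas


section Tame

variable {K F k F₁ F₂ : Type*} [Field K] [Field F] [Algebra K F] [Field k] [Field F₁]
  [Algebra k F₁] [Field F₂] [Algebra k F₂]

/-- **Kummer theory for the constants.**  If `d ^ n` is a unit times a power of `π` and
`τ d / d` reduces to `1` for every `τ ∈ I`, then `d` is a unit times a power of `π`. -/
theorem tame_abs [IsAlgClosed K] (S : SSD K F k F₁ F₂) {n : ℕ} (hn : (n : k) ≠ 0)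
    (I : Set (SemilinearAut K F)) (hI : ∀ τ ∈ I, S.IsInertial τ)
    (π : K) (hπ0 : π ≠ 0) (hπI : ∀ τ ∈ I, SemilinearAut.baseAut τ π = π)
    (hunr : ∀ Y : K, Y ≠ 0 → (∀ τ ∈ I, SemilinearAut.baseAut τ Y = Y) →
      ∃ m : ℤ, S.IsCU (Y / π ^ m))
    {d : K} (hd : d ≠ 0) {m : ℤ} (hm : S.IsCU (d ^ n / π ^ m))
    (hτ : ∀ τ ∈ I, S.IsCU (SemilinearAut.baseAut τ d / d) ∧
      S.c₁.rd (algebraMap K F (SemilinearAut.baseAut τ d / d)) = 1) :
    ∃ m' : ℤ, S.IsCU (d / π ^ m') := by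
  have hn0 : n ≠ 0 := by
    rintro rfl
    exact hn Nat.cast_zero
  obtain ⟨u₁, hu₁⟩ := IsAlgClosed.exists_pow_nat_eq (d ^ n / π ^ m) (Nat.pos_of_ne_zero hn0)
  have hu₁CU : S.IsCU u₁ := by
    show S.c₁.IsGU (algebraMap K F u₁)
    apply isGU_of_pow hn0
    rw [← map_pow, hu₁]
    exact hm
  have hu₁0 : u₁ ≠ 0 := hu₁CU.ne_zero
  have hπm0 : π ^ m ≠ 0 := zpow_ne_zero _ hπ0
  have hc₁n : (d / u₁) ^ n = π ^ m := by
    rw [div_pow, hu₁]
    field_simp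
  have hc₁0 : d / u₁ ≠ 0 := div_ne_zero hd hu₁0
  have hfix : ∀ τ ∈ I, SemilinearAut.baseAut τ (d / u₁) = d / u₁ := by
    intro τ hτI
    have hτin := hI τ hτI
    obtain ⟨hτ1, hτ2⟩ := hτ τ hτI
    -- `τ u₁ / u₁` is a unit constant with reduction `1`
    have hr := isGU_ratio_of (S := S.c₁) hτin.mem₁ hτin.red₁ hu₁CU.isGU₁
    rw [SemilinearAut.smul_algebraMap, ← map_div₀] at hr
    set ζ : K := SemilinearAut.baseAut τ (d / u₁) / (d / u₁) with hζ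
    have hτu0 : SemilinearAut.baseAut τ u₁ ≠ 0 :=
      (map_ne_zero (SemilinearAut.baseAut τ)).2 hu₁0
    have hτd0 : SemilinearAut.baseAut τ d ≠ 0 := (map_ne_zero (SemilinearAut.baseAut τ)).2 hd
    have hζeq : ζ = (SemilinearAut.baseAut τ d / d) / (SemilinearAut.baseAut τ u₁ / u₁) := by
      rw [hζ, map_div₀]
      field_simp
    have hζn : ζ ^ n = 1 := by
      rw [hζ, div_pow, ← map_pow, hc₁n, map_zpow₀, hπI τ hτI, div_self hπm0]
    have hζGU : S.c₁.IsGU (algebraMap K F ζ) := by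
      rw [hζeq, map_div₀]
      exact hτ1.isGU₁.div hr.1
    have hζrd : S.c₁.rd (algebraMap K F ζ) = 1 := by
      rw [hζeq, map_div₀, hτ1.isGU₁.rd_div hr.1, hτ2, hr.2, div_one]
    have hζ1 : ζ = 1 := eq_one_of_pow_eq_one (S := S.c₁) hn hζn hζGU hζrd
    rw [hζ, div_eq_one_iff_eq hc₁0] at hζ1
    exact hζ1
  obtain ⟨m', hm'⟩ := hunr (d / u₁) hc₁0 hfix
  refine ⟨m', ?_⟩
  have e : d / π ^ m' = (d / u₁ / π ^ m') * u₁ := by
    field_simp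
  rw [e]
  exact hm'.mul hu₁CU

end Tame


section Main

variable {K F k F₁ F₂ : Type} [Field K] [Field F] [Algebra K F] [Field k] [Field F₁]
  [Algebra k F₁] [Field F₂] [Algebra k F₂]

/-- **ST-RANK (c), abstract form.** -/
theorem inTA_abs [IsAlgClosed K] [IsAlgClosed k]
    (S : SSD K F k F₁ F₂) (H : FFHyp K F) (H₁ : FFHyp k F₁) (H₂ : FFHyp k F₂)
    (g g₁ g₂ : ℕ) (c c₁ c₂ : ℤ) (hR : IsGenus K F g c) (hR₁ : IsGenus k F₁ g₁ c₁)
    (hR₂ : IsGenus k F₂ g₂ c₂) (hnum : g + 1 ≤ g₁ + g₂ + S.nodes.card)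
    (n : ℕ) (hn : (n : k) ≠ 0)
    (I : Set (SemilinearAut K F)) (hI : ∀ τ ∈ I, S.IsInertial τ)
    (hcu : ∀ τ ∈ I, ∀ a : K, a ≠ 0 → S.IsCU (SemilinearAut.baseAut τ a / a))
    (π : K) (hπ0 : π ≠ 0) (hπI : ∀ τ ∈ I, SemilinearAut.baseAut τ π = π)
    (hπ : ∀ m : ℤ, S.IsCU (π ^ m) → m = 0)
    (hunr : ∀ Y : K, Y ≠ 0 → (∀ τ ∈ I, SemilinearAut.baseAut τ Y = Y) →
      ∃ m : ℤ, S.IsCU (Y / π ^ m))
    (L : Subfield F) (hLI : ∀ f ∈ L, ∀ τ ∈ I, τ • f = f)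
    (hlow₁ : ∀ f ∈ L, f ≠ 0 → ∃ m : ℤ, S.c₁.IsGU (f / algebraMap K F π ^ m))
    (hlow₂ : ∀ f ∈ L, f ≠ 0 → ∃ m : ℤ, S.c₂.IsGU (f / algebraMap K F π ^ m))
    (hπL : algebraMap K F π ∈ L)
    (happ : ∃ g₀ ∈ L, S.c₁.IsGU g₀ ∧ S.c₂.IsGU (g₀ / algebraMap K F π))
    (σ : SemilinearAut K F) (hσ : σ ∈ I) (h₀ : F) (hh₀ : h₀ ≠ 0)
    (hdiv₀ : ∀ P : Place K F, (n : ℤ) ∣ P.ord h₀)
    (h : F) (hhL : h ∈ L) (hh : h ≠ 0) (w : F) (hw : w ≠ 0) (a : K) (ha : a ≠ 0)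
    (hrel : h = algebraMap K F a * ((σ • h₀) / h₀) * w ^ n) :
    ∃ (f v : F) (b : K), f ∈ L ∧ v ∈ L ∧ v ≠ 0 ∧ b ≠ 0 ∧
      f = algebraMap K F b * h * v ^ n ∧ IsNP S.c₁ n f ∧ IsNP S.c₂ n f := by
  classical
  haveI : Infinite k := IsAlgClosed.instInfinite
  have hn0 : n ≠ 0 := by
    rintro rfl
    exact hn Nat.cast_zero
  have hnZ : (n : ℤ) ≠ 0 := by exact_mod_cast hn0
  have hσI := hI σ hσ
  have hordτ : ∀ (τ : SemilinearAut K F) (P : Place K F) (y : F),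
      P.ord (τ • y) = (τ⁻¹ • P).ord y := by
    intro τ P y
    have := SemilinearAut.ord_smul τ (τ⁻¹ • P) y
    rwa [smul_inv_smul] at this
  have hsmul0 : ∀ (τ : SemilinearAut K F) {y : F}, y ≠ 0 → τ • y ≠ 0 := by
    intro τ y hy h0
    apply hy
    have := congrArg (fun z => τ⁻¹ • z) h0
    simpa using this
  have halg0 : ∀ {x : K}, x ≠ 0 → algebraMap K F x ≠ 0 :=
    fun hx => (map_ne_zero (algebraMap K F)).2 hx
  have hbase0 : ∀ (τ : SemilinearAut K F) {x : K}, x ≠ 0 → SemilinearAut.baseAut τ x ≠ 0 :=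
    fun τ _ hx => (map_ne_zero (SemilinearAut.baseAut τ)).2 hx
  -- Step 1: the function `f₀ = σ H / H`
  obtain ⟨e₁, he₁0, hH₁⟩ := S.c₁.exists_isGU_scale hh₀
  obtain ⟨e₂, he₂0, hH₂⟩ := S.c₂.exists_isGU_scale hh₀
  obtain ⟨f₀, hf₀⟩ : ∃ f₀ : F, f₀ = (σ • (algebraMap K F e₁ * h₀)) / (algebraMap K F e₁ * h₀) :=
    ⟨_, rfl⟩
  have hf₀₁ := isGU_ratio_of (S := S.c₁) hσI.mem₁ hσI.red₁ hH₁
  rw [← hf₀] at hf₀₁
  have hκ := hcu σ hσ (e₁ / e₂) (div_ne_zero he₁0 he₂0)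
  obtain ⟨κ, hκdef⟩ : ∃ κ : K, κ = SemilinearAut.baseAut σ (e₁ / e₂) / (e₁ / e₂) := ⟨_, rfl⟩
  rw [← hκdef] at hκ
  have hσh₀ : σ • h₀ ≠ 0 := hsmul0 σ hh₀
  have hf₀κ : f₀ = algebraMap K F κ *
      ((σ • (algebraMap K F e₂ * h₀)) / (algebraMap K F e₂ * h₀)) := by
    have h1 := halg0 he₁0
    have h2 := halg0 he₂0
    have h3 := halg0 (hbase0 σ he₁0)
    have h4 := halg0 (hbase0 σ he₂0)
    rw [hf₀, hκdef, smul_mul', smul_mul', SemilinearAut.smul_algebraMap,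
      SemilinearAut.smul_algebraMap, map_div₀, map_div₀, map_div₀, map_div₀]
    field_simp
  have hr₂ := isGU_ratio_of (S := S.c₂) hσI.mem₂ hσI.red₂ hH₂
  have hf₀₂ : S.c₂.IsGU f₀ ∧ S.c₂.rd f₀ = S.c₂.rd (algebraMap K F κ) := by
    rw [hf₀κ]
    refine ⟨hκ.isGU₂.mul hr₂.1, ?_⟩
    rw [S.c₂.rd_mul hκ.isGU₂.1 hr₂.1.1, hr₂.2, mul_one]
  have hf₀0 : f₀ ≠ 0 := hf₀₁.1.ne_zero
  have hf₀NP₂ : IsNP S.c₂ n f₀ := by
    obtain ⟨hGU, ψ, hψ⟩ := isNP_const (S := S.c₂) (n := n) hn0 hκ.isGU₂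
    exact ⟨hf₀₂.1, ψ, by rw [hf₀₂.2, hψ]⟩
  -- the relation `h = a₁ f₀ w ^ n`
  obtain ⟨a₁, ha₁⟩ : ∃ a₁ : K, a₁ = a * (e₁ / SemilinearAut.baseAut σ e₁) := ⟨_, rfl⟩
  have ha₁0 : a₁ ≠ 0 := by
    rw [ha₁]
    exact mul_ne_zero ha (div_ne_zero he₁0 (hbase0 σ he₁0))
  have hrel₁ : h = algebraMap K F a₁ * f₀ * w ^ n := by
    have h1 := halg0 he₁0
    have h3 := halg0 (hbase0 σ he₁0)
    rw [hrel, ha₁, hf₀, smul_mul', SemilinearAut.smul_algebraMap, map_mul, map_div₀]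
    field_simp
  -- Step 2: the twist datum
  have hf₀div : ∀ P : Place K F, (n : ℤ) ∣ P.ord f₀ := by
    intro P
    rw [hf₀, ord_div P (hsmul0 σ hH₁.ne_zero) hH₁.ne_zero, hordτ,
      ord_algebraMap_mul _ he₁0, ord_algebraMap_mul _ he₁0]
    exact dvd_sub (hdiv₀ _) (hdiv₀ _)
  have hγ : ∀ s ∈ S.nodes, s.2.ord (S.c₂.rd (f₀ / (1 : F) ^ n)) = 0 := by
    intro s _
    obtain ⟨κ', hκ'⟩ := S.c₂.rd_const_eq κ hκ.isGU₂.1
    rw [one_pow, div_one, hf₀₂.2, hκ']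
    exact Fermat.Agent.RED.H17.ord_algebraMap _ _
  let X : S.Twist n :=
    { f := f₀
      ϑ := 1
      hϑ := one_ne_zero
      hf₁ := hf₀₁.1.1
      hrd₁ := hf₀₁.2
      hf₂ := by rw [one_pow, div_one]; exact hf₀₂.1
      hdiv := hf₀div
      hγ := hγ }
  -- Step 3: the moving lemma
  obtain ⟨h₁, hh₁₁, hh₁₂, hnode⟩ :=
    stmt_Moving K F k F₁ F₂ S H H₁ H₂ g g₁ g₂ c c₁ c₂ hR hR₁ hR₂ hnum n hn X
  have hh₁₂' : S.c₂.IsGU h₁ := by
    have : X.ϑ * h₁ = h₁ := one_mul h₁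
    rw [this] at hh₁₂
    exact hh₁₂
  have hh₁0 : h₁ ≠ 0 := hh₁₁.ne_zero
  obtain ⟨G₁, hG₁⟩ : ∃ G₁ : F, G₁ = f₀ * h₁ ^ n := ⟨_, rfl⟩
  have hnode' : ∀ P : Place K F, S.IsNodeP P → P.ord G₁ = 0 := by
    intro P hP
    rw [hG₁]
    exact hnode P hP
  have hG₁₁ : S.c₁.IsGU G₁ := by
    rw [hG₁]
    exact hf₀₁.1.mul (hh₁₁.pow n)
  have hG₁₂ : S.c₂.IsGU G₁ := by
    rw [hG₁]
    exact hf₀₂.1.mul (hh₁₂'.pow n)
  have hG₁0 : G₁ ≠ 0 := hG₁₁.ne_zero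
  have hG₁NP₁ : IsNP S.c₁ n G₁ := by
    rw [hG₁]
    exact (isNP_of_rd_one hf₀₁.1 hf₀₁.2).mul (isNP_pow hh₁₁)
  have hG₁NP₂ : IsNP S.c₂ n G₁ := by
    rw [hG₁]
    exact hf₀NP₂.mul (isNP_pow hh₁₂')
  have hG₁div : ∀ P : Place K F, (n : ℤ) ∣ P.ord G₁ := by
    intro P
    rw [hG₁, P.ord_mul hf₀0 (pow_ne_zero _ hh₁0), ord_pow]
    exact dvd_add (hf₀div P) (dvd_mul_right _ _)
  -- the relation `h = a₁ G₁ w' ^ n`
  obtain ⟨w', hw'⟩ : ∃ w' : F, w' = w / h₁ := ⟨_, rfl⟩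
  have hw'0 : w' ≠ 0 := by
    rw [hw']
    exact div_ne_zero hw hh₁0
  have hrel₂ : h = algebraMap K F a₁ * G₁ * w' ^ n := by
    rw [hrel₁, hG₁, hw', div_pow]
    field_simp
  -- Step 4: `τ G₁ / G₁ = t ^ n` with `rd₁ t = rd₂ t` constant
  have key4 : ∀ τ ∈ I, ∃ t : F, t ^ n = (τ • G₁) / G₁ ∧ S.c₁.IsGU t ∧ S.c₂.IsGU t ∧
      ∃ ζ : k, S.c₁.rd t = algebraMap k F₁ ζ ∧ S.c₂.rd t = algebraMap k F₂ ζ := by
    intro τ hτ
    have hτI := hI τ hτ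
    have r₁ := isGU_ratio_of (S := S.c₁) hτI.mem₁ hτI.red₁ hG₁₁
    have r₂ := isGU_ratio_of (S := S.c₂) hτI.mem₂ hτI.red₂ hG₁₂
    have hordg : ∀ P : Place K F, P.ord ((τ • G₁) / G₁) = (τ⁻¹ • P).ord G₁ - P.ord G₁ := by
      intro P
      rw [ord_div P (hsmul0 τ hG₁0) hG₁0, hordτ]
    have hdivg : ∀ P : Place K F, (n : ℤ) ∣ P.ord ((τ • G₁) / G₁) := by
      intro P
      rw [hordg]
      exact dvd_sub (hG₁div _) (hG₁div _)
    have hnodeτ : ∀ P : Place K F, S.IsNodeP P → S.IsNodeP (τ⁻¹ • P) := by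
      rintro P ⟨s, hs, hP⟩
      refine ⟨s, hs, ?_⟩
      have := hτI.r₁ (τ⁻¹ • P)
      rw [smul_inv_smul] at this
      rw [← this, hP]
    have hnodeg : ∀ P : Place K F, S.IsNodeP P → P.ord ((τ • G₁) / G₁) = 0 := by
      intro P hP
      rw [hordg, hnode' P hP, hnode' _ (hnodeτ P hP), sub_zero]
    obtain ⟨t, ht⟩ := H28.stmt_TIss K F k F₁ F₂ S H H₁ H₂ g g₁ g₂ c c₁ c₂ hR hR₁ hR₂ hnum n hn
      ((τ • G₁) / G₁) r₁.1.1 r₂.1.1 r₁.2 r₂.2 hdivg hnodeg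
    have ht₁ : S.c₁.IsGU t := isGU_of_pow hn0 (by rw [ht]; exact r₁.1)
    have ht₂ : S.c₂.IsGU t := isGU_of_pow hn0 (by rw [ht]; exact r₂.1)
    obtain ⟨ζ₁, hζ₁, -⟩ := exists_const_of_pow_eq_one (k := k) hn0 (x := S.c₁.rd t)
      (by rw [← S.c₁.rd_pow ht₁.1, ht, r₁.2])
    obtain ⟨ζ₂, hζ₂, -⟩ := exists_const_of_pow_eq_one (k := k) hn0 (x := S.c₂.rd t)
      (by rw [← S.c₂.rd_pow ht₂.1, ht, r₂.2])
    obtain ⟨s, hs⟩ := S.nodes_nonempty
    have hreg : ∀ P, S.c₁.r P = some s.1 → 0 ≤ P.ord t := by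
      intro P hP
      have hPn : S.IsNodeP P := ⟨s, hs, hP⟩
      have h1 : (n : ℤ) * P.ord t = 0 := by
        rw [← ord_pow, ht]
        exact hnodeg P hPn
      rcases mul_eq_zero.1 h1 with h2 | h2
      · exact absurd h2 hnZ
      · exact h2.ge
    obtain ⟨a₀, ha₀₁, ha₀₂⟩ := S.glue s hs t ht₁.1 ht₂.1 hreg
    rw [← S.c₁.rd_of_mem ht₁.1, hζ₁, ← map_sub] at ha₀₁
    rw [← S.c₂.rd_of_mem ht₂.1, hζ₂, ← map_sub] at ha₀₂
    have e1 := const_eq_zero_of_vanAt ha₀₁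
    have e2 := const_eq_zero_of_vanAt ha₀₂
    refine ⟨t, ht, ht₁, ht₂, ζ₁, hζ₁, ?_⟩
    rw [hζ₂]
    congr 1
    rw [sub_eq_zero] at e1 e2
    rw [e1, e2]
  -- Step 6: the scaling constants of `w'`
  obtain ⟨d₁, hd₁0, hW₁⟩ := S.c₁.exists_isGU_scale hw'0
  obtain ⟨d₂, hd₂0, hW₂⟩ := S.c₂.exists_isGU_scale hw'0
  obtain ⟨d, hd⟩ : ∃ d : K, d = d₁ / d₂ := ⟨_, rfl⟩
  have hd0 : d ≠ 0 := by
    rw [hd]
    exact div_ne_zero hd₁0 hd₂0
  have key6 : ∀ τ ∈ I, S.IsCU (SemilinearAut.baseAut τ d / d) ∧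
      S.c₁.rd (algebraMap K F (SemilinearAut.baseAut τ d / d)) = 1 := by
    intro τ hτ
    have hτI := hI τ hτ
    obtain ⟨t, ht, ht₁, ht₂, ζ, hζ₁, hζ₂⟩ := key4 τ hτ
    have ht0 : t ≠ 0 := ht₁.ne_zero
    -- `τ h = h`
    have hτh : τ • h = h := hLI h hhL τ hτ
    have hτw'0 : τ • w' ≠ 0 := hsmul0 τ hw'0
    have hτa₁0 := halg0 (hbase0 τ ha₁0)
    have ha₁0' := halg0 ha₁0
    -- `u = t τ w' / w'` is a constant
    obtain ⟨u, hu⟩ : ∃ u : F, u = t * (τ • w') / w' := ⟨_, rfl⟩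
    have hu0 : u ≠ 0 := by
      rw [hu]
      exact div_ne_zero (mul_ne_zero ht0 hτw'0) hw'0
    have hun : u ^ n = algebraMap K F (a₁ / SemilinearAut.baseAut τ a₁) := by
      have h1 : τ • h = algebraMap K F (SemilinearAut.baseAut τ a₁) * (τ • G₁) * (τ • w') ^ n := by
        rw [hrel₂, smul_mul', smul_mul', SemilinearAut.smul_algebraMap, smul_pow']
      have h2 : τ • G₁ = t ^ n * G₁ := by
        rw [ht]
        field_simp
      rw [hτh, h2] at h1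
      have h3 : algebraMap K F a₁ * G₁ * w' ^ n
          = algebraMap K F (SemilinearAut.baseAut τ a₁) * (t ^ n * G₁) * (τ • w') ^ n := by
        rw [← hrel₂]
        exact h1
      rw [hu, div_pow, mul_pow, map_div₀, div_eq_div_iff (pow_ne_zero _ hw'0) hτa₁0]
      apply mul_left_cancel₀ hG₁0
      linear_combination -h3
    have hu_ord : ∀ P : Place K F, 0 ≤ P.ord u := by
      intro P
      have h1 : (n : ℤ) * P.ord u = 0 := by
        rw [← ord_pow, hun]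
        exact Fermat.Agent.RED.H17.ord_algebraMap _ _
      rcases mul_eq_zero.1 h1 with h2 | h2
      · exact absurd h2 hnZ
      · exact h2.ge
    obtain ⟨u₀, hu₀⟩ := H.const_of_regular hu_ord
    have hu₀0 : u₀ ≠ 0 := by
      rintro rfl
      rw [map_zero] at hu₀
      exact hu0 hu₀
    -- the two unit constants
    have hτd₁0 := hbase0 τ hd₁0
    have hτd₂0 := hbase0 τ hd₂0
    have rW₁ := isGU_ratio_of (S := S.c₁) hτI.mem₁ hτI.red₁ hW₁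
    have rW₂ := isGU_ratio_of (S := S.c₂) hτI.mem₂ hτI.red₂ hW₂
    have hε₁ : algebraMap K F (u₀ * (SemilinearAut.baseAut τ d₁ / d₁))
        = t * ((τ • (algebraMap K F d₁ * w')) / (algebraMap K F d₁ * w')) := by
      have h1 := halg0 hd₁0
      have h2 := halg0 hτd₁0
      rw [map_mul, ← hu₀, hu, smul_mul', SemilinearAut.smul_algebraMap, map_div₀]
      field_simp
    have hε₂ : algebraMap K F (u₀ * (SemilinearAut.baseAut τ d₂ / d₂))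
        = t * ((τ • (algebraMap K F d₂ * w')) / (algebraMap K F d₂ * w')) := by
      have h1 := halg0 hd₂0
      have h2 := halg0 hτd₂0
      rw [map_mul, ← hu₀, hu, smul_mul', SemilinearAut.smul_algebraMap, map_div₀]
      field_simp
    have hε₁GU : S.c₁.IsGU (algebraMap K F (u₀ * (SemilinearAut.baseAut τ d₁ / d₁))) := by
      rw [hε₁]
      exact ht₁.mul rW₁.1
    have hε₁rd : S.c₁.rd (algebraMap K F (u₀ * (SemilinearAut.baseAut τ d₁ / d₁)))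
        = algebraMap k F₁ ζ := by
      rw [hε₁, S.c₁.rd_mul ht₁.1 rW₁.1.1, rW₁.2, mul_one, hζ₁]
    have hε₂GU : S.c₂.IsGU (algebraMap K F (u₀ * (SemilinearAut.baseAut τ d₂ / d₂))) := by
      rw [hε₂]
      exact ht₂.mul rW₂.1
    have hε₂rd : S.c₂.rd (algebraMap K F (u₀ * (SemilinearAut.baseAut τ d₂ / d₂)))
        = algebraMap k F₂ ζ := by
      rw [hε₂, S.c₂.rd_mul ht₂.1 rW₂.1.1, rW₂.2, mul_one, hζ₂]
    have hε₂rd₁ := (S.rd₁_const hε₂GU.1 hε₂rd).2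
    have hε₂GU₁ : S.c₁.IsGU (algebraMap K F (u₀ * (SemilinearAut.baseAut τ d₂ / d₂))) :=
      S.isGU₁_const hε₂GU
    have hζ0 : algebraMap k F₁ ζ ≠ 0 := by
      rw [← hε₁rd]
      exact hε₁GU.2
    have hquot : SemilinearAut.baseAut τ d / d
        = (u₀ * (SemilinearAut.baseAut τ d₁ / d₁)) / (u₀ * (SemilinearAut.baseAut τ d₂ / d₂)) := by
      rw [hd, map_div₀]
      field_simp
    rw [hquot]
    refine ⟨?_, ?_⟩
    · show S.c₁.IsGU (algebraMap K F _)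
      rw [map_div₀]
      exact hε₁GU.div hε₂GU₁
    · rw [map_div₀, hε₁GU.rd_div hε₂GU₁, hε₁rd, hε₂rd₁, div_self hζ0]
  -- Step 7: the slopes
  obtain ⟨p, hp⟩ : ∃ p : F, p = algebraMap K F π := ⟨_, rfl⟩
  rw [← hp] at hlow₁ hlow₂ hπL happ
  have hp0 : p ≠ 0 := by
    rw [hp]
    exact halg0 hπ0
  obtain ⟨m₁, hm₁⟩ := hlow₁ h hhL hh
  obtain ⟨m₂, hm₂⟩ := hlow₂ h hhL hh
  obtain ⟨W₁, hW₁def⟩ : ∃ W₁ : F, W₁ = algebraMap K F d₁ * w' := ⟨_, rfl⟩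
  obtain ⟨W₂, hW₂def⟩ : ∃ W₂ : F, W₂ = algebraMap K F d₂ * w' := ⟨_, rfl⟩
  rw [← hW₁def] at hW₁
  rw [← hW₂def] at hW₂
  have hA₁ : h / p ^ m₁ = algebraMap K F (a₁ / d₁ ^ n / π ^ m₁) * (G₁ * W₁ ^ n) := by
    have h1 := halg0 hd₁0
    have h2 : p ^ m₁ ≠ 0 := zpow_ne_zero _ hp0
    rw [hrel₂, hW₁def, map_div₀, map_div₀, map_pow, map_zpow₀, ← hp, mul_pow]
    field_simp
  have hA₂ : h / p ^ m₂ = algebraMap K F (a₁ / d₂ ^ n / π ^ m₂) * (G₁ * W₂ ^ n) := by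
    have h1 := halg0 hd₂0
    have h2 : p ^ m₂ ≠ 0 := zpow_ne_zero _ hp0
    rw [hrel₂, hW₂def, map_div₀, map_div₀, map_pow, map_zpow₀, ← hp, mul_pow]
    field_simp
  have hGW₁ : S.c₁.IsGU (G₁ * W₁ ^ n) := hG₁₁.mul (hW₁.pow n)
  have hGW₂ : S.c₂.IsGU (G₁ * W₂ ^ n) := hG₁₂.mul (hW₂.pow n)
  have hA₁CU : S.c₁.IsGU (algebraMap K F (a₁ / d₁ ^ n / π ^ m₁)) :=
    isGU_const_of_mul hGW₁ (by rw [← hA₁]; exact hm₁)
  have hA₂CU : S.c₂.IsGU (algebraMap K F (a₁ / d₂ ^ n / π ^ m₂)) :=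
    isGU_const_of_mul hGW₂ (by rw [← hA₂]; exact hm₂)
  have hπm : ∀ m : ℤ, π ^ m ≠ 0 := fun m => zpow_ne_zero _ hπ0
  have hdn : S.IsCU (d ^ n / π ^ (m₂ - m₁)) := by
    have h1 : S.IsCU (a₁ / d₁ ^ n / π ^ m₁) := hA₁CU
    have h2 : S.IsCU (a₁ / d₂ ^ n / π ^ m₂) := SSD.isCU_of_isGU₂ hA₂CU
    have e : d ^ n / π ^ (m₂ - m₁) = (a₁ / d₂ ^ n / π ^ m₂) / (a₁ / d₁ ^ n / π ^ m₁) := by
      have h3 := hπm m₁
      have h4 := hπm m₂
      rw [hd, div_pow, zpow_sub₀ hπ0]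
      field_simp
    rw [e]
    exact h2.div h1
  -- Step 8: Kummer theory
  obtain ⟨m', hm'⟩ := tame_abs S hn I hI π hπ0 hπI hunr hd0 hdn key6
  have hmm : m₂ - m₁ = (n : ℤ) * m' := by
    have h1 : S.IsCU ((d / π ^ m') ^ n) := hm'.pow n
    have h2 : S.IsCU (π ^ ((n : ℤ) * m' - (m₂ - m₁))) := by
      have e : π ^ ((n : ℤ) * m' - (m₂ - m₁)) = (d ^ n / π ^ (m₂ - m₁)) / ((d / π ^ m') ^ n) := by
        have h3 := hπm m'
        have h4 := hπm (m₂ - m₁)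
        have h5 : (π ^ m') ^ n = π ^ ((n : ℤ) * m') := by
          rw [← zpow_natCast, ← zpow_mul, mul_comm]
        rw [zpow_sub₀ hπ0, div_pow, h5]
        have h6 := hπm ((n : ℤ) * m')
        have h7 : d ^ n ≠ 0 := pow_ne_zero _ hd0
        field_simp
      rw [e]
      exact hdn.div h1
    have := hπ _ h2
    omega
  -- Step 9: the function
  obtain ⟨g₀, hg₀L, hg₀₁, hg₀₂⟩ := happ
  have hg₀0 : g₀ ≠ 0 := hg₀₁.ne_zero
  obtain ⟨v, hv⟩ : ∃ v : F, v = g₀ ^ (-m') := ⟨_, rfl⟩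
  have hv0 : v ≠ 0 := by
    rw [hv]
    exact zpow_ne_zero _ hg₀0
  have hvL : v ∈ L := by
    rw [hv]
    exact zpow_mem hg₀L _
  have hv₁ : S.c₁.IsGU v := by
    rw [hv]
    exact hg₀₁.zpow _
  have hv₂ : S.c₂.IsGU ((g₀ / p) ^ (-m')) := hg₀₂.zpow _
  have hpm₁0 : π ^ (-m₁) ≠ 0 := hπm _
  refine ⟨algebraMap K F (π ^ (-m₁)) * h * v ^ n, v, π ^ (-m₁), ?_, hvL, hv0, hpm₁0, rfl, ?_, ?_⟩
  · refine L.mul_mem (L.mul_mem ?_ hhL) (pow_mem hvL n)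
    rw [map_zpow₀, ← hp]
    exact zpow_mem hπL _
  · -- first valuation
    have e : algebraMap K F (π ^ (-m₁)) * h * v ^ n
        = algebraMap K F (a₁ / d₁ ^ n / π ^ m₁) * (G₁ * W₁ ^ n) * v ^ n := by
      rw [← hA₁, map_zpow₀, ← hp, zpow_neg]
      field_simp
    rw [e]
    exact ((isNP_const hn0 hA₁CU).mul (hG₁NP₁.mul (isNP_pow hW₁))).mul (isNP_pow hv₁)
  · -- second valuation
    have e : algebraMap K F (π ^ (-m₁)) * h * v ^ n
        = algebraMap K F (a₁ / d₂ ^ n / π ^ m₂) * (G₁ * W₂ ^ n) * ((g₀ / p) ^ (-m')) ^ n := by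
      rw [← hA₂, map_zpow₀, ← hp, hv]
      have h1 : ((g₀ / p) ^ (-m')) ^ n = (g₀ ^ (-m')) ^ n * p ^ ((n : ℤ) * m') := by
        rw [div_zpow, div_pow, zpow_neg, zpow_neg, inv_pow, inv_pow, ← zpow_natCast (p ^ m') n,
          ← zpow_mul, mul_comm m' (n : ℤ)]
        have h2 : p ^ ((n : ℤ) * m') ≠ 0 := zpow_ne_zero _ hp0
        field_simp
      rw [h1, ← hmm, zpow_sub₀ hp0, zpow_neg]
      have h3 : p ^ m₁ ≠ 0 := zpow_ne_zero _ hp0
      have h4 : p ^ m₂ ≠ 0 := zpow_ne_zero _ hp0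
      field_simp
    rw [e]
    exact ((isNP_const hn0 hA₂CU).mul (hG₁NP₂.mul (isNP_pow hW₂))).mul (isNP_pow hv₂)

end Main

end Fermat.Agent.S59.LL.SQ.H64
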