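import Fermat.Agent.BAD.H91_ModSSD
import Fermat.Agent.BAD.H23_TotMod
import Fermat.Agent.BAD.H82_Deg
import Fermat.Agent.S36.H61_B0
import Fermat.Agent.S36.NU.H23_L0
attribute [local instance 10000] SubalgebraClass.toAlgebra
attribute [local instance 10000] HahnSeries.powerSeriesAlgebra

/-!
# S59 / LL / SQ, leaf ST-RANK (c), input W = KUM-REL (helper69, for helper64)

Level `N`, `q ‖ N`, `A` a valuation ring of `ℚ̄` over `q`, `I` its inertia group,
`L0 A N` the functions fixed by `I`, `n` prime to `q`.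

* `stmt_TotMod_h69` : the law of total conservation (helper23's `tot_mod`);
* `stmt_B1_all` : **(B1)** at every level `N` with `q ‖ N`: the inertia group fixes `K1(n)`;
* `inertia_fix_sub` : for `σ ∈ I` and `n y = 0`, the class `σ y - y` is fixed by `I`;
* `kumRel` : **KUM-REL**: for `σ ∈ I` and `n y = 0` there are `h₀` (a Kummer function of `y`),
  `h ∈ L0` (a Kummer function of `σ y - y`), `w ≠ 0` and a constant `a ≠ 0` with
  `h = a · (σ h₀ / h₀) · w ^ n`;
* `stmt_KumRel` : the same at the level `M q`, `q ∤ M`.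

This file contains no unproved statement.
-/

set_option autoImplicit false
set_option linter.style.haveILetI false
set_option linter.unusedSectionVars false
set_option synthInstance.maxHeartbeats 400000
set_option maxHeartbeats 1000000

noncomputable section

open HahnSeries IntermediateField AlgebraicCurve ModularCurve
open Fermat.Agent.S28.H73 Fermat.Agent.RED.H73 Fermat.Agent.RED Fermat.Agent.S24
open Fermat.Agent.BAD.H88

namespace Fermat.Agent.S59.LL.SQ.H69K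

open Fermat.Agent.BAD Fermat.Agent.BAD.H91 Fermat.Agent.S36.NU.H23

/-- The law of total conservation for the modular datum of level `M q` (helper23's `tot_mod`
at helper82's identification (D)). -/
theorem stmt_TotMod_h69 : Fermat.Agent.BAD.H91.Stmt_TotMod :=
  fun A q M a b hab hq _ _ hA hqM ht =>
    Fermat.Agent.BAD.H23.tot_mod A q M a b hab hq hA hqM ht
      (Fermat.Agent.BAD.H82.redField_eq_fullC q M a b hab hq A hA)

/-- **(B1), Kummer form, at every level** `N` with `q ‖ N`. -/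
theorem stmt_B1core_all (N q : ℕ) [NeZero N] (hq : q.Prime) (hqN : q ∣ N)
    (hq2 : ¬ q ^ 2 ∣ N) : Stmt_B1core N q :=
  b1core_all
    (fun M q' _ hq' hqM hqM2 ht =>
      b1core_of_ABS M stmt_ABS hq' (modSSD_tame_of stmt_TotMod_h69 M q' hq' hqM hqM2 ht))
    N q hq hqN hq2

/-- **(B1) at every level** `N` with `q ‖ N`: the inertia group at `q` fixes `K1(n)`, `q ∤ n`. -/
theorem stmt_B1_all (N q : ℕ) [NeZero N] (hq : q.Prime) (hqN : q ∣ N)
    (hq2 : ¬ q ^ 2 ∣ N) : Stmt_B1 N q :=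
  b1_of_core N (stmt_B1core_all N q hq hqN hq2)

section Gen

variable (N q : ℕ) [NeZero N] (hq : q.Prime) (hqN : q ∣ N) (hq2 : ¬ q ^ 2 ∣ N)
  (A : ValuationSubring Kbar) (hA : A.LiesOverPrime q)

include hq hqN hq2 hA in
/-- For `σ` in the inertia group and `n y = 0`, `q ∤ n`: the class `σ y - y` is fixed by the
inertia group. -/
theorem inertia_fix_sub {σ : GalQ} (hσ : σ ∈ A.inertiaSubgroupIn ℚ) {n : ℕ} (hn : ¬ q ∣ n)
    {y : JZero N} (hy : n • y = 0) :
    ∀ τ ∈ A.inertiaSubgroupIn ℚ, τ • (σ • y - y) = σ • y - y :=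
  fun τ hτ => stmt_B1_all N q hq hqN hq2 A hA τ hτ n hn _ (stmt_B0 N A σ hσ n y hy)

include hq hqN hq2 hA in
/-- **KUM-REL** (level `N`, `q ‖ N`). -/
theorem kumRel {σ : GalQ} (hσ : σ ∈ A.inertiaSubgroupIn ℚ) {n : ℕ} (hn : ¬ q ∣ n)
    (y : JZero N) (hy : n • y = 0) :
    ∃ (h₀ h w : FN N) (a : Kbar) (E : Divisor.degZero (K := Kbar) (F := FN N)),
      h₀ ≠ 0 ∧ (∀ P : Place Kbar (FN N), (n : ℤ) ∣ P.ord h₀) ∧ h ∈ L0 A N ∧ h ≠ 0 ∧ w ≠ 0 ∧
      a ≠ 0 ∧
      h = algebraMap Kbar (FN N) a * ((galF N σ • h₀) / h₀) * w ^ n ∧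
      σ • y - y = Pic0.mk E ∧
      ∀ P : Place Kbar (FN N), (n : ℤ) * (E : Divisor Kbar (FN N)) P = P.ord h := by
  have hfix := inertia_fix_sub N q hq hqN hq2 A hA hσ hn hy
  obtain ⟨D, rfl⟩ := Pic0.mk_surjective y
  obtain ⟨h₀, hh₀, hD⟩ := exists_kummer_of_nsmul_eq_zero N n D hy
  have hnx : n • (σ • (Pic0.mk D : JZero N) - Pic0.mk D) = 0 := by
    have e : n • (σ • (Pic0.mk D : JZero N)) = 0 := by
      have h1 := map_nsmul (DistribSMul.toAddMonoidHom (JZero N) σ) n (Pic0.mk D)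
      rw [hy, map_zero] at h1
      exact h1.symm
    rw [nsmul_sub, e, hy, sub_zero]
  obtain ⟨E, h, hh0, hxE, hEh, -, hhfix, -, -⟩ :=
    Fermat.Agent.S36.H61.stmt_NUB0 N (A.inertiaSubgroupIn ℚ) n _ hnx hfix
  -- the class of `σ D - D`
  have hcls : (σ • (Pic0.mk D : JZero N) - Pic0.mk D)
      = Pic0.mk (SemilinearAut.degZeroSMulHom (galF N σ) D - D) := by
    show galF N σ • (Pic0.mk D) - Pic0.mk D = _
    rw [SemilinearAut.pic0_smul_mk]
    rfl
  have hEq : (Pic0.mk (SemilinearAut.degZeroSMulHom (galF N σ) D - D) : JZero N) = Pic0.mk E := by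
    rw [← hcls, hxE]
  have h2 := (QuotientAddGroup.eq).1 hEq
  rw [AddSubgroup.mem_addSubgroupOf] at h2
  obtain ⟨w, hw0, hwD⟩ := h2
  have hσD : ∀ P : Place Kbar (FN N),
      ((SemilinearAut.degZeroSMulHom (galF N σ) D - D :
        Divisor.degZero (K := Kbar) (F := FN N)) : Divisor Kbar (FN N)) P
        = (D : Divisor Kbar (FN N)) ((galF N σ)⁻¹ • P) - (D : Divisor Kbar (FN N)) P := by
    intro P
    rw [AddSubgroup.coe_sub, SemilinearAut.coe_degZeroSMulHom, Finsupp.sub_apply,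
      SemilinearAut.divisor_smul_apply]
  have hw : ∀ P : Place Kbar (FN N),
      P.ord w = (E : Divisor Kbar (FN N)) P
        - ((D : Divisor Kbar (FN N)) ((galF N σ)⁻¹ • P) - (D : Divisor Kbar (FN N)) P) := by
    intro P
    rw [← hσD P, ← hwD P]
    show (-((SemilinearAut.degZeroSMulHom (galF N σ) D - D :
        Divisor.degZero (K := Kbar) (F := FN N)) : Divisor Kbar (FN N))
      + (E : Divisor Kbar (FN N))) P = _
    rw [Finsupp.add_apply, Finsupp.neg_apply]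
    ring
  have hσh₀ : galF N σ • h₀ ≠ 0 := by
    intro h0
    apply hh₀
    have h1 := congrArg (fun z => (galF N σ)⁻¹ • z) h0
    simp only [inv_smul_smul, smul_zero] at h1
    exact h1
  have hq0 : galF N σ • h₀ / h₀ ≠ 0 := div_ne_zero hσh₀ hh₀
  -- `u = h / ((σ h₀ / h₀) w ^ n)` has no zero and no pole
  have hden : galF N σ • h₀ / h₀ * w ^ n ≠ 0 := mul_ne_zero hq0 (pow_ne_zero _ hw0)
  have hu0 : h / (galF N σ • h₀ / h₀ * w ^ n) ≠ 0 := div_ne_zero hh0 hden
  have hord : ∀ P : Place Kbar (FN N), P.ord (h / (galF N σ • h₀ / h₀ * w ^ n)) = 0 := by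
    intro P
    rw [div_eq_mul_inv, P.ord_mul hh0 (inv_ne_zero hden), Place.ord_inv,
      P.ord_mul hq0 (pow_ne_zero _ hw0), div_eq_mul_inv, P.ord_mul hσh₀ (inv_ne_zero hh₀),
      Place.ord_inv, Fermat.Agent.RED.H17.ord_pow, ord_galF_smul, ← hEh P, ← hD P, ← hD ((galF N σ)⁻¹ • P),
      hw P]
    ring
  have hFF : RED.H17.FFHyp Kbar (FN N) := RED.H17.ffHyp_of_isFF _ _ (H95.stmt_HKA_isFF N)
  obtain ⟨a, ha⟩ := hFF.const_of_regular (f := h / (galF N σ • h₀ / h₀ * w ^ n))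
    (fun P => le_of_eq (hord P).symm)
  have ha0 : a ≠ 0 := by
    rintro rfl
    rw [map_zero] at ha
    exact hu0 ha
  refine ⟨h₀, h, w, a, E, hh₀, fun P => ⟨_, (hD P).symm⟩, fun τ hτ => hhfix τ hτ, hh0, hw0, ha0,
    ?_, hxE, hEh⟩
  rw [mul_assoc, ← ha, div_mul_cancel₀ _ hden]

end Gen

/-- **KUM-REL** at the level `M q`, `q ∤ M` (the input W of ST-RANK (c)). -/
theorem stmt_KumRel (A : ValuationSubring Kbar) (q M : ℕ) (hq : q.Prime) [NeZero (M * q)]
    (hA : A.LiesOverPrime q) (hqM : ¬ q ∣ M) :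
    ∀ σ ∈ A.inertiaSubgroupIn ℚ, ∀ n : ℕ, ¬ q ∣ n → ∀ y : JZero (M * q), n • y = 0 →
      ∃ (h₀ h w : FN (M * q)) (a : Kbar) (E : Divisor.degZero (K := Kbar) (F := FN (M * q))),
        h₀ ≠ 0 ∧ (∀ P : Place Kbar (FN (M * q)), (n : ℤ) ∣ P.ord h₀) ∧ h ∈ L0 A (M * q) ∧
        h ≠ 0 ∧ w ≠ 0 ∧ a ≠ 0 ∧
        h = algebraMap Kbar (FN (M * q)) a * ((galF (M * q) σ • h₀) / h₀) * w ^ n ∧
        σ • y - y = Pic0.mk E ∧
        ∀ P : Place Kbar (FN (M * q)), (n : ℤ) * (E : Divisor Kbar (FN (M * q))) P = P.ord h := by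
  intro σ hσ n hn y hy
  have hq2 : ¬ q ^ 2 ∣ M * q := by
    intro hd
    apply hqM
    rw [pow_two] at hd
    exact Nat.dvd_of_mul_dvd_mul_right hq.pos hd
  exact kumRel (M * q) q hq (Dvd.intro_left M rfl) hq2 A hA hσ hn y hy

end Fermat.Agent.S59.LL.SQ.H69K
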