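import Fermat.Agent.S27.Char0.H20_Final2
import Fermat.Agent.S27.Char0.Lift.H68_SolveFinal
import Fermat.Agent.RED.H95_IsFF

/-!
# S59 / LL / SQ, leaf ST-RANK (a) (helper64): the number of `p ^ k`-torsion points

* `card_torsion_of_isFFu` : for a function field `F / K` of one variable over an algebraically
  closed field of characteristic `0`, of Riemann genus `g`:
  `#Pic0(F)[ℓ ^ j] = ℓ ^ (2 g j)`  (the proof of S27, with Riemann's genus instead of `genusFF`);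
* `stmt_StRankA` : `#J₀(N)[p ^ k] = p ^ (2 g k)`, `g` the Riemann genus of `F_N · ℚ̄`.
-/

set_option autoImplicit false

noncomputable section

open AlgebraicCurve IntermediateField

namespace Fermat.Agent.S59.LL.SQ.H64

open Fermat.Agent.RED.H17 Fermat.Agent.S27.Char0 Fermat.Agent.S27.Char0.H20

universe u v

/-- `#Pic0(F)[ℓ ^ j] = ℓ ^ (2 g j)` in characteristic `0`, `g` the Riemann genus. -/
theorem card_torsion_of_isFFu (K : Type u) (F : Type v) [Field K] [Field F] [Algebra K F]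
    [IsAlgClosed K] [CharZero K] (hFF : IsFFu K F) (g : ℕ) (c : ℤ) (hg : IsGenus K F g c)
    (ℓ : ℕ) (hℓ : ℓ.Prime) (j : ℕ) :
    Nat.card (Pic0.torsion K F (ℓ ^ j)) = ℓ ^ (2 * g * j) := by
  obtain ⟨H, -, -, -⟩ := stmt_FFH K F hFF
  have hREDEX : Stmt_REDEX.{u, v} :=
    redex_of stmt_EisEx Fermat.Agent.S27.Char0.H38.stmt_BranchFin
      Fermat.Agent.S27.Char0.H57.stmt_VAL Fermat.Agent.S27.Char0.H64.stmt_GaussExt stmt_Bridge
  have hLIFT : Stmt_LIFT.{u, v, u, v} := Fermat.Agent.S27.Char0.Lift.H68.stmt_LIFT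
  have hCount : Stmt_CountPu.{u, v} := Fermat.Agent.S27.CharP.H62F.stmt_CountPu
  obtain ⟨p, k, Ft, _, _, _, _, _, hp, hpℓ, halg, ⟨G⟩⟩ := hREDEX K F hFF ℓ
  have hFFt : IsFFu k Ft := ⟨G.S.rd G.x, G.transc, G.fin'⟩
  obtain ⟨H', g', c', hg'⟩ := stmt_FFH k Ft hFFt
  have hgg : g' = g :=
    Fermat.Agent.S27.Char0.H52.stmt_GenusEq K F k Ft G.S H H' g c g' c' hg hg' G.genusLE
  subst hgg
  obtain ⟨ρ, hρmk, -, hρinj⟩ :=
    Fermat.Agent.S27.Char0.H52.stmt_TIPic K F k Ft G.S H H' g' c g' c' hg hg' G.genusLE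
  have hn : ((ℓ ^ j : ℕ) : k) ≠ 0 := by
    intro h0
    have h1 : p ∣ ℓ ^ j := (CharP.cast_eq_zero_iff k p (ℓ ^ j)).mp h0
    have h2 : p ∣ ℓ := hp.dvd_of_dvd_pow h1
    exact hpℓ ((Nat.prime_dvd_prime_iff_eq hp hℓ).mp h2)
  have hmaps : ∀ x : Pic0 K F, x ∈ Pic0.torsion K F (ℓ ^ j) → ρ x ∈ Pic0.torsion k Ft (ℓ ^ j) := by
    intro x hx
    rw [Pic0.mem_torsion] at hx ⊢
    rw [← map_zsmul, hx, map_zero]
  let φ : Pic0.torsion K F (ℓ ^ j) → Pic0.torsion k Ft (ℓ ^ j) := fun x => ⟨ρ x, hmaps x x.2⟩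
  have hφinj : Function.Injective φ := by
    intro x y hxy
    have h1 : ρ (x : Pic0 K F) = ρ (y : Pic0 K F) := congrArg Subtype.val hxy
    have h2 : ρ ((x : Pic0 K F) - y) = 0 := by rw [map_sub, h1, sub_self]
    have h3 : ((ℓ ^ j : ℕ) : ℤ) • ((x : Pic0 K F) - y) = 0 := by
      have hx := Pic0.mem_torsion.mp x.2
      have hy := Pic0.mem_torsion.mp y.2
      rw [zsmul_sub, hx, hy, sub_self]
    have h4 := hρinj (ℓ ^ j) hn _ h3 h2
    exact Subtype.ext (sub_eq_zero.mp h4)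
  have hφsurj : Function.Surjective φ := by
    rintro ⟨y, hy⟩
    rw [Pic0.mem_torsion] at hy
    obtain ⟨E, hE, rfl, hEn⟩ := exists_divisor_of_torsion (ℓ ^ j) y hy
    obtain ⟨D, hD, hDn, hDE⟩ := hLIFT K F k Ft G H H' g' c c' hg hg' (ℓ ^ j) hn E hE hEn
    have hD' : D ∈ Divisor.degZero (K := K) (F := F) := hD
    have hx : Pic0.mk ⟨D, hD'⟩ ∈ Pic0.torsion K F (ℓ ^ j) := by
      rw [Pic0.mem_torsion]
      have : ((ℓ ^ j : ℕ) : ℤ) • Pic0.mk ⟨D, hD'⟩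
          = Pic0.mk (((ℓ ^ j : ℕ) : ℤ) • (⟨D, hD'⟩ : Divisor.degZero (K := K) (F := F))) := rfl
      rw [this]
      exact (QuotientAddGroup.eq_zero_iff _).mpr hDn
    refine ⟨⟨_, hx⟩, Subtype.ext ?_⟩
    show ρ (Pic0.mk ⟨D, hD'⟩) = Pic0.mk ⟨E, hE⟩
    obtain ⟨hD'', hρD⟩ := hρmk D hD'
    rw [hρD, ← sub_eq_zero]
    have : Pic0.mk ⟨Finsupp.mapDomain G.S.r D, hD''⟩ - Pic0.mk ⟨E, hE⟩
        = Pic0.mk (⟨Finsupp.mapDomain G.S.r D, hD''⟩ - ⟨E, hE⟩) := rfl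
    rw [this]
    exact (QuotientAddGroup.eq_zero_iff _).mpr hDE
  have hcard : Nat.card (Pic0.torsion K F (ℓ ^ j)) = Nat.card (Pic0.torsion k Ft (ℓ ^ j)) :=
    Nat.card_congr (Equiv.ofBijective φ ⟨hφinj, hφsurj⟩)
  rw [hcard]
  exact hCount k Ft p hp halg hFFt g' c' hg' ℓ hℓ hpℓ.symm j

/-- **ST-RANK (a)**: `#J₀(N)[p ^ k] = p ^ (2 g k)`, `g` the Riemann genus of `F_N · ℚ̄`. -/
theorem stmt_StRankA (N : ℕ) [NeZero N] (g : ℕ) (c : ℤ)
    (hg : IsGenus (AlgebraicClosure ℚ) ↥(ModularCurve.modularFunctionFieldBar N) g c)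
    (p : ℕ) (hp : p.Prime) (k : ℕ) :
    Nat.card (Pic0.torsion (AlgebraicClosure ℚ) ↥(ModularCurve.modularFunctionFieldBar N)
      (p ^ k)) = p ^ (2 * g * k) :=
  card_torsion_of_isFFu (AlgebraicClosure ℚ) ↥(ModularCurve.modularFunctionFieldBar N)
    (Fermat.Agent.RED.H95.isFF_FN N) g c hg p hp k

end Fermat.Agent.S59.LL.SQ.H64
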