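import Fermat.Agent.S27.CharP.H62_CountPu
import Fermat.Agent.BAD.H91_Nodes
import Fermat.Agent.FL.H38_UnrConst
attribute [local instance 10000] SubalgebraClass.toAlgebra
attribute [local instance 10000] HahnSeries.powerSeriesAlgebra

/-!
# S59 / LL / SQ, leaf ST-RANK, COUNT-F1 (helper91): torsion of `Pic⁰` of the reduced curve

`A` a valuation ring of `ℚ̄` over the prime `q`, `k = kV A` its residue field.

* `kV_isAlgOverFp` : `k` is algebraic over `𝔽_q` (every element is fixed by a power of the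
  Frobenius);
* `card_torsion_kV` : for a function field `Ft / k` of one variable of Riemann genus `g` and a
  prime `p ≠ q`:  `#Pic⁰(Ft)[p ^ e] = p ^ (2 g e)`  (helper62's count `S27.CharP.H62F.stmt_CountPu`);
* `stmt_CountF1` : the case `Ft = F₁` (the residue field of the Gauss valuation of level `M q`,
  `q ∤ M` tame): **COUNT-F1**;
* `stmt_CountRedM` : the same for the reduced field `redM A M` of level `M`.
-/

set_option autoImplicit false
set_option linter.style.haveILetI false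
set_option linter.unusedSectionVars false
set_option synthInstance.maxHeartbeats 400000
set_option maxHeartbeats 1000000

noncomputable section

open HahnSeries IntermediateField AlgebraicCurve ModularCurve
open Fermat.Agent.S28.H73 Fermat.Agent.RED.H73 Fermat.Agent.RED Fermat.Agent.S24
open Fermat.Agent.BAD.H88 Fermat.Agent.BAD

namespace Fermat.Agent.S59.LL.SQ.H91

/-- The residue field of a valuation ring of `ℚ̄` over `q` is algebraic over `𝔽_q`. -/
theorem kV_isAlgOverFp (A : ValuationSubring Kbar) {q : ℕ} (hq : q.Prime)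
    (hA : A.LiesOverPrime q) : Fermat.Agent.S27.Char0.IsAlgOverFp (kV A) q := by
  classical
  intro c
  haveI : Fact q.Prime := ⟨hq⟩
  haveI := Fermat.Agent.FL.H38.charP_residue A hq hA
  letI : Algebra (ZMod q) (IsLocalRing.ResidueField A) := ZMod.algebra _ q
  obtain ⟨x, rfl⟩ := IsLocalRing.residue_surjective c
  have halg : IsAlgebraic (ZMod q) (IsLocalRing.residue A x) := by
    obtain ⟨R, hR0, hR⟩ := Fermat.Agent.FL.H38.isAlgebraic_residue A (ℓ := q) x
    exact ⟨R, hR0, hR⟩
  have hint : IsIntegral (ZMod q) (IsLocalRing.residue A x) := halg.isIntegral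
  haveI : FiniteDimensional (ZMod q) (ZMod q)⟮IsLocalRing.residue A x⟯ :=
    IntermediateField.adjoin.finiteDimensional hint
  haveI : Finite (ZMod q)⟮IsLocalRing.residue A x⟯ := Module.finite_of_finite (ZMod q)
  letI : Fintype (ZMod q)⟮IsLocalRing.residue A x⟯ := Fintype.ofFinite _
  set y : (ZMod q)⟮IsLocalRing.residue A x⟯ :=
    ⟨IsLocalRing.residue A x, IntermediateField.mem_adjoin_simple_self _ _⟩ with hy
  obtain ⟨n, -, hn⟩ := FiniteField.card (ZMod q)⟮IsLocalRing.residue A x⟯ q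
  have h1 := FiniteField.pow_card y
  rw [hn] at h1
  refine ⟨n, n.pos, ?_⟩
  have h2 := congrArg Subtype.val h1
  simpa using h2

/-- **The count over the residue field**: `#Pic⁰(Ft)[p ^ e] = p ^ (2 g e)` for a function field
`Ft` of one variable over `k = kV A`, of Riemann genus `g`, `p ≠ q`. -/
theorem card_torsion_kV (A : ValuationSubring Kbar) {q : ℕ} (hq : q.Prime)
    (hA : A.LiesOverPrime q) (Ft : Type) [Field Ft] [Algebra (kV A) Ft]
    (hFF : IsFF (kV A) Ft) (g : ℕ) (c : ℤ) (hg : RED.H17.IsGenus (kV A) Ft g c)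
    (p : ℕ) (hp : p.Prime) (hpq : p ≠ q) (e : ℕ) :
    Nat.card (Pic0.torsion (kV A) Ft (p ^ e)) = p ^ (2 * g * e) := by
  haveI : IsAlgClosed (kV A) := isAlgClosed_kV A
  haveI : CharP (kV A) q := Fermat.Agent.FL.H38.charP_residue A hq hA
  exact Fermat.Agent.S27.CharP.H62F.stmt_CountPu.{0, 0} (kV A) Ft q hq (kV_isAlgOverFp A hq hA)
    hFF g c hg p hp hpq e

section Mod

variable {A : ValuationSubring Kbar} {q M : ℕ} (a b : ℤ) (hab : a * q + b * M = 1)
  (hq : q.Prime) [NeZero M] [NeZero (M * q)] (hA : A.LiesOverPrime q)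
  (hqM : ¬ q ∣ M) (ht : H91.TameAt M q)

include hab hq hA hqM ht in
/-- **COUNT-F1**: `#Pic⁰(F₁)[p ^ e] = p ^ (2 g₁ e)`, `g₁` the Riemann genus of `F₁`. -/
theorem stmt_CountF1 (g₁ : ℕ) (c₁ : ℤ) (hg₁ : RED.H17.IsGenus (kV A) (F1 A q M) g₁ c₁)
    (p : ℕ) (hp : p.Prime) (hpq : p ≠ q) (e : ℕ) :
    Nat.card (Pic0.torsion (kV A) (F1 A q M) (p ^ e)) = p ^ (2 * g₁ * e) :=
  card_torsion_kV A hq hA (F1 A q M) (H91.isFF_F1 a b hab hq hA hqM ht) g₁ c₁ hg₁ p hp hpq e

include hq hA hqM ht in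
/-- The same count for the reduced field of level `M`. -/
theorem stmt_CountRedM (g₁ : ℕ) (c₁ : ℤ) (hg₁ : RED.H17.IsGenus (kV A) ↥(H91.redM A M) g₁ c₁)
    (p : ℕ) (hp : p.Prime) (hpq : p ≠ q) (e : ℕ) :
    Nat.card (Pic0.torsion (kV A) ↥(H91.redM A M) (p ^ e)) = p ^ (2 * g₁ * e) :=
  card_torsion_kV A hq hA ↥(H91.redM A M) (H91.isFF_redM hq hqM ht hA) g₁ c₁ hg₁ p hp hpq e

end Mod

end Fermat.Agent.S59.LL.SQ.H91
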