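import Fermat.Agent.S59.LL.SQ.H69_StRankFReg
import Fermat.Agent.S59.LL.SQ.H64_StRankA
import Fermat.Agent.S59.LL.SQ.H91_CountF1
import Fermat.Agent.BADP.H21_CoordFinal
import Fermat.Agent.S43.H91_ModSSDW
import Fermat.Agent.S36.NU.H23_L0
attribute [local instance 10000] SubalgebraClass.toAlgebra
attribute [local instance 10000] HahnSeries.powerSeriesAlgebra

/-!
# S59 / LL / SQ, leaf ST-RANK (f), modular form (helper69)

Level `M q`, `q ∤ M` tame (`BAD.H91.TameAt M q`), `A` a valuation ring of `ℚ̄` over `q`,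
`S = S43.H91.modSSD A q M a b hab hq hA hqM ht` the modular semistable Deuring datum (valuation
rings `V1`, `V2`, reductions `red1`, `red2`, residue fields `F1 A q M`), `L = L0 A (M q)` the
functions fixed by the inertia group, `δ = S.nodes.card`, `n = p ^ k`.

* `theS_eq_modSSD` : helper21's `BADP.H21.theS` **is** helper91's `S43.H91.modSSD`;
* `modSSD_mem₁`, `modSSD_inertial`, `modSSD_coord` : the first valuation ring is the Gauss one,
  the inertia group is inertial for the datum, annulus coordinates of thickness `q ^ e`,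
  `e ∣ 12`, fixed by the inertia group, at all nodes;
* `reg12_modSSD` : **REG12**: `p` odd, `f ∈ L` a unit for both valuations, `p ^ k ∣ div f`
  `⟹  p ^ (k - 1) ∣ ord_{s.1} (rd₁ f)` at every node `s`;
* `reg_modSSD` : **REG** for `p ≥ 5`: `p ^ k ∣ div (rd₁ f)`, `p ^ k ∣ div (rd₂ f)`;
* `finite_inGA_modSSD` : the finite part is finite;
* `stRankF2` : **(f2)**  `#G_reg ≤ p ^ (4 g₁ k) · #T`;
* `stRankF1` : **(f1)**  `#G ≤ p ^ δ · #G_reg`   (`p` odd);
* `stRankF_weak` : **ST-RANK (f)**  `#G ≤ p ^ δ · (p ^ (4 g₁ k) · #T)`   (`p` odd, `p ≠ q`);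
* `stRankF` : `#G ≤ p ^ (4 g₁ k) · #T`   (`p ≥ 5`, `p ≠ q`).

This file contains no unproved statement.
-/

set_option autoImplicit false
set_option linter.style.haveILetI false
set_option linter.unusedSectionVars false
set_option synthInstance.maxHeartbeats 400000
set_option maxHeartbeats 1000000

noncomputable section

open HahnSeries IntermediateField AlgebraicCurve ModularCurve
open Fermat.Agent.S28.H73 Fermat.Agent.RED.H73 Fermat.Agent.RED Fermat.Agent.S24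
open Fermat.Agent.BAD.H88

namespace Fermat.Agent.S59.LL.SQ.H69

open Fermat.Agent.BAD Fermat.Agent.BAD.H91 Fermat.Agent.BADP Fermat.Agent.BADP.H21
open Fermat.Agent.S36.NU.H23

section Mod

variable (A : ValuationSubring Kbar) (q M : ℕ) (a b : ℤ) (hab : a * q + b * M = 1)
  (hq : q.Prime) [NeZero M] [NeZero (M * q)] [NeZero q] (hA : A.LiesOverPrime q)
  (hqM : ¬ q ∣ M) (ht : TameAt M q)

/-- helper21's modular datum is helper91's. -/
theorem theS_eq_modSSD :
    theS A q M a b hab hq hA hqM ht = Fermat.Agent.S43.H91.modSSD A q M a b hab hq hA hqM ht :=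
  rfl

/-- The first valuation ring of the modular datum is the Gauss valuation ring. -/
theorem modSSD_mem₁ (f : FN (M * q)) :
    f ∈ (Fermat.Agent.S43.H91.modSSD A q M a b hab hq hA hqM ht).c₁.V ↔
      f ∈ gaussV A (M * q) := Iff.rfl

/-- The inertia group is inertial for the modular datum. -/
theorem modSSD_inertial (σ : GalQ) (hσ : σ ∈ A.inertiaSubgroupIn ℚ) :
    (Fermat.Agent.S43.H91.modSSD A q M a b hab hq hA hqM ht).IsInertial (galF (M * q) σ) := by
  rw [← theS_eq_modSSD]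
  exact modS_inertial A q M a b hab hq hA hqM ht (totModAt A q M a b hab hq hA hqM ht) hσ

/-- **COORD** at the nodes of the modular datum. -/
theorem modSSD_coord {s : Place (kV A) (F1 A q M) × Place (kV A) (F1 A q M)}
    (hs : s ∈ (Fermat.Agent.S43.H91.modSSD A q M a b hab hq hA hqM ht).nodes) :
    ∃ (e : ℕ) (t : FN (M * q)), 0 < e ∧ e ∣ 12 ∧
      (Fermat.Agent.S43.H91.modSSD A q M a b hab hq hA hqM ht).IsAnnCoord s t ((q : Kbar) ^ e) ∧
      ∀ σ ∈ A.inertiaSubgroupIn ℚ, galF (M * q) σ • t = t := by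
  rw [← theS_eq_modSSD] at hs ⊢
  exact coord_final A q M a b hab hq hA hqM ht hs

/-- **REG12** (modular): for `p` odd, `f` fixed by the inertia group, a unit for both valuations,
with `p ^ k ∣ div f`: `p ^ (k - 1) ∣ ord_{s.1} (rd₁ f)` at every node `s`. -/
theorem reg12_modSSD (p : ℕ) (hp : p.Prime) (hp2 : p ≠ 2) (k : ℕ) {f : FN (M * q)}
    (hfL : f ∈ L0 A (M * q))
    (G₁ : (Fermat.Agent.S43.H91.modSSD A q M a b hab hq hA hqM ht).c₁.IsGU f)
    (G₂ : (Fermat.Agent.S43.H91.modSSD A q M a b hab hq hA hqM ht).c₂.IsGU f)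
    (hdiv : ∀ P : Place Kbar (FN (M * q)), ((p ^ k : ℕ) : ℤ) ∣ P.ord f) :
    ∀ s ∈ (Fermat.Agent.S43.H91.modSSD A q M a b hab hq hA hqM ht).nodes,
      ((p ^ (k - 1) : ℕ) : ℤ) ∣
        s.1.ord ((Fermat.Agent.S43.H91.modSSD A q M a b hab hq hA hqM ht).c₁.rd f) :=
  weak_of_coord (Fermat.Agent.S43.H91.modSSD A q M a b hab hq hA hqM ht) hq hA
    (modSSD_mem₁ A q M a b hab hq hA hqM ht) (modSSD_inertial A q M a b hab hq hA hqM ht)
    p hp hp2 (fun _ hs => modSSD_coord A q M a b hab hq hA hqM ht hs) k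
    (fun σ hσ => hfL σ hσ) G₁ G₂ hdiv

/-- **REG** (modular) for `p ≥ 5`. -/
theorem reg_modSSD (p : ℕ) (hp : p.Prime) (h5 : 5 ≤ p) (k : ℕ) {f : FN (M * q)}
    (hfL : f ∈ L0 A (M * q))
    (G₁ : (Fermat.Agent.S43.H91.modSSD A q M a b hab hq hA hqM ht).c₁.IsGU f)
    (G₂ : (Fermat.Agent.S43.H91.modSSD A q M a b hab hq hA hqM ht).c₂.IsGU f)
    (hdiv : ∀ P : Place Kbar (FN (M * q)), ((p ^ k : ℕ) : ℤ) ∣ P.ord f) :
    (∀ Q : Place (kV A) (F1 A q M), ((p ^ k : ℕ) : ℤ) ∣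
        Q.ord ((Fermat.Agent.S43.H91.modSSD A q M a b hab hq hA hqM ht).c₁.rd f)) ∧
      (∀ Q : Place (kV A) (F1 A q M), ((p ^ k : ℕ) : ℤ) ∣
        Q.ord ((Fermat.Agent.S43.H91.modSSD A q M a b hab hq hA hqM ht).c₂.rd f)) :=
  reg_of_coord (Fermat.Agent.S43.H91.modSSD A q M a b hab hq hA hqM ht) hq hA
    (modSSD_mem₁ A q M a b hab hq hA hqM ht) (modSSD_inertial A q M a b hab hq hA hqM ht)
    p hp
    (fun _ hs => by
      obtain ⟨e, t, he, h12, hc, hfix⟩ := modSSD_coord A q M a b hab hq hA hqM ht hs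
      exact ⟨e, t, not_dvd_of_dvd_twelve hp h5 he h12, hc, hfix⟩) k
    (fun σ hσ => hfL σ hσ) G₁ G₂ hdiv

omit [NeZero M] [NeZero q] in
/-- The `p ^ k`-torsion of `J₀(M q)` is finite. -/
theorem finite_torsion_FN (p : ℕ) (hp : p.Prime) (k : ℕ) :
    Finite (Pic0.torsion Kbar (FN (M * q)) (p ^ k)) := by
  obtain ⟨g, c, hg⟩ := RED.H17.exists_isGenus _ _ (H95.stmt_HKA_isFF (M * q))
  have hcardJ := Fermat.Agent.S59.LL.SQ.H64.stmt_StRankA (M * q) g c hg p hp k
  apply Nat.finite_of_card_ne_zero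
  rw [hcardJ]
  exact pow_ne_zero _ hp.ne_zero

/-- The finite part is finite. -/
theorem finite_inGA_modSSD (p : ℕ) (hp : p.Prime) (k : ℕ) :
    {x : JZero (M * q) | InGA (Fermat.Agent.S43.H91.modSSD A q M a b hab hq hA hqM ht)
      (L0 A (M * q)) (p ^ k) x}.Finite := by
  haveI := finite_torsion_FN q M p hp k
  have h1 : ((Pic0.torsion Kbar (FN (M * q)) (p ^ k) : AddSubgroup (JZero (M * q))) :
      Set (JZero (M * q))).Finite := Set.toFinite _
  exact h1.subset (fun x hx => InGA.mem_torsion hx)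

include hab hq hA hqM ht in
/-- The `p ^ k`-torsion of `Pic⁰(F₁)` is finite (`p ≠ q`). -/
theorem finite_torsion_F1 (p : ℕ) (hp : p.Prime) (hpq : p ≠ q) (k : ℕ) :
    Finite (Pic0.torsion (kV A) (F1 A q M) (p ^ k)) := by
  haveI : IsAlgClosed (kV A) := isAlgClosed_kV A
  obtain ⟨g₁, c₁, hg₁⟩ := RED.H17.exists_isGenus _ _ (isFF_F1 a b hab hq hA hqM ht)
  have hcard₁ := Fermat.Agent.S59.LL.SQ.H91.stmt_CountF1 a b hab hq hA hqM ht g₁ c₁ hg₁
    p hp hpq k
  apply Nat.finite_of_card_ne_zero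
  rw [hcard₁]
  exact pow_ne_zero _ hp.ne_zero

/-- **(f2)** (modular): `#G_reg ≤ p ^ (4 g₁ k) · #T`. -/
theorem stRankF2 (p : ℕ) (hp : p.Prime) (hpq : p ≠ q)
    {g₁ : ℕ} {c₁ : ℤ} (hg₁ : RED.H17.IsGenus (kV A) (F1 A q M) g₁ c₁) (k : ℕ) :
    Nat.card {x : JZero (M * q) | InGregA (Fermat.Agent.S43.H91.modSSD A q M a b hab hq hA hqM ht)
        (L0 A (M * q)) (p ^ k) x} ≤
      p ^ (4 * g₁ * k) *
        Nat.card {x : JZero (M * q) | InTA (Fermat.Agent.S43.H91.modSSD A q M a b hab hq hA hqM ht)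
          (L0 A (M * q)) (p ^ k) x} := by
  haveI : IsAlgClosed (kV A) := isAlgClosed_kV A
  have hn : p ^ k ≠ 0 := pow_ne_zero _ hp.ne_zero
  have hcard₁ := Fermat.Agent.S59.LL.SQ.H91.stmt_CountF1 a b hab hq hA hqM ht g₁ c₁ hg₁
    p hp hpq k
  haveI hfin₁ := finite_torsion_F1 A q M a b hab hq hA hqM ht p hp hpq k
  have hT : {x : JZero (M * q) | InTA (Fermat.Agent.S43.H91.modSSD A q M a b hab hq hA hqM ht)
      (L0 A (M * q)) (p ^ k) x}.Finite :=
    (finite_inGA_modSSD A q M a b hab hq hA hqM ht p hp k).subset (fun x hx => InTA.inGA hx)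
  have key := card_inGregA_le (Fermat.Agent.S43.H91.modSSD A q M a b hab hq hA hqM ht)
    (L0 A (M * q)) (ff1 A q M a b hab hq hA hqM ht) (ff1 A q M a b hab hq hA hqM ht) (p ^ k) hn hT
  rw [hcard₁] at key
  have e : p ^ (2 * g₁ * k) * p ^ (2 * g₁ * k) = p ^ (4 * g₁ * k) := by
    rw [← _root_.pow_add]
    congr 1
    ring
  rw [e] at key
  exact key

/-- **(f1)** (modular): `#G ≤ p ^ δ · #G_reg` for `p` odd. -/
theorem stRankF1 (p : ℕ) (hp : p.Prime) (hp2 : p ≠ 2) (k : ℕ) :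
    Nat.card {x : JZero (M * q) | InGA (Fermat.Agent.S43.H91.modSSD A q M a b hab hq hA hqM ht)
        (L0 A (M * q)) (p ^ k) x} ≤
      p ^ (Fermat.Agent.S43.H91.modSSD A q M a b hab hq hA hqM ht).nodes.card *
        Nat.card {x : JZero (M * q) |
          InGregA (Fermat.Agent.S43.H91.modSSD A q M a b hab hq hA hqM ht)
            (L0 A (M * q)) (p ^ k) x} :=
  card_inGA_le_inGregA (Fermat.Agent.S43.H91.modSSD A q M a b hab hq hA hqM ht)
    (L0 A (M * q)) (ffL q M).principal p k hp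
    (fun _ hfL G₁ G₂ hdiv => reg12_modSSD A q M a b hab hq hA hqM ht p hp hp2 k hfL G₁ G₂ hdiv)
    ((finite_inGA_modSSD A q M a b hab hq hA hqM ht p hp k).subset
      (fun _ hx => InGregA.inGA hx))

/-- **ST-RANK (f)** (modular, all odd `p ≠ q`): `#G ≤ p ^ δ · (p ^ (4 g₁ k) · #T)`. -/
theorem stRankF_weak (p : ℕ) (hp : p.Prime) (hp2 : p ≠ 2) (hpq : p ≠ q)
    {g₁ : ℕ} {c₁ : ℤ} (hg₁ : RED.H17.IsGenus (kV A) (F1 A q M) g₁ c₁) (k : ℕ) :
    Nat.card {x : JZero (M * q) | InGA (Fermat.Agent.S43.H91.modSSD A q M a b hab hq hA hqM ht)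
        (L0 A (M * q)) (p ^ k) x} ≤
      p ^ (Fermat.Agent.S43.H91.modSSD A q M a b hab hq hA hqM ht).nodes.card *
        (p ^ (4 * g₁ * k) *
          Nat.card {x : JZero (M * q) |
            InTA (Fermat.Agent.S43.H91.modSSD A q M a b hab hq hA hqM ht)
              (L0 A (M * q)) (p ^ k) x}) :=
  (stRankF1 A q M a b hab hq hA hqM ht p hp hp2 k).trans
    (Nat.mul_le_mul_left _ (stRankF2 A q M a b hab hq hA hqM ht p hp hpq hg₁ k))

/-- **ST-RANK (f)** for `p ≥ 5`, `p ≠ q`: `#G ≤ p ^ (4 g₁ k) · #T`. -/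
theorem stRankF (p : ℕ) (hp : p.Prime) (h5 : 5 ≤ p) (hpq : p ≠ q)
    {g₁ : ℕ} {c₁ : ℤ} (hg₁ : RED.H17.IsGenus (kV A) (F1 A q M) g₁ c₁) (k : ℕ) :
    Nat.card {x : JZero (M * q) | InGA (Fermat.Agent.S43.H91.modSSD A q M a b hab hq hA hqM ht)
        (L0 A (M * q)) (p ^ k) x} ≤
      p ^ (4 * g₁ * k) *
        Nat.card {x : JZero (M * q) | InTA (Fermat.Agent.S43.H91.modSSD A q M a b hab hq hA hqM ht)
          (L0 A (M * q)) (p ^ k) x} := by
  haveI : IsAlgClosed (kV A) := isAlgClosed_kV A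
  have hn : p ^ k ≠ 0 := pow_ne_zero _ hp.ne_zero
  have hcard₁ := Fermat.Agent.S59.LL.SQ.H91.stmt_CountF1 a b hab hq hA hqM ht g₁ c₁ hg₁
    p hp hpq k
  haveI hfin₁ := finite_torsion_F1 A q M a b hab hq hA hqM ht p hp hpq k
  have hT : {x : JZero (M * q) | InTA (Fermat.Agent.S43.H91.modSSD A q M a b hab hq hA hqM ht)
      (L0 A (M * q)) (p ^ k) x}.Finite :=
    (finite_inGA_modSSD A q M a b hab hq hA hqM ht p hp k).subset (fun x hx => InTA.inGA hx)
  have key := card_inGA_le (Fermat.Agent.S43.H91.modSSD A q M a b hab hq hA hqM ht)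
    (L0 A (M * q)) (ff1 A q M a b hab hq hA hqM ht) (ff1 A q M a b hab hq hA hqM ht) (p ^ k) hn
    (fun _ hfL G₁ G₂ hdiv => reg_modSSD A q M a b hab hq hA hqM ht p hp h5 k hfL G₁ G₂ hdiv) hT
  rw [hcard₁] at key
  have e : p ^ (2 * g₁ * k) * p ^ (2 * g₁ * k) = p ^ (4 * g₁ * k) := by
    rw [← _root_.pow_add]
    congr 1
    ring
  rw [e] at key
  exact key

end Mod

end Fermat.Agent.S59.LL.SQ.H69
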