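import Fermat.Agent.S43.H91_ModSSDW
import Fermat.Agent.S15.Desc.H83_GlueMod
attribute [local instance 10000] SubalgebraClass.toAlgebra
attribute [local instance 10000] HahnSeries.powerSeriesAlgebra

/-!
# S59 / LL / SQ, leaf NUM-LE (helper83): the exact number of nodes of the modular datum

For `q ∤ M` tame and `A` over `q`, the explicit modular semistable Deuring datum
`S43.H91.modSSD` of `F_{M q} · ℚ̄` at `A` (two components with function field `F1 A q M`):

* `genus_eq_nodes` : `g + 1 = 2 g₁ + δ` (Riemann genera, `δ` the number of nodes);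
* `genus_F1_eq` : the genus of the components is `genusFormula M`;
* `nodes_card_eq` : `δ = genusFormula (M q) + 1 - 2 genusFormula M`;
* `numLE` : **NUM-LE**, `δ ≤ genusFormula (M q) - 2 genusFormula M + 1`;
* `card_eq_nodes_card` : a set of nodes `Z` with the inequality of NUM has all the nodes.

Inputs: the abstract genus formula `S15.Desc.H83.genus_formula` (surjectivity of the reduction
of twisted Riemann–Roch spaces + pivot), NUM (`H30.num_final_tame`), `BAD.H17.genus_FN_eq`,
`BAD.H17.genusFormula_le_redM`.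
This file contains no unproved statement.
-/

set_option autoImplicit false
set_option linter.style.haveILetI false
set_option synthInstance.maxHeartbeats 400000
set_option maxHeartbeats 1000000
set_option linter.unusedSectionVars false

noncomputable section

open HahnSeries IntermediateField AlgebraicCurve ModularCurve
open Fermat.Agent.S28.H73 Fermat.Agent.RED.H73 Fermat.Agent.RED Fermat.Agent.S24
open Fermat.Agent.BAD.H88 Fermat.Agent.BAD

namespace Fermat.Agent.S59.LL.SQ.H83

open Fermat.Agent.BAD.H91 Fermat.Agent.S43.H91 Fermat.Agent.S35.H89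

section Mod

variable (A : ValuationSubring Kbar) (q M : ℕ) (a b : ℤ) (hab : a * q + b * M = 1)
  (hq : q.Prime) [NeZero M] [NeZero (M * q)] [NeZero q] (hA : A.LiesOverPrime q)
  (hqM : ¬ q ∣ M) (ht : TameAt M q)

/-- **The genus formula of the modular datum**: `g + 1 = 2 g₁ + δ`. -/
theorem genus_eq_nodes {g g₁ : ℕ} {c c₁ : ℤ} (hg : RED.H17.IsGenus Kbar (FN (M * q)) g c)
    (hg₁ : RED.H17.IsGenus (kV A) (F1 A q M) g₁ c₁) :
    g + 1 = g₁ + g₁ + (modSSD A q M a b hab hq hA hqM ht).nodes.card := by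
  haveI : IsAlgClosed (kV A) := isAlgClosed_kV A
  haveI : Infinite (kV A) := IsAlgClosed.instInfinite
  exact Fermat.Agent.S15.Desc.H83.genus_formula H28.stmt_TwSurj H17.stmt_Pivot
    (modSSD A q M a b hab hq hA hqM ht) (ffHyp_FN q M) (ffHyp_F1 A q M a b hab hq hA hqM ht)
    (ffHyp_F1 A q M a b hab hq hA hqM ht) g g₁ g₁ c c₁ c₁ hg hg₁ hg₁
    (modSSD_card_ge A q M a b hab hq hA hqM ht hg hg₁)

include hab hq hA hqM ht in
/-- **The genus of the components** of the modular datum is `genusFormula M`. -/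
theorem genus_F1_eq {g₁ : ℕ} {c₁ : ℤ} (hg₁ : RED.H17.IsGenus (kV A) (F1 A q M) g₁ c₁) :
    (g₁ : ℚ) = genusFormula M := by
  haveI : IsAlgClosed (kV A) := isAlgClosed_kV A
  haveI : Infinite (kV A) := IsAlgClosed.instInfinite
  obtain ⟨g, c, hg⟩ := RED.H17.exists_isGenus _ _ (H95.stmt_HKA_isFF (M * q))
  have hMq : 1 < M * q := by
    have h1 : 0 < M := Nat.pos_of_ne_zero (NeZero.ne M)
    have h2 := hq.two_le
    nlinarith
  have hgQ : (g : ℚ) = genusFormula (M * q) := Fermat.Agent.BAD.H17.genus_FN_eq (M * q) hMq hg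
  have hg₁' : RED.H17.IsGenus (kV A) ↥(H91.redM A M) g₁ c₁ :=
    isGenus_congr (H82.redField_eq_redField q M a b hab hq A hA) hg₁
  have hle : genusFormula M ≤ (g₁ : ℚ) :=
    Fermat.Agent.BAD.H17.genusFormula_le_redM hq hqM ht hA hg₁'
  obtain ⟨Z, hZne, hZc, hZo, hnum⟩ :=
    Fermat.Agent.BAD.H30.num_final_tame M q hq ht hqM A hA (Dvd.intro_left M rfl)
  have hZ' : ∀ z ∈ Z.map (kappa A q M a b hab hq hA).symm.toEmbedding,
      (modTot A q M a b hab hq hA hqM ht).IsNode z := by
    intro z hz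
    obtain ⟨z₀, hz₀, rfl⟩ := Finset.mem_map.mp hz
    exact isNode_modT a b hab hq hA hqM ht _ _ _ z₀ (hZc z₀ hz₀) (hZo z₀ hz₀)
  have h1 := (modTot A q M a b hab hq hA hqM ht).card_le_toSSD_nodes (ffHyp_FN q M).principal
    (ffHyp_FN q M).deg_one (ffHyp_F1 A q M a b hab hq hA hqM ht).principal
    (ffHyp_F1 A q M a b hab hq hA hqM ht).deg_one (ffHyp_F1 A q M a b hab hq hA hqM ht).deg_one
    (exists_node_modTot A q M a b hab hq hA hqM ht) _ hZ'
  rw [Finset.card_map] at h1
  have h3 : Z.card ≤ (modSSD A q M a b hab hq hA hqM ht).nodes.card := h1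
  have h4 := genus_eq_nodes A q M a b hab hq hA hqM ht hg hg₁
  have h3Q : (Z.card : ℚ) ≤ ((modSSD A q M a b hab hq hA hqM ht).nodes.card : ℚ) := by
    exact_mod_cast h3
  have h4Q : (g : ℚ) + 1
      = (g₁ : ℚ) + g₁ + ((modSSD A q M a b hab hq hA hqM ht).nodes.card : ℚ) := by
    exact_mod_cast h4
  rw [← hgQ] at hnum
  linarith

/-- **The exact number of nodes** of the modular datum. -/
theorem nodes_card_eq :
    ((modSSD A q M a b hab hq hA hqM ht).nodes.card : ℚ)
      = genusFormula (M * q) + 1 - 2 * genusFormula M := by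
  haveI : IsAlgClosed (kV A) := isAlgClosed_kV A
  obtain ⟨g, c, hg⟩ := RED.H17.exists_isGenus _ _ (H95.stmt_HKA_isFF (M * q))
  obtain ⟨g₁, c₁, hg₁⟩ := RED.H17.exists_isGenus _ _ (isFF_F1 a b hab hq hA hqM ht)
  have hMq : 1 < M * q := by
    have h1 : 0 < M := Nat.pos_of_ne_zero (NeZero.ne M)
    have h2 := hq.two_le
    nlinarith
  have hgQ : (g : ℚ) = genusFormula (M * q) := Fermat.Agent.BAD.H17.genus_FN_eq (M * q) hMq hg
  have h1 := genus_F1_eq A q M a b hab hq hA hqM ht hg₁
  have h4 := genus_eq_nodes A q M a b hab hq hA hqM ht hg hg₁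
  have h4Q : (g : ℚ) + 1
      = (g₁ : ℚ) + g₁ + ((modSSD A q M a b hab hq hA hqM ht).nodes.card : ℚ) := by
    exact_mod_cast h4
  rw [← hgQ, ← h1]
  linarith

/-- **NUM-LE**: the number of nodes (supersingular points) is at most
`g(M q) - 2 g(M) + 1`. -/
theorem numLE :
    ((modSSD A q M a b hab hq hA hqM ht).nodes.card : ℚ)
      ≤ genusFormula (M * q) - 2 * genusFormula M + 1 := by
  rw [nodes_card_eq A q M a b hab hq hA hqM ht]
  linarith

/-- A set of nodes which satisfies the inequality of NUM contains all the nodes. -/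
theorem card_eq_nodes_card (Z : Finset (Place (kV A) (F1 A q M)))
    (hZ : ∀ z ∈ Z, (modTot A q M a b hab hq hA hqM ht).IsNode z)
    (hnum : genusFormula (M * q) + 1 ≤ 2 * genusFormula M + (Z.card : ℚ)) :
    Z.card = (modSSD A q M a b hab hq hA hqM ht).nodes.card := by
  haveI : IsAlgClosed (kV A) := isAlgClosed_kV A
  haveI : Infinite (kV A) := IsAlgClosed.instInfinite
  have h1 := (modTot A q M a b hab hq hA hqM ht).card_le_toSSD_nodes (ffHyp_FN q M).principal
    (ffHyp_FN q M).deg_one (ffHyp_F1 A q M a b hab hq hA hqM ht).principal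
    (ffHyp_F1 A q M a b hab hq hA hqM ht).deg_one (ffHyp_F1 A q M a b hab hq hA hqM ht).deg_one
    (exists_node_modTot A q M a b hab hq hA hqM ht) Z hZ
  have h3 : Z.card ≤ (modSSD A q M a b hab hq hA hqM ht).nodes.card := h1
  have h2 := nodes_card_eq A q M a b hab hq hA hqM ht
  have h4 : ((modSSD A q M a b hab hq hA hqM ht).nodes.card : ℚ) ≤ (Z.card : ℚ) := by
    rw [h2]; linarith
  have h5 : (modSSD A q M a b hab hq hA hqM ht).nodes.card ≤ Z.card := by exact_mod_cast h4
  omega

/-- **The modular datum with the exact numerical data** (package form): the explicit datum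
`modSSD`, Riemann's theorem for `F_{M q} · ℚ̄` and for the components, `g = genusFormula (M q)`,
`g₁ = genusFormula M`, `g + 1 = 2 g₁ + δ`. -/
theorem modSSD_exact :
    ∃ (g g₁ : ℕ) (c c₁ : ℤ),
      RED.H17.IsGenus Kbar (FN (M * q)) g c ∧ RED.H17.IsGenus (kV A) (F1 A q M) g₁ c₁ ∧
      (g : ℚ) = genusFormula (M * q) ∧ (g₁ : ℚ) = genusFormula M ∧
      g + 1 = g₁ + g₁ + (modSSD A q M a b hab hq hA hqM ht).nodes.card := by
  haveI : IsAlgClosed (kV A) := isAlgClosed_kV A
  obtain ⟨g, c, hg⟩ := RED.H17.exists_isGenus _ _ (H95.stmt_HKA_isFF (M * q))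
  obtain ⟨g₁, c₁, hg₁⟩ := RED.H17.exists_isGenus _ _ (isFF_F1 a b hab hq hA hqM ht)
  have hMq : 1 < M * q := by
    have h1 : 0 < M := Nat.pos_of_ne_zero (NeZero.ne M)
    have h2 := hq.two_le
    nlinarith
  exact ⟨g, g₁, c, c₁, hg, hg₁, Fermat.Agent.BAD.H17.genus_FN_eq (M * q) hMq hg,
    genus_F1_eq A q M a b hab hq hA hqM ht hg₁,
    genus_eq_nodes A q M a b hab hq hA hqM ht hg hg₁⟩

end Mod

end Fermat.Agent.S59.LL.SQ.H83
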