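import Fermat.Agent.S43.H91_ModSSDW
import Fermat.Agent.S36.NU.H51_ValVecLow
import Fermat.Agent.S36.NU.H51_Unif
import Fermat.Agent.BAD.H73_ArchSep
attribute [local instance 10000] SubalgebraClass.toAlgebra
attribute [local instance 10000] HahnSeries.powerSeriesAlgebra

/-!
# S59 / LL / SQ, leaf ST-RANK (c), modular input M1 APPROX-L0 (helper83)

`S = modSSD A q M …` the modular semistable Deuring datum of level `M q` (`q ∤ M` tame),
`L₀ = L0 A (M q)` the inertia-fixed functions, `V₁`, `V₂` the two Gauss valuations.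

* `not_V1r_le_V2r`, `not_V2r_le_V1r` : the restrictions of `V₁`, `V₂` to `L₀` are incomparable
  (separating element `kronF = j_q - j^q ∈ L₀`);
* `exists_val_vec01` : there is `t ∈ L₀` with `V₁ (t) = 1` and `V₂ (t) = V₂ (q)`
  (approximation theorem `S36.NU.H51.exists_unif_abs`);
* `stmt_ApproxL0` : **M1**: `∃ g₀ ∈ L₀, S.c₁.IsGU g₀ ∧ S.c₂.IsGU (g₀ / q)`.
-/

set_option autoImplicit false
set_option linter.style.haveILetI false
set_option synthInstance.maxHeartbeats 400000
set_option maxHeartbeats 400000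
set_option linter.unusedSectionVars false

noncomputable section

open ModularCurve AlgebraicCurve
open Fermat.Agent.S28.H73 Fermat.Agent.RED.H73 Fermat.Agent.RED Fermat.Agent.S24
open Fermat.Agent.BAD.H88 Fermat.Agent.BAD Fermat.Agent.S36.NU.H23 Fermat.Agent.BAD.H91

namespace Fermat.Agent.S59.LL.SQ.H83C

section Mod

variable (A : ValuationSubring Kbar) (q M : ℕ) (a b : ℤ) (hab : a * q + b * M = 1)
  (hq : q.Prime) [NeZero M] [NeZero (M * q)] [NeZero q] (hA : A.LiesOverPrime q)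
  (hqM : ¬ q ∣ M) (ht : TameAt M q)

/-- The restriction of `V₁` to `L₀`. -/
def V1r : ValuationSubring ↥(L0 A (M * q)) := resV0 (L0 A (M * q)) (V1 A q M)

/-- The restriction of `V₂` to `L₀`. -/
def V2r : ValuationSubring ↥(L0 A (M * q)) := resV0 (L0 A (M * q)) (V2 A q M a b hab hq)

/-- `j_q - j^q` is inertia-fixed. -/
theorem kronF_mem_L0 : BAD.H82.kronF q M ∈ L0 A (M * q) := by
  have : NeZero q := BAD.H82.neZero_of_mul_right q M
  unfold BAD.H82.kronF
  exact (L0 A (M * q)).sub_mem (jdF_mem_L0 A (M * q) q (dvd_mul_left q M))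
    ((L0 A (M * q)).pow_mem (jdF_mem_L0 A (M * q) 1 (one_dvd _)) q)

include hab hq hA in
/-- `j_q - j^q` is a non-unit of `V₁`: its inverse is not in `V₁`. -/
theorem kronF_inv_not_mem_V1 : (BAD.H82.kronF q M)⁻¹ ∉ V1 A q M := by
  intro hinv
  have hxm := BAD.H82.gaussRes_kronF q M hq A hA
  have hnu : ¬ IsUnit (⟨BAD.H82.kronF q M, BAD.H82.kronF_mem q M A⟩ : ↥(gaussV A (M * q))) := by
    rw [isUnit_iff_gaussResF_ne_zero, not_not]
    exact congrArg Subtype.val hxm
  by_cases hx0 : BAD.H82.kronF q M = 0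
  · have hwu := BAD.H82.gaussRes_wq_kronF_ne_zero q M a b hab hq A hA
    apply hwu
    have e : (⟨wq q M a b hab hq (BAD.H82.kronF q M), BAD.H82.wq_kronF_mem q M a b hab hq A⟩ :
        ↥(gaussV A (M * q))) = 0 := Subtype.ext (by
      show wq q M a b hab hq (BAD.H82.kronF q M) = 0
      rw [hx0, map_zero])
    rw [e, map_zero]
  · apply hnu
    refine IsUnit.of_mul_eq_one (⟨(BAD.H82.kronF q M)⁻¹, hinv⟩ : ↥(gaussV A (M * q))) ?_
    exact Subtype.ext (mul_inv_cancel₀ hx0)

include hA in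
/-- `j_q - j^q` is a unit of `V₂`: its inverse is in `V₂`. -/
theorem kronF_inv_mem_V2 : (BAD.H82.kronF q M)⁻¹ ∈ V2 A q M a b hab hq := by
  rw [mem_V2_iff, map_inv₀]
  have hwu := BAD.H82.gaussRes_wq_kronF_ne_zero q M a b hab hq A hA
  obtain ⟨h, -⟩ := BAD.H82.inv_mem_gaussV (M * q) A
    ⟨wq q M a b hab hq (BAD.H82.kronF q M), BAD.H82.wq_kronF_mem q M a b hab hq A⟩ hwu
  exact h

include hA in
theorem V1r_ne_V2r : V1r A q M ≠ V2r A q M a b hab hq := by
  intro h
  have h1 : (⟨(BAD.H82.kronF q M)⁻¹, (L0 A (M * q)).inv_mem (kronF_mem_L0 A q M)⟩ :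
      ↥(L0 A (M * q))) ∈ V2r A q M a b hab hq :=
    kronF_inv_mem_V2 A q M a b hab hq hA
  rw [← h] at h1
  exact kronF_inv_not_mem_V1 A q M a b hab hq hA h1

include hq hA in
theorem V1r_ne_top : V1r A q M ≠ ⊤ := by
  intro h
  have hc : algebraMap Kbar (FN (M * q)) ((q : Kbar))⁻¹ ∈ L0 A (M * q) := by
    rw [const_mem_L0_iff]
    intro σ _
    rw [map_inv₀, map_natCast]
  have h1 : (⟨_, hc⟩ : ↥(L0 A (M * q))) ∈ V1r A q M := by
    rw [h]; exact ValuationSubring.mem_top _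
  have h1' : algebraMap Kbar (FN (M * q)) ((q : Kbar))⁻¹ ∈ V1 A q M := h1
  rw [const_mem1] at h1'
  have h2 : (q : Kbar) ∈ A.nonunits := hA
  rw [ValuationSubring.mem_nonunits_iff_or] at h2
  rcases h2 with h2 | h2
  · exact hq.ne_zero (by exact_mod_cast h2)
  · exact h2 h1'

include hq hA in
theorem V2r_ne_top : V2r A q M a b hab hq ≠ ⊤ := by
  intro h
  have hc : algebraMap Kbar (FN (M * q)) ((q : Kbar))⁻¹ ∈ L0 A (M * q) := by
    rw [const_mem_L0_iff]
    intro σ _
    rw [map_inv₀, map_natCast]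
  have h1 : (⟨_, hc⟩ : ↥(L0 A (M * q))) ∈ V2r A q M a b hab hq := by
    rw [h]; exact ValuationSubring.mem_top _
  have h1' : algebraMap Kbar (FN (M * q)) ((q : Kbar))⁻¹ ∈ V2 A q M a b hab hq := h1
  rw [const_mem2, const_mem1] at h1'
  have h2 : (q : Kbar) ∈ A.nonunits := hA
  rw [ValuationSubring.mem_nonunits_iff_or] at h2
  rcases h2 with h2 | h2
  · exact hq.ne_zero (by exact_mod_cast h2)
  · exact h2 h1'

include hq hA in
theorem isArch_V1r : H42.IsArch (V1r A q M) :=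
  isArch_resV0 _ _ (BAD.H73.isArch_V1 A q M hq hA)

include hq hA in
theorem isArch_V2r : H42.IsArch (V2r A q M a b hab hq) :=
  isArch_resV0 _ _ (BAD.H73.isArch_V2 A q M a b hab hq hA)

include hA in
/-- **`V₁|L₀ ⊄ V₂|L₀`.** -/
theorem not_V1r_le_V2r : ¬ V1r A q M ≤ V2r A q M a b hab hq :=
  H42.not_le_of_isArch (isArch_V1r A q M hq hA) (V1r_ne_V2r A q M a b hab hq hA)
    (V2r_ne_top A q M a b hab hq hA)

include hA in
/-- **`V₂|L₀ ⊄ V₁|L₀`.** -/
theorem not_V2r_le_V1r : ¬ V2r A q M a b hab hq ≤ V1r A q M :=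
  H42.not_le_of_isArch (isArch_V2r A q M a b hab hq hA) (V1r_ne_V2r A q M a b hab hq hA).symm
    (V1r_ne_top A q M hq hA)

include hA in
/-- A function of `L₀` with valuation vector `(0, 1)`. -/
theorem exists_val_vec01 :
    ∃ t : ↥(L0 A (M * q)), (V1 A q M).valuation (t : FN (M * q)) = 1 ∧
      (V2 A q M a b hab hq).valuation (t : FN (M * q))
        = (V2 A q M a b hab hq).valuation ((q : ℕ) : FN (M * q)) := by
  classical
  have h2 : S36.NU.H51.IsLowVal A (M * q) q (V2 A q M a b hab hq) :=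
    S36.NU.H51.isLowVal_V2 A q M a b hab hq hA
  set V : Fin 2 → ValuationSubring ↥(L0 A (M * q)) :=
    ![V1r A q M, V2r A q M a b hab hq] with hV
  have hArch : ∀ i, H42.IsArch (V i) := by
    intro i
    fin_cases i
    · exact isArch_V1r A q M hq hA
    · exact isArch_V2r A q M a b hab hq hA
  have hinc : ∀ i j, i ≠ j → ¬ V i ≤ V j := by
    intro i j hij
    fin_cases i <;> fin_cases j
    · exact absurd rfl hij
    · exact not_V1r_le_V2r A q M a b hab hq hA
    · exact not_V2r_le_V1r A q M a b hab hq hA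
    · exact absurd rfl hij
  have hnt : ∀ i, V i ≠ ⊤ := by
    intro i
    fin_cases i
    · exact V1r_ne_top A q M hq hA
    · exact V2r_ne_top A q M a b hab hq hA
  have hq0 : ((q : ℕ) : ↥(L0 A (M * q))) ≠ 0 := by
    exact_mod_cast hq.ne_zero
  have hπ : (V 1).valuation ((q : ℕ) : ↥(L0 A (M * q))) < 1 := h2.res_val_q_lt_one hA
  obtain ⟨t, ht1, ht2⟩ := S36.NU.H51.exists_unif_abs V hArch hinc hnt 1
    ((q : ℕ) : ↥(L0 A (M * q))) hq0 hπ
  refine ⟨t, ?_, ?_⟩
  · have h0 := ht2 0 (by decide)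
    have h0' : (resV0 (L0 A (M * q)) (V1 A q M)).valuation t
        = (resV0 (L0 A (M * q)) (V1 A q M)).valuation 1 := by
      rw [map_one]; exact h0
    have := (valuation_resV0_eq_iff _ _ t 1).1 h0'
    simpa using this
  · have h1' : (resV0 (L0 A (M * q)) (V2 A q M a b hab hq)).valuation t
        = (resV0 (L0 A (M * q)) (V2 A q M a b hab hq)).valuation ((q : ℕ) : ↥(L0 A (M * q))) :=
      ht1
    have := (valuation_resV0_eq_iff _ _ t ((q : ℕ) : ↥(L0 A (M * q)))).1 h1'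
    simpa using this

include hA in
/-- **M1 APPROX-L0**: a function of `L₀` which is a Gauss unit for the first component and
`q` times a Gauss unit for the second one. -/
theorem stmt_ApproxL0 :
    ∃ g₀ : FN (M * q), g₀ ∈ L0 A (M * q) ∧
      (S43.H91.modSSD A q M a b hab hq hA hqM ht).c₁.IsGU g₀ ∧
      (S43.H91.modSSD A q M a b hab hq hA hqM ht).c₂.IsGU
        (g₀ / algebraMap Kbar (FN (M * q)) ((q : ℕ) : Kbar)) := by
  obtain ⟨t, ht1, ht2⟩ := exists_val_vec01 A q M a b hab hq hA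
  refine ⟨(t : FN (M * q)), t.2, ?_, ?_⟩
  · have hmem : (t : FN (M * q)) ∈ (S43.H91.modSSD A q M a b hab hq hA hqM ht).c₁.V := by
      rw [S43.H91.modSSD_c₁_V, ← ValuationSubring.valuation_le_one_iff, ht1]
    rw [BAD.PRed.isGU_iff_isUnit _ hmem]
    rw [ValuationSubring.valuation_eq_one_iff]
    exact ht1
  · have e : algebraMap Kbar (FN (M * q)) ((q : ℕ) : Kbar) = ((q : ℕ) : FN (M * q)) :=
      map_natCast _ q
    have hq0 : ((q : ℕ) : FN (M * q)) ≠ 0 := by exact_mod_cast hq.ne_zero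
    have hv : (V2 A q M a b hab hq).valuation
        ((t : FN (M * q)) / algebraMap Kbar (FN (M * q)) ((q : ℕ) : Kbar)) = 1 := by
      rw [e, map_div₀, ht2]
      exact div_self ((Valuation.ne_zero_iff _).2 hq0)
    have hmem : (t : FN (M * q)) / algebraMap Kbar (FN (M * q)) ((q : ℕ) : Kbar)
        ∈ (S43.H91.modSSD A q M a b hab hq hA hqM ht).c₂.V := by
      rw [S43.H91.modSSD_c₂_V, ← ValuationSubring.valuation_le_one_iff, hv]
    rw [BAD.PRed.isGU_iff_isUnit _ hmem]
    rw [ValuationSubring.valuation_eq_one_iff]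
    exact hv

end Mod

end Fermat.Agent.S59.LL.SQ.H83C
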