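import Fermat.Agent.S59.LL.SQ.H20_StRankCyc
import Fermat.Agent.S59.LL.SQ.H20_StRankFam
import Fermat.Agent.S59.LL.SQ.H64_StRankCAbs
import Fermat.Agent.S59.LL.SQ.H69_StRankCKum
import Fermat.Agent.S59.LL.SQ.H69_StRankF
import Fermat.Agent.S59.LL.SQ.H56_StRankCConst
import Fermat.Agent.S59.LL.SQ.H56_LowVal
import Fermat.Agent.S59.LL.SQ.H83_StRankCMod
import Fermat.Agent.S59.LL.SQ.H83_NumLe
attribute [local instance 10000] SubalgebraClass.toAlgebra
attribute [local instance 10000] HahnSeries.powerSeriesAlgebra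

/-!
# S59 / LL / SQ, leaf ST-RANK (c), modular wiring (helper20, in parallel to helper64)

`leafC_mod` : for the modular datum `S = S43.H91.modSSD ..` at level `M q` (`q ∤ M` tame), `p ≠ q`:
`(σ - 1) J₀(M q)[p ^ e]` lies in the toric part `T = {x | InTA S (L0 A (M q)) (p ^ e) x}` for every
`σ` in the inertia group (`H20.LeafC`).

Inputs: helper64's abstract theorem `H64.inTA_abs`, helper69's `H69K.stmt_KumRel` (W) and
`H69.modSSD_inertial`, helper56's `H56.m3a`, `m3b`, `m3c`, `lowVal₁`, `lowVal₂` (M2, M3),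
helper83's `H83C.stmt_ApproxL0` (M1) and `H83.modSSD_exact` (NUM).

This file contains no unproved statement.
-/

set_option autoImplicit false
set_option linter.style.haveILetI false
set_option linter.unusedSectionVars false
set_option linter.unusedVariables false
set_option synthInstance.maxHeartbeats 400000
set_option maxHeartbeats 1000000

noncomputable section

open HahnSeries IntermediateField AlgebraicCurve ModularCurve
open Fermat.Agent.S28.H73 Fermat.Agent.RED.H73 Fermat.Agent.RED Fermat.Agent.S24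
open Fermat.Agent.BAD.H88 Fermat.Agent.BAD

namespace Fermat.Agent.S59.LL.SQ.H20

open Fermat.Agent.BAD.H91 Fermat.Agent.S43.H91 Fermat.Agent.S35.H89
open Fermat.Agent.RED.H17 Fermat.Agent.S36.NU.H23 Fermat.Agent.S59.LL.SQ.H69
open Fermat.Agent.S59.LL.SQ.H64

section Kum2

variable {K F : Type*} [Field K] [Field F] [Algebra K F]

/-- A Kummer function may be multiplied by a non-zero constant. -/
theorem isKumA_const_mul {n : ℕ} {x : Pic0 K F} {f : F} (h : IsKumA n x f) (hf : f ≠ 0)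
    {b : K} (hb : b ≠ 0) : IsKumA n x (algebraMap K F b * f) := by
  obtain ⟨D, rfl, hD⟩ := h
  refine ⟨D, rfl, fun P => ?_⟩
  have hb' : algebraMap K F b ≠ 0 := (map_ne_zero (algebraMap K F)).2 hb
  rw [P.ord_mul hb' hf, ord_algebraMap, zero_add]
  exact hD P

end Kum2

section Mod

variable (A : ValuationSubring Kbar) (q M : ℕ) (a b : ℤ) (hab : a * q + b * M = 1)
  (hq : q.Prime) [NeZero M] [NeZero (M * q)] [NeZero q] (hA : A.LiesOverPrime q)
  (hqM : ¬ q ∣ M) (ht : TameAt M q)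

include hab hq hA hqM ht in
/-- **ST-RANK (c)** at level `M q`: `(σ - 1) J₀(M q)[p ^ e] ⊆ T` for `σ` in the inertia group. -/
theorem leafC_mod (p : ℕ) (hp : p.Prime) (hpq : p ≠ q) :
    LeafC A (M * q) (modSSD A q M a b hab hq hA hqM ht) p := by
  intro e σ hσ y hy
  haveI : IsAlgClosed (kV A) := isAlgClosed_kV A
  haveI : CharP (kV A) q := Fermat.Agent.FL.H38.charP_residue A hq hA
  obtain ⟨g, g₁, c, c₁, hg, hg₁, -, -, hnum⟩ :=
    Fermat.Agent.S59.LL.SQ.H83.modSSD_exact A q M a b hab hq hA hqM ht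
  have hP : HasPrincipalDivisors Kbar (FN (M * q)) :=
    (Fermat.Agent.S43.H91.ffHyp_FN q M).principal
  have hpk : (p : kV A) ≠ 0 := by
    intro h0
    have h1 : q ∣ p := (CharP.cast_eq_zero_iff (kV A) q p).mp h0
    exact hpq ((Nat.prime_dvd_prime_iff_eq hq hp).mp h1).symm
  have hnk : ((p ^ e : ℕ) : kV A) ≠ 0 := by
    rw [Nat.cast_pow]
    exact pow_ne_zero _ hpk
  have hqn : ¬ q ∣ p ^ e := fun h =>
    hpq ((Nat.prime_dvd_prime_iff_eq hq hp).mp (hq.dvd_of_dvd_pow h)).symm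
  have hq0 : ((q : ℕ) : Kbar) ≠ 0 := Nat.cast_ne_zero.2 hq.ne_zero
  -- the Kummer relation
  obtain ⟨h₀, h, w, a', E, hh₀, hdiv₀, hhL, hh, hw, ha', hrel, hxE, hEh⟩ :=
    Fermat.Agent.S59.LL.SQ.H69K.stmt_KumRel A q M hq hA hqM σ hσ (p ^ e) hqn y hy
  -- the set of inertial automorphisms
  obtain ⟨I, hIdef⟩ : ∃ I : Set (SemilinearAut Kbar (FN (M * q))),
      I = {τ | ∃ σ' ∈ A.inertiaSubgroupIn ℚ, τ = galF (M * q) σ'} := ⟨_, rfl⟩
  have hImem : ∀ σ' ∈ A.inertiaSubgroupIn ℚ, galF (M * q) σ' ∈ I := by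
    intro σ' hσ'
    rw [hIdef]
    exact ⟨σ', hσ', rfl⟩
  have hbase : ∀ σ' : GalQ, ∀ z : Kbar,
      SemilinearAut.baseAut (galF (M * q) σ') z = σ' z := by
    intro σ' z
    rw [baseAut_arithmeticGalois]
    rfl
  have hI : ∀ τ ∈ I, (modSSD A q M a b hab hq hA hqM ht).IsInertial τ := by
    intro τ hτ
    rw [hIdef] at hτ
    obtain ⟨σ', hσ', rfl⟩ := hτ
    exact modSSD_inertial A q M a b hab hq hA hqM ht σ' hσ'
  have hcu : ∀ τ ∈ I, ∀ z : Kbar, z ≠ 0 →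
      (modSSD A q M a b hab hq hA hqM ht).IsCU (SemilinearAut.baseAut τ z / z) := by
    intro τ hτ z hz
    rw [hIdef] at hτ
    obtain ⟨σ', hσ', rfl⟩ := hτ
    rw [hbase]
    exact Fermat.Agent.S59.LL.SQ.H56.m3a A q M (modSSD A q M a b hab hq hA hqM ht) rfl σ' hσ' z hz
  have hπI : ∀ τ ∈ I, SemilinearAut.baseAut τ ((q : ℕ) : Kbar) = ((q : ℕ) : Kbar) := by
    intro τ hτ
    rw [hIdef] at hτ
    obtain ⟨σ', -, rfl⟩ := hτ
    rw [hbase]
    exact map_natCast σ' q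
  have hπ : ∀ m : ℤ, (modSSD A q M a b hab hq hA hqM ht).IsCU (((q : ℕ) : Kbar) ^ m) → m = 0 :=
    fun m hm => Fermat.Agent.S59.LL.SQ.H56.m3c A q M a b hab hq hA
      (modSSD A q M a b hab hq hA hqM ht) rfl rfl m hm
  have hunr : ∀ Y : Kbar, Y ≠ 0 → (∀ τ ∈ I, SemilinearAut.baseAut τ Y = Y) →
      ∃ m : ℤ, (modSSD A q M a b hab hq hA hqM ht).IsCU (Y / ((q : ℕ) : Kbar) ^ m) := by
    intro Y hY0 hYI
    have hfix : ∀ σ' ∈ A.inertiaSubgroupIn ℚ, σ' Y = Y := by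
      intro σ' hσ'
      have := hYI _ (hImem σ' hσ')
      rwa [hbase] at this
    exact Fermat.Agent.S59.LL.SQ.H56.m3b A q M (modSSD A q M a b hab hq hA hqM ht) rfl hq hA Y
      hY0 hfix
  have hLI : ∀ f ∈ L0 A (M * q), ∀ τ ∈ I, τ • f = f := by
    intro f hf τ hτ
    rw [hIdef] at hτ
    obtain ⟨σ', hσ', rfl⟩ := hτ
    exact hf σ' hσ'
  have hlow₁ : ∀ f ∈ L0 A (M * q), f ≠ 0 → ∃ m : ℤ,
      (modSSD A q M a b hab hq hA hqM ht).c₁.IsGU
        (f / algebraMap Kbar (FN (M * q)) ((q : ℕ) : Kbar) ^ m) :=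
    fun f hf hf0 => Fermat.Agent.S59.LL.SQ.H56.lowVal₁ A q M a b hab hq hA
      (modSSD A q M a b hab hq hA hqM ht) rfl rfl f hf hf0
  have hlow₂ : ∀ f ∈ L0 A (M * q), f ≠ 0 → ∃ m : ℤ,
      (modSSD A q M a b hab hq hA hqM ht).c₂.IsGU
        (f / algebraMap Kbar (FN (M * q)) ((q : ℕ) : Kbar) ^ m) :=
    fun f hf hf0 => Fermat.Agent.S59.LL.SQ.H56.lowVal₂ A q M a b hab hq hA
      (modSSD A q M a b hab hq hA hqM ht) rfl rfl f hf hf0
  have hπL : algebraMap Kbar (FN (M * q)) ((q : ℕ) : Kbar) ∈ L0 A (M * q) := by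
    rw [map_natCast]
    exact natCast_mem _ q
  have happ : ∃ g₀ ∈ L0 A (M * q), (modSSD A q M a b hab hq hA hqM ht).c₁.IsGU g₀ ∧
      (modSSD A q M a b hab hq hA hqM ht).c₂.IsGU
        (g₀ / algebraMap Kbar (FN (M * q)) ((q : ℕ) : Kbar)) := by
    obtain ⟨g₀, h1, h2, h3⟩ :=
      Fermat.Agent.S59.LL.SQ.H83C.stmt_ApproxL0 A q M a b hab hq hA hqM ht
    exact ⟨g₀, h1, h2, h3⟩
  -- the abstract theorem
  obtain ⟨f, v, b', hfL, hvL, hv0, hb0, hfeq, hNP₁, hNP₂⟩ :=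
    inTA_abs (modSSD A q M a b hab hq hA hqM ht) (Fermat.Agent.S43.H91.ffHyp_FN q M)
      (Fermat.Agent.S43.H91.ffHyp_F1 A q M a b hab hq hA hqM ht)
      (Fermat.Agent.S43.H91.ffHyp_F1 A q M a b hab hq hA hqM ht) g g₁ g₁ c c₁ c₁ hg hg₁ hg₁
      hnum.le (p ^ e) hnk I hI hcu ((q : ℕ) : Kbar) hq0 hπI hπ hunr (L0 A (M * q)) hLI hlow₁
      hlow₂ hπL happ (galF (M * q) σ) (hImem σ hσ) h₀ hh₀ hdiv₀ h hhL hh w hw a' ha' hrel
  -- conclusion
  have hK : IsKumA (p ^ e) (σ • y - y) h := ⟨E, hxE, hEh⟩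
  have hbh : algebraMap Kbar (FN (M * q)) b' * h ≠ 0 :=
    mul_ne_zero ((map_ne_zero (algebraMap Kbar (FN (M * q)))).2 hb0) hh
  have hKf : IsKumA (p ^ e) (σ • y - y) f := by
    rw [hfeq]
    exact isKumA_mul_pow hP (isKumA_const_mul hK hh hb0) hbh hv0
  obtain ⟨hG₁, ψ₁, hψ₁⟩ := hNP₁
  obtain ⟨hG₂, ψ₂, hψ₂⟩ := hNP₂
  exact ⟨f, hfL, hKf, hG₁, hG₂, ψ₁, ψ₂, hψ₁, hψ₂⟩

end Mod

end Fermat.Agent.S59.LL.SQ.H20
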