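import Fermat.Agent.S59.LL.SQ.H40_GlueAbs

/-!
# S59, package LL / SQ, step (T′), leaf G3 EXISTS-GLUE (helper46)

Abstract, on any `NUData D` (helper79) with helper40's `GlueData`:

* `exists_glueData` : a unit `H` for the three valuations whose reductions are `c · G i ^ n`
  (`c ≠ 0`, `n ≠ 0`) and which has local generators at the triple points has gluing invariants
  `(a, b)`, with values in `μ_n` on the triple points;
* `glueData_pow_exp` : `GlueData D n H a b → GlueData D (n * m) (H ^ m) a b` for `m ≠ 0`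
  (same roots `G`, same local generators, same gluing invariants).
-/

set_option autoImplicit false
set_option linter.style.haveILetI false

noncomputable section

open AlgebraicCurve

attribute [local instance] Classical.propDecidable

namespace Fermat.Agent.S59.LL.SQ.H46

open Fermat.Agent.RED.H17 Fermat.Agent.RED Fermat.Agent.BAD.H79 Fermat.Agent.BAD
  Fermat.Agent.S36.NU.H79 Fermat.Agent.S59.LL.SQ.H40

variable {K L₀ L k ι Z : Type*} {E : ι → Type*} {K' L' L₁ L₂ : Type*}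
  [Field K] [Field L₀] [Field L] [Algebra K L] [Algebra L₀ L] [Field k] [Fintype ι]
  [∀ i, Field (E i)] [∀ i, Algebra k (E i)] [Field K'] [Field L'] [Algebra K' L']
  [Field L₁] [Algebra k L₁] [Field L₂] [Algebra k L₂]

/-! ## Roots of values -/

section Root

variable {F : Type*} [Field F] [Algebra k F]

/-- If `c · w ^ n` takes the non-zero value `τ` at a point of degree one (`c ≠ 0`, `n ≠ 0`),
then `w` takes a value `u` there, with `u ^ n = c⁻¹ τ`. -/
theorem exists_root_value (v : Place k F) (hdeg : v.deg = 1) {n : ℕ} (hn : n ≠ 0) {c τ : k}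
    (hc : c ≠ 0) (hτ : τ ≠ 0) {w : F} (h : HasValue v (algebraMap k F c * w ^ n) τ) :
    ∃ u : k, u ≠ 0 ∧ u ^ n = c⁻¹ * τ ∧ HasValue v w u := by
  have hc' : algebraMap k F c ≠ 0 := (map_ne_zero (algebraMap k F)).2 hc
  have h1 : HasValue v (w ^ n) (c⁻¹ * τ) := by
    have h2 := h.const_mul c⁻¹
    have e : algebraMap k F c⁻¹ * (algebraMap k F c * w ^ n) = w ^ n := by
      rw [map_inv₀, ← mul_assoc, inv_mul_cancel₀ hc', one_mul]
    rwa [e] at h2
  have hne : c⁻¹ * τ ≠ 0 := mul_ne_zero (inv_ne_zero hc) hτ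
  have h3 : v.ord (w ^ n) = 0 := h1.ord_eq_zero hne
  rw [ord_pow] at h3
  have h4 : v.ord w = 0 := by
    rcases mul_eq_zero.mp h3 with h5 | h5
    · exact absurd (by exact_mod_cast h5) hn
    · exact h5
  have hreg : RegAt v w := regAt_of_ord_nonneg h4.ge
  obtain ⟨u, hu⟩ := exists_value v hdeg hreg
  have hu' : HasValue v w u := hu
  have h6 : u ^ n = c⁻¹ * τ := (hu'.pow n).unique h1
  refine ⟨u, ?_, h6, hu'⟩
  intro h0
  rw [h0, zero_pow hn] at h6
  exact hne h6.symm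

end Root

variable (D : NUData K L₀ L k ι Z E K' L' L₁ L₂)

/-! ## Existence of the gluing invariants -/

/-- The gluing invariants at one triple point. -/
theorem exists_glueAt [Infinite k] (hP : HasPrincipalDivisors K L) {n : ℕ} (hn : n ≠ 0)
    {H : L₀} (hu : ∀ i, D.T.rdN i H ≠ 0) {c : k} (hc : c ≠ 0) {G : ∀ i, E i}
    (hG : ∀ i, D.T.rdN i H = algebraMap k (E i) c * G i ^ n) {z : Z} (hz : z ∈ D.SS)
    {s : L₀} (hs : D.IsGen n z H s) :
    ∃ a b : k, a ≠ 0 ∧ b ≠ 0 ∧ a ^ n = 1 ∧ b ^ n = 1 ∧ GlueAt D n H G z a b := by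
  have hH : H ≠ 0 := ne_zero_of_rdN D.T (hu D.i₂₀)
  -- `t = H s ^ n` is a unit without zero or pole on the fibre of `z`
  have htu : ∀ i, D.T.rdN i (H * s ^ n) ≠ 0 := fun i =>
    rdN_mul_ne_zero D.T (hu i) (rdN_pow_ne_zero D.T (hs.1 i) n)
  obtain ⟨τ, hτ0, hτ⟩ := exists_common_value D hP hz htu hs.2
  -- the reductions of `t`
  have hrd : ∀ i, D.T.rdN i (H * s ^ n)
      = algebraMap k (E i) c * (G i * D.T.rdN i s) ^ n := by
    intro i
    rw [D.T.rdN_mul (D.T.mem_of_rdN_ne_zero (hu i))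
      (D.T.mem_of_rdN_ne_zero (rdN_pow_ne_zero D.T (hs.1 i) n)),
      D.T.rdN_pow (D.T.mem_of_rdN_ne_zero (hs.1 i)), hG i, mul_pow, mul_assoc]
  have hval : ∀ i, ∃ u : k, u ≠ 0 ∧ u ^ n = c⁻¹ * τ ∧
      HasValue (D.T.pt i z) (G i * D.T.rdN i s) u := by
    intro i
    have h1 := hτ i
    rw [hrd i] at h1
    exact exists_root_value (D.T.pt i z) (D.deg_one z hz i) hn hc hτ0 h1
  obtain ⟨u₀, hu₀, hp₀, hv₀⟩ := hval D.i₂₀
  obtain ⟨u₁, hu₁, hp₁, hv₁⟩ := hval D.i₁₁
  obtain ⟨u₂, hu₂, hp₂, hv₂⟩ := hval D.i₀₂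
  have hpow0 : u₀ ^ n ≠ 0 := pow_ne_zero n hu₀
  refine ⟨u₁ / u₀, u₂ / u₀, div_ne_zero hu₁ hu₀, div_ne_zero hu₂ hu₀, ?_, ?_, ?_⟩
  · rw [div_pow, hp₁, ← hp₀, div_self hpow0]
  · rw [div_pow, hp₂, ← hp₀, div_self hpow0]
  · refine glueAt_of_gen D hP hn hH G hz hs hu₀ hv₀ ?_ ?_
    · rw [div_mul_cancel₀ _ hu₀]; exact hv₁
    · rw [div_mul_cancel₀ _ hu₀]; exact hv₂

/-- **EXISTS-GLUE**: a unit for the three valuations whose reductions are a common constant
times `n`-th powers and which has local generators at the triple points has gluing invariants,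
with values in `μ_n` on the triple points. -/
theorem exists_glueData [Infinite k] (hP : HasPrincipalDivisors K L) {n : ℕ} {H : L₀}
    {c : k} {G : ∀ i, E i} (hu : ∀ i, D.T.rdN i H ≠ 0)
    (hG : ∀ i, D.T.rdN i H = algebraMap k (E i) c * G i ^ n) (hc : c ≠ 0) (hn : n ≠ 0)
    (hgen : ∀ z ∈ D.SS, ∃ s, D.IsGen n z H s) :
    ∃ a b : Z → k, GlueData D n H a b ∧ ∀ z ∈ D.SS, a z ^ n = 1 ∧ b z ^ n = 1 := by
  have key : ∀ z : Z, ∃ a b : k, z ∈ D.SS →
      (a ≠ 0 ∧ b ≠ 0 ∧ a ^ n = 1 ∧ b ^ n = 1 ∧ GlueAt D n H G z a b) := by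
    intro z
    by_cases hz : z ∈ D.SS
    · obtain ⟨s, hs⟩ := hgen z hz
      obtain ⟨a, b, h⟩ := exists_glueAt D hP hn hu hc hG hz hs
      exact ⟨a, b, fun _ => h⟩
    · exact ⟨1, 1, fun h => absurd h hz⟩
  choose a b hab using key
  refine ⟨a, b, ⟨hu, hgen, fun z hz => ⟨(hab z hz).1, (hab z hz).2.1⟩,
    c, G, hc, hG, fun z hz => (hab z hz).2.2.2.2⟩,
    fun z hz => ⟨(hab z hz).2.2.1, (hab z hz).2.2.2.1⟩⟩

/-! ## Powers -/

variable {D}

/-- A local generator of `H` for the exponent `n` is a local generator of `H ^ m` for the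
exponent `n * m`. -/
theorem isGen_pow_exp {n : ℕ} (m : ℕ) {z : Z} {H s : L₀} (h : D.IsGen n z H s) :
    D.IsGen (n * m) z (H ^ m) s := by
  refine ⟨h.1, fun P hPz => ?_⟩
  have e : H ^ m * s ^ (n * m) = (H * s ^ n) ^ m := by rw [mul_pow, pow_mul]
  rw [e, map_pow, ord_pow, h.2 P hPz, mul_zero]

/-- **POW-EXP**: the gluing data of `H ^ m` for the exponent `n * m` (same roots, same local
generators, same gluing invariants). -/
theorem glueData_pow_exp [Infinite k] (hP : HasPrincipalDivisors K L) {n m : ℕ} (hm : m ≠ 0)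
    {H : L₀} {a b : Z → k} (h : GlueData D n H a b) :
    GlueData D (n * m) (H ^ m) a b := by
  obtain ⟨c, G, hc, hG, hgl⟩ := h.glue
  have hH : H ≠ 0 := h.H_ne_zero
  refine ⟨fun i => rdN_pow_ne_zero D.T (h.unit i) m, fun z hz => ?_, h.ne, c ^ m, G,
    pow_ne_zero m hc, fun i => ?_, fun z hz => ?_⟩
  · obtain ⟨s, hs⟩ := h.gen z hz
    exact ⟨s, isGen_pow_exp m hs⟩
  · rw [D.T.rdN_pow (D.T.mem_of_rdN_ne_zero (h.unit i)), hG i, mul_pow, map_pow, pow_mul]
  · by_cases hn : n = 0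
    · -- exponent `0`: the local generators of `H ^ m` are those of `H`
      subst hn
      intro s hs
      have hs' : D.IsGen 0 z H s := by
        refine ⟨hs.1, fun P hPz => ?_⟩
        have h1 := hs.2 P hPz
        rw [zero_mul, pow_zero, mul_one, map_pow, ord_pow] at h1
        rw [pow_zero, mul_one]
        rcases mul_eq_zero.mp h1 with h2 | h2
        · exact absurd (by exact_mod_cast h2) hm
        · exact h2
      exact hgl z hz s hs'
    · obtain ⟨s, hs⟩ := h.gen z hz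
      obtain ⟨u, hu, h20, h11, h02⟩ := hgl z hz s hs
      exact glueAt_of_gen D hP (mul_ne_zero hn hm) (pow_ne_zero m hH) G hz
        (isGen_pow_exp m hs) hu h20 h11 h02

end Fermat.Agent.S59.LL.SQ.H46
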