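import Fermat.Agent.S59.LL.SQ.Defs
import Fermat.Agent.S59.LL.SQ.H46_ExistsGlue
import Fermat.Agent.S36.NU.H88_ChartMod
import Fermat.Agent.S36.NU.H79_NuMDefs
import Fermat.Agent.S36.NU.H74_FinHyps
attribute [local instance 10000] SubalgebraClass.toAlgebra
attribute [local instance 10000] HahnSeries.powerSeriesAlgebra

/-!
# S59, package LL / SQ, step (T′), leaf I1 = T3-GLUE bridge (helper46)

Level `N = M q²`, `q ∤ M` tame, `A` over `q`, `D` a modular instance of `NUData` (`H79.IsNuM`).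

* `GenModAt D n` : the hypothesis G2 (local generators at the triple points for the units `H`
  for the three valuations with `n ∣ div H`);
* `rdN_totM_of_cpow3` : for `H` with `SQ.IsCPow3 n H`, the three reductions of `H` for `totM` are
  `n`-th powers (the constants `c_i` are absorbed by `n`-th roots in `kV A`, which is
  algebraically closed);
* `glueData_of_cpow3` : **T3-GLUE**: `SQ.IsCPow3 n H`, `n ∣ div H` and G2 give gluing invariants
  `(a, b)` for `H`, with values in `μ_n` on the triple points (by `H46.exists_glueData`).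
-/

set_option autoImplicit false
set_option synthInstance.maxHeartbeats 400000
set_option maxHeartbeats 1000000
set_option linter.style.haveILetI false
set_option linter.unusedSectionVars false
set_option linter.unusedVariables false

noncomputable section

open ModularCurve AlgebraicCurve IntermediateField

attribute [local instance] Classical.propDecidable

namespace Fermat.Agent.S59.LL.SQ.H46

open Fermat.Agent.S24 Fermat.Agent.BAD Fermat.Agent.BAD.H88 Fermat.Agent.S28 Fermat.Agent.S28.H73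
  Fermat.Agent.S36.NU.H23 Fermat.Agent.S36.NU.H88 Fermat.Agent.S36.NU.H79
  Fermat.Agent.S36.NU.H74 Fermat.Agent.RED.H73 Fermat.Agent.RED

section T3Glue

variable (A : ValuationSubring Kbar) (q M : ℕ) (B k : ℤ) (hB : B * M + k * q = 1) (hq : q.Prime)
  [NeZero M] [NeZero q] [NeZero (M * q)] [NeZero (M * q * q)]
  (hqM : ¬ q ∣ M) (hA : A.LiesOverPrime q) (ht : H91.TameAt M q)

attribute [local instance] algkM

/-- **G2** (helper84), as a hypothesis: local generators at the triple points, for the units `H`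
for the three valuations whose divisor is divisible by `n`. -/
def GenModAt (D : NUDataM A q M) (n : ℕ) : Prop :=
  ∀ H : ↥(L0 A (M * q * q)), (∀ i, D.T.rdN i H ≠ 0) →
    (∀ P : Place Kbar (FN (M * q * q)), (n : ℤ) ∣ P.ord (H : FN (M * q * q))) →
    ∀ z ∈ D.SS, ∃ s, D.IsGen n z H s

/-- Three elements of the residue field of level `M`, as a family on the three components. -/
def fam3 (G₀ G₁ G₂ : FM A M) : ∀ i : Fin 3, kap3 (FM A M) (FM A M) i
  | 0 => G₀
  | 1 => G₁
  | 2 => G₂

/-- A constant times an `n`-th power is an `n`-th power (in the residue field of level `M`, over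
the algebraically closed field `kV A`). -/
theorem exists_root_FM {n : ℕ} (hn : n ≠ 0) (c : kV A) (x y : FM A M)
    (e : ((x : FM A M) : LaurentSeries (kV A))
      = algebraMap (kV A) (LaurentSeries (kV A)) c * ((y : FM A M) : LaurentSeries (kV A)) ^ n) :
    ∃ G : FM A M, x = G ^ n := by
  haveI : IsAlgClosed (kV A) := Fermat.Agent.RED.H73.isAlgClosed_kV A
  obtain ⟨d, hd⟩ := IsAlgClosed.exists_pow_nat_eq c (Nat.pos_of_ne_zero hn)
  refine ⟨algebraMap (kV A) (FM A M) d * y, ?_⟩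
  apply Subtype.ext
  rw [e, ← hd, map_pow]
  show _ = (((algebraMap (kV A) (FM A M) d * y) ^ n : FM A M) : LaurentSeries (kV A))
  rw [mul_pow]
  rfl

/-- For `H` with `SQ.IsCPow3 n H`: the three reductions of `H` for `totM` are `n`-th powers. -/
theorem rdN_totM_of_cpow3 {n : ℕ} (hn : n ≠ 0) (H : ↥(L0 A (M * q * q)))
    (hH : SQ.IsCPow3 A q M B k hB hq n H) :
    ∃ G : ∀ i : Fin 3, kap3 (FM A M) (FM A M) i,
      ∀ i, (totM A q M B k hB hq hqM hA ht).rdN i H
        = algebraMap (kV A) (kap3 (FM A M) (FM A M) i) 1 * G i ^ n := by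
  obtain ⟨⟨h20, c₀, g₀, hc₀, hg₀, e₀⟩, ⟨h11, c₁, g₁, hc₁, hg₁, e₁⟩,
    ⟨h02, c₂, g₂, hc₂, hg₂, e₂⟩⟩ := hH
  obtain ⟨G₀, hG₀⟩ := exists_root_FM A M hn c₀ (r20 A q M hq hqM hA ⟨H, h20⟩)
    (r20 A q M hq hqM hA g₀) e₀
  obtain ⟨G₁, hG₁⟩ := exists_root_FM A M hn c₁ (r11 A q M B k hB hq hqM hA ⟨H, h11⟩)
    (r11 A q M B k hB hq hqM hA g₁) e₁
  obtain ⟨G₂, hG₂⟩ := exists_root_FM A M hn c₂ (r02 A q M B k hB hq hqM hA ⟨H, h02⟩)
    (r02 A q M B k hB hq hqM hA g₂) e₂
  refine ⟨fam3 A M G₀ G₁ G₂, fun i => ?_⟩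
  rw [map_one, one_mul]
  fin_cases i
  · exact (rdN_totM_zero A q M B k hB hq hqM hA ht H h20).trans hG₀
  · exact (rdN_totM_one A q M B k hB hq hqM hA ht H h11).trans hG₁
  · exact (rdN_totM_two A q M B k hB hq hqM hA ht H h02).trans hG₂

/-- For `H` with `SQ.IsCPow3 n H`: `H` is a unit for `totM`. -/
theorem rdN_totM_ne_zero_of_cpow3 {n : ℕ} (H : ↥(L0 A (M * q * q)))
    (hH : SQ.IsCPow3 A q M B k hB hq n H) :
    ∀ i, (totM A q M B k hB hq hqM hA ht).rdN i H ≠ 0 := by
  obtain ⟨⟨h20, u₀⟩, ⟨h11, u₁⟩, ⟨h02, u₂⟩⟩ := hH.isUnit3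
  intro i
  fin_cases i
  · exact rdN_totM_zero_ne_zero A q M B k hB hq hqM hA ht H h20 u₀
  · exact rdN_totM_one_ne_zero A q M B k hB hq hqM hA ht H h11 u₁
  · exact rdN_totM_two_ne_zero A q M B k hB hq hqM hA ht H h02 u₂

/-- **T3-GLUE**: for a modular datum `D`, a function `H` whose three reductions are constants
times `n`-th powers, with `n ∣ div H`, has gluing invariants `(a, b)`, with values in `μ_n` on
the triple points (given G2). -/
theorem glueData_of_cpow3 (D : NUDataM A q M) (hD : IsNuM A q M B k hB hq hqM hA ht D)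
    (n : ℕ) (hn : n ≠ 0) (hgen : GenModAt A q M D n)
    (H : ↥(L0 A (M * q * q))) (hH : SQ.IsCPow3 A q M B k hB hq n H)
    (hdiv : ∀ P : Place Kbar (FN (M * q * q)), (n : ℤ) ∣ P.ord (H : FN (M * q * q))) :
    ∃ a b : _ → kV A, H40.GlueData D n H a b ∧ ∀ z ∈ D.SS, a z ^ n = 1 ∧ b z ^ n = 1 := by
  haveI : IsAlgClosed (kV A) := Fermat.Agent.RED.H73.isAlgClosed_kV A
  have hT := hD.hT
  have hu : ∀ i, D.T.rdN i H ≠ 0 := by
    rw [hT]
    exact rdN_totM_ne_zero_of_cpow3 A q M B k hB hq hqM hA ht H hH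
  obtain ⟨G, hG'⟩ := rdN_totM_of_cpow3 A q M B k hB hq hqM hA ht hn H hH
  have hG : ∀ i, D.T.rdN i H = algebraMap (kV A) (kap3 (FM A M) (FM A M) i) 1 * G i ^ n := by
    rw [hT]
    exact hG'
  exact exists_glueData D (Fermat.Agent.S36.NU.H74.hasPrincipalDivisors_FN (M * q * q)) hu hG
    one_ne_zero hn (hgen H hu hdiv)

end T3Glue

end Fermat.Agent.S59.LL.SQ.H46
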