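import Fermat.Agent.S59.LL.SQ.H58_TorFinal
import Fermat.Agent.S59.LL.SQ.H46_T3Glue
import Fermat.Agent.S59.LL.SQ.H20_StRankC

/-!
# S59, package LL / SQ: the package SQ at the tame levels, UNCONDITIONAL (helper58)

* `stmt_GlueOfT3Tame` : I1 at the tame levels (helper46's `H46.glueData_of_cpow3` + helper84's
  `H84.genMod`);
* `stmt_LeafCTame`    : (c) at the tame levels (helper20's `H20.leafC_mod`, with helper64, 69, 56,
  83);
* `stmt_TorSpanSqTame` : **(T′)** at the tame levels;
* `sqNewTameAt : ∀ p, p.Prime → p ≠ 2 → LL.H40.SqNewTameAt p` : the package SQ at the levels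
  `M q²`, `q` odd, `4 ∣ M` (first hypothesis of helper40's `LL.H40.llec0_at`);
* `sqNewTwoTame` : the package SQ at the levels `4 M`, `M` odd, `9 ∣ M` (input of the leaves UP
  for `LL.H40.SqNewTwoAt p`, `p ≥ 5`).
-/

set_option autoImplicit false
set_option synthInstance.maxHeartbeats 400000
set_option maxHeartbeats 1000000
set_option linter.unusedSectionVars false
set_option linter.unusedVariables false
set_option linter.style.haveILetI false

noncomputable section

open ModularCurve AlgebraicCurve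

attribute [local instance] Classical.propDecidable

namespace Fermat.Agent.S59.LL.SQ.H58

open Fermat.Agent.S24 Fermat.Agent.BAD Fermat.Agent.BAD.H88 Fermat.Agent.S28 Fermat.Agent.S28.H73
  Fermat.Agent.RED.H73 Fermat.Agent.RED.H17 Fermat.Agent.RED
  Fermat.Agent.S36.NU.H23 Fermat.Agent.S36.NU.H79 Fermat.Agent.S36.H44
  Fermat.Agent.S36.NU.H74 Fermat.Agent.S36.NU.H81 Fermat.Agent.S36.NU.H10
  Fermat.Agent.S43.H91 Fermat.Agent.Lib.HeckeComm

attribute [local instance] algkM

/-- **I1 at the tame levels.** -/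
theorem stmt_GlueOfT3Tame : Stmt_GlueOfT3Tame := by
  intro p hp hp2 q M B k hB hq _ _ _ _ hqp htame hqM A hA H hH hdiv
  exact Fermat.Agent.S59.LL.SQ.H46.glueData_of_cpow3 A q M B k hB hq hqM hA
    (tameAt_of_tameNU hq htame) _
    (isNuM_nuMod A q M B k hB hq hqM hA (tameAt_of_tameNU hq htame)) p hp.ne_zero
    (fun H' hu hdiv' z hz =>
      Fermat.Agent.S59.LL.SQ.H84.genMod A q M B k hB hq hqM hA (tameAt_of_tameNU hq htame)
        (cases_of_tameNU hq htame) _
        (isNuM_nuMod A q M B k hB hq hqM hA (tameAt_of_tameNU hq htame)) p hp.pos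
        H' hu hdiv' z hz)
    H hH hdiv

/-- **(c) at the tame levels.** -/
theorem stmt_LeafCTame : Stmt_LeafCTame := by
  intro p hp hp2 q M B k hB hq _ _ _ _ hqp htame hqM A hA
  exact Fermat.Agent.S59.LL.SQ.H20.leafC_mod A q M k B (hab_nuM q M B k hB) hq hA hqM
    (tameAt_of_tameNU hq htame) p hp (Ne.symm hqp)

/-- **(T′) at the tame levels.** -/
theorem stmt_TorSpanSqTame : Stmt_TorSpanSqTame :=
  stmt_TorSpanSqTame_of stmt_GlueOfT3Tame stmt_LeafCTame

/-- **The package SQ at the tame levels with `q` odd.** -/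
theorem sqNewTameAt (p : ℕ) (hp : p.Prime) (hp2 : p ≠ 2) :
    Fermat.Agent.S59.LL.H40.SqNewTameAt p :=
  sqNewTameAt_of_leaves stmt_GlueOfT3Tame stmt_LeafCTame p hp hp2

/-- **The package SQ at the tame levels with `q = 2`.** -/
theorem sqNewTwoTame (p : ℕ) (hp : p.Prime) (hp2 : p ≠ 2) (M : ℕ) [NeZero M]
    (hM2 : ¬ 2 ∣ M) (h9 : 9 ∣ M) (A : ValuationSubring Kbar) (hA : A.LiesOverPrime 2) :
    H40.HasSqNewPartAt p (M * 2) 2 A :=
  sqNewTwoTame_of_leaves stmt_GlueOfT3Tame stmt_LeafCTame p hp hp2 M hM2 h9 A hA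

end Fermat.Agent.S59.LL.SQ.H58
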