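import Fermat.Agent.S59.LL.SQ.H16_RegTame
import Fermat.Agent.S36.NU.H10_Core

/-!
# S59 / LL / SQ, leaf R1 REG-TAME (helper16), unconditional form

* `reg11At_cases`, `reg11At_tame` : **helper35's `H35.Reg11At` at every tame level,
  unconditionally** (`TameNU (M q) q`: `4 ∣ M` if `q` is odd, `9 ∣ M` if `q = 2`), for `0 < p`.

Inputs: `H16.stmt_reg11At` and the closed modular statements of S36 (helper10's `H10_Close`,
`H10_Inputs`, `H10_Core`).
-/

set_option autoImplicit false
set_option synthInstance.maxHeartbeats 400000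
set_option maxHeartbeats 1000000
set_option linter.style.haveILetI false
set_option linter.unusedSectionVars false
set_option linter.unusedVariables false

noncomputable section

open ModularCurve AlgebraicCurve IntermediateField

namespace Fermat.Agent.S59.LL.SQ.H16

open Fermat.Agent.S24 Fermat.Agent.BAD Fermat.Agent.S36.NU.H10

/-- **REG-TAME, unconditionally** (the tame level given by the three cases). -/
theorem reg11At_cases
    (A : ValuationSubring Kbar) (q M : ℕ) (B k : ℤ) (hB : B * M + k * q = 1) (hq : q.Prime)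
    [NeZero M] [NeZero q] [NeZero (M * q)] [NeZero (M * q * q)]
    (hqM : ¬ q ∣ M) (hA : A.LiesOverPrime q) (ht : H91.TameAt M q)
    (hc : (5 ≤ q ∧ 4 ∣ M) ∨ (q = 3 ∧ 4 ∣ M) ∨ (q = 2 ∧ 9 ∣ M)) (p : ℕ) (hp : 0 < p) :
    Fermat.Agent.S59.LL.SQ.H35.Reg11At A q M B k hB hq hqM hA p :=
  stmt_reg11At stmt_NuMAll
    (stmt_TopAll_of (stmt_Pt0All_of stmt_MidSmall stmt_PtHypsAll) (stmt_PtooAll_of stmt_BrooAll))
    A q M B k hB hq hqM hA ht hc p hp

/-- **REG-TAME, unconditionally**, at every level `M q²` with `TameNU (M q) q`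
(`4 ∣ M` if `q` is odd, `9 ∣ M` if `q = 2`). -/
theorem reg11At_tame
    (A : ValuationSubring Kbar) (q M : ℕ) (B k : ℤ) (hB : B * M + k * q = 1) (hq : q.Prime)
    [NeZero M] [NeZero q] [NeZero (M * q)] [NeZero (M * q * q)]
    (hqM : ¬ q ∣ M) (hA : A.LiesOverPrime q)
    (htame : Fermat.Agent.S36.NU.H81.TameNU (M * q) q) (p : ℕ) (hp : 0 < p) :
    Fermat.Agent.S59.LL.SQ.H35.Reg11At A q M B k hB hq hqM hA p :=
  reg11At_cases A q M B k hB hq hqM hA (tameAt_of_tameNU hq htame) (cases_of_tameNU hq htame)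
    p hp

end Fermat.Agent.S59.LL.SQ.H16
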