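import Fermat.Agent.S59.LL.SQ.H77_UpWire
import Fermat.Agent.S59.LL.SQ.H16_RegFinal
import Fermat.Agent.S59.LL.SQ.H87_CPowAt
import Fermat.Agent.S59.LL.SQ.H58_Tame

/-!
# S59 / LL / SQ, UP-WIRE (helper77): `SqNewTwoAt p`, `p ≥ 5`, from **(T′)** at the tame levels

The hypotheses of `H77.sqNewTwoAt_of_up` with the landed leaves plugged:

* `regTameTwo`  : REG at the tame levels of `q = 2` (helper16's `H16.reg11At_tame`);
* `cpowTwo`     : B2 at all levels (helper87's `H87.stmt_CPow2002All`);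
* `torSpanTameTwo_of` : **(T′)** at the tame levels of `q = 2` from helper58's
  `H58.Stmt_TorSpanSqTame`;
* `sqNewTwoAt_of_torSpanTame : H58.Stmt_TorSpanSqTame → ∀ p, p.Prime → 5 ≤ p →
    LL.H40.SqNewTwoAt p`.

Complete (no gaps).
-/

set_option autoImplicit false
set_option synthInstance.maxHeartbeats 400000
set_option maxHeartbeats 1000000
set_option linter.unusedVariables false

noncomputable section

namespace Fermat.Agent.S59.LL.SQ.H77

/-- **REG at the tame levels of `q = 2`** (helper16). -/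
theorem regTameTwo (p : ℕ) (hp : 0 < p) : RegTameTwo p := by
  intro q M B k hB hq _ _ _ _ hqM A hA hq2 h9
  exact Fermat.Agent.S59.LL.SQ.H16.reg11At_tame A q M B k hB hq hqM hA
    (Or.inr ⟨hq2, Dvd.dvd.mul_right h9 q⟩) p hp

/-- **B2 at `q = 2`, all levels** (helper87). -/
theorem cpowTwo (p : ℕ) (hp : 0 < p) : CPowTwo p := by
  intro q M B k hB hq _ _ _ _ hqM A hA _
  exact Fermat.Agent.S59.LL.SQ.H87.stmt_CPow2002All p hp q M B k hB hq hqM A hA

/-- **(T′) at the tame levels of `q = 2`** from helper58's statement. -/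
theorem torSpanTameTwo_of (hT : Fermat.Agent.S59.LL.SQ.H58.Stmt_TorSpanSqTame) (p : ℕ)
    (hp : p.Prime) (hp2 : p ≠ 2) : TorSpanTameTwo p := by
  intro q M B k hB hq _ _ _ _ hqM A hA hq2 h9
  have hqp : q ≠ p := by
    rw [hq2]
    exact fun h => hp2 h.symm
  exact hT p hp hp2 q M B k hB hq hqp (Or.inr ⟨hq2, Dvd.dvd.mul_right h9 q⟩) hqM A hA

/-- **`SqNewTwoAt p` for `p ≥ 5`** from **(T′)** at the tame levels (all the other leaves are
landed: (E) helper33, (R) helper35 with REG helper16 and B2 helper87, `HRcore` helper78, and the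
leaves UP: U1 helper38, U2 helper50, U3 helper94). -/
theorem sqNewTwoAt_of_torSpanTame (hT : Fermat.Agent.S59.LL.SQ.H58.Stmt_TorSpanSqTame) (p : ℕ)
    (hp : p.Prime) (h5 : 5 ≤ p) : Fermat.Agent.S59.LL.H40.SqNewTwoAt p :=
  sqNewTwoAt_of_up p hp h5 (regTameTwo p hp.pos) (cpowTwo p hp.pos)
    (torSpanTameTwo_of hT p hp (by omega))

end Fermat.Agent.S59.LL.SQ.H77
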