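import Fermat.Agent.S36.NU.H24_FinLocal
import Fermat.Agent.S36.NU.H24_NormalImg
import Fermat.Agent.S36.NU.H17_TIVal

/-!
# S59 / LL / SQ, leaf R1 REG-TAME (helper16), abstract part

`dvd_ord_rd_abs`: in a chart `C` with (HOR) for `h` and the local data (one branch, a local
equation datum) at the closed point below a point `v` of degree one of the component `i`, the
order at `v` of the reduction of `h` on the component `i` is divisible by `n`.

Proof: REG (`H16.reg_abs`) gives `s` with `h sⁿ ∈ B` not in the closed point, so the reduction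
`rd i h * (rd i s)ⁿ` is regular and does not vanish at `v`.
-/

set_option autoImplicit false
set_option synthInstance.maxHeartbeats 400000
set_option maxHeartbeats 1000000
set_option linter.style.haveILetI false
set_option linter.unusedSectionVars false

noncomputable section

open AlgebraicCurve

namespace Fermat.Agent.S59.LL.SQ.H16

open Fermat.Agent.RED.H17 Fermat.Agent.RED Fermat.Agent.S36.NU.H16 Fermat.Agent.S36.NU.H24
  Fermat.Agent.S36.NU.H17

section PlaceAux

variable {k E : Type*} [Field k] [Field E] [Algebra k E]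

/-- A function regular and not vanishing at `v` has order `0` at `v`. -/
theorem ord_eq_zero_of_regAt_not_vanAt (v : Place k E) {x : E} (hr : RegAt v x)
    (hv : ¬ VanAt v x) : v.ord x = 0 := by
  have h1 : 0 ≤ v.ord x := hr.ord_nonneg
  have h2 : ¬ 0 < v.ord x := fun h => hv (vanAt_of_ord_pos h)
  omega

end PlaceAux

section Abs

variable {R F k ι : Type*} {κ : ι → Type*} [CommRing R] [Field F] [Algebra R F]
  [Field k] [∀ i, Field (κ i)] [∀ i, Algebra k (κ i)]

/-- If the reduction of `j` is regular at `v`, so is the reduction of every function of the chart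
(integral over `R[j]`). -/
theorem regAt_rdB_of_integral (C : Chart R F k ι κ) (i : ι) (j : F) (hjB : j ∈ C.B)
    (hB : ∀ β : C.B, IsIntegral ↥(Algebra.adjoin R {j}) (β : F))
    (v : Place k (κ i)) (hj : RegAt v (C.rdB i ⟨j, hjB⟩)) (β : C.B) :
    RegAt v (C.rdB i β) := by
  rw [regAt_iff_mem]
  have h1 : IsIntegral ↥(Algebra.adjoin k ({C.rdB i ⟨j, hjB⟩} : Set (κ i))) (C.rdB i β) :=
    rdB_mem_intClosure C i j hjB hB (C.rdB i ⟨j, hjB⟩)
      (isIntegral_algebraMap (R := ↥(Algebra.adjoin k ({C.rdB i ⟨j, hjB⟩} : Set (κ i))))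
        (A := κ i) (x := ⟨_, Algebra.self_mem_adjoin_singleton k _⟩)) β
  exact mem_of_isIntegral_adjoin k (C.rdB i ⟨j, hjB⟩) v.toValuationSubring
    (fun r => (regAt_iff_mem v _).1 (regAt_algebraMap v r)) ((regAt_iff_mem v _).1 hj) h1

variable [Fintype ι]

/-- **REG on one component** (abstract form). -/
theorem dvd_ord_rd_abs (C : Chart R F k ι κ) [IsNoetherianRing C.B] [IsFractionRing C.B F]
    (q : R) (n : ℕ) (hn : 0 < n) (h : F) (hh : ∀ i, h ∈ C.V i ∧ h⁻¹ ∈ C.V i) (h0 : h ≠ 0)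
    (hHOR : HOR C q n h) (i : ι) (v : Place k (κ i)) (hdeg : v.deg = 1)
    (hreg : ∀ β : C.B, RegAt v (C.rdB i β))
    (hbr : ∀ i', C.Icomp i' ≤ ptIdeal C i v hreg → Nonempty (Branch C (ptIdeal C i v hreg) i'))
    (hL : Nonempty (LocEq C q (ptIdeal C i v hreg))) :
    (n : ℤ) ∣ v.ord (C.rd i h) := by
  have hmax := ptIdeal_isMaximal hreg hdeg
  have hle : C.Icomp i ≤ ptIdeal C i v hreg := Icomp_le_ptIdeal hreg
  obtain ⟨b⟩ := hbr i hle
  obtain ⟨L⟩ := hL
  obtain ⟨s, hs, hsm⟩ := reg_abs C q n hn h hh h0 _ hmax i b L hHOR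
  have hnv : ¬ VanAt v (C.rdB i ⟨h * s ^ n, hs⟩) := fun hv => hsm ((mem_ptIdeal hreg _).2 hv)
  have hord := ord_eq_zero_of_regAt_not_vanAt v (hreg ⟨h * s ^ n, hs⟩) hnv
  -- `s ∈ V i`
  have hsn : s ^ n ∈ C.V i := by
    have h2 : s ^ n = h⁻¹ * (h * s ^ n) := by
      rw [← mul_assoc, inv_mul_cancel₀ h0, one_mul]
    rw [h2]
    exact mul_mem (hh i).2 (C.B_le i _ hs)
  have hsV : s ∈ C.V i := C.mem_of_pow_mem i hn hsn
  have heq : C.rdB i ⟨h * s ^ n, hs⟩ = C.rd i h * C.rd i s ^ n := by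
    rw [← C.rd_coe, C.rd_mul i (hh i).1 hsn, C.rd_pow i hsV]
  rw [heq] at hord hnv
  have hh0 : C.rd i h ≠ 0 := by
    intro e
    apply hnv
    rw [e, zero_mul]
    exact vanAt_zero v
  have hs0 : C.rd i s ≠ 0 := by
    intro e
    apply hnv
    rw [e, zero_pow hn.ne', mul_zero]
    exact vanAt_zero v
  rw [v.ord_mul hh0 (pow_ne_zero _ hs0), Fermat.Agent.RED.H17.ord_pow] at hord
  refine ⟨-v.ord (C.rd i s), ?_⟩
  linarith

end Abs

end Fermat.Agent.S59.LL.SQ.H16
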