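import Fermat.Agent.S36.NU.H44_Hor
import Fermat.Agent.S36.NU.H41_UnramL0

/-!
# S59 / LL / SQ, leaf HOR1 (helper64)

`(HOR)` with exponent `E₀ = 1`: an `I`-fixed function `h` of level `N` whose divisor over `ℚ̄` is
divisible by `n` is an `n`-th power times a unit at every valuation ring `W ≠ ⊤` of
`L₀ = F_N^I` which contains the constants.

* `stmt_UNIF1`: every place of `F_N / ℚ̄` has a uniformiser in `L0 A N`
  (= helper41's `exists_uniformizer_mem_L0`);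
* `stmt_HOR1`: helper44's proof of `stmt_HOR` with `t :=` that uniformiser.
-/

set_option autoImplicit false
set_option synthInstance.maxHeartbeats 400000
set_option maxHeartbeats 1000000
set_option linter.style.haveILetI false
set_option linter.unusedSectionVars false

noncomputable section

open ModularCurve AlgebraicCurve IntermediateField Fermat.Agent.S24 Fermat.Agent.S36.NU.H23
  Fermat.Agent.BAD.H88 Fermat.Agent.S36.NU.H44

namespace Fermat.Agent.S59.LL.SQ.H64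

/-- **UNIF1**: every place of `F_N / ℚ̄` has a uniformiser in `L0 A N`. -/
theorem stmt_UNIF1 (N : ℕ) [NeZero N] (A : ValuationSubring Kbar) (P : Place Kbar (FN N)) :
    ∃ t : FN N, t ∈ L0 A N ∧ P.ord t = 1 := by
  obtain ⟨t, ht⟩ := Fermat.Agent.S36.NU.H41.exists_uniformizer_mem_L0 A N P
  exact ⟨t, t.2, ht⟩

/-- **HOR1**: `(HOR)` with exponent `1`. -/
theorem stmt_HOR1 (N : ℕ) [NeZero N] (A : ValuationSubring Kbar) (n : ℕ) (h : ↥(L0 A N))
    (h0 : h ≠ 0) (hdiv : ∀ P : Place Kbar (FN N), (n : ℤ) ∣ P.ord (h : FN N))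
    (W : ValuationSubring ↥(L0 A N))
    (hWc : ∀ c : ↥(L0 A N), (∃ c' : Kbar, (c : FN N) = algebraMap Kbar (FN N) c') → c ∈ W)
    (hW : W ≠ ⊤) :
    ∃ s : ↥(L0 A N), s ≠ 0 ∧ h * s ^ n ∈ W ∧ (h * s ^ n)⁻¹ ∈ W := by
  obtain ⟨W', hW'⟩ := exists_valuationSubring_extension (L0 A N) W
  -- `W'` contains the constants
  have hQ : ∀ r : ℚ, algebraMap Kbar (FN N) (r : Kbar) ∈ W' := by
    intro r
    have hmem : algebraMap Kbar (FN N) (r : Kbar) ∈ L0 A N :=
      (const_mem_L0_iff A _).mpr (fun σ _ => map_ratCast σ r)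
    exact (hW' ⟨_, hmem⟩).mpr (hWc ⟨_, hmem⟩ ⟨(r : Kbar), rfl⟩)
  haveI : Algebra.IsAlgebraic ℚ Kbar := AlgebraicClosure.isAlgebraic ℚ
  have hK : ∀ c : Kbar, algebraMap Kbar (FN N) c ∈ W' := algebraMap_mem_of_rat_mem W' hQ
  have hne : W' ≠ ⊤ := by
    intro htop
    apply hW
    rw [eq_top_iff]
    intro x _
    exact (hW' x).mp (htop ▸ ValuationSubring.mem_top _)
  obtain ⟨P, hP⟩ := Fermat.Agent.RED.H42.exists_place_eq (Fermat.Agent.RED.H95.isFF_FN N) W' hK hne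
  -- the uniformiser
  obtain ⟨t, htL, ht1⟩ := stmt_UNIF1 N A P
  have ht0 : t ≠ 0 := by
    intro h
    rw [h, Place.ord_zero] at ht1
    exact zero_ne_one ht1
  obtain ⟨m, hm⟩ := hdiv P
  -- the function `s`
  have hsL : t ^ (-m) ∈ L0 A N := zpow_mem htL _
  have hs0 : t ^ (-m) ≠ 0 := zpow_ne_zero _ ht0
  have hh0' : (h : FN N) ≠ 0 := fun h1 => h0 (Subtype.ext h1)
  refine ⟨⟨t ^ (-m), hsL⟩, fun h1 => hs0 (congrArg Subtype.val h1), ?_⟩
  set u : FN N := (h : FN N) * (t ^ (-m)) ^ n with hu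
  have hu0 : u ≠ 0 := mul_ne_zero hh0' (pow_ne_zero _ hs0)
  have hord : P.ord u = 0 := by
    rw [hu, P.ord_mul hh0' (pow_ne_zero _ hs0), Fermat.Agent.RED.H17.ord_pow, P.ord_zpow, hm, ht1]
    ring
  have hcoe : ((h * (⟨t ^ (-m), hsL⟩ : ↥(L0 A N)) ^ n : ↥(L0 A N)) : FN N) = u := rfl
  have hmemu : u ∈ W' := by
    rw [← hP, Fermat.Agent.RED.H51.mem_iff_ord_nonneg P hu0, hord]
  have hmemui : u⁻¹ ∈ W' := by
    rw [← hP, Fermat.Agent.RED.H51.mem_iff_ord_nonneg P (inv_ne_zero hu0), P.ord_inv, hord]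
    simp
  constructor
  · exact (hW' _).mp (hcoe ▸ hmemu)
  · refine (hW' _).mp ?_
    show ((h * (⟨t ^ (-m), hsL⟩ : ↥(L0 A N)) ^ n : ↥(L0 A N)) : FN N)⁻¹ ∈ W'
    rw [hcoe]
    exact hmemui

end Fermat.Agent.S59.LL.SQ.H64
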