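import Fermat.Agent.S59.LL.SQ.H16_RegAbs
import Fermat.Agent.S59.LL.SQ.H64_Hor1
import Fermat.Agent.S59.LL.SQ.Defs
import Fermat.Agent.S59.LL.SQ.H35_RDefs
import Fermat.Agent.S36.NU.H10_Final
import Fermat.Agent.S36.NU.H23_NmP

/-!
# S59 / LL / SQ, leaf R1 REG-TAME (helper16)

Level `N = M q²` (tame level), `h ∈ L₀ = L0 A N` with `div h = p D` over `ℚ̄`, a unit for the three
valuations.  Then the order of the reduction `r11 h` (on the component `11`, with residue field
`FM A M`) at EVERY place `Q` of `FM A M` is divisible by `p`.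

* `hor1_chart`       : (HOR) with exponent `1` in a chart over `Rur A` (helper64's `stmt_HOR1`);
* `reg11At_of_top`   : helper35's `H35.Reg11At` from helper10's `TopInputs` (only `hpt0`, `hptoo`
                       are used);
* `stmt_reg11At`     : `H35.Reg11At` at every tame level from `H10.Stmt_NuMAll`, `H10.Stmt_TopAll`
                       (unconditional form: `H16_RegFinal.lean`).

Proof: if the reduction of `j` is regular at `Q`, work in the chart of `j`, otherwise in the chart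
of `1 / j`; the closed point below `Q` is `H24.ptIdeal`, and `dvd_ord_rd_abs` (REG, `reg_abs`)
applies with the branch and the local equation datum of `TopInputs`.
-/

set_option autoImplicit false
set_option synthInstance.maxHeartbeats 400000
set_option maxHeartbeats 1000000
set_option linter.style.haveILetI false
set_option linter.unusedSectionVars false
set_option linter.unusedVariables false

noncomputable section

open ModularCurve AlgebraicCurve IntermediateField

attribute [local instance] Classical.propDecidable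

namespace Fermat.Agent.S59.LL.SQ.H16

open Fermat.Agent.S24 Fermat.Agent.BAD Fermat.Agent.BAD.H88 Fermat.Agent.S28 Fermat.Agent.S28.H73
  Fermat.Agent.S36.NU.H23
  Fermat.Agent.S36.NU.H41 Fermat.Agent.S36.NU.H88 Fermat.Agent.S36.NU.H16
  Fermat.Agent.S36.NU.H17 Fermat.Agent.S36.NU.H24 Fermat.Agent.S36.NU.H79
  Fermat.Agent.S36.NU.H65 Fermat.Agent.S36.NU.H74 Fermat.Agent.S36.NU.H10
  Fermat.Agent.RED.H17 Fermat.Agent.RED.H73

section Hor

variable (A : ValuationSubring Kbar) (q : ℕ) (hq : q.Prime) (hA : A.LiesOverPrime q)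
  (N : ℕ) [NeZero N]

include hq hA in
/-- **(HOR)** with exponent `1` in every chart over `Rur A`. -/
theorem hor1_chart {k ι : Type*} {κ : ι → Type*} [Field k] [∀ i, Field (κ i)]
    [∀ i, Algebra k (κ i)] (C : Chart ↥(Rur A) ↥(L0 A N) k ι κ) (n : ℕ) (h : ↥(L0 A N))
    (h0 : h ≠ 0) (hdiv : ∀ P : Place Kbar (FN N), (n : ℤ) ∣ P.ord (h : FN N)) :
    HOR C ((q : ℕ) : ↥(Rur A)) n h := by
  intro W hB hqW hW
  refine Fermat.Agent.S59.LL.SQ.H64.stmt_HOR1 N A n h h0 hdiv W (fun c hc => ?_) hW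
  refine const_mem_of_Rur A q hq hA N W (fun r => ?_) hqW c hc
  exact hB ⟨algebraMap ↥(Rur A) ↥(L0 A N) r, C.B.algebraMap_mem r⟩

end Hor

section Mod

variable (A : ValuationSubring Kbar) (q M : ℕ) (B k : ℤ) (hB : B * M + k * q = 1) (hq : q.Prime)
  [NeZero M] [NeZero q] [NeZero (M * q)] [NeZero (M * q * q)]
  (hqM : ¬ q ∣ M) (hA : A.LiesOverPrime q) (ht : H91.TameAt M q)

attribute [local instance] algkM

/-- **REG-TAME** from `TopInputs`. -/
theorem reg11At_of_top (D₀ : NUDataM A q M) (hI : TopInputs A q M B k hB hq hqM hA ht D₀)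
    (p : ℕ) (hp : 0 < p) :
    Fermat.Agent.S59.LL.SQ.H35.Reg11At A q M B k hB hq hqM hA p := by
  intro h D hD hU h11 Q
  haveI : IsAlgClosed (kV A) := Fermat.Agent.RED.H73.isAlgClosed_kV A
  haveI : IsNoetherianRing ↥(chart0 A q M B k hB hq hqM hA ht).B :=
    isNoetherianRing_chart0 A q M hq hA
  haveI : IsFractionRing ↥(chart0 A q M B k hB hq hqM hA ht).B ↥(L0 A (M * q * q)) :=
    isFractionRing_chart0 A q M
  haveI : IsNoetherianRing ↥(chartInf A q M B k hB hq hqM hA ht).B :=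
    isNoetherianRing_chartInf A q M hq hA
  haveI : IsFractionRing ↥(chartInf A q M B k hB hq hqM hA ht).B ↥(L0 A (M * q * q)) :=
    isFractionRing_chartInf A q M
  have hdiv : ∀ P : Place Kbar (FN (M * q * q)), (p : ℤ) ∣ P.ord (h : FN (M * q * q)) :=
    fun P => ⟨D P, (hD P).symm⟩
  have hu : ∀ i, (totM A q M B k hB hq hqM hA ht).rdN i h ≠ 0 := by
    obtain ⟨⟨h20, e20⟩, ⟨h11', e11⟩, ⟨h02, e02⟩⟩ := hU
    intro i
    fin_cases i
    · exact rdN_totM_zero_ne_zero A q M B k hB hq hqM hA ht h h20 e20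
    · exact rdN_totM_one_ne_zero A q M B k hB hq hqM hA ht h h11' e11
    · exact rdN_totM_two_ne_zero A q M B k hB hq hqM hA ht h h02 e02
  have h0 : h ≠ 0 := by
    rintro rfl
    apply hu 1
    rw [(totM A q M B k hB hq hqM hA ht).rdN_of_mem
      ((totM A q M B k hB hq hqM hA ht).V 1).zero_mem]
    exact map_zero _
  have hdeg : (ptM A q M hq hqM hA 1 Q).deg = 1 := deg_ptM A q M hq hqM hA ht 1 Q
  have key : (p : ℤ) ∣
      (ptM A q M hq hqM hA 1 Q).ord ((totM A q M B k hB hq hqM hA ht).rdN 1 h) := by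
    by_cases hj : RegAt (ptM A q M hq hqM hA 1 Q)
        ((totM A q M B k hB hq hqM hA ht).rdN 1 (j0 A (M * q * q)))
    · -- the chart of `j`
      have hc := compat_chart0 A q M B k hB hq hqM hA ht
      have hjB : j0 A (M * q * q) ∈ (chart0 A q M B k hB hq hqM hA ht).B :=
        self_mem_intSub ↥(Rur A) (j0 A (M * q * q))
      have hreg : ∀ β : (chart0 A q M B k hB hq hqM hA ht).B,
          RegAt (ptM A q M hq hqM hA 1 Q) ((chart0 A q M B k hB hq hqM hA ht).rdB 1 β) :=
        regAt_rdB_of_integral (chart0 A q M B k hB hq hqM hA ht) 1 (j0 A (M * q * q)) hjB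
          (fun β => β.2) (ptM A q M hq hqM hA 1 Q) (by rw [hc.rdB_eq]; exact hj)
      obtain ⟨hbr, hL, -⟩ := hI.hpt0 _ (ptIdeal_isMaximal hreg hdeg) ⟨1, Icomp_le_ptIdeal hreg⟩
      have h1 := dvd_ord_rd_abs (chart0 A q M B k hB hq hqM hA ht) ((q : ℕ) : ↥(Rur A)) p hp h
        (fun i => by
          rw [hc.hV]
          exact ⟨(totM A q M B k hB hq hqM hA ht).mem_of_rdN_ne_zero (hu i),
            (totM A q M B k hB hq hqM hA ht).inv_mem_of_rdN_ne_zero (hu i)⟩)
        h0 (hor1_chart A q hq hA (M * q * q) _ p h h0 hdiv) 1 (ptM A q M hq hqM hA 1 Q) hdeg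
        hreg hbr hL
      rwa [hc.hrd] at h1
    · -- the chart of `1 / j`
      have hc := compat_chartInf A q M B k hB hq hqM hA ht
      have hjB : (j0 A (M * q * q))⁻¹ ∈ (chartInf A q M B k hB hq hqM hA ht).B :=
        self_mem_intSub ↥(Rur A) (j0 A (M * q * q))⁻¹
      have hj0 := rdN_j0_ne_zero A q M B k hB hq hqM hA ht 1
      have hjinv : (totM A q M B k hB hq hqM hA ht).rdN 1 (j0 A (M * q * q))⁻¹
          = ((totM A q M B k hB hq hqM hA ht).rdN 1 (j0 A (M * q * q)))⁻¹ := by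
        rw [← hc.hrd, ← hc.hrd]
        exact (chartInf A q M B k hB hq hqM hA ht).rd_inv 1 (by rw [hc.hrd]; exact hj0)
      have hvan : VanAt (ptM A q M hq hqM hA 1 Q)
          ((totM A q M B k hB hq hqM hA ht).rdN 1 (j0 A (M * q * q))⁻¹) := by
        rw [hjinv]
        apply vanAt_of_ord_pos
        rw [Place.ord_inv]
        have := (not_regAt_iff_ord _ _).1 hj
        omega
      have hreg : ∀ β : (chartInf A q M B k hB hq hqM hA ht).B,
          RegAt (ptM A q M hq hqM hA 1 Q) ((chartInf A q M B k hB hq hqM hA ht).rdB 1 β) :=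
        regAt_rdB_of_integral (chartInf A q M B k hB hq hqM hA ht) 1 (j0 A (M * q * q))⁻¹ hjB
          (fun β => β.2) (ptM A q M hq hqM hA 1 Q) (by rw [hc.rdB_eq]; exact hvan.regAt)
      obtain ⟨hbr, hL, -⟩ := hI.hptoo _ (ptIdeal_isMaximal hreg hdeg)
        ⟨1, Icomp_le_ptIdeal hreg⟩ (fun β hβ => by
          rw [mem_ptIdeal, hc.rdB_eq, hβ]
          exact hvan)
      have h1 := dvd_ord_rd_abs (chartInf A q M B k hB hq hqM hA ht) ((q : ℕ) : ↥(Rur A)) p hp h
        (fun i => by
          rw [hc.hV]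
          exact ⟨(totM A q M B k hB hq hqM hA ht).mem_of_rdN_ne_zero (hu i),
            (totM A q M B k hB hq hqM hA ht).inv_mem_of_rdN_ne_zero (hu i)⟩)
        h0 (hor1_chart A q hq hA (M * q * q) _ p h h0 hdiv) 1 (ptM A q M hq hqM hA 1 Q) hdeg
        hreg hbr hL
      rwa [hc.hrd] at h1
  rw [rdN_totM_one A q M B k hB hq hqM hA ht h h11] at key
  exact key

end Mod

/-- **REG-TAME at every tame level**, from the two modular statements of S36 (helper10's
`Stmt_NuMAll`, `Stmt_TopAll`). -/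
theorem stmt_reg11At (hNu : Stmt_NuMAll) (hTop : Stmt_TopAll)
    (A : ValuationSubring Kbar) (q M : ℕ) (B k : ℤ) (hB : B * M + k * q = 1) (hq : q.Prime)
    [NeZero M] [NeZero q] [NeZero (M * q)] [NeZero (M * q * q)]
    (hqM : ¬ q ∣ M) (hA : A.LiesOverPrime q) (ht : H91.TameAt M q)
    (hc : (5 ≤ q ∧ 4 ∣ M) ∨ (q = 3 ∧ 4 ∣ M) ∨ (q = 2 ∧ 9 ∣ M)) (p : ℕ) (hp : 0 < p) :
    Fermat.Agent.S59.LL.SQ.H35.Reg11At A q M B k hB hq hqM hA p := by
  obtain ⟨D, hD⟩ := hNu A q M B k hB hq hqM hA ht hc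
  exact reg11At_of_top A q M B k hB hq hqM hA ht D (hTop A q M B k hB hq hqM hA ht hc D hD) p hp

end Fermat.Agent.S59.LL.SQ.H16
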