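import Fermat.Agent.S59.LL.SQ.H89_LowGlue
import Fermat.Agent.S43.H91_ModSSDW
import Fermat.Agent.S36.NU.H79_NmFibM
import Fermat.Agent.S15.Desc.H83_GlueCore
attribute [local instance 10000] SubalgebraClass.toAlgebra
attribute [local instance 10000] HahnSeries.powerSeriesAlgebra

/-!
# S59 / LL / SQ, step (T'), leaf G5 (ii) (helper89): LOW → GLUE from the output of ST-RANK

* `glueLow_of_isTor` (abstract): for a `NUData` `D` whose lower level `D.T'` is `T'`, the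
  semistable datum `S = T'.toSSD ..`, a triple `IsTor S n (f yⁿ) ψ₁ ψ₂` (`f ∈ L₀'` a unit for
  both valuations) with values `a = Θ s · b` of `ψ₁`, `ψ₂` at the branches of the nodes `s`
  (this is the OUTPUT of ST-RANK, `H83.exists_tor_of_count`), and local generators of `f` in `L₀'`
  at the nodes `zz z` (GENLOW), give
  `GlueLow D zz n f (fun z => (Θ (zz z, β (zz z)))⁻¹)`;
* `exists_glueLow_of_out` (abstract): if every `Θ : nodes → μ_p` is realised (ST-RANK) and `zz` is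
  injective on the triple points, every `θ : SS → μ_p` is the invariant of some `GlueLow`;
* `glueLow_mod`, `glueLowA_mod`, `glueLowB_mod` : the modular instances, `D = nuMod`,
  `S = modSSD` (level `M q`, parameters `a = k`, `b = B`), `zz = zA` and `zz = zB`;
* `StRankOutAt`, `GenLowAt` : the two inputs as `Prop`s; `exists_glueLowA_mod`,
  `exists_glueLowB_mod` : **every `θ : ssM → μ_p` is the gluing invariant of some `f ∈ L0 (M q)`**
  along `α` and along `β`.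
-/

set_option autoImplicit false
set_option synthInstance.maxHeartbeats 400000
set_option maxHeartbeats 1000000
set_option linter.style.haveILetI false
set_option linter.unusedSectionVars false

noncomputable section

open AlgebraicCurve

attribute [local instance] Classical.propDecidable

namespace Fermat.Agent.S59.LL.SQ.H89LG

open Fermat.Agent.RED.H17 Fermat.Agent.RED Fermat.Agent.BAD.H79 Fermat.Agent.BAD
  Fermat.Agent.S36.NU.H79 Fermat.Agent.S59.LL.SQ.H40 Fermat.Agent.S59.LL.SQ.H86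
  Fermat.Agent.S15.Desc.H83

section Tor

variable {K L₀ L k ι Z : Type*} {E : ι → Type*} {K' L' E₁ : Type*}
  [Field K] [Field L₀] [Field L] [Algebra K L] [Algebra L₀ L] [Field k] [Fintype ι]
  [∀ i, Field (E i)] [∀ i, Algebra k (E i)] [Field K'] [Field L'] [Algebra K' L']
  [Field E₁] [Algebra k E₁]
  {L₀' : Type*} [Field L₀'] [Algebra L₀' L']

/-- **G5 (ii)**: gluing data of the lower level from the output of ST-RANK. -/
theorem glueLow_of_isTor [Infinite k] [IsAlgClosed K']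
    (D : NUData K L₀ L k ι Z E K' L' E₁ E₁) (T' : TotData K' L' k E₁ E₁) (hT' : D.T' = T')
    (hP : HasPrincipalDivisors K' L') (hd : ∀ v : Place K' L', v.deg = 1)
    (hP₁ : HasPrincipalDivisors k E₁) (hd₁ : ∀ v : Place k E₁, v.deg = 1)
    (hne : ∃ z, T'.IsNode z)
    {zz : Z → Place k E₁} (hnode : ∀ z ∈ D.SS, D.T'.IsNode (zz z))
    {n : ℕ} (hn : n ≠ 0) {f : L₀'} {y : L'} {ψ₁ ψ₂ : E₁}
    {Θ : Place k E₁ × Place k E₁ → k}
    (hf₁ : (T'.toSSD hP hd hP₁ hd₁ hd₁ hne).c₁.IsGU (algebraMap L₀' L' f))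
    (hf₂ : (T'.toSSD hP hd hP₁ hd₁ hd₁ hne).c₂.IsGU (algebraMap L₀' L' f))
    (hT : IsTor (T'.toSSD hP hd hP₁ hd₁ hd₁ hne) n (algebraMap L₀' L' f * y ^ n) ψ₁ ψ₂)
    (hval : ∀ s ∈ (T'.toSSD hP hd hP₁ hd₁ hd₁ hne).nodes, ∃ a b : k, b ≠ 0 ∧
      VanAt s.1 (ψ₁ - algebraMap k E₁ a) ∧ VanAt s.2 (ψ₂ - algebraMap k E₁ b) ∧ a = Θ s * b)
    (hgen : ∀ z ∈ D.SS, ∃ s : L₀', IsGenLow D n (zz z) f s) :
    GlueLow D zz n f (fun z => (Θ (zz z, D.T'.β (zz z)))⁻¹) := by
  subst hT'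
  have hmem : ∀ z ∈ D.SS,
      (zz z, D.T'.β (zz z)) ∈ (D.T'.toSSD hP hd hP₁ hd₁ hd₁ hne).nodes := by
    intro z hz
    rw [TotData.toSSD_nodes, TotData.mem_nodes]
    exact ⟨hnode z hz, rfl⟩
  refine glueLow_of_tor' D hP hnode (fun z _ => hd₁ _) hn hf₁ hf₂ hT.gu₁ hT.gu₂ hT.rd₁ hT.rd₂
    ?_ ?_ hgen
  · intro z hz Q hQ
    apply hT.node Q
    rw [Fermat.Agent.S43.H37.isNodeP_toSSD_iff, hQ]
    exact hnode z hz
  · intro z hz
    obtain ⟨a, b, hb, hva, hvb, hab⟩ := hval _ (hmem z hz)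
    have hord := (hT.ord_eq_zero hn hP (hmem z hz)).1
    have hψ₁ : ψ₁ ≠ 0 := hT.ne₁ hn
    have ha : a ≠ 0 := by
      rintro rfl
      rw [map_zero, sub_zero] at hva
      have := hva.ord_pos hψ₁
      change 0 < (zz z).ord ψ₁ at this
      change (zz z).ord ψ₁ = 0 at hord
      omega
    have hθ : Θ (zz z, D.T'.β (zz z)) ≠ 0 := by
      intro h0
      rw [h0, zero_mul] at hab
      exact ha hab
    refine ⟨a, b, ha, hb, hva, hvb, ?_⟩
    show b = (Θ (zz z, D.T'.β (zz z)))⁻¹ * a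
    rw [hab, ← mul_assoc, inv_mul_cancel₀ hθ, one_mul]

/-- **Every invariant is realised**: if every vector `Θ` of `p`-th roots of unity on the nodes is
the glue vector of a triple `IsTor S n (f yⁿ) ψ₁ ψ₂` (ST-RANK), the functions of `L₀'` which are
units with divisor divisible by `n` have local generators in `L₀'` (GENLOW) and `zz` is injective
on the triple points, then every `θ : SS → μ_p` is the invariant of some `GlueLow D zz n f θ`. -/
theorem exists_glueLow_of_out [Infinite k] [IsAlgClosed K']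
    (D : NUData K L₀ L k ι Z E K' L' E₁ E₁) (T' : TotData K' L' k E₁ E₁) (hT' : D.T' = T')
    (hP : HasPrincipalDivisors K' L') (hd : ∀ v : Place K' L', v.deg = 1)
    (hP₁ : HasPrincipalDivisors k E₁) (hd₁ : ∀ v : Place k E₁, v.deg = 1)
    (hne : ∃ z, T'.IsNode z)
    {zz : Z → Place k E₁} (hnode : ∀ z ∈ D.SS, D.T'.IsNode (zz z))
    (hinj : ∀ z ∈ D.SS, ∀ z' ∈ D.SS, zz z = zz z' → z = z')
    {n p : ℕ} (hn : n ≠ 0)
    (hout : ∀ Θ : Place k E₁ × Place k E₁ → k,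
      (∀ s ∈ (T'.toSSD hP hd hP₁ hd₁ hd₁ hne).nodes, Θ s ^ p = 1) →
      ∃ (f : L₀') (y : L') (ψ₁ ψ₂ : E₁),
        (T'.toSSD hP hd hP₁ hd₁ hd₁ hne).c₁.IsGU (algebraMap L₀' L' f) ∧
        (T'.toSSD hP hd hP₁ hd₁ hd₁ hne).c₂.IsGU (algebraMap L₀' L' f) ∧
        IsTor (T'.toSSD hP hd hP₁ hd₁ hd₁ hne) n (algebraMap L₀' L' f * y ^ n) ψ₁ ψ₂ ∧
        ∀ s ∈ (T'.toSSD hP hd hP₁ hd₁ hd₁ hne).nodes, ∃ a b : k, b ≠ 0 ∧
          VanAt s.1 (ψ₁ - algebraMap k E₁ a) ∧ VanAt s.2 (ψ₂ - algebraMap k E₁ b) ∧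
          a = Θ s * b)
    (hgen : ∀ f : L₀', D.T'.p₁.rd (algebraMap L₀' L' f) ≠ 0 →
      D.T'.p₂.rd (algebraMap L₀' L' f) ≠ 0 →
      (∀ Q : Place K' L', (n : ℤ) ∣ Q.ord (algebraMap L₀' L' f)) →
      ∀ z ∈ D.SS, ∃ s : L₀', IsGenLow D n (zz z) f s)
    (θ : Z → k) (hθ : ∀ z ∈ D.SS, θ z ^ p = 1) :
    ∃ f : L₀', D.T'.p₁.rd (algebraMap L₀' L' f) ≠ 0 ∧ D.T'.p₂.rd (algebraMap L₀' L' f) ≠ 0 ∧
      (∀ Q : Place K' L', (n : ℤ) ∣ Q.ord (algebraMap L₀' L' f)) ∧ GlueLow D zz n f θ := by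
  -- the vector on the nodes
  let Θ : Place k E₁ × Place k E₁ → k := fun s =>
    if h : ∃ z, z ∈ D.SS ∧ zz z = s.1 then (θ (Classical.choose h))⁻¹ else 1
  have hΘ : ∀ z ∈ D.SS, ∀ w : Place k E₁, Θ (zz z, w) = (θ z)⁻¹ := by
    intro z hz w
    have h : ∃ z', z' ∈ D.SS ∧ zz z' = (zz z, w).1 := ⟨z, hz, rfl⟩
    show (if h : ∃ z', z' ∈ D.SS ∧ zz z' = (zz z, w).1 then (θ (Classical.choose h))⁻¹ else 1)
      = _
    rw [dif_pos h]
    have h2 := Classical.choose_spec h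
    rw [hinj _ h2.1 z hz h2.2]
  have hΘp : ∀ s : Place k E₁ × Place k E₁, Θ s ^ p = 1 := by
    intro s
    show (if h : ∃ z, z ∈ D.SS ∧ zz z = s.1 then (θ (Classical.choose h))⁻¹ else 1) ^ p = 1
    split_ifs with h
    · rw [inv_pow, hθ _ (Classical.choose_spec h).1, inv_one]
    · exact one_pow p
  obtain ⟨f, y, ψ₁, ψ₂, hf₁, hf₂, hT, hval⟩ := hout Θ fun s _ => hΘp s
  have hf₁' : D.T'.p₁.IsGU (algebraMap L₀' L' f) := by rw [hT']; exact hf₁
  have hf₂' : D.T'.p₂.IsGU (algebraMap L₀' L' f) := by rw [hT']; exact hf₂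
  have hy0 : y ≠ 0 := by
    rintro rfl
    have := hT.gu₁.ne_zero
    rw [zero_pow hn, mul_zero] at this
    exact this rfl
  have hdvd : ∀ Q : Place K' L', (n : ℤ) ∣ Q.ord (algebraMap L₀' L' f) :=
    dvd_ord_of_mul_pow hf₁.ne_zero hy0 hT.dvd
  have hg := glueLow_of_isTor D T' hT' hP hd hP₁ hd₁ hne hnode hn hf₁ hf₂ hT hval
    (hgen f hf₁'.rd_ne_zero hf₂'.rd_ne_zero hdvd)
  refine ⟨f, hf₁'.rd_ne_zero, hf₂'.rd_ne_zero, hdvd, glueLow_congr D hg fun z hz => ?_⟩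
  show (Θ (zz z, D.T'.β (zz z)))⁻¹ = θ z
  rw [hΘ z hz, inv_inv]

end Tor

/-! ## The modular instances -/

section Mod

open ModularCurve
open Fermat.Agent.S24 Fermat.Agent.BAD.H88 Fermat.Agent.S28 Fermat.Agent.S28.H73
open Fermat.Agent.RED.H73 Fermat.Agent.S36.NU.H88
open Fermat.Agent.Lib.HeckeComm Fermat.Agent.S36.NU.H23 Fermat.Agent.S36.NU.H74
open Fermat.Agent.S43.H91

variable (A : ValuationSubring Kbar) (q M : ℕ) (B k : ℤ) (hB : B * M + k * q = 1) (hq : q.Prime)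
  [NeZero M] [NeZero q] [NeZero (M * q)] [NeZero (M * q * q)]
  (hqM : ¬ q ∣ M) (hA : A.LiesOverPrime q) (ht : H91.TameAt M q)

/-- The lower level of `nuMod` is `TlowM`. -/
theorem nuMod_T' : letI := algkM A M
    (nuMod A q M B k hB hq hqM hA ht).T' = TlowM A q M B k hB hq hqM hA ht := rfl

/-- **G5 (ii), modular form**, for an arbitrary family of nodes `zz z`, `z ∈ ssM`. -/
theorem glueLow_mod (zz : Place (kV A) (FM A M) → Place (kV A) (F1 A q M))
    (hnode : letI := algkM A M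
      ∀ z ∈ (nuMod A q M B k hB hq hqM hA ht).SS,
        (nuMod A q M B k hB hq hqM hA ht).T'.IsNode (zz z))
    {n : ℕ} (hn : n ≠ 0) {f : ↥(L0 A (M * q))} {y : FN (M * q)} {ψ₁ ψ₂ : F1 A q M}
    {Θ : Place (kV A) (F1 A q M) × Place (kV A) (F1 A q M) → kV A}
    (hf₁ : (modSSD A q M k B (hab_nuM q M B k hB) hq hA hqM ht).c₁.IsGU (f : FN (M * q)))
    (hf₂ : (modSSD A q M k B (hab_nuM q M B k hB) hq hA hqM ht).c₂.IsGU (f : FN (M * q)))
    (hT : IsTor (modSSD A q M k B (hab_nuM q M B k hB) hq hA hqM ht) n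
      ((f : FN (M * q)) * y ^ n) ψ₁ ψ₂)
    (hval : ∀ s ∈ (modSSD A q M k B (hab_nuM q M B k hB) hq hA hqM ht).nodes, ∃ a b : kV A,
      b ≠ 0 ∧ VanAt s.1 (ψ₁ - algebraMap (kV A) (F1 A q M) a) ∧
        VanAt s.2 (ψ₂ - algebraMap (kV A) (F1 A q M) b) ∧ a = Θ s * b)
    (hgen : letI := algkM A M
      ∀ z ∈ (nuMod A q M B k hB hq hqM hA ht).SS, ∃ s : ↥(L0 A (M * q)),
        IsGenLow (nuMod A q M B k hB hq hqM hA ht) n (zz z) f s) :
    letI := algkM A M
    GlueLow (nuMod A q M B k hB hq hqM hA ht) zz n f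
      (fun z => (Θ (zz z, (nuMod A q M B k hB hq hqM hA ht).T'.β (zz z)))⁻¹) := by
  letI := algkM A M
  haveI : IsAlgClosed (kV A) := isAlgClosed_kV A
  haveI : Infinite (kV A) := IsAlgClosed.instInfinite
  exact glueLow_of_isTor (nuMod A q M B k hB hq hqM hA ht) (TlowM A q M B k hB hq hqM hA ht)
    (nuMod_T' A q M B k hB hq hqM hA ht) (ffHyp_FN q M).principal (ffHyp_FN q M).deg_one
    (ffHyp_F1 A q M k B (hab_nuM q M B k hB) hq hA hqM ht).principal
    (ffHyp_F1 A q M k B (hab_nuM q M B k hB) hq hA hqM ht).deg_one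
    (exists_node_modTot A q M k B (hab_nuM q M B k hB) hq hA hqM ht) hnode hn hf₁ hf₂ hT hval
    hgen

/-- **G5 (ii), modular form, along `α`.** -/
theorem glueLowA_mod {n : ℕ} (hn : n ≠ 0) {f : ↥(L0 A (M * q))} {y : FN (M * q)}
    {ψ₁ ψ₂ : F1 A q M} {Θ : Place (kV A) (F1 A q M) × Place (kV A) (F1 A q M) → kV A}
    (hf₁ : (modSSD A q M k B (hab_nuM q M B k hB) hq hA hqM ht).c₁.IsGU (f : FN (M * q)))
    (hf₂ : (modSSD A q M k B (hab_nuM q M B k hB) hq hA hqM ht).c₂.IsGU (f : FN (M * q)))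
    (hT : IsTor (modSSD A q M k B (hab_nuM q M B k hB) hq hA hqM ht) n
      ((f : FN (M * q)) * y ^ n) ψ₁ ψ₂)
    (hval : ∀ s ∈ (modSSD A q M k B (hab_nuM q M B k hB) hq hA hqM ht).nodes, ∃ a b : kV A,
      b ≠ 0 ∧ VanAt s.1 (ψ₁ - algebraMap (kV A) (F1 A q M) a) ∧
        VanAt s.2 (ψ₂ - algebraMap (kV A) (F1 A q M) b) ∧ a = Θ s * b)
    (hgen : letI := algkM A M
      ∀ z ∈ ssM A q M, ∃ s : ↥(L0 A (M * q)),
        IsGenLow (nuMod A q M B k hB hq hqM hA ht) n (zA A q M B k hB hq hA z) f s) :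
    letI := algkM A M
    GlueLow (nuMod A q M B k hB hq hqM hA ht) (zA A q M B k hB hq hA) n f
      (fun z => (Θ (zA A q M B k hB hq hA z,
        (TlowM A q M B k hB hq hqM hA ht).β (zA A q M B k hB hq hA z)))⁻¹) := by
  letI := algkM A M
  exact glueLow_mod A q M B k hB hq hqM hA ht _
    (nuMod A q M B k hB hq hqM hA ht).nodeα hn hf₁ hf₂ hT hval hgen

/-- **G5 (ii), modular form, along `β`.** -/
theorem glueLowB_mod {n : ℕ} (hn : n ≠ 0) {f : ↥(L0 A (M * q))} {y : FN (M * q)}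
    {ψ₁ ψ₂ : F1 A q M} {Θ : Place (kV A) (F1 A q M) × Place (kV A) (F1 A q M) → kV A}
    (hf₁ : (modSSD A q M k B (hab_nuM q M B k hB) hq hA hqM ht).c₁.IsGU (f : FN (M * q)))
    (hf₂ : (modSSD A q M k B (hab_nuM q M B k hB) hq hA hqM ht).c₂.IsGU (f : FN (M * q)))
    (hT : IsTor (modSSD A q M k B (hab_nuM q M B k hB) hq hA hqM ht) n
      ((f : FN (M * q)) * y ^ n) ψ₁ ψ₂)
    (hval : ∀ s ∈ (modSSD A q M k B (hab_nuM q M B k hB) hq hA hqM ht).nodes, ∃ a b : kV A,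
      b ≠ 0 ∧ VanAt s.1 (ψ₁ - algebraMap (kV A) (F1 A q M) a) ∧
        VanAt s.2 (ψ₂ - algebraMap (kV A) (F1 A q M) b) ∧ a = Θ s * b)
    (hgen : letI := algkM A M
      ∀ z ∈ ssM A q M, ∃ s : ↥(L0 A (M * q)),
        IsGenLow (nuMod A q M B k hB hq hqM hA ht) n (zB A q M B k hB hq hqM hA z) f s) :
    letI := algkM A M
    GlueLow (nuMod A q M B k hB hq hqM hA ht) (zB A q M B k hB hq hqM hA) n f
      (fun z => (Θ (zB A q M B k hB hq hqM hA z,
        (TlowM A q M B k hB hq hqM hA ht).β (zB A q M B k hB hq hqM hA z)))⁻¹) := by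
  letI := algkM A M
  exact glueLow_mod A q M B k hB hq hqM hA ht _
    (nuMod A q M B k hB hq hqM hA ht).nodeβ hn hf₁ hf₂ hT hval hgen

/-! ### Every invariant is realised -/

/-- **The output of ST-RANK** (helper20) at the exponent `n`: every vector `Θ` of `p`-th roots
of unity on the nodes of `modSSD` is the glue vector of a triple `IsTor S n (f yⁿ) ψ₁ ψ₂` with
`f ∈ L0 A (M q)` a unit for both valuations. -/
def StRankOutAt (p n : ℕ) : Prop :=
  ∀ Θ : Place (kV A) (F1 A q M) × Place (kV A) (F1 A q M) → kV A,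
    (∀ s ∈ (modSSD A q M k B (hab_nuM q M B k hB) hq hA hqM ht).nodes, Θ s ^ p = 1) →
    ∃ (f y : FN (M * q)) (ψ₁ ψ₂ : F1 A q M), f ∈ L0 A (M * q) ∧
      (modSSD A q M k B (hab_nuM q M B k hB) hq hA hqM ht).c₁.IsGU f ∧
      (modSSD A q M k B (hab_nuM q M B k hB) hq hA hqM ht).c₂.IsGU f ∧
      IsTor (modSSD A q M k B (hab_nuM q M B k hB) hq hA hqM ht) n (f * y ^ n) ψ₁ ψ₂ ∧
      ∀ s ∈ (modSSD A q M k B (hab_nuM q M B k hB) hq hA hqM ht).nodes, ∃ a b : kV A,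
        b ≠ 0 ∧ VanAt s.1 (ψ₁ - algebraMap (kV A) (F1 A q M) a) ∧
          VanAt s.2 (ψ₂ - algebraMap (kV A) (F1 A q M) b) ∧ a = Θ s * b

/-- **GENLOW + GEN-MOD** at the exponent `n`, along the family of nodes `zz` (`D = nuMod`): the
units of `L0 A (M q)` with divisor divisible by `n` have local generators in `L0 A (M q)` at the
nodes `zz z`, `z ∈ D.SS`. -/
def GenLowAt (zz : Place (kV A) (FM A M) → Place (kV A) (F1 A q M)) (n : ℕ) : Prop :=
  letI := algkM A M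
  ∀ f : ↥(L0 A (M * q)),
    (nuMod A q M B k hB hq hqM hA ht).T'.p₁.rd
      (algebraMap ↥(L0 A (M * q)) (FN (M * q)) f) ≠ 0 →
    (nuMod A q M B k hB hq hqM hA ht).T'.p₂.rd
      (algebraMap ↥(L0 A (M * q)) (FN (M * q)) f) ≠ 0 →
    (∀ Q : Place Kbar (FN (M * q)),
      (n : ℤ) ∣ Q.ord (algebraMap ↥(L0 A (M * q)) (FN (M * q)) f)) →
    ∀ z ∈ (nuMod A q M B k hB hq hqM hA ht).SS, ∃ s : ↥(L0 A (M * q)),
      IsGenLow (nuMod A q M B k hB hq hqM hA ht) n (zz z) f s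

/-- **Every invariant is realised, modular form**, for an injective family of nodes. -/
theorem exists_glueLow_mod (zz : Place (kV A) (FM A M) → Place (kV A) (F1 A q M))
    (hnode : letI := algkM A M
      ∀ z ∈ (nuMod A q M B k hB hq hqM hA ht).SS,
        (nuMod A q M B k hB hq hqM hA ht).T'.IsNode (zz z))
    (hinj : Function.Injective zz) {n p : ℕ} (hn : n ≠ 0)
    (hout : StRankOutAt A q M B k hB hq hqM hA ht p n)
    (hgen : GenLowAt A q M B k hB hq hqM hA ht zz n)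
    (θ : Place (kV A) (FM A M) → kV A)
    (hθ : letI := algkM A M
      ∀ z ∈ (nuMod A q M B k hB hq hqM hA ht).SS, θ z ^ p = 1) :
    letI := algkM A M
    ∃ f : ↥(L0 A (M * q)),
      (nuMod A q M B k hB hq hqM hA ht).T'.p₁.rd
        (algebraMap ↥(L0 A (M * q)) (FN (M * q)) f) ≠ 0 ∧
      (nuMod A q M B k hB hq hqM hA ht).T'.p₂.rd
        (algebraMap ↥(L0 A (M * q)) (FN (M * q)) f) ≠ 0 ∧
      (∀ Q : Place Kbar (FN (M * q)),
        (n : ℤ) ∣ Q.ord (algebraMap ↥(L0 A (M * q)) (FN (M * q)) f)) ∧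
      GlueLow (nuMod A q M B k hB hq hqM hA ht) zz n f θ := by
  letI := algkM A M
  haveI : IsAlgClosed (kV A) := isAlgClosed_kV A
  haveI : Infinite (kV A) := IsAlgClosed.instInfinite
  have hout' : ∀ Θ : Place (kV A) (F1 A q M) × Place (kV A) (F1 A q M) → kV A,
      (∀ s ∈ ((TlowM A q M B k hB hq hqM hA ht).toSSD (ffHyp_FN q M).principal
          (ffHyp_FN q M).deg_one
          (ffHyp_F1 A q M k B (hab_nuM q M B k hB) hq hA hqM ht).principal
          (ffHyp_F1 A q M k B (hab_nuM q M B k hB) hq hA hqM ht).deg_one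
          (ffHyp_F1 A q M k B (hab_nuM q M B k hB) hq hA hqM ht).deg_one
          (exists_node_modTot A q M k B (hab_nuM q M B k hB) hq hA hqM ht)).nodes,
        Θ s ^ p = 1) →
      ∃ (f : ↥(L0 A (M * q))) (y : FN (M * q)) (ψ₁ ψ₂ : F1 A q M),
        ((TlowM A q M B k hB hq hqM hA ht).toSSD (ffHyp_FN q M).principal
          (ffHyp_FN q M).deg_one
          (ffHyp_F1 A q M k B (hab_nuM q M B k hB) hq hA hqM ht).principal
          (ffHyp_F1 A q M k B (hab_nuM q M B k hB) hq hA hqM ht).deg_one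
          (ffHyp_F1 A q M k B (hab_nuM q M B k hB) hq hA hqM ht).deg_one
          (exists_node_modTot A q M k B (hab_nuM q M B k hB) hq hA hqM ht)).c₁.IsGU
            (algebraMap ↥(L0 A (M * q)) (FN (M * q)) f) ∧
        ((TlowM A q M B k hB hq hqM hA ht).toSSD (ffHyp_FN q M).principal
          (ffHyp_FN q M).deg_one
          (ffHyp_F1 A q M k B (hab_nuM q M B k hB) hq hA hqM ht).principal
          (ffHyp_F1 A q M k B (hab_nuM q M B k hB) hq hA hqM ht).deg_one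
          (ffHyp_F1 A q M k B (hab_nuM q M B k hB) hq hA hqM ht).deg_one
          (exists_node_modTot A q M k B (hab_nuM q M B k hB) hq hA hqM ht)).c₂.IsGU
            (algebraMap ↥(L0 A (M * q)) (FN (M * q)) f) ∧
        IsTor ((TlowM A q M B k hB hq hqM hA ht).toSSD (ffHyp_FN q M).principal
          (ffHyp_FN q M).deg_one
          (ffHyp_F1 A q M k B (hab_nuM q M B k hB) hq hA hqM ht).principal
          (ffHyp_F1 A q M k B (hab_nuM q M B k hB) hq hA hqM ht).deg_one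
          (ffHyp_F1 A q M k B (hab_nuM q M B k hB) hq hA hqM ht).deg_one
          (exists_node_modTot A q M k B (hab_nuM q M B k hB) hq hA hqM ht)) n
            (algebraMap ↥(L0 A (M * q)) (FN (M * q)) f * y ^ n) ψ₁ ψ₂ ∧
        ∀ s ∈ ((TlowM A q M B k hB hq hqM hA ht).toSSD (ffHyp_FN q M).principal
          (ffHyp_FN q M).deg_one
          (ffHyp_F1 A q M k B (hab_nuM q M B k hB) hq hA hqM ht).principal
          (ffHyp_F1 A q M k B (hab_nuM q M B k hB) hq hA hqM ht).deg_one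
          (ffHyp_F1 A q M k B (hab_nuM q M B k hB) hq hA hqM ht).deg_one
          (exists_node_modTot A q M k B (hab_nuM q M B k hB) hq hA hqM ht)).nodes,
          ∃ a b : kV A, b ≠ 0 ∧ VanAt s.1 (ψ₁ - algebraMap (kV A) (F1 A q M) a) ∧
            VanAt s.2 (ψ₂ - algebraMap (kV A) (F1 A q M) b) ∧ a = Θ s * b := by
    intro Θ hΘ
    obtain ⟨f, y, ψ₁, ψ₂, hfL, hf₁, hf₂, hT, hval⟩ := hout Θ hΘ
    exact ⟨⟨f, hfL⟩, y, ψ₁, ψ₂, hf₁, hf₂, hT, hval⟩
  exact exists_glueLow_of_out (nuMod A q M B k hB hq hqM hA ht)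
    (TlowM A q M B k hB hq hqM hA ht) (nuMod_T' A q M B k hB hq hqM hA ht)
    (ffHyp_FN q M).principal (ffHyp_FN q M).deg_one
    (ffHyp_F1 A q M k B (hab_nuM q M B k hB) hq hA hqM ht).principal
    (ffHyp_F1 A q M k B (hab_nuM q M B k hB) hq hA hqM ht).deg_one
    (exists_node_modTot A q M k B (hab_nuM q M B k hB) hq hA hqM ht) hnode
    (fun z _ z' _ h => hinj h) hn hout' hgen θ hθ

/-- `zA` is injective. -/
theorem zA_injective : Function.Injective (zA A q M B k hB hq hA) := by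
  intro z z' h
  rw [zA_def, zA_def] at h
  exact (kapM A q M B k hB hq hA).symm.injective h

/-- `zB` is injective. -/
theorem zB_injective : Function.Injective (zB A q M B k hB hq hqM hA) := by
  intro z z' h
  rw [zB_def, zB_def] at h
  exact (betaM A q M hq hqM hA).symm.injective ((kapM A q M B k hB hq hA).symm.injective h)

/-- **Every `θ : ssM → μ_p` is the gluing invariant of some `f ∈ L0 (M q)`, along `α`.** -/
theorem exists_glueLowA_mod {n p : ℕ} (hn : n ≠ 0)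
    (hout : StRankOutAt A q M B k hB hq hqM hA ht p n)
    (hgen : GenLowAt A q M B k hB hq hqM hA ht (zA A q M B k hB hq hA) n)
    (θ : Place (kV A) (FM A M) → kV A)
    (hθ : letI := algkM A M
      ∀ z ∈ (nuMod A q M B k hB hq hqM hA ht).SS, θ z ^ p = 1) :
    letI := algkM A M
    ∃ f : ↥(L0 A (M * q)),
      (nuMod A q M B k hB hq hqM hA ht).T'.p₁.rd
        (algebraMap ↥(L0 A (M * q)) (FN (M * q)) f) ≠ 0 ∧
      (nuMod A q M B k hB hq hqM hA ht).T'.p₂.rd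
        (algebraMap ↥(L0 A (M * q)) (FN (M * q)) f) ≠ 0 ∧
      (∀ Q : Place Kbar (FN (M * q)),
        (n : ℤ) ∣ Q.ord (algebraMap ↥(L0 A (M * q)) (FN (M * q)) f)) ∧
      GlueLow (nuMod A q M B k hB hq hqM hA ht) (zA A q M B k hB hq hA) n f θ := by
  letI := algkM A M
  exact exists_glueLow_mod A q M B k hB hq hqM hA ht _
    (nuMod A q M B k hB hq hqM hA ht).nodeα (zA_injective A q M B k hB hq hA) hn hout hgen θ hθ

/-- **Every `θ : ssM → μ_p` is the gluing invariant of some `f ∈ L0 (M q)`, along `β`.** -/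
theorem exists_glueLowB_mod {n p : ℕ} (hn : n ≠ 0)
    (hout : StRankOutAt A q M B k hB hq hqM hA ht p n)
    (hgen : GenLowAt A q M B k hB hq hqM hA ht (zB A q M B k hB hq hqM hA) n)
    (θ : Place (kV A) (FM A M) → kV A)
    (hθ : letI := algkM A M
      ∀ z ∈ (nuMod A q M B k hB hq hqM hA ht).SS, θ z ^ p = 1) :
    letI := algkM A M
    ∃ f : ↥(L0 A (M * q)),
      (nuMod A q M B k hB hq hqM hA ht).T'.p₁.rd
        (algebraMap ↥(L0 A (M * q)) (FN (M * q)) f) ≠ 0 ∧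
      (nuMod A q M B k hB hq hqM hA ht).T'.p₂.rd
        (algebraMap ↥(L0 A (M * q)) (FN (M * q)) f) ≠ 0 ∧
      (∀ Q : Place Kbar (FN (M * q)),
        (n : ℤ) ∣ Q.ord (algebraMap ↥(L0 A (M * q)) (FN (M * q)) f)) ∧
      GlueLow (nuMod A q M B k hB hq hqM hA ht) (zB A q M B k hB hq hqM hA) n f θ := by
  letI := algkM A M
  exact exists_glueLow_mod A q M B k hB hq hqM hA ht _
    (nuMod A q M B k hB hq hqM hA ht).nodeβ (zB_injective A q M B k hB hq hqM hA) hn hout hgen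
    θ hθ

end Mod

end Fermat.Agent.S59.LL.SQ.H89LG
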