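import Fermat.Agent.S59.LL.SQ.H20_StRankAsm
import Fermat.Agent.S59.LL.SQ.H89_LowGlueMod

/-!
# S59 / LL / SQ, leaf ST-RANK (owner helper20): the output in the form of the consumer

`stRankOutAt_of_leafC` : helper89's `H89LG.StRankOutAt` (the hypothesis of
`H89LG.exists_glueLowA_mod`, `exists_glueLowB_mod`) at the exponent `p ^ e`, `e > δ`, from the
leaf (c) (`H20.LeafC`) for the modular datum `modSSD A q M k B (hab_nuM ..)`.

This file contains no unproved statement.
-/

set_option autoImplicit false
set_option linter.style.haveILetI false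
set_option linter.unusedSectionVars false
set_option linter.unusedVariables false
set_option synthInstance.maxHeartbeats 400000
set_option maxHeartbeats 1000000

noncomputable section

open AlgebraicCurve ModularCurve
open Fermat.Agent.S28.H73 Fermat.Agent.RED.H73 Fermat.Agent.RED Fermat.Agent.S24
open Fermat.Agent.BAD.H88 Fermat.Agent.BAD

namespace Fermat.Agent.S59.LL.SQ.H20

open Fermat.Agent.BAD.H91 Fermat.Agent.S43.H91 Fermat.Agent.S36.NU.H79

section Out

variable (A : ValuationSubring Kbar) (q M : ℕ) (B k : ℤ) (hB : B * M + k * q = 1)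
  (hq : q.Prime) [NeZero M] [NeZero q] [NeZero (M * q)] [NeZero (M * q * q)]
  (hqM : ¬ q ∣ M) (hA : A.LiesOverPrime q) (ht : TameAt M q)

include hB hq hA hqM ht in
/-- **ST-RANK in the form of the consumer** (helper89's `StRankOutAt`), from the leaf (c). -/
theorem stRankOutAt_of_leafC (p : ℕ) (hp : p.Prime) (hp2 : p ≠ 2) (hpq : p ≠ q)
    (hC : LeafC A (M * q) (modSSD A q M k B (hab_nuM q M B k hB) hq hA hqM ht) p)
    (e : ℕ) (he : (modSSD A q M k B (hab_nuM q M B k hB) hq hA hqM ht).nodes.card < e) :
    Fermat.Agent.S59.LL.SQ.H89LG.StRankOutAt A q M B k hB hq hqM hA ht p (p ^ e) :=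
  stRank_of_leafC A q M k B (hab_nuM q M B k hB) hq hA hqM ht p hp hp2 hpq hC e he

end Out

end Fermat.Agent.S59.LL.SQ.H20
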