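import Fermat.Agent.S59.LL.SQ.H20_StRankAsm
import Fermat.Agent.S59.LL.SQ.H20_StRankOut
import Fermat.Agent.S59.LL.SQ.H20_StRankC

/-!
# S59 / LL / SQ, leaf ST-RANK (owner helper20): the final statement

Level `M q`, `q ∤ M` tame, `A` a valuation ring of `ℚ̄` over `q`, `S = S43.H91.modSSD ..`,
`δ` the number of nodes, `p` an odd prime `≠ q`, `e > δ`, `n = p ^ e`:

every vector `θ : nodes → μ_p` is the glue vector of a toric function `f y ^ n` in good position,
`f` inertia-fixed and a unit for the two valuations.

* `stRank` : in the form `H20.StRankOut` (general Bezout data `a q + b M = 1`);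
* `stRankOutAt` : in the form of the consumer, helper89's `H89LG.StRankOutAt`
  (`B M + k q = 1`, datum `modSSD A q M k B (hab_nuM ..)`).

Leaves: (a) helper64, (b) `H20.card_tors_le`, (c) `H20.leafC_mod` (helper64's abstract theorem,
inputs of helpers 56, 69, 83), (d) helper56, (f) helper69, COUNT-F1 helper91, NUM and (g)
helper83, the toric family `H20.exists_glue_of_counts`.

This file contains no unproved statement.
-/

set_option autoImplicit false
set_option linter.style.haveILetI false
set_option linter.unusedSectionVars false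
set_option linter.unusedVariables false
set_option synthInstance.maxHeartbeats 400000
set_option maxHeartbeats 1000000

noncomputable section

open AlgebraicCurve ModularCurve
open Fermat.Agent.S28.H73 Fermat.Agent.RED.H73 Fermat.Agent.RED Fermat.Agent.S24
open Fermat.Agent.BAD.H88 Fermat.Agent.BAD

namespace Fermat.Agent.S59.LL.SQ.H20

open Fermat.Agent.BAD.H91 Fermat.Agent.S43.H91 Fermat.Agent.S36.NU.H79

section Final

variable (A : ValuationSubring Kbar) (q M : ℕ) (a b : ℤ) (hab : a * q + b * M = 1)
  (hq : q.Prime) [NeZero M] [NeZero (M * q)] [NeZero q] (hA : A.LiesOverPrime q)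
  (hqM : ¬ q ∣ M) (ht : TameAt M q)

include hab hq hA hqM ht in
/-- **ST-RANK** at level `M q` (unconditional). -/
theorem stRank (p : ℕ) (hp : p.Prime) (hp2 : p ≠ 2) (hpq : p ≠ q) (e : ℕ)
    (he : (modSSD A q M a b hab hq hA hqM ht).nodes.card < e) :
    StRankOut A q M a b hab hq hA hqM ht p (p ^ e) :=
  stRank_of_leafC A q M a b hab hq hA hqM ht p hp hp2 hpq
    (leafC_mod A q M a b hab hq hA hqM ht p hp hpq) e he

end Final

section FinalAt

variable (A : ValuationSubring Kbar) (q M : ℕ) (B k : ℤ) (hB : B * M + k * q = 1)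
  (hq : q.Prime) [NeZero M] [NeZero q] [NeZero (M * q)] [NeZero (M * q * q)]
  (hqM : ¬ q ∣ M) (hA : A.LiesOverPrime q) (ht : TameAt M q)

include hB hq hA hqM ht in
/-- **ST-RANK** in the form of the consumer (unconditional). -/
theorem stRankOutAt (p : ℕ) (hp : p.Prime) (hp2 : p ≠ 2) (hpq : p ≠ q) (e : ℕ)
    (he : (modSSD A q M k B (hab_nuM q M B k hB) hq hA hqM ht).nodes.card < e) :
    Fermat.Agent.S59.LL.SQ.H89LG.StRankOutAt A q M B k hB hq hqM hA ht p (p ^ e) :=
  stRankOutAt_of_leafC A q M B k hB hq hqM hA ht p hp hp2 hpq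
    (leafC_mod A q M k B (hab_nuM q M B k hB) hq hA hqM ht p hp hpq) e he

end FinalAt

end Fermat.Agent.S59.LL.SQ.H20
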