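import Fermat.Agent.S59.LL.SQ.H56_StRankD
import Fermat.Agent.S36.H61_B0
import Fermat.Agent.S36.NU.H51_ValVecLow
import Fermat.Agent.GTor.H33_CurveQbar
attribute [local instance 10000] SubalgebraClass.toAlgebra
attribute [local instance 10000] HahnSeries.powerSeriesAlgebra

/-!
# S59 / LL / SQ, leaf ST-RANK (d) (helper56): the component map at level `M q`

`A` a valuation ring of `ℚ̄` over the prime `q`, `I = A.inertiaSubgroupIn ℚ`, level `M q`,
`S` a semistable Deuring datum of `F_{M q} · ℚ̄` whose two valuation rings are `V1 A q M` (Gauss)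
and `V2 A q M a b hab hq` (`= V₁ ∘ w_q`) — for instance `S43.H91.modSSD` (`modSSD_c₁_V`,
`modSSD_c₂_V` are `rfl`) —, `L = L0 A (M q)` the inertia-fixed functions, `n > 0`.

* `intScale_mod : IntScale S (L0 A (M q)) q` (helper51's `IsLowVal`, helper82's value group);
* `fixTors A (M q) n` : the inertia-fixed `n`-torsion `V^I` of `J₀(M q)`;
* `inGA_mem_fixTors` : the finite part lies in `V^I`;
* `stRankD` : **ST-RANK (d)**: `#V^I ≤ n · #G`, `G = {x | H69.InGA S L n x}`.

Inputs: `S36.H61.stmt_NUB0` (Hilbert 90), `H56.card_le_of_intScale` (the component map).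
This file contains no unproved statement.
-/

set_option autoImplicit false
set_option linter.style.haveILetI false
set_option linter.unusedSectionVars false
set_option synthInstance.maxHeartbeats 400000
set_option maxHeartbeats 1000000

noncomputable section

open ModularCurve AlgebraicCurve
open Fermat.Agent.S24 Fermat.Agent.BAD.H88 Fermat.Agent.S28 Fermat.Agent.S28.H73
open Fermat.Agent.RED.H73 Fermat.Agent.RED.H17 Fermat.Agent.S36.NU.H88
open Fermat.Agent.S36.NU.H23 Fermat.Agent.BAD Fermat.Agent.S36.NU.H82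
open Fermat.Agent.S36.NU.H51 Fermat.Agent.S59.LL.SQ.H69

attribute [local instance] Classical.propDecidable

namespace Fermat.Agent.S59.LL.SQ.H56

section Fix

variable (A : ValuationSubring Kbar) (N : ℕ)

/-- The inertia-fixed `n`-torsion of `J₀(N)`. -/
def fixTors (n : ℕ) : AddSubgroup (JZero N) where
  carrier := {y | n • y = 0 ∧ ∀ σ ∈ A.inertiaSubgroupIn ℚ, σ • y = y}
  zero_mem' := ⟨smul_zero _, fun σ _ => smul_zero σ⟩
  add_mem' := by
    rintro x y ⟨hx, hx'⟩ ⟨hy, hy'⟩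
    exact ⟨by rw [nsmul_add, hx, hy, add_zero], fun σ hσ => by rw [smul_add, hx' σ hσ, hy' σ hσ]⟩
  neg_mem' := by
    rintro x ⟨hx, hx'⟩
    exact ⟨by rw [neg_nsmul, hx, neg_zero], fun σ hσ => by rw [smul_neg, hx' σ hσ]⟩

theorem mem_fixTors {n : ℕ} {y : JZero N} :
    y ∈ fixTors A N n ↔ n • y = 0 ∧ ∀ σ ∈ A.inertiaSubgroupIn ℚ, σ • y = y := Iff.rfl

end Fix

section Mod

variable (A : ValuationSubring Kbar) (q M : ℕ) (a b : ℤ) (hab : a * q + b * M = 1)
  (hq : q.Prime) [NeZero (M * q)] (hA : A.LiesOverPrime q)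
  {k F₁ F₂ : Type} [Field k] [Field F₁] [Algebra k F₁] [Field F₂] [Algebra k F₂]
  (S : SSD Kbar (FN (M * q)) k F₁ F₂)
  (hV₁ : S.c₁.V = V1 A q M) (hV₂ : S.c₂.V = V2 A q M a b hab hq)

include hq hA hV₁ hV₂ in
/-- **Integral scales** at level `M q`. -/
theorem intScale_mod : IntScale S (L0 A (M * q)) q := by
  have h1 : IsLowVal A (M * q) q (V1 A q M) := isLowVal_V20 A (M * q) q hq hA
  have h2 : IsLowVal A (M * q) q (V2 A q M a b hab hq) := isLowVal_V2 A q M a b hab hq hA
  have e : algebraMap Kbar (FN (M * q)) ((q : ℕ) : Kbar) = ((q : ℕ) : FN (M * q)) :=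
    map_natCast _ q
  have hne : algebraMap Kbar (FN (M * q)) ((q : ℕ) : Kbar) ≠ 0 := by
    rw [e]
    exact Nat.cast_ne_zero.2 hq.ne_zero
  refine intScale_of_val S (L0 A (M * q)) q ?_ ?_ ?_ ?_ hne
  · intro x hx hx0
    rw [hV₁, e]
    exact h1.exact x hx hx0
  · intro x hx hx0
    rw [hV₂, e]
    exact h2.exact x hx hx0
  · rw [hV₁, e]
    exact h1.val_q_lt_one hA
  · rw [hV₂, e]
    exact h2.val_q_lt_one hA

omit [NeZero (M * q)] in
/-- The finite part lies in the inertia-fixed `n`-torsion. -/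
theorem inGA_mem_fixTors {n : ℕ} (hn : 0 < n) {x : JZero (M * q)}
    (h : InGA S (L0 A (M * q)) n x) : x ∈ fixTors A (M * q) n := by
  obtain ⟨f, hfL, hK, h₁, -⟩ := h
  refine ⟨?_, fun σ hσ => ?_⟩
  · have h0 := hK.zsmul_eq_zero h₁.ne_zero
    rwa [natCast_zsmul] at h0
  · rw [galois_smul_pic0_def]
    exact smul_eq_of_isKumA _ hn hK (hfL σ hσ)

include hq hA hV₁ hV₂ in
/-- **ST-RANK (d)**: the inertia-fixed `n`-torsion of `J₀(M q)` has at most `n` times as many
elements as the finite part. -/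
theorem stRankD_fixTors (n : ℕ) (hn : 0 < n) :
    Nat.card (fixTors A (M * q) n)
      ≤ n * Nat.card {x : JZero (M * q) | InGA S (L0 A (M * q)) n x} := by
  have hP : HasPrincipalDivisors Kbar (FN (M * q)) :=
    Fermat.Agent.GTor.H33.hasPrincipalDivisors_FN (M * q)
  have hq0 : ((q : ℕ) : Kbar) ≠ 0 := Nat.cast_ne_zero.2 hq.ne_zero
  refine card_le_of_intScale S hP (L0 A (M * q)) q hq0
    (intScale_mod A q M a b hab hq hA S hV₁ hV₂) ?_ (fixTors A (M * q) n) n hn ?_
    (fun x hx => inGA_mem_fixTors A q M S hn hx)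
  · rw [map_natCast]
    exact natCast_mem _ q
  · intro y hy
    obtain ⟨D, h, h0, hyD, hord, -, hfix, -, -⟩ :=
      Fermat.Agent.S36.H61.stmt_NUB0 (M * q) (A.inertiaSubgroupIn ℚ) n y hy.1 hy.2
    exact ⟨h, fun σ hσ => hfix σ hσ, h0, D, hyD, hord⟩

include hq hA hV₁ hV₂ in
/-- **ST-RANK (d)**, with the sets of the plan: `#V^I ≤ n · #G`. -/
theorem stRankD (n : ℕ) (hn : 0 < n) :
    Nat.card {y : JZero (M * q) | n • y = 0 ∧ ∀ σ ∈ A.inertiaSubgroupIn ℚ, σ • y = y}
      ≤ n * Nat.card {x : JZero (M * q) | InGA S (L0 A (M * q)) n x} :=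
  stRankD_fixTors A q M a b hab hq hA S hV₁ hV₂ n hn

end Mod

end Fermat.Agent.S59.LL.SQ.H56

end
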