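import Fermat.Agent.S59.LL.SQ.H20_StRankCyc
import Fermat.Agent.S59.LL.SQ.H20_StRankFam
import Fermat.Agent.S59.LL.SQ.H56_StRankDMod
import Fermat.Agent.S59.LL.SQ.H69_StRankF
import Fermat.Agent.S59.LL.SQ.H83_NumLe
attribute [local instance 10000] SubalgebraClass.toAlgebra
attribute [local instance 10000] HahnSeries.powerSeriesAlgebra

/-!
# S59 / LL / SQ, leaf ST-RANK (owner helper20): the modular assembly

Level `M q`, `q ∤ M` tame, `A` a valuation ring of `ℚ̄` over `q`, `S = S43.H91.modSSD ..` the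
modular semistable Deuring datum, `L = L0 A (M q)` the inertia-fixed functions, `δ` the number of
nodes, `p` an odd prime `≠ q`, `n = p ^ e`, `e > δ`.

* `StRankOut` : the output of ST-RANK for the exponent `p ^ e`: every vector `θ : nodes → μ_p` is
  the glue vector of a toric function `f y ^ n` in good position, `f ∈ L` a unit for the two
  valuations;
* `stRank_of_leafC` : **ST-RANK**, from (c) `LeafC` (`(σ - 1) J₀(M q)[p ^ e] ⊆ T`):
  (a) helper64, (b) `H20.card_tors_le`, (d) helper56, (f) helper69, COUNT-F1 helper91,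
  NUM and (g) helper83, the toric family `H20.exists_glue_of_counts`.

This file contains no unproved statement.
-/

set_option autoImplicit false
set_option linter.style.haveILetI false
set_option linter.unusedSectionVars false
set_option linter.unusedVariables false
set_option synthInstance.maxHeartbeats 400000
set_option maxHeartbeats 1000000

noncomputable section

open HahnSeries IntermediateField AlgebraicCurve ModularCurve
open Fermat.Agent.S28.H73 Fermat.Agent.RED.H73 Fermat.Agent.RED Fermat.Agent.S24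
open Fermat.Agent.BAD.H88 Fermat.Agent.BAD

namespace Fermat.Agent.S59.LL.SQ.H20

open Fermat.Agent.BAD.H91 Fermat.Agent.S43.H91 Fermat.Agent.S35.H89
open Fermat.Agent.RED.H17 Fermat.Agent.S36.NU.H23 Fermat.Agent.S59.LL.SQ.H69
open Fermat.Agent.S15.Desc.H83

section Mod

variable (A : ValuationSubring Kbar) (q M : ℕ) (a b : ℤ) (hab : a * q + b * M = 1)
  (hq : q.Prime) [NeZero M] [NeZero (M * q)] [NeZero q] (hA : A.LiesOverPrime q)
  (hqM : ¬ q ∣ M) (ht : TameAt M q)

/-- **The output of ST-RANK** at the exponent `n`: every vector `θ : nodes → μ_p` is the glue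
vector of a toric function `f y ^ n` in good position, `f` inertia-fixed and a unit for the two
valuations. -/
def StRankOut (p n : ℕ) : Prop :=
  ∀ θ : Place (kV A) (F1 A q M) × Place (kV A) (F1 A q M) → kV A,
    (∀ s ∈ (modSSD A q M a b hab hq hA hqM ht).nodes, θ s ^ p = 1) →
    ∃ (f y : FN (M * q)) (ψ₁ ψ₂ : F1 A q M), f ∈ L0 A (M * q) ∧
      (modSSD A q M a b hab hq hA hqM ht).c₁.IsGU f ∧
      (modSSD A q M a b hab hq hA hqM ht).c₂.IsGU f ∧
      IsTor (modSSD A q M a b hab hq hA hqM ht) n (f * y ^ n) ψ₁ ψ₂ ∧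
      ∀ s ∈ (modSSD A q M a b hab hq hA hqM ht).nodes, ∃ u v : kV A, v ≠ 0 ∧
        VanAt s.1 (ψ₁ - algebraMap (kV A) (F1 A q M) u) ∧
        VanAt s.2 (ψ₂ - algebraMap (kV A) (F1 A q M) v) ∧ u = θ s * v

/-- The `n`-torsion classes, as a set and as a subgroup. -/
theorem card_torsSet_eq (N n : ℕ) [NeZero N] :
    Nat.card ↥(torsSet N n) = Nat.card ↥(Pic0.torsion Kbar (FN N) n) := by
  apply Nat.card_congr
  refine Equiv.subtypeEquivRight (fun x => ?_)
  rw [Pic0.mem_torsion, natCast_zsmul]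
  rfl

include hab hq hA hqM ht in
/-- **ST-RANK** at level `M q` from the leaf (c). -/
theorem stRank_of_leafC (p : ℕ) (hp : p.Prime) (hp2 : p ≠ 2) (hpq : p ≠ q)
    (hC : LeafC A (M * q) (modSSD A q M a b hab hq hA hqM ht) p)
    (e : ℕ) (he : (modSSD A q M a b hab hq hA hqM ht).nodes.card < e) :
    StRankOut A q M a b hab hq hA hqM ht p (p ^ e) := by
  intro θ hθ
  haveI : IsAlgClosed (kV A) := isAlgClosed_kV A
  haveI : CharP (kV A) q := Fermat.Agent.FL.H38.charP_residue A hq hA
  obtain ⟨g, g₁, c, c₁, hg, hg₁, -, -, hnum⟩ :=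
    Fermat.Agent.S59.LL.SQ.H83.modSSD_exact A q M a b hab hq hA hqM ht
  have hpk : (p : kV A) ≠ 0 := by
    intro h0
    have h1 : q ∣ p := (CharP.cast_eq_zero_iff (kV A) q p).mp h0
    exact hpq ((Nat.prime_dvd_prime_iff_eq hq hp).mp h1).symm
  have hpos : 0 < p ^ e := pow_pos hp.pos e
  have hA1 := Fermat.Agent.S59.LL.SQ.H64.stmt_StRankA (M * q) g c hg p hp e
  have hB := card_tors_le (A := A) (N := M * q) (S := modSSD A q M a b hab hq hA hqM ht)
    hp hq (Ne.symm hpq) hA hC e
  rw [card_torsSet_eq, hA1] at hB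
  have hD := Fermat.Agent.S59.LL.SQ.H56.stRankD A q M a b hab hq hA
    (modSSD A q M a b hab hq hA hqM ht) rfl rfl (p ^ e) hpos
  have hF := Fermat.Agent.S59.LL.SQ.H69.stRankF_weak A q M a b hab hq hA hqM ht p hp hp2 hpq
    hg₁ e
  have e4 : p ^ (4 * g₁ * e) = p ^ (2 * g₁ * e) * p ^ (2 * g₁ * e) := by
    rw [← _root_.pow_add]
    congr 1
    ring
  rw [e4] at hF
  exact exists_glue_of_counts (modSSD A q M a b hab hq hA hqM ht)
    (Fermat.Agent.S43.H91.ffHyp_FN q M) (Fermat.Agent.S43.H91.ffHyp_F1 A q M a b hab hq hA hqM ht)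
    (Fermat.Agent.S43.H91.ffHyp_F1 A q M a b hab hq hA hqM ht) g g₁ g₁ c c₁ c₁ hg hg₁ hg₁ hnum
    p e hp hpk he (L0 A (M * q))
    (finite_inTA (A := A) (S := modSSD A q M a b hab hq hA hqM ht) hpos)
    (Nat.card ↥(fixSet A (M * q) (p ^ e)))
    (Nat.card ↥{x : JZero (M * q) | InGA (modSSD A q M a b hab hq hA hqM ht) (L0 A (M * q))
      (p ^ e) x})
    hB hD hF θ hθ

end Mod

end Fermat.Agent.S59.LL.SQ.H20
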