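import Fermat.Agent.S59.LL.SQ.H69_StRankFAbs
import Fermat.Agent.S59.LL.SQ.H83_NumLe
import Fermat.Agent.S59.LL.SQ.H64_StRankA
import Fermat.Agent.S36.NU.H23_L0
import Fermat.Agent.S15.Desc.H97_TameCyc
import Fermat.Agent.S15.Desc.H87_Leaves
import Fermat.Agent.BAD.H91_B0

/-!
# S59 / LL / SQ, leaf ST-RANK (owner helper20): inertia, TAME-CYC and the first count

Level `N`, `A` a valuation ring of `ℚ̄` over `q`, `I` its inertia group, `L = L0 A N` the functions
fixed by `I`, `S` any semistable Deuring datum for `F_N · ℚ̄`, `n = p ^ e`, `p ≠ q`.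
`G = {x | InGA S L n x}`, `T = {x | InTA S L n x}` (helper69, `H69_StRankFAbs.lean`).

* `smul_eq_of_isKumA` : a class with a Kummer function in `L` is fixed by `I`;
* `LeafC`             : **(c)** `(σ - 1) J₀(N)[p ^ e] ⊆ T` for `σ ∈ I`, all `e`;
* `unip_of_leafC`     : inertia is unipotent of level two on the `p`-power torsion;
* `cyc_of_leafC`      : **TAME-CYC**: `I` acts on `J₀(N)[p ^ e]` through a cyclic group;
* `card_tors_le`      : `#J₀(N)[n] ≤ #T · #J₀(N)[n]^I`.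
-/

set_option autoImplicit false
set_option linter.style.haveILetI false
set_option linter.unusedSectionVars false
set_option linter.unusedVariables false
set_option synthInstance.maxHeartbeats 400000
set_option maxHeartbeats 1000000

noncomputable section

open AlgebraicCurve ModularCurve
open Fermat.Agent.S28.H73 Fermat.Agent.RED.H73 Fermat.Agent.RED Fermat.Agent.S24
open Fermat.Agent.BAD.H88 Fermat.Agent.BAD

namespace Fermat.Agent.S59.LL.SQ.H20

open Fermat.Agent.RED.H17 Fermat.Agent.S36.NU.H23 Fermat.Agent.S59.LL.SQ.H69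
open Fermat.Agent.BAD.H91

section Fix

variable (A : ValuationSubring Kbar) (N : ℕ) [NeZero N]

/-- A function of `L₀` is fixed by the inertia group. -/
theorem galF_smul_of_mem_L0 {σ : GalQ} (hσ : σ ∈ A.inertiaSubgroupIn ℚ) {f : FN N}
    (hf : f ∈ L0 A N) : galF N σ • f = f := hf σ hσ

/-- A class with a Kummer function in `L₀` is fixed by the inertia group. -/
theorem smul_eq_of_isKumA {n : ℕ} (hn : n ≠ 0) {x : JZero N} {f : FN N} (hf : f ∈ L0 A N)
    (hK : IsKumA n x f) {σ : GalQ} (hσ : σ ∈ A.inertiaSubgroupIn ℚ) : σ • x = x := by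
  obtain ⟨D, rfl, hD⟩ := hK
  have hnZ : (n : ℤ) ≠ 0 := by exact_mod_cast hn
  have e1 : σ • (Pic0.mk D : JZero N) = Pic0.mk (SemilinearAut.degZeroSMulHom (galF N σ) D) := rfl
  rw [e1]
  congr 1
  apply Subtype.ext
  rw [SemilinearAut.coe_degZeroSMulHom]
  ext P
  rw [SemilinearAut.divisor_smul_apply]
  apply mul_left_cancel₀ hnZ
  rw [hD, hD, ← ord_galF_smul, galF_smul_of_mem_L0 A N hσ hf]

variable {K₁ F₁ F₂ : Type*} [Field K₁] [Field F₁] [Algebra K₁ F₁] [Field F₂] [Algebra K₁ F₂]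
  (S : SSD Kbar (FN N) K₁ F₁ F₂)

/-- The classes of the finite part are fixed by the inertia group. -/
theorem smul_eq_of_inGA {n : ℕ} (hn : n ≠ 0) {x : JZero N} (hx : InGA S (L0 A N) n x)
    {σ : GalQ} (hσ : σ ∈ A.inertiaSubgroupIn ℚ) : σ • x = x := by
  obtain ⟨f, hfL, hK, -, -⟩ := hx
  exact smul_eq_of_isKumA A N hn hfL hK hσ

/-- **(c)**: `(σ - 1) J₀(N)[p ^ e]` lies in the toric part, for `σ` in the inertia group. -/
def LeafC (p : ℕ) : Prop :=
  ∀ e : ℕ, ∀ σ ∈ A.inertiaSubgroupIn ℚ, ∀ y : JZero N, p ^ e • y = 0 →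
    InTA S (L0 A N) (p ^ e) (σ • y - y)

variable {A N S}

/-- Inertia is unipotent of level two on the `p`-power torsion. -/
theorem unip_of_leafC {p : ℕ} (hp : p.Prime) (hC : LeafC A N S p) :
    ∀ σ ∈ A.inertiaSubgroupIn ℚ, ∀ τ ∈ A.inertiaSubgroupIn ℚ,
      ∀ x : JZero N, (∃ n : ℕ, p ^ n • x = 0) → σ • τ • x - σ • x - τ • x + x = 0 := by
  intro σ hσ τ hτ x ⟨e, hx⟩
  have h1 := hC e τ hτ x hx
  have h2 := smul_eq_of_inGA A N S (pow_ne_zero e hp.ne_zero) h1.inGA hσ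
  rw [smul_sub] at h2
  have h3 : σ • τ • x - σ • x - τ • x + x = (σ • τ • x - σ • x) - (τ • x - x) := by abel
  rw [h3, h2, sub_self]

/-- **TAME-CYC**: the inertia group acts on `J₀(N)[p ^ e]` through a cyclic group. -/
theorem cyc_of_leafC {p q : ℕ} (hp : p.Prime) (hq : q.Prime) (hqp : q ≠ p)
    (hA : A.LiesOverPrime q) (hC : LeafC A N S p) (e : ℕ) :
    ∃ σ₀ ∈ A.inertiaSubgroupIn ℚ, ∀ σ ∈ A.inertiaSubgroupIn ℚ, ∃ j : ℕ,
      ∀ u : JZero N, p ^ e • u = 0 → σ • u = σ₀ ^ j • u :=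
  Fermat.Agent.S15.Desc.H97.tame_cyc q p hq hp hqp A hA
    (Fermat.Agent.S15.Desc.H87.stmt_FIN N) (Fermat.Agent.S15.Desc.H87.stmt_GALfin N)
    (unip_of_leafC hp hC) e

/-- The `n`-torsion classes. -/
def torsSet (N n : ℕ) [NeZero N] : Set (JZero N) := {y | n • y = 0}

/-- The `n`-torsion classes fixed by the inertia group of `A`. -/
def fixSet (A : ValuationSubring Kbar) (N n : ℕ) [NeZero N] : Set (JZero N) :=
  {y | n • y = 0 ∧ ∀ σ ∈ A.inertiaSubgroupIn ℚ, σ • y = y}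

theorem finite_torsSet (N : ℕ) [NeZero N] {n : ℕ} (hn : 0 < n) : (torsSet N n).Finite :=
  Fermat.Agent.S15.Desc.H87.finite_tors N hn

theorem finite_fixSet (A : ValuationSubring Kbar) (N : ℕ) [NeZero N] {n : ℕ} (hn : 0 < n) :
    (fixSet A N n).Finite :=
  (finite_torsSet N hn).subset fun y hy => hy.1

theorem finite_inGA {n : ℕ} (hn : 0 < n) : {x : JZero N | InGA S (L0 A N) n x}.Finite :=
  (finite_torsSet N hn).subset fun x hx => by
    have h := InGA.mem_torsion hx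
    rw [Pic0.mem_torsion, natCast_zsmul] at h
    exact h

theorem finite_inTA {n : ℕ} (hn : 0 < n) : {x : JZero N | InTA S (L0 A N) n x}.Finite :=
  (finite_inGA (A := A) (S := S) hn).subset fun x hx => hx.inGA

/-- **The first count**: `#J₀(N)[n] ≤ #T · #J₀(N)[n]^I`, `n = p ^ e`. -/
theorem card_tors_le {p q : ℕ} (hp : p.Prime) (hq : q.Prime) (hqp : q ≠ p)
    (hA : A.LiesOverPrime q) (hC : LeafC A N S p) (e : ℕ) :
    Nat.card ↥(torsSet N (p ^ e)) ≤
      Nat.card ↥{x : JZero N | InTA S (L0 A N) (p ^ e) x} * Nat.card ↥(fixSet A N (p ^ e)) := by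
  obtain ⟨σ₀, hσ₀, hcyc⟩ := cyc_of_leafC hp hq hqp hA hC e
  have hpos : 0 < p ^ e := pow_pos hp.pos e
  haveI : Finite ↥{x : JZero N | InTA S (L0 A N) (p ^ e) x} :=
    (finite_inTA (A := A) (S := S) hpos)
  refine card_le_of_fibres (torsSet N (p ^ e)) (fixSet A N (p ^ e)) (finite_fixSet A N hpos)
    (fun y => (⟨σ₀ • (y : JZero N) - (y : JZero N), hC e σ₀ hσ₀ _ y.2⟩ :
      ↥{x : JZero N | InTA S (L0 A N) (p ^ e) x})) ?_
  intro x y hxy
  have h1 : σ₀ • (x : JZero N) - (x : JZero N) = σ₀ • (y : JZero N) - (y : JZero N) :=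
    congrArg Subtype.val hxy
  have hx : p ^ e • (x : JZero N) = 0 := x.2
  have hy : p ^ e • (y : JZero N) = 0 := y.2
  have hz : p ^ e • ((x : JZero N) - (y : JZero N)) = 0 := by rw [nsmul_sub, hx, hy, sub_self]
  have hfix : σ₀ • ((x : JZero N) - (y : JZero N)) = (x : JZero N) - (y : JZero N) := by
    rw [smul_sub]
    have h2 : σ₀ • (x : JZero N) - σ₀ • (y : JZero N)
        = (σ₀ • (x : JZero N) - (x : JZero N)) - (σ₀ • (y : JZero N) - (y : JZero N))
          + ((x : JZero N) - (y : JZero N)) := by abel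
    rw [h2, h1, sub_self, zero_add]
  refine ⟨hz, fun σ hσ => ?_⟩
  obtain ⟨j, hj⟩ := hcyc σ hσ
  rw [hj _ hz]
  clear hj
  induction j with
  | zero => rw [pow_zero, one_smul]
  | succ j ih => rw [pow_succ, mul_smul, hfix, ih]

end Fix

end Fermat.Agent.S59.LL.SQ.H20
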