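/-
S59 / LL / SQ, leaf SQ-FIX (helper32).

For a semistable integral Weierstrass curve `W`, primes `q ≠ p` and a place `A` of `Q̄` over `q`:
the `p`-torsion `E[p](Q̄)` contains a nonzero point fixed by the whole inertia group `I_A`.

Route: `S52.H5.unip_torsionBy` (`(σ - 1)² = 0` on `E[p]` for `σ ∈ I_A`) gives `σ^p = 1` on `E[p]`,
so the image of `I_A` in `Perm (E[p])` is a `p`-group acting on a set of cardinality `p²`; the
fixed point `0` has a companion.
-/
import Fermat.Agent.S52.H5_Unip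
import Fermat.Agent.Lib.EllFinite.H46_Finrank
import Fermat.Prelude.Def_FLTPrelim_Modularity
import Mathlib.GroupTheory.PGroup

set_option autoImplicit false

namespace Fermat.Agent.S59.LL.SQ.H32

open WeierstrassCurve WeierstrassCurve.Affine WeierstrassCurve.Affine.Point
open Fermat.Agent.S52.H5 (Qb EQ)

/-- Abstract core: a group acting additively on a finite abelian group `V` killed by `p`, of
cardinality divisible by `p`, such that every element of a subgroup `I` satisfies `(σ - 1)² = 0`,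
has a nonzero `I`-fixed vector. -/
theorem exists_fixed_of_unip {Γ V : Type*} [Group Γ] [AddCommGroup V] [DistribMulAction Γ V]
    [Finite V] (p : ℕ) [Fact p.Prime] (hpV : ∀ v : V, p • v = 0) (hcard : p ∣ Nat.card V)
    (I : Subgroup Γ) (hunip : ∀ σ ∈ I, ∀ v : V, σ • (σ • v - v) = σ • v - v) :
    ∃ x : V, x ≠ 0 ∧ ∀ σ ∈ I, σ • x = x := by
  classical
  -- powers of a unipotent element
  have hpow : ∀ σ ∈ I, ∀ (k : ℕ) (v : V), σ ^ k • v = v + k • (σ • v - v) := by
    intro σ hσ k v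
    induction k with
    | zero => simp
    | succ k ih =>
      rw [pow_succ', mul_smul, ih, smul_add, smul_comm σ k, hunip σ hσ v, succ_nsmul]
      abel
  have hp_triv : ∀ σ ∈ I, ∀ v : V, σ ^ p • v = v := by
    intro σ hσ v
    rw [hpow σ hσ p v, hpV, add_zero]
  -- the image of `I` in the permutation group of `V`
  let φ : I →* Equiv.Perm V := MulAction.toPermHom I V
  let G : Subgroup (Equiv.Perm V) := φ.range
  have hG : IsPGroup p G := by
    rintro ⟨g, σ, rfl⟩
    refine ⟨1, ?_⟩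
    apply Subtype.ext
    rw [pow_one]
    show (φ σ) ^ p = 1
    rw [← map_pow]
    ext v
    show (σ ^ p) • v = v
    exact hp_triv σ.1 σ.2 v
  have h0 : (0 : V) ∈ MulAction.fixedPoints G V := by
    rintro ⟨g, σ, rfl⟩
    show (σ : Γ) • (0 : V) = 0
    exact smul_zero _
  obtain ⟨b, hb, hne⟩ := hG.exists_fixed_point_of_prime_dvd_card_of_fixed_point V hcard h0
  refine ⟨b, fun h => hne h.symm, fun σ hσ => ?_⟩
  exact hb ⟨φ ⟨σ, hσ⟩, ⟨σ, hσ⟩, rfl⟩

/-- **SQ-FIX**: for a semistable integral Weierstrass curve, `q ≠ p` primes and a place `A` of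
`Q̄` over `q`, some nonzero point of `E[p](Q̄)` is fixed by the inertia group `I_A`. -/
theorem sqFix (W : WeierstrassCurve ℤ) (hΔ : W.Δ ≠ 0) (hW : W.IsSemistableModel)
    (p q : ℕ) (hp : p.Prime) (hq : q.Prime) (hqp : q ≠ p)
    (A : ValuationSubring Qb) (hA : A.LiesOverPrime q) :
    ∃ x : Submodule.torsionBy ℤ (EQ W).Point (p : ℤ), x ≠ 0 ∧
      ∀ σ ∈ A.inertiaSubgroupIn ℚ, σ • x = x := by
  have : Fact p.Prime := ⟨hp⟩
  have hqp' : ¬ q ∣ p := fun h => hqp ((Nat.prime_dvd_prime_iff_eq hq hp).1 h)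
  have hΔ' : (EQ W).Δ ≠ 0 := by
    rw [Fermat.Agent.S52.H5.EQ_Δ]; exact_mod_cast hΔ
  have hpK : ((p : ℕ) : Qb) ≠ 0 := by exact_mod_cast hp.ne_zero
  have hcard : Nat.card (Submodule.torsionBy ℤ (EQ W).Point (p : ℤ)) = p ^ 2 :=
    Fermat.Agent.Lib.EllFinite.H46.natCard_torsionBy (K := Qb)
      (W.map (Int.castRingHom ℚ)).toAffine hΔ' hpK
  have : Finite (Submodule.torsionBy ℤ (EQ W).Point (p : ℤ)) :=
    Fermat.Agent.Lib.EllFinite.H46.finite_torsionBy (K := Qb)
      (W.map (Int.castRingHom ℚ)).toAffine hΔ' hpK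
  refine exists_fixed_of_unip (Γ := Qb ≃ₐ[ℚ] Qb) p ?_ ?_ (A.inertiaSubgroupIn ℚ) ?_
  · intro v
    apply Subtype.ext
    have hv := v.2
    rw [Submodule.mem_torsionBy_iff] at hv
    rw [Submodule.coe_smul_of_tower, ← natCast_zsmul]
    simp [hv]
  · rw [hcard]; exact dvd_pow_self p two_ne_zero
  · intro σ hσ v
    exact Fermat.Agent.S52.H5.unip_torsionBy W q p A hΔ (hW q hq) hq hqp' hA σ hσ v

end Fermat.Agent.S59.LL.SQ.H32
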