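import Fermat.Agent.S36.NU.H16_ValVec

/-!
# S59 / LL / SQ, leaf (E) COMP-EIS at `q²` (helper33): the abstract valuation-vector argument

`L` a field with three discrete valuations `V₁`, `V₂`, `V₃` (uniformisers `Q`, `π`, `Q`,
`v₂ Q = v₂ π ^ e`), `T : L →* L` (the Hecke operator on functions) which preserves the units of
each `V_i` and has `T Q = Q ^ n`.

* `nv_one` : `v (T x) = v ϖ ^ (n a)` if `v x = v ϖ ^ a`;
* `nv_congr` : if `T f = c f ^ t₀ g ^ p` then `(n - t₀) a = e m + p b`;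
* `unit3_of_eigen` : if moreover `n - t₀` is invertible modulo `p`, then `f Q ^ m' G ^ p` is a
  unit for the three valuations, for some `m'` and `G ≠ 0`.
-/

set_option autoImplicit false

namespace Fermat.Agent.S59.LL.SQ.H33

open Fermat.Agent.S36.NU.H16

section One

variable {L : Type*} [Field L] (V : ValuationSubring L) (ϖ Q : L) (e : ℕ)

/-- NORM-VAL for one valuation, from the preservation of units. -/
theorem nv_one (he : 0 < e) (hϖ0 : ϖ ≠ 0) (hϖ : V.valuation ϖ < 1)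
    (hex : ∀ x : L, x ≠ 0 → ∃ m : ℤ, V.valuation x = V.valuation ϖ ^ m)
    (hQ : V.valuation Q = V.valuation ϖ ^ e)
    (T : L →* L) (n : ℕ) (hTQ : T Q = Q ^ n)
    (hTu : ∀ u : L, V.valuation u = 1 → V.valuation (T u) = 1)
    (x : L) (hx : x ≠ 0) (a : ℤ) (ha : V.valuation x = V.valuation ϖ ^ a) :
    V.valuation (T x) = V.valuation ϖ ^ ((n : ℤ) * a) := by
  have hw0 : V.valuation ϖ ≠ 0 := (Valuation.ne_zero_iff _).2 hϖ0
  have hinj : Function.Injective fun m : ℤ => V.valuation ϖ ^ m :=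
    zpow_right_injective₀ (zero_lt_iff.2 hw0) hϖ.ne
  have hQ0 : Q ≠ 0 := by
    intro h0
    rw [h0, map_zero] at hQ
    exact pow_ne_zero _ hw0 hQ.symm
  have hTx0 : T x ≠ 0 := by
    intro h0
    have h1 : T x * T x⁻¹ = 1 := by rw [← map_mul, mul_inv_cancel₀ hx, map_one]
    rw [h0, zero_mul] at h1
    exact zero_ne_one h1
  -- the unit `u = x ^ e Q ^ (-a)`
  have hu : V.valuation (x ^ e * Q ^ (-a)) = 1 := by
    rw [map_mul, map_pow, map_zpow₀, ha, hQ, ← zpow_natCast (V.valuation ϖ ^ a) e,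
      ← zpow_natCast (V.valuation ϖ) e, ← zpow_mul, ← zpow_mul, ← zpow_add₀ hw0]
    have : a * (e : ℤ) + (e : ℤ) * -a = 0 := by ring
    rw [this, zpow_zero]
  have hTu' := hTu _ hu
  rw [map_mul, map_pow, monoidHom_zpow T Q hQ0, hTQ, map_mul, map_pow, map_zpow₀, map_pow,
    hQ] at hTu'
  obtain ⟨a', ha'⟩ := hex (T x) hTx0
  rw [ha', ← zpow_natCast (V.valuation ϖ ^ a') e, ← zpow_natCast (V.valuation ϖ) e,
    ← zpow_natCast (V.valuation ϖ ^ (e : ℤ)) n, ← zpow_mul, ← zpow_mul, ← zpow_mul,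
    ← zpow_add₀ hw0] at hTu'
  have h0 : a' * (e : ℤ) + (e : ℤ) * ((n : ℤ) * -a) = 0 :=
    hinj (hTu'.trans (zpow_zero _).symm)
  have he0 : (e : ℤ) ≠ 0 := by exact_mod_cast he.ne'
  have h1 : a' = (n : ℤ) * a := by
    have h2 : (e : ℤ) * (a' - (n : ℤ) * a) = 0 := by linear_combination h0
    rcases mul_eq_zero.1 h2 with h3 | h3
    · exact absurd h3 he0
    · linarith
  rw [ha', h1]

/-- The congruence for one valuation. -/
theorem nv_congr (he : 0 < e) (hϖ0 : ϖ ≠ 0) (hϖ : V.valuation ϖ < 1)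
    (hex : ∀ x : L, x ≠ 0 → ∃ m : ℤ, V.valuation x = V.valuation ϖ ^ m)
    (hQ : V.valuation Q = V.valuation ϖ ^ e)
    (T : L →* L) (n : ℕ) (hTQ : T Q = Q ^ n)
    (hTu : ∀ u : L, V.valuation u = 1 → V.valuation (T u) = 1)
    (f g c : L) (hf : f ≠ 0) (hg : g ≠ 0) (t₀ p : ℕ)
    (hrel : T f = c * f ^ t₀ * g ^ p) (m : ℤ) (hcm : V.valuation c = V.valuation Q ^ m)
    (a : ℤ) (ha : V.valuation f = V.valuation ϖ ^ a) :
    ∃ b : ℤ, ((n : ℤ) - t₀) * a = e * m + p * b := by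
  have hw0 : V.valuation ϖ ≠ 0 := (Valuation.ne_zero_iff _).2 hϖ0
  have hinj : Function.Injective fun m : ℤ => V.valuation ϖ ^ m :=
    zpow_right_injective₀ (zero_lt_iff.2 hw0) hϖ.ne
  obtain ⟨b, hb⟩ := hex g hg
  refine ⟨b, ?_⟩
  have h1 := nv_one V ϖ Q e he hϖ0 hϖ hex hQ T n hTQ hTu f hf a ha
  rw [hrel, map_mul, map_mul, map_pow, map_pow, hcm, ha, hb, hQ,
    ← zpow_natCast (V.valuation ϖ) e, ← zpow_natCast (V.valuation ϖ ^ a) t₀,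
    ← zpow_natCast (V.valuation ϖ ^ b) p, ← zpow_mul, ← zpow_mul, ← zpow_mul,
    ← zpow_add₀ hw0, ← zpow_add₀ hw0] at h1
  have h2 : (e : ℤ) * m + a * (t₀ : ℤ) + b * (p : ℤ) = (n : ℤ) * a := hinj h1
  linear_combination -h2

end One

section Three

variable {L : Type*} [Field L] (V₁ V₂ V₃ : ValuationSubring L) (Q π t₂ t₃ : L) (e : ℕ)

/-- **The valuation-vector argument.**  If `T f = c f ^ t₀ g ^ p` with a constant `c` and
`n - t₀` invertible modulo `p`, then `f Q ^ m' G ^ p` is a unit for the three valuations. -/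
theorem unit3_of_eigen (he : 0 < e) (hQ0 : Q ≠ 0) (hπ0 : π ≠ 0)
    (hQ₁ : V₁.valuation Q < 1) (hπ₂ : V₂.valuation π < 1) (hQ₃ : V₃.valuation Q < 1)
    (hex₁ : ∀ x : L, x ≠ 0 → ∃ m : ℤ, V₁.valuation x = V₁.valuation Q ^ m)
    (hex₂ : ∀ x : L, x ≠ 0 → ∃ m : ℤ, V₂.valuation x = V₂.valuation π ^ m)
    (hex₃ : ∀ x : L, x ≠ 0 → ∃ m : ℤ, V₃.valuation x = V₃.valuation Q ^ m)
    (hram : V₂.valuation Q = V₂.valuation π ^ e)
    (ht₂ : V₁.valuation t₂ = 1 ∧ V₂.valuation t₂ = V₂.valuation π ∧ V₃.valuation t₂ = 1)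
    (ht₃ : V₁.valuation t₃ = 1 ∧ V₂.valuation t₃ = 1 ∧ V₃.valuation t₃ = V₃.valuation Q)
    (T : L →* L) (n : ℕ) (hTQ : T Q = Q ^ n)
    (hTu₁ : ∀ u : L, V₁.valuation u = 1 → V₁.valuation (T u) = 1)
    (hTu₂ : ∀ u : L, V₂.valuation u = 1 → V₂.valuation (T u) = 1)
    (hTu₃ : ∀ u : L, V₃.valuation u = 1 → V₃.valuation (T u) = 1)
    (f g c : L) (hf : f ≠ 0) (hg : g ≠ 0) (t₀ p : ℕ)
    (hrel : T f = c * f ^ t₀ * g ^ p) (m : ℤ)
    (hc₁ : V₁.valuation c = V₁.valuation Q ^ m) (hc₂ : V₂.valuation c = V₂.valuation Q ^ m)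
    (hc₃ : V₃.valuation c = V₃.valuation Q ^ m)
    (s' r : ℤ) (hs : ((n : ℤ) - t₀) * s' = 1 + p * r) :
    ∃ (m' : ℤ) (G : L), G ≠ 0 ∧ V₁.valuation (f * Q ^ m' * G ^ p) = 1 ∧
      V₂.valuation (f * Q ^ m' * G ^ p) = 1 ∧ V₃.valuation (f * Q ^ m' * G ^ p) = 1 := by
  have hw₁ : V₁.valuation Q ≠ 0 := (Valuation.ne_zero_iff _).2 hQ0
  have hw₂ : V₂.valuation π ≠ 0 := (Valuation.ne_zero_iff _).2 hπ0
  have hw₃ : V₃.valuation Q ≠ 0 := (Valuation.ne_zero_iff _).2 hQ0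
  have ht₂0 : t₂ ≠ 0 := by
    intro h0
    have := ht₂.1
    rw [h0, map_zero] at this
    exact zero_ne_one this
  have ht₃0 : t₃ ≠ 0 := by
    intro h0
    have := ht₃.1
    rw [h0, map_zero] at this
    exact zero_ne_one this
  obtain ⟨a₁, ha₁⟩ := hex₁ f hf
  obtain ⟨a₂, ha₂⟩ := hex₂ f hf
  obtain ⟨a₃, ha₃⟩ := hex₃ f hf
  obtain ⟨b₁, hb₁⟩ := nv_congr V₁ Q Q 1 one_pos hQ0 hQ₁ hex₁ (pow_one _).symm T n hTQ hTu₁
    f g c hf hg t₀ p hrel m hc₁ a₁ ha₁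
  obtain ⟨b₂, hb₂⟩ := nv_congr V₂ π Q e he hπ0 hπ₂ hex₂ hram T n hTQ hTu₂
    f g c hf hg t₀ p hrel m hc₂ a₂ ha₂
  obtain ⟨b₃, hb₃⟩ := nv_congr V₃ Q Q 1 one_pos hQ0 hQ₃ hex₃ (pow_one _).symm T n hTQ hTu₃
    f g c hf hg t₀ p hrel m hc₃ a₃ ha₃
  -- `a_i = e_i m' + p c_i`
  set m' : ℤ := s' * m with hm'
  set c₁ : ℤ := s' * b₁ - r * a₁ with hc₁'
  set c₂ : ℤ := s' * b₂ - r * a₂ with hc₂'
  set c₃ : ℤ := s' * b₃ - r * a₃ with hc₃'
  have e₁ : a₁ = m' + p * c₁ := by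
    rw [hm', hc₁']
    linear_combination s' * hb₁ - a₁ * hs
  have e₂ : a₂ = e * m' + p * c₂ := by
    rw [hm', hc₂']
    linear_combination s' * hb₂ - a₂ * hs
  have e₃ : a₃ = m' + p * c₃ := by
    rw [hm', hc₃']
    linear_combination s' * hb₃ - a₃ * hs
  set G : L := Q ^ (-c₁) * t₂ ^ (-(c₂ - e * c₁)) * t₃ ^ (-(c₃ - c₁)) with hG
  have hG0 : G ≠ 0 :=
    mul_ne_zero (mul_ne_zero (zpow_ne_zero _ hQ0) (zpow_ne_zero _ ht₂0)) (zpow_ne_zero _ ht₃0)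
  have hG₁ : V₁.valuation G = V₁.valuation Q ^ (-c₁) := by
    rw [hG, map_mul, map_mul, map_zpow₀, map_zpow₀, map_zpow₀, ht₂.1, ht₃.1, one_zpow,
      one_zpow, mul_one, mul_one]
  have hG₂ : V₂.valuation G = V₂.valuation π ^ (-c₂) := by
    rw [hG, map_mul, map_mul, map_zpow₀, map_zpow₀, map_zpow₀, ht₂.2.1, ht₃.2.1, one_zpow,
      mul_one, hram, ← zpow_natCast (V₂.valuation π) e, ← zpow_mul, ← zpow_add₀ hw₂]
    congr 1
    ring
  have hG₃ : V₃.valuation G = V₃.valuation Q ^ (-c₃) := by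
    rw [hG, map_mul, map_mul, map_zpow₀, map_zpow₀, map_zpow₀, ht₂.2.2, ht₃.2.2, one_zpow,
      mul_one, ← zpow_add₀ hw₃]
    congr 1
    ring
  refine ⟨-m', G, hG0, ?_, ?_, ?_⟩
  · rw [map_mul, map_mul, map_pow, map_zpow₀, hG₁, ha₁,
      ← zpow_natCast (V₁.valuation Q ^ (-c₁)) p, ← zpow_mul, ← zpow_add₀ hw₁,
      ← zpow_add₀ hw₁]
    have : a₁ + -m' + -c₁ * (p : ℤ) = 0 := by rw [e₁]; ring
    rw [this, zpow_zero]
  · rw [map_mul, map_mul, map_pow, map_zpow₀, hG₂, ha₂, hram,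
      ← zpow_natCast (V₂.valuation π) e, ← zpow_mul,
      ← zpow_natCast (V₂.valuation π ^ (-c₂)) p, ← zpow_mul, ← zpow_add₀ hw₂,
      ← zpow_add₀ hw₂]
    have : a₂ + (e : ℤ) * -m' + -c₂ * (p : ℤ) = 0 := by rw [e₂]; ring
    rw [this, zpow_zero]
  · rw [map_mul, map_mul, map_pow, map_zpow₀, hG₃, ha₃,
      ← zpow_natCast (V₃.valuation Q ^ (-c₃)) p, ← zpow_mul, ← zpow_add₀ hw₃,
      ← zpow_add₀ hw₃]
    have : a₃ + -m' + -c₃ * (p : ℤ) = 0 := by rw [e₃]; ring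
    rw [this, zpow_zero]

end Three

end Fermat.Agent.S59.LL.SQ.H33
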