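import Fermat.Agent.S59.LL.SQ.H33_CompEisDefs
import Fermat.Agent.S43.CompEis.H9_Hecke
attribute [local instance 10000] SubalgebraClass.toAlgebra
attribute [local instance 10000] HahnSeries.powerSeriesAlgebra

/-!
# S59 / LL / SQ, leaf (E) COMP-EIS at `q²` (helper33): the Hecke operator on Kummer functions

General level `N`, `ℓ ∤ N` a prime, `T_ℓ f := heckeNormFn f = N_α (β f)`.

* `heckeNormFn_mul`, `heckeNormFn_pow`, `heckeNormFn_const`, `heckeNormFn_const_mul`;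
* `heckeNormFn_fix` : `T_ℓ` commutes with the arithmetic Galois action, so it preserves the
  functions fixed by `σ`;
* `hecke_kummer` : an inertia-fixed `p`-torsion eigenvector `x` of `T_ℓ` with eigenvalue `t` has a
  Kummer function `f` (inertia-fixed) with `T_ℓ f = c f ^ t₀ g ^ p`, `t₀ ≡ t mod p`, `g` and `c`
  inertia-fixed (adapted from helper9's `S43.CompEis.H9H.stmt_CE_Hecke`).
-/

set_option autoImplicit false
set_option synthInstance.maxHeartbeats 400000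
set_option maxHeartbeats 1000000
set_option linter.style.haveILetI false
set_option linter.unusedSectionVars false

noncomputable section

open ModularCurve AlgebraicCurve IntermediateField
open Fermat.Agent.S24 Fermat.Agent.BAD Fermat.Agent.RED

namespace Fermat.Agent.S59.LL.SQ.H33

/-! ## Algebra of `T_ℓ` on functions -/

section Norm

variable (N ℓ : ℕ) [NeZero N] [NeZero ℓ]

theorem neZero_Nl : NeZero (N * ℓ) := ⟨Nat.mul_ne_zero (NeZero.ne N) (NeZero.ne ℓ)⟩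

theorem heckeNormFn_def (f : FN N) :
    Fermat.Agent.GTor.H2.heckeNormFn Kbar N ℓ f
      = (letI := algebraAlong (heckeAlphaBar Kbar N ℓ);
          Algebra.norm (FN N) (heckeBetaBar Kbar N ℓ f)) := rfl

theorem heckeNormFn_mul (f g : FN N) :
    Fermat.Agent.GTor.H2.heckeNormFn Kbar N ℓ (f * g)
      = Fermat.Agent.GTor.H2.heckeNormFn Kbar N ℓ f
        * Fermat.Agent.GTor.H2.heckeNormFn Kbar N ℓ g := by
  rw [heckeNormFn_def, heckeNormFn_def, heckeNormFn_def, map_mul, map_mul]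

theorem heckeNormFn_one :
    Fermat.Agent.GTor.H2.heckeNormFn Kbar N ℓ (1 : FN N) = 1 := by
  rw [heckeNormFn_def, map_one, map_one]

theorem heckeNormFn_pow (f : FN N) (n : ℕ) :
    Fermat.Agent.GTor.H2.heckeNormFn Kbar N ℓ (f ^ n)
      = Fermat.Agent.GTor.H2.heckeNormFn Kbar N ℓ f ^ n := by
  rw [heckeNormFn_def, heckeNormFn_def, map_pow, map_pow]

/-- `[F_{N ℓ} : F_N] = ℓ + 1` along `α`. -/
theorem finrank_alpha_gen (hℓ : ℓ.Prime) (hℓN : ¬ ℓ ∣ N) :
    @Module.finrank (FN N) (FN (N * ℓ)) _ _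
      (algebraAlong (heckeAlphaBar Kbar N ℓ)).toModule = ℓ + 1 := by
  haveI := neZero_Nl N ℓ
  rw [← H82.relfinrank_FM_FN ℓ N hℓ hℓN]
  exact H51.finrank_along_inclusion
    (Fermat.Agent.S18.modularFunctionFieldBar_mono (Dvd.intro ℓ rfl))

theorem heckeNormFn_const (hℓ : ℓ.Prime) (hℓN : ¬ ℓ ∣ N) (c : Kbar) :
    Fermat.Agent.GTor.H2.heckeNormFn Kbar N ℓ (algebraMap Kbar (FN N) c)
      = algebraMap Kbar (FN N) (c ^ (ℓ + 1)) := by
  rw [heckeNormFn_def]
  letI := algebraAlong (heckeAlphaBar Kbar N ℓ)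
  haveI := isScalarTower_along (heckeAlphaBar Kbar N ℓ)
  rw [AlgHom.commutes, IsScalarTower.algebraMap_apply Kbar (FN N) (FN (N * ℓ)),
    Algebra.norm_algebraMap, finrank_alpha_gen N ℓ hℓ hℓN, ← map_pow]

theorem heckeNormFn_const_mul (hℓ : ℓ.Prime) (hℓN : ¬ ℓ ∣ N) (c : Kbar) (f : FN N) :
    Fermat.Agent.GTor.H2.heckeNormFn Kbar N ℓ (algebraMap Kbar (FN N) c * f)
      = algebraMap Kbar (FN N) (c ^ (ℓ + 1)) * Fermat.Agent.GTor.H2.heckeNormFn Kbar N ℓ f := by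
  rw [heckeNormFn_mul, heckeNormFn_const N ℓ hℓ hℓN]

/-- `T_ℓ` commutes with the arithmetic Galois action. -/
theorem heckeNormFn_smul (σ : Kbar ≃ₐ[ℚ] Kbar) (f : FN N) :
    arithmeticGalois (modularFunctionFieldFull N) σ • Fermat.Agent.GTor.H2.heckeNormFn Kbar N ℓ f
      = Fermat.Agent.GTor.H2.heckeNormFn Kbar N ℓ
          (arithmeticGalois (modularFunctionFieldFull N) σ • f) := by
  haveI := neZero_Nl N ℓ
  letI := algebraAlong (heckeAlphaBar Kbar N ℓ)
  have hα := Fermat.Agent.GTor.H2.intertwines_heckeAlphaBar (L := Kbar) N ℓ σ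
  have hβ := Fermat.Agent.GTor.H2.intertwines_heckeBetaBar (L := Kbar) N ℓ σ
  have key := Algebra.norm_eq_of_equiv_equiv
    (arithmeticRingAut (L := Kbar) (modularFunctionFieldFull N) σ)
    (arithmeticRingAut (L := Kbar) (modularFunctionFieldFull (N * ℓ)) σ)
    (RingHom.ext fun x => (hα x).symm)
    (heckeBetaBar Kbar N ℓ f)
  have h2 : arithmeticRingAut (L := Kbar) (modularFunctionFieldFull (N * ℓ)) σ
      (heckeBetaBar Kbar N ℓ f)
      = heckeBetaBar Kbar N ℓ (arithmeticGalois (modularFunctionFieldFull N) σ • f) := hβ f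
  show arithmeticRingAut (L := Kbar) (modularFunctionFieldFull N) σ
      (Algebra.norm (FN N) (heckeBetaBar Kbar N ℓ f))
    = Algebra.norm (FN N)
        (heckeBetaBar Kbar N ℓ (arithmeticGalois (modularFunctionFieldFull N) σ • f))
  rw [← h2, key]
  exact RingEquiv.apply_symm_apply _ _

theorem heckeNormFn_fix (σ : Kbar ≃ₐ[ℚ] Kbar) (f : FN N)
    (hf : arithmeticGalois (modularFunctionFieldFull N) σ • f = f) :
    arithmeticGalois (modularFunctionFieldFull N) σ • Fermat.Agent.GTor.H2.heckeNormFn Kbar N ℓ f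
      = Fermat.Agent.GTor.H2.heckeNormFn Kbar N ℓ f := by
  rw [heckeNormFn_smul, hf]

end Norm

/-! ## The eigenvector condition on Kummer functions -/

section Kummer

variable (N : ℕ) [NeZero N]

theorem smul_eq_ringAut (σ : Kbar ≃ₐ[ℚ] Kbar) (f : FN N) :
    arithmeticGalois (modularFunctionFieldFull N) σ • f
      = arithmeticRingAut (L := Kbar) (modularFunctionFieldFull N) σ f := rfl

/-- **HECKE on Kummer functions**, general level. -/
theorem hecke_kummer (H : Subgroup (Kbar ≃ₐ[ℚ] Kbar)) (p : ℕ) (hp : p.Prime)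
    (ℓ : ℕ) [NeZero ℓ] (hℓ : ℓ.Prime) (t : ℤ) (x : JZero N) (hpx : (p : ℤ) • x = 0)
    (hfix : ∀ σ ∈ H, σ • x = x) (hT : heckeOperatorBar N ⟨ℓ, hℓ⟩ x = t • x) :
    ∃ (D : Divisor.degZero (K := Kbar) (F := FN N)) (f g : FN N) (c : Kbar) (t₀ : ℕ),
      f ≠ 0 ∧ g ≠ 0 ∧ c ≠ 0 ∧ x = Pic0.mk D ∧
      (∀ P : Place Kbar (FN N), (p : ℤ) * (D : Divisor Kbar (FN N)) P = P.ord f) ∧
      (∀ σ ∈ H, arithmeticGalois (modularFunctionFieldFull N) σ • f = f) ∧
      (∀ σ ∈ H, arithmeticGalois (modularFunctionFieldFull N) σ • g = g) ∧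
      (∀ σ ∈ H, σ c = c) ∧
      ((t₀ : ℤ) : ZMod p) = (t : ZMod p) ∧
      Fermat.Agent.GTor.H2.heckeNormFn Kbar N ℓ f
        = algebraMap Kbar (FN N) c * f ^ t₀ * g ^ p := by
  have hpx' : p • x = 0 := by
    rw [← natCast_zsmul]
    exact hpx
  -- step 1: Hilbert 90
  obtain ⟨D, f, hf0, hxD, hDf, hDfix, hffix, -, -⟩ :=
    Fermat.Agent.S36.H61.stmt_NUB0 N H p x hpx' hfix
  -- step 2: the Hecke operator on Kummer pairs
  obtain ⟨hα, hβ, hP, hfin, hFI, hN⟩ := H51.stmt_HKA N ℓ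
  set D' : Divisor.degZero (K := Kbar) (F := FN N) :=
    Pic0.degZeroCorrespondence (heckeBetaBar _ N ℓ) (heckeAlphaBar _ N ℓ) hβ hα hFI D with hD'def
  set f' : FN N := Fermat.Agent.GTor.H2.heckeNormFn Kbar N ℓ f with hf'def
  have hf'0 : f' ≠ 0 := Fermat.Agent.GTor.H2.heckeNormFn_ne_zero Kbar N ℓ hfin hf0
  have hTD : heckeOperatorBar N ⟨ℓ, hℓ⟩ (Pic0.mk D) = Pic0.mk D' := by
    change heckeOperatorAlong (AlgebraicClosure ℚ) N ℓ (Pic0.mk D) = Pic0.mk D'
    rw [heckeOperatorAlong_eq hα hβ hFI hfin hN]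
    rfl
  have hD'f' : ∀ P : Place Kbar (FN N),
      (p : ℤ) * (D' : Divisor Kbar (FN N)) P = P.ord f' := fun P =>
    Fermat.Agent.GTor.H2.correspondence_ord Kbar N ℓ hα hβ hfin hN (p : ℤ) _ hf0 hDf P
  have hD'fix : ∀ σ : Kbar ≃ₐ[ℚ] Kbar,
      galF N σ • (D : Divisor Kbar (FN N)) = D →
      galF N σ • (D' : Divisor Kbar (FN N)) = D' := by
    intro σ hσ
    have h1 := Fermat.Agent.GTor.H2.divisor_correspondence_smul (galF N σ)
      (galF (N * ℓ) σ) (heckeBetaBar Kbar N ℓ) (heckeAlphaBar Kbar N ℓ) hβ hα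
      (Fermat.Agent.GTor.H2.intertwines_heckeBetaBar N ℓ σ)
      (Fermat.Agent.GTor.H2.intertwines_heckeAlphaBar N ℓ σ)
      (D : Divisor Kbar (FN N))
    rw [hσ] at h1
    exact h1.symm
  -- the residue `t₀` of `t`
  have hp0 : (p : ℤ) ≠ 0 := by exact_mod_cast hp.ne_zero
  obtain ⟨t₀, ht₀⟩ : ∃ t₀ : ℕ, (t₀ : ℤ) = t % p :=
    ⟨(t % p).toNat, Int.toNat_of_nonneg (Int.emod_nonneg _ hp0)⟩
  have htmod : ((t₀ : ℤ) : ZMod p) = (t : ZMod p) := by
    rw [ht₀]
    exact ZMod.intCast_mod t p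
  have hdecomp : t = (t₀ : ℤ) + (t / p) * p := by
    rw [ht₀, mul_comm]
    exact (Int.emod_add_mul_ediv t p).symm
  have hcls : (Pic0.mk D' : JZero N) = t₀ • (Pic0.mk D : JZero N) := by
    rw [← hTD, ← hxD, hT]
    conv_lhs => rw [hdecomp]
    rw [add_zsmul, mul_zsmul, hpx, smul_zero, add_zero, natCast_zsmul]
  -- step 3: the difference `D' - t₀ D` is principal and inertia-stable
  have hE0 : (Pic0.mk (D' - t₀ • D) : JZero N) = 0 := by
    have h1 : (Pic0.mk (D' - t₀ • D) : JZero N)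
        = Pic0.mk D' - t₀ • (Pic0.mk D : JZero N) := rfl
    rw [h1, hcls, sub_self]
  have hEfix : ∀ σ : ↥H,
      Fermat.Agent.S36.H61.rhoH N H σ •
        ((D' - t₀ • D : Divisor.degZero (K := Kbar) (F := FN N)) : Divisor Kbar (FN N))
        = ((D' - t₀ • D : Divisor.degZero (K := Kbar) (F := FN N)) : Divisor Kbar (FN N)) := by
    intro σ
    have h1 := hDfix σ.1 σ.2
    have h2 := hD'fix σ.1 h1
    show galF N (σ : Kbar ≃ₐ[ℚ] Kbar) •
      ((D' : Divisor Kbar (FN N)) - t₀ • (D : Divisor Kbar (FN N)))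
      = (D' : Divisor Kbar (FN N)) - t₀ • (D : Divisor Kbar (FN N))
    rw [smul_sub, smul_comm, h1, h2]
  obtain ⟨g, hg0, hEg, hgfix, -⟩ :=
    Fermat.Agent.S36.H61.exists_fixed_function N H 1
      (D' - t₀ • D) hEfix (by rw [one_smul]; exact hE0)
  -- the quotient `f ^ t₀ g ^ p / f'` is a constant
  have hord : ∀ P : Place Kbar (FN N), P.ord (f ^ t₀ * g ^ p / f') = 0 := by
    intro P
    have e1 := hEg P
    have e2 : ((D' - t₀ • D : Divisor.degZero (K := Kbar) (F := FN N)) : Divisor Kbar (FN N)) P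
        = (D' : Divisor Kbar (FN N)) P - t₀ * (D : Divisor Kbar (FN N)) P := by
      show ((D' : Divisor Kbar (FN N)) - t₀ • (D : Divisor Kbar (FN N))) P = _
      rw [Finsupp.sub_apply, Finsupp.smul_apply, nsmul_eq_mul]
    rw [e2] at e1
    rw [div_eq_mul_inv, P.ord_mul (mul_ne_zero (pow_ne_zero _ hf0) (pow_ne_zero _ hg0))
        (inv_ne_zero hf'0), P.ord_mul (pow_ne_zero _ hf0) (pow_ne_zero _ hg0), P.ord_inv,
      H17.ord_pow, H17.ord_pow, ← hDf P, ← hD'f' P, ← e1]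
    push_cast
    ring
  have hquot0 : f ^ t₀ * g ^ p / f' ≠ 0 :=
    div_ne_zero (mul_ne_zero (pow_ne_zero _ hf0) (pow_ne_zero _ hg0)) hf'0
  obtain ⟨c, hc⟩ := H36.const_of_ord_eq_zero (H95.stmt_HKA_isFF N) _ hquot0 hord
  have hc0 : c ≠ 0 := by
    rintro rfl
    rw [map_zero] at hc
    exact hquot0 hc
  have hcF : algebraMap Kbar (FN N) c ≠ 0 := (map_ne_zero _).mpr hc0
  have hf' : f' = algebraMap Kbar (FN N) c⁻¹ * f ^ t₀ * g ^ p := by
    have h1 : f ^ t₀ * g ^ p = algebraMap Kbar (FN N) c * f' := by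
      rw [← hc, div_mul_cancel₀ _ hf'0]
    rw [mul_assoc, h1, map_inv₀, ← mul_assoc, inv_mul_cancel₀ hcF, one_mul]
  have hgfix' : ∀ σ ∈ H, arithmeticGalois (modularFunctionFieldFull N) σ • g = g :=
    fun σ hσ => hgfix ⟨σ, hσ⟩
  have hf'fix : ∀ σ ∈ H, arithmeticGalois (modularFunctionFieldFull N) σ • f' = f' :=
    fun σ hσ => heckeNormFn_fix N ℓ σ f (hffix σ hσ)
  have hcfix : ∀ σ ∈ H, σ c = c := by
    intro σ hσ
    have h1 := hf'fix σ hσ
    have h2 := hffix σ hσ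
    have h3 := hgfix' σ hσ
    rw [smul_eq_ringAut] at h1 h2 h3
    have h4 : arithmeticRingAut (L := Kbar) (modularFunctionFieldFull N) σ
        (algebraMap Kbar (FN N) c * f') = algebraMap Kbar (FN N) c * f' := by
      have e : algebraMap Kbar (FN N) c * f' = f ^ t₀ * g ^ p := by
        rw [← hc, div_mul_cancel₀ _ hf'0]
      rw [e, map_mul, map_pow, map_pow, h2, h3]
    rw [map_mul, h1, arithmeticRingAut_algebraMap] at h4
    have h5 := mul_right_cancel₀ hf'0 h4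
    exact (algebraMap Kbar (FN N)).injective h5
  refine ⟨D, f, g, c⁻¹, t₀, hf0, hg0, inv_ne_zero hc0, hxD, hDf, hffix, hgfix', ?_, htmod, hf'⟩
  intro σ hσ
  rw [map_inv₀, hcfix σ hσ]

end Kummer

end Fermat.Agent.S59.LL.SQ.H33
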