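import Fermat.Agent.S59.LL.SQ.H33_CompEisDefs
import Fermat.Agent.S43.CompEis.H9_NormVal
import Fermat.Agent.S36.NU.H82_D2
attribute [local instance 10000] SubalgebraClass.toAlgebra
attribute [local instance 10000] HahnSeries.powerSeriesAlgebra

/-!
# S59 / LL / SQ, leaf (E) COMP-EIS at `q²` (helper33): NORM-VAL for `V₂₀` and `V₀₂`

Level `N = M q²`, `q ∤ M`, `A` over `q`, `ℓ ∤ N` a prime.

* `relfinrank_hecke_eq_sq` : the residue degree of the Gauss valuations of levels `N ℓ ∣ N` is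
  the degree `ℓ + 1`;
* `nv20` : `T_ℓ` maps `V₂₀`-units to `V₂₀`-units (helper9's `norm_isGU`);
* `wSqUp`, `wSqUp_comp_alpha`, `wSqUp_comp_beta` : `W_{q²}` of level `N ℓ` extends `W_{q²}` of
  level `N` along `α` and `β`; `wSq_heckeNormFn : W_{q²} (T_ℓ f) = T_ℓ (W_{q²} f)`;
* `nv02` : `T_ℓ` maps `V₀₂`-units to `V₀₂`-units;
* `stmt_NV20 : Stmt_NV20`, `stmt_NV02 : Stmt_NV02`.
-/

set_option autoImplicit false
set_option synthInstance.maxHeartbeats 400000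
set_option maxHeartbeats 1000000
set_option linter.style.haveILetI false
set_option linter.unusedSectionVars false

noncomputable section

open ModularCurve AlgebraicCurve IntermediateField
open Fermat.Agent.S24 Fermat.Agent.S36.NU.H88 Fermat.Agent.S36.NU.H23
open Fermat.Agent.BAD Fermat.Agent.BAD.H88 Fermat.Agent.S28.H73 Fermat.Agent.RED.H73
open Fermat.Agent.RED

namespace Fermat.Agent.S59.LL.SQ.H33

/-! ## The degrees -/

section Deg

variable (q M : ℕ) (hq : q.Prime) [NeZero M] [NeZero q] [NeZero (M * q * q)] (hqM : ¬ q ∣ M)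
variable (ℓ : ℕ) [NeZero ℓ] (hℓ : ℓ.Prime) (hℓN : ¬ ℓ ∣ M * q * q)

theorem neZero_level_sq : NeZero (M * q * q * ℓ) :=
  ⟨Nat.mul_ne_zero (NeZero.ne (M * q * q)) (NeZero.ne ℓ)⟩

theorem neZero_Ml : NeZero (M * ℓ) := ⟨Nat.mul_ne_zero (NeZero.ne M) (NeZero.ne ℓ)⟩

include hℓN in
theorem l_not_dvd_M : ¬ ℓ ∣ M := fun hd =>
  hℓN (Dvd.dvd.mul_right (Dvd.dvd.mul_right hd q) q)

include hq hℓ hℓN in
theorem q_ne_l : q ≠ ℓ := by
  rintro rfl
  exact hℓN (Dvd.intro_left (M * q) rfl)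

include hq hqM hℓ hℓN in
theorem q_not_dvd_Ml : ¬ q ∣ M * ℓ := by
  intro hd
  rcases (Nat.Prime.dvd_mul hq).mp hd with hd | hd
  · exact hqM hd
  · exact q_ne_l q M hq ℓ hℓ hℓN ((Nat.prime_dvd_prime_iff_eq hq hℓ).mp hd)

include hq hqM hℓ hℓN in
/-- The residue degree of the Gauss valuations of levels `N ℓ ∣ N`, `N = M q²`, at a prime over
`q` is the degree. -/
theorem relfinrank_hecke_eq_sq [NeZero (M * q * q * ℓ)]
    (A : ValuationSubring Kbar) (hA : A.LiesOverPrime q) :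
    (modularFunctionFieldBar (M * q * q)).relfinrank (modularFunctionFieldBar (M * q * q * ℓ))
      = (redField A (modularFunctionFieldBar (M * q * q))
            (hasScale_laurentBaseChange A (M * q * q))).relfinrank
          (redField A (modularFunctionFieldBar (M * q * q * ℓ))
            (hasScale_laurentBaseChange A (M * q * q * ℓ))) := by
  haveI := neZero_Ml M ℓ
  have hqMℓ := q_not_dvd_Ml q M hq hqM ℓ hℓ hℓN
  have hℓM := l_not_dvd_M q M ℓ hℓN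
  have e1 := Fermat.Agent.S36.NU.H82.redField_NU q M hq hqM A hA
  have e2 := Fermat.Agent.S36.NU.H82.redField_level_pow q 2 (M * ℓ) (M * q * q * ℓ) hq hqMℓ
    (by ring) A hA
  have g1 := Fermat.Agent.RED.H73.stmt_GA M q hq hqM A hA
  have g2 := Fermat.Agent.RED.H73.stmt_GA (M * ℓ) q hq hqMℓ A hA
  have h3 := H36.relfinrank_level_eq (N := M) (M := M * ℓ) (Dvd.intro ℓ rfl) hq hqMℓ A hA
  rw [H82.relfinrank_FM_FN ℓ (M * q * q) hℓ hℓN, e1, e2, ← g1, ← g2, ← h3]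
  exact (H82.relfinrank_FM_FN ℓ M hℓ hℓM).symm

end Deg

/-! ## NORM-VAL for `V₂₀` -/

section NV20

variable (q M : ℕ) (hq : q.Prime) [NeZero M] [NeZero q] [NeZero (M * q * q)] (hqM : ¬ q ∣ M)
variable (ℓ : ℕ) [NeZero ℓ] (hℓ : ℓ.Prime) (hℓN : ¬ ℓ ∣ M * q * q)
variable (A : ValuationSubring Kbar) (hA : A.LiesOverPrime q)

include hq hqM hℓ hℓN hA in
/-- `T_ℓ` maps `V₂₀`-units to `V₂₀`-units (no inertia hypothesis). -/
theorem nv20 (f : FN (M * q * q)) (hf : IsVU (V20 A (M * q * q)) f) :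
    IsVU (V20 A (M * q * q)) (Fermat.Agent.GTor.H2.heckeNormFn Kbar (M * q * q) ℓ f) := by
  haveI := neZero_level_sq q M ℓ
  obtain ⟨-, -, -, hfin, -, -⟩ := H51.stmt_HKA (M * q * q) ℓ
  have h1 : Fermat.Agent.S43.CompEis.H60.IsGaussUnit A (M * q * q * ℓ)
      (heckeBetaBar Kbar (M * q * q) ℓ f) :=
    Fermat.Agent.S43.CompEis.H9.isGaussUnit_beta ℓ A (M * q * q) f hf
  exact Fermat.Agent.S43.CompEis.H9.norm_isGU A
    (Fermat.Agent.S18.modularFunctionFieldBar_mono (Dvd.intro ℓ rfl))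
    (hasScale_laurentBaseChange A (M * q * q)) (hasScale_laurentBaseChange A (M * q * q * ℓ))
    hfin (relfinrank_hecke_eq_sq q M hq hqM ℓ hℓ hℓN A hA) _ h1

/-- **NV20.** -/
theorem stmt_NV20 : Stmt_NV20 := by
  intro A q M hq _ _ _ hqM hA ℓ _ hℓ hℓN f _ hf
  exact nv20 q M hq hqM ℓ hℓ hℓN A hA f hf

end NV20

/-! ## `W_{q²}` commutes with `N_α ∘ β` -/

section W

variable (q M : ℕ) (B k : ℤ) (hB : B * M + k * q = 1) (hq : q.Prime)
  [NeZero M] [NeZero q] [NeZero (M * q * q)]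
variable (ℓ : ℕ) [NeZero ℓ] [NeZero (M * q * q * ℓ)]
  (B' k' : ℤ) (hB' : B' * ((M * ℓ : ℕ) : ℤ) + k' * q = 1)

theorem level_eq_sq : M * q * q * ℓ = M * ℓ * (q * q) := by ring

/-- `W_{q²}` at level `M q² ℓ`. -/
def wSqUp : FN (M * q * q * ℓ) ≃ₐ[Kbar] FN (M * q * q * ℓ) :=
  wSq (M * q * q * ℓ) q (M * ℓ) B' k' (level_eq_sq q M ℓ) hB'

include hB hq in
/-- `W_{q²}` at level `M q² ℓ` extends `W_{q²}` at level `M q²` along `α`. -/
theorem wSqUp_comp_alpha :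
    (wSqUp q M ℓ B' k' hB').toAlgHom.comp (heckeAlphaBar Kbar (M * q * q) ℓ)
      = (heckeAlphaBar Kbar (M * q * q) ℓ).comp (wS q M B k hB).toAlgHom := by
  apply algHom_ext_of_adjoin _ (adjoin_jdF (M * q * q))
  rintro x ⟨D, hD0, hD, rfl⟩
  rw [AlgHom.comp_apply, AlgHom.comp_apply, alpha_jdF]
  obtain ⟨d, d', e, e', hDd, hM, hQ⟩ :=
    dvd_casesQ (M * q * q) (q * q) M _ _ (lvl q M) (bezout_sq q M B k hB) D hD
  have hD0' : 0 < D := Nat.pos_of_ne_zero (NeZero.ne D)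
  have hd : 0 < d := Nat.pos_of_ne_zero (by rintro rfl; rw [zero_mul] at hDd; omega)
  have hqq : 0 < q * q := Nat.mul_pos hq.pos hq.pos
  have he' : 0 < e' := Nat.pos_of_ne_zero (by rintro rfl; rw [mul_zero] at hQ; omega)
  haveI : NeZero (d * e') := ⟨(Nat.mul_pos hd he').ne'⟩
  have hdvd : d * e' ∣ M * q * q :=
    dvd_of_factors (M * q * q) (q * q) M _ _ (lvl q M) (bezout_sq q M B k hB) d d' e e' hM hQ
  have h1 : (wS q M B k hB).toAlgHom (jdF (M * q * q) D hD) = jdF (M * q * q) (d * e') hdvd :=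
    wQ_jdF' (M * q * q) (q * q) M _ _ (lvl q M) _ D (d * e') d d' e e' hDd rfl hM hQ _ _
  rw [h1, alpha_jdF]
  exact wQ_jdF' (M * q * q * ℓ) (q * q) (M * ℓ) _ _ (level_eq_sq q M ℓ) _ D (d * e') d (d' * ℓ)
    e e' hDd rfl (by rw [hM]; ring) hQ _ _

include hB hq in
/-- `W_{q²}` at level `M q² ℓ` extends `W_{q²}` at level `M q²` along `β`. -/
theorem wSqUp_comp_beta :
    (wSqUp q M ℓ B' k' hB').toAlgHom.comp (heckeBetaBar Kbar (M * q * q) ℓ)
      = (heckeBetaBar Kbar (M * q * q) ℓ).comp (wS q M B k hB).toAlgHom := by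
  apply algHom_ext_of_adjoin _ (adjoin_jdF (M * q * q))
  rintro x ⟨D, hD0, hD, rfl⟩
  have hℓ0 : 0 < ℓ := Nat.pos_of_ne_zero (NeZero.ne ℓ)
  have hD0' : 0 < D := Nat.pos_of_ne_zero (NeZero.ne D)
  haveI : NeZero (D * ℓ) := ⟨(Nat.mul_pos hD0' hℓ0).ne'⟩
  rw [AlgHom.comp_apply, AlgHom.comp_apply, beta_jdF]
  obtain ⟨d, d', e, e', hDd, hM, hQ⟩ :=
    dvd_casesQ (M * q * q) (q * q) M _ _ (lvl q M) (bezout_sq q M B k hB) D hD
  have hd : 0 < d := Nat.pos_of_ne_zero (by rintro rfl; rw [zero_mul] at hDd; omega)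
  have hqq : 0 < q * q := Nat.mul_pos hq.pos hq.pos
  have he' : 0 < e' := Nat.pos_of_ne_zero (by rintro rfl; rw [mul_zero] at hQ; omega)
  haveI : NeZero (d * e') := ⟨(Nat.mul_pos hd he').ne'⟩
  haveI : NeZero (d * e' * ℓ) := ⟨(Nat.mul_pos (Nat.mul_pos hd he') hℓ0).ne'⟩
  have hdvd : d * e' ∣ M * q * q :=
    dvd_of_factors (M * q * q) (q * q) M _ _ (lvl q M) (bezout_sq q M B k hB) d d' e e' hM hQ
  have h1 : (wS q M B k hB).toAlgHom (jdF (M * q * q) D hD) = jdF (M * q * q) (d * e') hdvd :=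
    wQ_jdF' (M * q * q) (q * q) M _ _ (lvl q M) _ D (d * e') d d' e e' hDd rfl hM hQ _ _
  rw [h1, beta_jdF]
  exact wQ_jdF' (M * q * q * ℓ) (q * q) (M * ℓ) _ _ (level_eq_sq q M ℓ) _ (D * ℓ) (d * e' * ℓ)
    (d * ℓ) d' e e' (by rw [hDd]; ring) (by ring) (by rw [hM]; ring) hQ _ _

include hB hq hB' in
/-- `W_{q²} (N_α (β f)) = N_α (β (W_{q²} f))`. -/
theorem wSq_heckeNormFn (f : FN (M * q * q)) :
    wS q M B k hB (Fermat.Agent.GTor.H2.heckeNormFn Kbar (M * q * q) ℓ f)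
      = Fermat.Agent.GTor.H2.heckeNormFn Kbar (M * q * q) ℓ (wS q M B k hB f) := by
  letI := algebraAlong (heckeAlphaBar Kbar (M * q * q) ℓ)
  have hα := wSqUp_comp_alpha q M B k hB hq ℓ B' k' hB'
  have hβ := wSqUp_comp_beta q M B k hB hq ℓ B' k' hB'
  have key := Algebra.norm_eq_of_equiv_equiv
    ((wS q M B k hB : FN (M * q * q) ≃ₐ[Kbar] FN (M * q * q)) :
      FN (M * q * q) ≃+* FN (M * q * q))
    ((wSqUp q M ℓ B' k' hB' : FN (M * q * q * ℓ) ≃ₐ[Kbar] FN (M * q * q * ℓ)) :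
      FN (M * q * q * ℓ) ≃+* FN (M * q * q * ℓ))
    (RingHom.ext fun x =>
      (congrArg (fun g : FN (M * q * q) →ₐ[Kbar] FN (M * q * q * ℓ) => g x) hα).symm)
    (heckeBetaBar Kbar (M * q * q) ℓ f)
  have h2 : wSqUp q M ℓ B' k' hB' (heckeBetaBar Kbar (M * q * q) ℓ f)
      = heckeBetaBar Kbar (M * q * q) ℓ (wS q M B k hB f) :=
    congrArg (fun g : FN (M * q * q) →ₐ[Kbar] FN (M * q * q * ℓ) => g f) hβ
  show wS q M B k hB (Algebra.norm (FN (M * q * q)) (heckeBetaBar Kbar (M * q * q) ℓ f))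
    = Algebra.norm (FN (M * q * q)) (heckeBetaBar Kbar (M * q * q) ℓ (wS q M B k hB f))
  rw [← h2, key]
  exact RingEquiv.apply_symm_apply (wS q M B k hB).toRingEquiv _

end W

/-! ## NORM-VAL for `V₀₂` -/

section NV02

variable (q M : ℕ) (B k : ℤ) (hB : B * M + k * q = 1) (hq : q.Prime)
  [NeZero M] [NeZero q] [NeZero (M * q * q)] (hqM : ¬ q ∣ M)
variable (ℓ : ℕ) [NeZero ℓ] (hℓ : ℓ.Prime) (hℓN : ¬ ℓ ∣ M * q * q)
variable (A : ValuationSubring Kbar) (hA : A.LiesOverPrime q)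

include hB in
theorem isVU_V02_iff (f : FN (M * q * q)) :
    IsVU (V02 A (M * q * q) q M B k (lvl q M) hB) f
      ↔ IsVU (V20 A (M * q * q)) (wS q M B k hB f) := by
  unfold IsVU
  rw [mem_V02_iff, mem_V02_iff, map_inv₀]
  constructor
  · rintro ⟨h0, h1, h2⟩
    exact ⟨(map_ne_zero _).mpr h0, h1, h2⟩
  · rintro ⟨h0, h1, h2⟩
    exact ⟨(map_ne_zero _).mp h0, h1, h2⟩

include hq hqM hℓ hℓN hA in
/-- `T_ℓ` maps `V₀₂`-units to `V₀₂`-units (no inertia hypothesis). -/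
theorem nv02 (f : FN (M * q * q)) (hf : IsVU (V02 A (M * q * q) q M B k (lvl q M) hB) f) :
    IsVU (V02 A (M * q * q) q M B k (lvl q M) hB)
      (Fermat.Agent.GTor.H2.heckeNormFn Kbar (M * q * q) ℓ f) := by
  haveI := neZero_level_sq q M ℓ
  haveI := neZero_Ml M ℓ
  have hqMℓ := q_not_dvd_Ml q M hq hqM ℓ hℓ hℓN
  have hcop : Nat.Coprime (M * ℓ) q :=
    ((Nat.Prime.coprime_iff_not_dvd hq).mpr hqMℓ).symm
  obtain ⟨B', k', hB'⟩ : ∃ B' k' : ℤ, B' * ((M * ℓ : ℕ) : ℤ) + k' * q = 1 := by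
    obtain ⟨u, v, huv⟩ := Nat.isCoprime_iff_coprime.mpr hcop
    exact ⟨u, v, huv⟩
  rw [isVU_V02_iff q M B k hB A] at hf ⊢
  rw [wSq_heckeNormFn q M B k hB hq ℓ B' k' hB']
  exact nv20 q M hq hqM ℓ hℓ hℓN A hA _ hf

/-- **NV02.** -/
theorem stmt_NV02 : Stmt_NV02 := by
  intro A q M B k hB hq _ _ _ hqM hA ℓ _ hℓ hℓN f _ hf
  exact nv02 q M B k hB hq hqM ℓ hℓ hℓN A hA f hf

end NV02

end Fermat.Agent.S59.LL.SQ.H33
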