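import Fermat.Agent.S59.LL.SQ.Defs
import Fermat.Agent.S59.LL.SQ.H33_CompEisHecke
import Fermat.Agent.S59.LL.SQ.H33_CompEisAbs
import Fermat.Agent.S59.LL.SQ.H33_CompEisNV
import Fermat.Agent.S36.NU.H51_ValVecMod
import Fermat.Agent.S36.NU.H16_Unif3
import Fermat.Agent.GTor.H33_KUM
import Fermat.Agent.RED.H51_Final
import Fermat.Agent.RED.H95_IsFF
attribute [local instance 10000] SubalgebraClass.toAlgebra
attribute [local instance 10000] HahnSeries.powerSeriesAlgebra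

/-!
# S59 / LL / SQ, leaf (E) COMP-EIS at `q²` (helper33): assembly

`compEisSqAt_of_nv : NV20At → NV11At → NV02At → CompEisSqAt`  and
`stmt_CompEisSq_of : Stmt_NV11 → Stmt_CompEisSq` (NV20, NV02 are proved in `H33_CompEisNV`).

Proof: Hilbert 90 (`hecke_kummer`): `x = [D]`, `p D = div f`, `f ∈ L₀`, and
`T_ℓ f = c f ^ t₀ g ^ p` with `g ∈ L₀`, `c` a constant of the inertia field, `t₀ ≡ t_ℓ mod p`.
NORM-VAL3: the valuation vector of `T_ℓ f` is `(ℓ + 1)` times that of `f` (`nv_one`).  So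
`(ℓ + 1 - t₀) ν(f) ≡ m (1, q - 1, 1) mod p`, and `ℓ + 1 - t₀` is a unit modulo `p` (not
Eisenstein): `h = f q ^ m' G ^ p` is a unit for the three valuations (`unit3_of_eigen`).
-/

set_option autoImplicit false
set_option synthInstance.maxHeartbeats 400000
set_option maxHeartbeats 1000000
set_option linter.style.haveILetI false
set_option linter.unusedSectionVars false
set_option linter.unusedVariables false

noncomputable section

open ModularCurve AlgebraicCurve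
open Fermat.Agent.S24 Fermat.Agent.BAD.H88 Fermat.Agent.S28 Fermat.Agent.S28.H73
open Fermat.Agent.RED.H73 Fermat.Agent.RED.H17 Fermat.Agent.S36.NU.H88
open Fermat.Agent.S36.NU.H23 Fermat.Agent.BAD Fermat.Agent.RED
open Fermat.Agent.S36.NU.H82 Fermat.Agent.S36.NU.H16

namespace Fermat.Agent.S59.LL.SQ.H33

/-! ## `T_ℓ` on the inertia-fixed functions -/

section TL

variable (A : ValuationSubring Kbar) (N : ℕ) [NeZero N] (ℓ : ℕ) [NeZero ℓ]

theorem heckeNormFn_mem_L0 (x : FN N) (hx : x ∈ L0 A N) :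
    Fermat.Agent.GTor.H2.heckeNormFn Kbar N ℓ x ∈ L0 A N := fun σ hσ =>
  heckeNormFn_fix N ℓ σ x (hx σ hσ)

/-- `T_ℓ` on `L₀`. -/
def TL : ↥(L0 A N) →* ↥(L0 A N) where
  toFun x := ⟨Fermat.Agent.GTor.H2.heckeNormFn Kbar N ℓ (x : FN N),
    heckeNormFn_mem_L0 A N ℓ (x : FN N) x.2⟩
  map_one' := Subtype.ext (heckeNormFn_one N ℓ)
  map_mul' x y := Subtype.ext (heckeNormFn_mul N ℓ (x : FN N) (y : FN N))

theorem coe_TL (x : ↥(L0 A N)) :
    ((TL A N ℓ x : ↥(L0 A N)) : FN N) = Fermat.Agent.GTor.H2.heckeNormFn Kbar N ℓ (x : FN N) :=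
  rfl

theorem coe_natCast_L0' (q : ℕ) : (((q : ℕ) : ↥(L0 A N)) : FN N) = ((q : ℕ) : FN N) :=
  map_natCast (L0 A N).subtype q

theorem TL_natCast (hℓ : ℓ.Prime) (hℓN : ¬ ℓ ∣ N) (q : ℕ) :
    TL A N ℓ ((q : ℕ) : ↥(L0 A N)) = ((q : ℕ) : ↥(L0 A N)) ^ (ℓ + 1) := by
  apply Subtype.ext
  rw [coe_TL, coe_natCast_L0']
  have e : ((q : ℕ) : FN N) = algebraMap Kbar (FN N) (q : Kbar) := (map_natCast _ q).symm
  rw [e, heckeNormFn_const N ℓ hℓ hℓN, map_pow, ← e]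
  show _ = (L0 A N).subtype (((q : ℕ) : ↥(L0 A N)) ^ (ℓ + 1))
  rw [map_pow, map_natCast]

/-- Units of a restricted valuation ring. -/
theorem val_res_eq_one_iff {F : Type} [Field F] (L₀ : Subfield F) (V : ValuationSubring F)
    (x : ↥L₀) : (resV0 L₀ V).valuation x = 1 ↔ IsVU V (x : F) := by
  rw [valuation_resV0_eq_one_iff]
  constructor
  · intro h
    have h0 : (x : F) ≠ 0 := by
      intro h0
      rw [h0, map_zero] at h
      exact zero_ne_one h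
    exact ⟨h0, mem_and_inv_mem_of_val_eq_one V h⟩
  · rintro ⟨h0, h1, h2⟩
    exact valuation_eq_one_of_mem_inv_mem V h0 h1 h2

/-- The preservation of units, for a restricted valuation ring. -/
theorem TL_unit (W : ValuationSubring (FN N))
    (hW : ∀ f : FN N, f ∈ L0 A N → IsVU W f →
      IsVU W (Fermat.Agent.GTor.H2.heckeNormFn Kbar N ℓ f))
    (u : ↥(L0 A N)) (hu : (resV0 (L0 A N) W).valuation u = 1) :
    (resV0 (L0 A N) W).valuation (TL A N ℓ u) = 1 := by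
  rw [val_res_eq_one_iff] at hu ⊢
  exact hW (u : FN N) u.2 hu

/-- The value of a constant of the inertia field, for a restricted valuation ring. -/
theorem val_res_const (q : ℕ) (W : ValuationSubring (FN N))
    (hW : ∀ c : Kbar, algebraMap Kbar (FN N) c ∈ W ↔ c ∈ A)
    (c : Kbar) (m : ℤ) (hm : A.valuation c = A.valuation (q : Kbar) ^ m)
    (hc : algebraMap Kbar (FN N) c ∈ L0 A N) :
    (resV0 (L0 A N) W).valuation (⟨algebraMap Kbar (FN N) c, hc⟩ : ↥(L0 A N))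
      = (resV0 (L0 A N) W).valuation ((q : ℕ) : ↥(L0 A N)) ^ m := by
  rw [← map_zpow₀, valuation_resV0_eq_iff, Fermat.Agent.S36.NU.H51.coe_natCast_zpow_L0]
  have h1 : A.valuation c = A.valuation ((q : Kbar) ^ m) := by rw [map_zpow₀]; exact hm
  have h2 := val_algebraMap_congr A W hW h1
  rw [h2, map_zpow₀, map_natCast]

theorem val_res_natCast_lt_one (q : ℕ) (hA : A.LiesOverPrime q) (W : ValuationSubring (FN N))
    (hW : ∀ c : Kbar, algebraMap Kbar (FN N) c ∈ W ↔ c ∈ A) :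
    (resV0 (L0 A N) W).valuation ((q : ℕ) : ↥(L0 A N)) < 1 := by
  rw [valuation_resV0_lt_one_iff, coe_natCast_L0']
  have e : ((q : ℕ) : FN N) = algebraMap Kbar (FN N) (q : Kbar) := (map_natCast _ q).symm
  rw [e]
  exact val_const_lt_one A W hW _ hA

end TL

/-! ## The assembly -/

section Main

variable (A : ValuationSubring Kbar) (q M : ℕ) (B k : ℤ) (hB : B * M + k * q = 1) (hq : q.Prime)
  [NeZero M] [NeZero q] [NeZero (M * q)] [NeZero (M * q * q)]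

/-- A function of valuation `1` for the three valuations is a unit for the three valuations. -/
theorem isUnit3_of_val (h : ↥(L0 A (M * q * q)))
    (h1 : (V20o A q M).valuation h = 1) (h2 : (V11o A q M B k hB hq).valuation h = 1)
    (h3 : (V02o A q M B k hB).valuation h = 1) : IsUnit3 A q M B k hB hq h := by
  have key : ∀ (V : ValuationSubring ↥(L0 A (M * q * q))) (s : ↥V →+* LaurentSeries (kV A)),
      V.valuation h = 1 → ∃ hm : h ∈ V, s ⟨h, hm⟩ ≠ 0 := by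
    intro V s hv
    have hm : h ∈ V := (ValuationSubring.valuation_le_one_iff V h).1 hv.le
    refine ⟨hm, ?_⟩
    have hu : IsUnit (⟨h, hm⟩ : ↥V) := (ValuationSubring.valuation_eq_one_iff V ⟨h, hm⟩).2 hv
    exact (hu.map s).ne_zero
  exact ⟨key _ _ h1, key _ _ h2, key _ _ h3⟩

/-- `n - t₀` is invertible modulo `p` (not Eisenstein). -/
theorem exists_bezout (p : ℕ) (hp : p.Prime) (ℓ t₀ : ℕ) (t : ℤ)
    (ht₀ : ((t₀ : ℤ) : ZMod p) = (t : ZMod p))
    (hne : ((t : ℤ) : ZMod p) ≠ 1 + (ℓ : ZMod p)) :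
    ∃ s' r : ℤ, ((((ℓ + 1 : ℕ)) : ℤ) - t₀) * s' = 1 + p * r := by
  have hnd : ¬ (p : ℤ) ∣ (((ℓ + 1 : ℕ)) : ℤ) - t₀ := by
    intro hd
    have h0 := (ZMod.intCast_zmod_eq_zero_iff_dvd _ p).2 hd
    apply hne
    rw [← ht₀]
    have h1 : (((((ℓ + 1 : ℕ)) : ℤ) - t₀ : ℤ) : ZMod p)
        = (1 + (ℓ : ZMod p)) - ((t₀ : ℤ) : ZMod p) := by
      push_cast
      ring
    rw [h1] at h0
    exact (sub_eq_zero.1 h0).symm
  have hpp : Prime (p : ℤ) := Nat.prime_iff_prime_int.1 hp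
  have hcop : IsCoprime (p : ℤ) ((((ℓ + 1 : ℕ)) : ℤ) - t₀) :=
    (Prime.coprime_iff_not_dvd hpp).2 hnd
  obtain ⟨u, v, huv⟩ := hcop
  exact ⟨v, -u, by linear_combination huv⟩

/-- **(E) from NORM-VAL3**, at one level. -/
theorem compEisSqAt_of_nv (hqM : ¬ q ∣ M) (hA : A.LiesOverPrime q) (p : ℕ) (hp : p.Prime)
    (h20 : NV20At A q M) (h11 : NV11At A q M B k hB hq) (h02 : NV02At A q M B k hB) :
    CompEisSqAt A q M B k hB hq p := by
  intro S t x hpx hnew hI hT hNE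
  obtain ⟨ℓ, hℓ, hℓS, hℓN, hℓp, hne⟩ := hNE
  haveI : NeZero ℓ := ⟨hℓ.ne_zero⟩
  obtain ⟨D, f, g, c, t₀, hf0, hg0, hc0, hxD, hDf, hffix, hgfix, hcfix, ht₀, hrel⟩ :=
    hecke_kummer (M * q * q) (A.inertiaSubgroupIn ℚ) p hp ℓ hℓ (t ℓ) x hpx hI
      (hT ⟨ℓ, hℓ⟩ hℓS hℓN hℓp)
  -- the functions of `L₀`
  have hfL : f ∈ L0 A (M * q * q) := fun σ hσ => hffix σ hσ
  have hgL : g ∈ L0 A (M * q * q) := fun σ hσ => hgfix σ hσ
  have hcL : algebraMap Kbar (FN (M * q * q)) c ∈ L0 A (M * q * q) :=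
    (const_mem_L0_iff A c).2 hcfix
  have hfL0 : (⟨f, hfL⟩ : ↥(L0 A (M * q * q))) ≠ 0 := fun h0 => hf0 (congrArg Subtype.val h0)
  have hgL0 : (⟨g, hgL⟩ : ↥(L0 A (M * q * q))) ≠ 0 := fun h0 => hg0 (congrArg Subtype.val h0)
  have hrelL : TL A (M * q * q) ℓ (⟨f, hfL⟩ : ↥(L0 A (M * q * q)))
      = (⟨algebraMap Kbar (FN (M * q * q)) c, hcL⟩ : ↥(L0 A (M * q * q)))
        * (⟨f, hfL⟩ : ↥(L0 A (M * q * q))) ^ t₀ * (⟨g, hgL⟩ : ↥(L0 A (M * q * q))) ^ p := by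
    apply Subtype.ext
    rw [coe_TL]
    exact hrel
  -- the uniformisers
  have hQ0 : ((q : ℕ) : ↥(L0 A (M * q * q))) ≠ 0 := piE_ne_zero A q (M * q * q) hq
  have hpi0 : pi11 A q M ≠ 0 := by
    intro h0
    have h1 := Fermat.Agent.S36.NU.H51.hram11' A q M B k hB hq hA
    rw [h0, map_zero, zero_pow (Nat.sub_pos_of_lt hq.one_lt).ne'] at h1
    exact hQ0 ((Valuation.zero_iff _).1 h1)
  have hQ₁ : (V20o A q M).valuation ((q : ℕ) : ↥(L0 A (M * q * q))) < 1 :=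
    val_res_natCast_lt_one A (M * q * q) q hA (V20 A (M * q * q)) (const_mem20 A (M * q * q))
  have hπ₂ : (V11o A q M B k hB hq).valuation (pi11 A q M) < 1 :=
    val_pi11_lt_one A q M B k hB hq hA
  have hQ₃ : (V02o A q M B k hB).valuation ((q : ℕ) : ↥(L0 A (M * q * q))) < 1 :=
    val_res_natCast_lt_one A (M * q * q) q hA (V02 A (M * q * q) q M B k (lvl q M) hB)
      (const_mem02 A (M * q * q) q M B k (lvl q M) hB)
  obtain ⟨t₂, ht₂⟩ := Fermat.Agent.S36.NU.H51.exists_t11 A q M B k hB hq hqM hA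
  obtain ⟨t₃, ht₃⟩ := Fermat.Agent.S36.NU.H51.exists_t02 A q M B k hB hq hqM hA
  -- the constant
  obtain ⟨m, hm⟩ := valuation_Kur A hq hA c hcfix hc0
  have hc₁ : (V20o A q M).valuation
      (⟨algebraMap Kbar (FN (M * q * q)) c, hcL⟩ : ↥(L0 A (M * q * q)))
      = (V20o A q M).valuation ((q : ℕ) : ↥(L0 A (M * q * q))) ^ m :=
    val_res_const A (M * q * q) q (V20 A (M * q * q)) (const_mem20 A (M * q * q)) c m hm hcL
  have hc₂ : (V11o A q M B k hB hq).valuation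
      (⟨algebraMap Kbar (FN (M * q * q)) c, hcL⟩ : ↥(L0 A (M * q * q)))
      = (V11o A q M B k hB hq).valuation ((q : ℕ) : ↥(L0 A (M * q * q))) ^ m :=
    val_res_const A (M * q * q) q (V11 A (M * q * q) q M B k (lvl q M) hB hq)
      (const_mem11 A (M * q * q) q M B k (lvl q M) hB hq) c m hm hcL
  have hc₃ : (V02o A q M B k hB).valuation
      (⟨algebraMap Kbar (FN (M * q * q)) c, hcL⟩ : ↥(L0 A (M * q * q)))
      = (V02o A q M B k hB).valuation ((q : ℕ) : ↥(L0 A (M * q * q))) ^ m :=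
    val_res_const A (M * q * q) q (V02 A (M * q * q) q M B k (lvl q M) hB)
      (const_mem02 A (M * q * q) q M B k (lvl q M) hB) c m hm hcL
  -- Bezout
  obtain ⟨s', r, hs⟩ := exists_bezout p hp ℓ t₀ (t ℓ) ht₀ hne
  -- the valuation-vector argument
  obtain ⟨m', G, hG0, hv₁, hv₂, hv₃⟩ := unit3_of_eigen (V20o A q M) (V11o A q M B k hB hq)
    (V02o A q M B k hB) ((q : ℕ) : ↥(L0 A (M * q * q))) (pi11 A q M) t₂ t₃ (q - 1)
    (Nat.sub_pos_of_lt hq.one_lt) hQ0 hpi0 hQ₁ hπ₂ hQ₃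
    (Fermat.Agent.S36.NU.H51.exact20 A q M B k hB hq hqM hA)
    (Fermat.Agent.S36.NU.H51.exact11 A q M B k hB hq hqM hA)
    (Fermat.Agent.S36.NU.H51.exact02 A q M B k hB hq hqM hA)
    (Fermat.Agent.S36.NU.H51.hram11' A q M B k hB hq hA) ht₂ ht₃
    (TL A (M * q * q) ℓ) (ℓ + 1) (TL_natCast A (M * q * q) ℓ hℓ hℓN q)
    (TL_unit A (M * q * q) ℓ (V20 A (M * q * q)) (h20 ℓ hℓ hℓN))
    (TL_unit A (M * q * q) ℓ (V11 A (M * q * q) q M B k (lvl q M) hB hq) (h11 ℓ hℓ hℓN))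
    (TL_unit A (M * q * q) ℓ (V02 A (M * q * q) q M B k (lvl q M) hB) (h02 ℓ hℓ hℓN))
    (⟨f, hfL⟩ : ↥(L0 A (M * q * q))) (⟨g, hgL⟩ : ↥(L0 A (M * q * q)))
    (⟨algebraMap Kbar (FN (M * q * q)) c, hcL⟩ : ↥(L0 A (M * q * q))) hfL0 hgL0 t₀ p hrelL m
    hc₁ hc₂ hc₃ s' r hs
  refine ⟨(⟨f, hfL⟩ : ↥(L0 A (M * q * q))) * ((q : ℕ) : ↥(L0 A (M * q * q))) ^ m' * G ^ p, ?_,
    isUnit3_of_val A q M B k hB hq _ hv₁ hv₂ hv₃⟩
  -- the Kummer function
  haveI : HasPrincipalDivisors Kbar (FN (M * q * q)) :=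
    Fermat.Agent.RED.H51.stmt_FFB_principal Kbar (FN (M * q * q))
      (Fermat.Agent.RED.H95.isFF_FN (M * q * q))
  have hG0' : (G : FN (M * q * q)) ≠ 0 := fun h0 => hG0 (Subtype.ext h0)
  obtain ⟨E, hE, hEdeg⟩ :=
    HasPrincipalDivisors.exists_divisor (K := Kbar) (G : FN (M * q * q)) hG0'
  have hE₀ : Pic0.mk (⟨E, hEdeg⟩ : Divisor.degZero (K := Kbar) (F := FN (M * q * q))) = 0 :=
    (Fermat.Agent.GTor.H33.mk_eq_zero_iff _).2 ⟨(G : FN (M * q * q)), hG0', hE⟩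
  refine ⟨D + (⟨E, hEdeg⟩ : Divisor.degZero (K := Kbar) (F := FN (M * q * q))), ?_, ?_⟩
  · rw [Pic0.mk_add, hE₀, add_zero]
    exact hxD
  · intro P
    set c₀ : Kbar := ((q : ℕ) : Kbar) ^ m' with hc₀
    have hq0 : ((q : ℕ) : Kbar) ≠ 0 := Nat.cast_ne_zero.mpr hq.ne_zero
    have hc₀0 : c₀ ≠ 0 := zpow_ne_zero _ hq0
    have hC0 : algebraMap Kbar (FN (M * q * q)) c₀ ≠ 0 :=
      (map_ne_zero (algebraMap Kbar (FN (M * q * q)))).2 hc₀0
    have hcoe : (((⟨f, hfL⟩ : ↥(L0 A (M * q * q))) * ((q : ℕ) : ↥(L0 A (M * q * q))) ^ m'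
        * G ^ p : ↥(L0 A (M * q * q))) : FN (M * q * q))
        = f * algebraMap Kbar (FN (M * q * q)) c₀ * (G : FN (M * q * q)) ^ p := by
      rw [hc₀, map_zpow₀, map_natCast]
      push_cast
      rfl
    rw [hcoe, Place.ord_mul P (mul_ne_zero hf0 hC0) (pow_ne_zero _ hG0'),
      Place.ord_mul P hf0 hC0, Fermat.Agent.RED.H17.ord_pow, Fermat.Agent.RED.H17.ord_algebraMap,
      add_zero, ← hDf P, ← hE P]
    show (p : ℤ) * ((D : Divisor Kbar (FN (M * q * q))) + E) P = _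
    rw [Finsupp.add_apply, mul_add]

end Main

/-- **(E) from NV11** (NV20 and NV02 are proved in `H33_CompEisNV`). -/
theorem stmt_CompEisSq_of (h11 : Stmt_NV11) : Fermat.Agent.S59.LL.SQ.Stmt_CompEisSq := by
  intro p hp hp2 q M B k hB hq _ _ _ _ hqp hqM A hA
  exact compEisSqAt_of_nv A q M B k hB hq hqM hA p hp
    (stmt_NV20 A q M hq hqM hA) (h11 A q M B k hB hq hqM hA) (stmt_NV02 A q M B k hB hq hqM hA)

end Fermat.Agent.S59.LL.SQ.H33
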