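import Fermat.Agent.S43.Old.H35_Abs
import Fermat.Agent.S59.LL.SQ.H33_CompEisDefs

/-!
# S59 / LL / SQ, leaf OLD-RED at `q²` (helper35): abstract steps

* `isVU_iff_val` : units of a valuation ring are the elements of value `1`;
* `val_eq_one_of_pow` : value groups are torsion-free;
* `eig_of_rel` : the last step of the eigen-transfer: if `p D' = div g` and
  `N_α' (β' g) · g ^ b = c · g ^ a · h ^ p` then `T' D' - (a - b) D' = div h`.
-/

set_option autoImplicit false
set_option linter.style.haveILetI false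
set_option linter.unusedSectionVars false
set_option synthInstance.maxHeartbeats 400000
set_option maxHeartbeats 1000000

noncomputable section

open AlgebraicCurve Fermat.Agent.RED.H17 Fermat.Agent.S43.Old.H35

namespace Fermat.Agent.S59.LL.SQ.H35

section Val

variable {F : Type} [Field F] (V : ValuationSubring F)

theorem isVU_iff_val (x : F) : H33.IsVU V x ↔ V.valuation x = 1 := by
  constructor
  · rintro ⟨hx0, hx, hx'⟩
    have h1 : V.valuation x ≤ 1 := (ValuationSubring.valuation_le_one_iff _ _).2 hx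
    have h2 : V.valuation x⁻¹ ≤ 1 := (ValuationSubring.valuation_le_one_iff _ _).2 hx'
    rw [map_inv₀] at h2
    have h0 : V.valuation x ≠ 0 := (Valuation.ne_zero_iff _).2 hx0
    exact le_antisymm h1 ((inv_le_one₀ (zero_lt_iff.2 h0)).1 h2)
  · intro h
    have hx0 : x ≠ 0 := by
      rintro rfl
      rw [map_zero] at h
      exact zero_ne_one h
    refine ⟨hx0, (ValuationSubring.valuation_le_one_iff _ _).1 h.le, ?_⟩
    rw [← ValuationSubring.valuation_le_one_iff, map_inv₀, h, inv_one]

theorem val_eq_one_of_pow (x : F) (n : ℕ) (hn : n ≠ 0) (h : V.valuation x ^ n = 1) :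
    V.valuation x = 1 := by
  rcases lt_trichotomy (V.valuation x) 1 with h1 | h1 | h1
  · exfalso
    have := (pow_lt_one_iff hn).2 h1
    rw [h] at this
    exact lt_irrefl _ this
  · exact h1
  · exfalso
    have := one_lt_pow₀ h1 hn
    rw [h] at this
    exact lt_irrefl _ this

theorem val_one_mem {x : F} (h : V.valuation x = 1) : x ∈ V :=
  (ValuationSubring.valuation_le_one_iff _ _).1 h.le

theorem val_one_ne_zero {x : F} (h : V.valuation x = 1) : x ≠ 0 := by
  rintro rfl
  rw [map_zero] at h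
  exact zero_ne_one h

theorem val_one_isUnit {x : F} (h : V.valuation x = 1) (hx : x ∈ V) : IsUnit (⟨x, hx⟩ : ↥V) :=
  (ValuationSubring.valuation_eq_one_iff V ⟨x, hx⟩).2 h

theorem val_one_of_isUnit (x : ↥V) (h : IsUnit x) : V.valuation (x : F) = 1 :=
  (ValuationSubring.valuation_eq_one_iff V x).1 h

end Val

section Eig

variable {k F' F'' : Type*} [Field k] [Field F'] [Field F''] [Algebra k F'] [Algebra k F'']

/-- **The last step of the eigen-transfer.** -/
theorem eig_of_rel (α' β' : F' →ₐ[k] F'') (hα' : α'.toRingHom.IsIntegral)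
    (hβ' : β'.toRingHom.IsIntegral) [HasPrincipalDivisors k F''] (hfin' : FiniteAlong k α')
    (hNF' : NormFormulaAlong k α' hfin') (p : ℕ) (hp : p ≠ 0) (a b : ℕ)
    (D' : Divisor k F') (g : F') (hg : g ≠ 0)
    (hD' : ∀ Q : Place k F', (p : ℤ) * D' Q = Q.ord g)
    (c' : k) (hc' : c' ≠ 0) (h1 : F') (hh1 : h1 ≠ 0)
    (hrel : normAlong α' (β' g) * g ^ b = algebraMap k F' c' * (g ^ a * h1 ^ p)) :
    (Divisor.correspondence β' α' hβ' hα' D' - ((a : ℤ) - (b : ℤ)) • D').IsPrincipal := by
  have hpZ : (p : ℤ) ≠ 0 := by exact_mod_cast hp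
  have hβ'g : β' g ≠ 0 := by
    intro h0
    exact hg (β'.toRingHom.injective (by simpa using h0))
  have hnf0 : normAlong α' (β' g) ≠ 0 := normAlong_ne_zero α' hfin' hβ'g
  refine ⟨h1, hh1, fun Q => ?_⟩
  have hQ1 : Q.ord (normAlong α' (β' g)) = (p : ℤ) * Divisor.correspondence β' α' hβ' hα' D' Q :=
    (corr_ord β' α' hβ' hα' hfin' hNF' (p : ℤ) D' hg hD' Q).symm
  have hQ2 := congrArg Q.ord hrel
  rw [ord_algebraMap_mul Q hc', Q.ord_mul hnf0 (pow_ne_zero _ hg),
    Q.ord_mul (pow_ne_zero _ hg) (pow_ne_zero _ hh1), ord_pow, ord_pow, ord_pow, hQ1,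
    ← hD' Q] at hQ2
  rw [Finsupp.sub_apply, Finsupp.smul_apply, smul_eq_mul]
  have h5 : (p : ℤ) * (Divisor.correspondence β' α' hβ' hα' D' Q
      - ((a : ℤ) - (b : ℤ)) * D' Q) = (p : ℤ) * Q.ord h1 := by
    linear_combination hQ2
  exact mul_left_cancel₀ hpZ h5

end Eig

end Fermat.Agent.S59.LL.SQ.H35
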