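import Fermat.Agent.S59.LL.SQ.H40_Pull
import Fermat.Agent.RED.H17_LiftMove

/-!
# S59 / LL / SQ, leaf (T′), step S8 KUM-SPAN (helper35): from the Kummer relation to the span

Level `N = M q²`, `α, β : F_{Mq} → F_N` the two degeneracy maps.

* `exists_div_root` : a function whose divisor is divisible by `n ≠ 0` gives a class `y` with
  `n • y = 0` and `n • D_y = div f`;
* `kum_span_abs` : if `p D = div H` and `H ^ m s ^ n = c φ(f) ψ(f')` with `n = m p`, `n ∣ div f`,
  `n ∣ div f'`, then `[D] = φ^* y + ψ^* y'` with `n • y = n • y' = 0` (generic);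
* `kum_span` : the modular case, `x = α^* y + β^* y'` (helper58's statement).
-/

set_option autoImplicit false
set_option linter.style.haveILetI false
set_option linter.unusedSectionVars false
set_option linter.unusedVariables false
set_option synthInstance.maxHeartbeats 400000
set_option maxHeartbeats 1000000

noncomputable section

open AlgebraicCurve ModularCurve
open Fermat.Agent.S24 Fermat.Agent.RED.H17 Fermat.Agent.S36.H44

namespace Fermat.Agent.S59.LL.SQ.H35

section Generic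

variable {K F F' : Type*} [Field K] [Field F] [Field F'] [Algebra K F] [Algebra K F']

/-- A function whose divisor is divisible by `n ≠ 0` is the Kummer function of a divisor of
degree `0`. -/
theorem exists_div_root [HasPrincipalDivisors K F] (n : ℕ) (hn : n ≠ 0) (f : F) (hf0 : f ≠ 0)
    (hf : ∀ Q : Place K F, (n : ℤ) ∣ Q.ord f) :
    ∃ Df : Divisor.degZero (K := K) (F := F),
      (∀ Q : Place K F, (n : ℤ) * (Df : Divisor K F) Q = Q.ord f) ∧
      n • (Pic0.mk Df) = 0 := by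
  have hnZ : (n : ℤ) ≠ 0 := by exact_mod_cast hn
  obtain ⟨Dg, hDg, hDg0⟩ := HasPrincipalDivisors.exists_divisor (K := K) f hf0
  set D₁ : Divisor K F := Finsupp.mapRange (fun a : ℤ => a / (n : ℤ)) (by simp) Dg with hD₁
  have hD₁Q : ∀ Q : Place K F, (n : ℤ) * D₁ Q = Q.ord f := by
    intro Q
    rw [hD₁, Finsupp.mapRange_apply, hDg Q]
    exact Int.mul_ediv_cancel' (hf Q)
  have hnD₁ : (n : ℤ) • D₁ = Dg := by
    ext Q
    rw [Finsupp.smul_apply, smul_eq_mul, hD₁Q Q, hDg Q]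
  have hdeg : Divisor.degree D₁ = 0 := by
    have h2 : (n : ℤ) • Divisor.degree D₁ = 0 := by rw [← map_zsmul, hnD₁, hDg0]
    rcases smul_eq_zero.mp h2 with h | h
    · exact absurd h hnZ
    · exact h
  refine ⟨⟨D₁, hdeg⟩, hD₁Q, ?_⟩
  have h1 : n • (Pic0.mk (⟨D₁, hdeg⟩ : Divisor.degZero (K := K) (F := F)))
      = Pic0.mk (n • (⟨D₁, hdeg⟩ : Divisor.degZero (K := K) (F := F))) := rfl
  rw [h1]
  refine (QuotientAddGroup.eq_zero_iff _).mpr ?_
  rw [AddSubgroup.mem_addSubgroupOf]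
  refine ⟨f, hf0, fun Q => ?_⟩
  have h2 : ((n • (⟨D₁, hdeg⟩ : Divisor.degZero (K := K) (F := F)) :
      Divisor.degZero (K := K) (F := F)) : Divisor K F) = n • D₁ := rfl
  rw [h2, Finsupp.smul_apply, nsmul_eq_mul, hD₁Q Q]

variable [HasPrincipalDivisors K F] [HasPrincipalDivisors K F']

/-- **KUM-SPAN (generic).** -/
theorem kum_span_abs (φ ψ : F →ₐ[K] F') (hφ : φ.toRingHom.IsIntegral)
    (hψ : ψ.toRingHom.IsIntegral) (hFIφ : FundamentalIdentityAlong K φ hφ)
    (hFIψ : FundamentalIdentityAlong K ψ hψ)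
    (n m p : ℕ) (hn : n ≠ 0) (hnm : n = m * p)
    (D : Divisor.degZero (K := K) (F := F')) (H : F')
    (hH : ∀ P : Place K F', (p : ℤ) * (D : Divisor K F') P = P.ord H)
    (f f' : F) (hf0 : f ≠ 0) (hf'0 : f' ≠ 0)
    (hf : ∀ Q : Place K F, (n : ℤ) ∣ Q.ord f) (hf' : ∀ Q : Place K F, (n : ℤ) ∣ Q.ord f')
    (s : F') (hs : s ≠ 0) (c : K) (hc : c ≠ 0)
    (heq : H ^ m * s ^ n = algebraMap K F' c * (φ f * ψ f')) :
    ∃ y y' : Pic0 K F, n • y = 0 ∧ n • y' = 0 ∧
      Pic0.mk D = H40.pic0Pull φ hφ hFIφ y + H40.pic0Pull ψ hψ hFIψ y' := by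
  have hnZ : (n : ℤ) ≠ 0 := by exact_mod_cast hn
  obtain ⟨Df, hDf, hy⟩ := exists_div_root (K := K) n hn f hf0 hf
  obtain ⟨Df', hDf', hy'⟩ := exists_div_root (K := K) n hn f' hf'0 hf'
  refine ⟨Pic0.mk Df, Pic0.mk Df', hy, hy', ?_⟩
  rw [H40.pic0Pull_mk, H40.pic0Pull_mk, ← Pic0.mk_add]
  refine (QuotientAddGroup.eq (s := (Divisor.principal (K := K) (F := F')).addSubgroupOf
    (Divisor.degZero (K := K) (F := F')))).mpr ?_
  rw [AddSubgroup.mem_addSubgroupOf]
  -- non-vanishing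
  have hφf : φ f ≠ 0 := fun h0 => hf0 (φ.toRingHom.injective (by simpa using h0))
  have hψf : ψ f' ≠ 0 := fun h0 => hf'0 (ψ.toRingHom.injective (by simpa using h0))
  have hR0 : algebraMap K F' c * (φ f * ψ f') ≠ 0 :=
    mul_ne_zero ((map_ne_zero_iff _ (algebraMap K F').injective).mpr hc) (mul_ne_zero hφf hψf)
  have hHm0 : H ^ m ≠ 0 := by
    intro h0
    rw [h0, zero_mul] at heq
    exact hR0 heq.symm
  -- the orders
  have hφord : ∀ w : Place K F', (n : ℤ) * Divisor.pullbackAlong φ hφ (Df : Divisor K F) w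
      = w.ord (φ f) := by
    intro w
    have h1 : ∀ v : Place K F, ((n : ℤ) • (Df : Divisor K F)) v = v.ord f := fun v => by
      rw [Finsupp.smul_apply, smul_eq_mul, hDf v]
    have h2 := H40.pullbackAlong_ord φ hφ ((n : ℤ) • (Df : Divisor K F)) h1 w
    rw [map_zsmul, Finsupp.smul_apply, smul_eq_mul] at h2
    exact h2
  have hψord : ∀ w : Place K F', (n : ℤ) * Divisor.pullbackAlong ψ hψ (Df' : Divisor K F) w
      = w.ord (ψ f') := by
    intro w
    have h1 : ∀ v : Place K F, ((n : ℤ) • (Df' : Divisor K F)) v = v.ord f' := fun v => by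
      rw [Finsupp.smul_apply, smul_eq_mul, hDf' v]
    have h2 := H40.pullbackAlong_ord ψ hψ ((n : ℤ) • (Df' : Divisor K F)) h1 w
    rw [map_zsmul, Finsupp.smul_apply, smul_eq_mul] at h2
    exact h2
  refine ⟨s, hs, fun w => ?_⟩
  have hw := congrArg w.ord heq
  rw [w.ord_mul hHm0 (pow_ne_zero _ hs), ord_pow, ord_pow, ord_algebraMap_mul w hc,
    w.ord_mul hφf hψf, ← hH w, ← hφord w, ← hψord w] at hw
  have hnm' : (n : ℤ) = (m : ℤ) * (p : ℤ) := by exact_mod_cast hnm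
  have hcoe : ((-D + (H40.degZeroPull φ hφ hFIφ Df + H40.degZeroPull ψ hψ hFIψ Df') :
      Divisor.degZero (K := K) (F := F')) : Divisor K F') w
      = -((D : Divisor K F') w) + (Divisor.pullbackAlong φ hφ (Df : Divisor K F) w
        + Divisor.pullbackAlong ψ hψ (Df' : Divisor K F) w) := rfl
  rw [hcoe]
  have h5 : (n : ℤ) * (-((D : Divisor K F') w) + (Divisor.pullbackAlong φ hφ (Df : Divisor K F) w
        + Divisor.pullbackAlong ψ hψ (Df' : Divisor K F) w)) = (n : ℤ) * w.ord s := by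
    rw [hnm'] at hw ⊢
    linear_combination -hw
  exact mul_left_cancel₀ hnZ h5

end Generic

section Modular

variable (M q : ℕ) [NeZero M] [NeZero q] [NeZero (M * q)] [NeZero (M * q * q)]

/-- **KUM-SPAN** (step S8 of (T′)): the Kummer relation `H ^ (p^(e-1)) s ^ (p^e) = c α(f) β(f')`
gives `x = α^* y + β^* y'` with `p^e`-torsion points `y`, `y'` of level `M q`. -/
theorem kum_span (p e : ℕ) (hp : p ≠ 0) (he : 0 < e) (x : JZero (M * q * q))
    (D : Divisor.degZero (K := Kbar) (F := FN (M * q * q))) (hx : x = Pic0.mk D)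
    (H : FN (M * q * q))
    (hH : ∀ P : Place Kbar (FN (M * q * q)),
      (p : ℤ) * (D : Divisor Kbar (FN (M * q * q))) P = P.ord H)
    (f f' : FN (M * q)) (hf0 : f ≠ 0) (hf'0 : f' ≠ 0)
    (hf : ∀ Q : Place Kbar (FN (M * q)), ((p ^ e : ℕ) : ℤ) ∣ Q.ord f)
    (hf' : ∀ Q : Place Kbar (FN (M * q)), ((p ^ e : ℕ) : ℤ) ∣ Q.ord f')
    (s : FN (M * q * q)) (hs : s ≠ 0) (c : Kbar) (hc : c ≠ 0)
    (heq : H ^ (p ^ (e - 1)) * s ^ (p ^ e)
      = algebraMap Kbar (FN (M * q * q)) c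
        * (heckeAlphaBar Kbar (M * q) q f * heckeBetaBar Kbar (M * q) q f')) :
    ∃ (y y' : JZero (M * q)), (p ^ e) • y = 0 ∧ (p ^ e) • y' = 0 ∧
      x = H40.alphaPull (M * q) q y + H40.betaPull (M * q) q y' := by
  haveI := H40.hasPD_FN (M * q)
  haveI := H40.hasPD_FN (M * q * q)
  have hnm : p ^ e = p ^ (e - 1) * p := by
    rw [← pow_succ, Nat.sub_add_cancel he]
  obtain ⟨y, y', hy, hy', hxy⟩ := kum_span_abs (K := Kbar) (heckeAlphaBar Kbar (M * q) q)
    (heckeBetaBar Kbar (M * q) q) (alpha_integral (M * q) q) (beta_integral (M * q) q)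
    (H40.alpha_FI (M * q) q) (H40.beta_FI (M * q) q) (p ^ e) (p ^ (e - 1)) p
    (pow_ne_zero e hp) hnm D H hH f f' hf0 hf'0 hf hf' s hs c hc heq
  exact ⟨y, y', hy, hy', hx.trans hxy⟩

end Modular

end Fermat.Agent.S59.LL.SQ.H35
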