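import Fermat.Agent.S36.NU.H23_Mod3
import Fermat.Agent.S36.NU.H26_DivNormL0
import Fermat.Agent.Tate.T7.H52_Cyc
import Fermat.Agent.BAD.H91_GaussInertia

/-!
# S59 / LL / SQ, leaf OLD-RED at `q²` (helper35): the middle cusp in the Hecke tower

Level `N = M q²`, `q ∤ M`, `ℓ` prime to `N`; `cM` the expansion at the middle cusp of level `N`
(helper88), `cMup` the expansion at the middle cusp of level `N ℓ = (M ℓ) q²`.

* `exists_inertia_pow` : the inertia group of a place over `q` acts on the `q`-th roots of unity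
  through all of `(ℤ/q)ˣ`;
* `cMup_comp_beta` : `cMup ∘ β = (t ↦ t ^ ℓ) ∘ cM`;
* `cMup_alpha_arith` : `cMup (α (σ x)) = σ (cM x)` for `σ` with `σ (ζ ^ B) = ζ ^ B'`;
* `exists_inertia_mid` : such a `σ` exists in the inertia group.
-/

set_option autoImplicit false
set_option linter.style.haveILetI false
set_option linter.unusedSectionVars false
set_option synthInstance.maxHeartbeats 400000
set_option maxHeartbeats 1000000

noncomputable section

open AlgebraicCurve ModularCurve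
open Fermat.Agent.S24 Fermat.Agent.BAD Fermat.Agent.BAD.H88
open Fermat.Agent.S28 Fermat.Agent.S28.H73 Fermat.Agent.RED.H73 Fermat.Agent.RED.H17
open Fermat.Agent.S36.NU.H88 Fermat.Agent.S36.NU.H23

namespace Fermat.Agent.S59.LL.SQ.H35

section Cyclo

/-- The inertia group of a place over `q` acts on the `q`-th roots of unity through all of
`(ℤ/q)ˣ`. -/
theorem exists_inertia_pow (A : ValuationSubring Kbar) (q : ℕ) (hq : q.Prime)
    (hA : A.LiesOverPrime q) (m : ℕ) (hm : m.Coprime q) :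
    ∃ σ ∈ A.inertiaSubgroupIn ℚ, ∀ μ : Kbar, μ ^ q = 1 → σ μ = μ ^ m :=
  Fermat.Agent.Tate.T7.H52.stmt_CYC q hq A hA m
    ((Nat.Prime.coprime_iff_not_dvd hq).1 hm.symm)

end Cyclo

section MidTower

variable (q M ℓ : ℕ) (B k B' k' : ℤ) (hB : B * M + k * q = 1)
  (hB' : B' * ((M * ℓ : ℕ) : ℤ) + k' * q = 1) (hq : q.Prime)
  [NeZero M] [NeZero q] [NeZero ℓ] [NeZero (M * q * q)] [NeZero (M * q * q * ℓ)]

omit [NeZero M] [NeZero q] [NeZero ℓ] [NeZero (M * q * q)] [NeZero (M * q * q * ℓ)] in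
theorem lvlUp : M * q * q * ℓ = M * ℓ * (q * q) := by ring

omit [NeZero M] [NeZero q] [NeZero ℓ] [NeZero (M * q * q)] [NeZero (M * q * q * ℓ)] in
/-- The two Bezout relations are compatible. -/
theorem bez_rel (hB : B * M + k * q = 1) (hB' : B' * ((M * ℓ : ℕ) : ℤ) + k' * q = 1) :
    B' * ℓ = B + q * (B' * ℓ * k - B * k') := by
  push_cast at hB'
  linear_combination (-(B' * ℓ)) * hB + B * hB'

omit [NeZero M] [NeZero ℓ] [NeZero (M * q * q)] [NeZero (M * q * q * ℓ)] in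
/-- `z' ^ ℓ = z` for the roots of unity of the two middle cusps. -/
theorem zMid_up_pow (hB : B * M + k * q = 1) (hB' : B' * ((M * ℓ : ℕ) : ℤ) + k' * q = 1) :
    (zetaK q ^ B') ^ ℓ = zetaK q ^ B := by
  have hζ := (isPrimitiveRoot_zetaK q).pow_eq_one
  rw [← zpow_natCast, ← zpow_mul, bez_rel q M ℓ B k B' k' hB hB',
    zpow_add₀ (zetaK_ne_zero q), zpow_mul, zpow_natCast, hζ, one_zpow, mul_one]

include hB' hq

/-- The expansion at the middle cusp of level `M q² ℓ`. -/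
abbrev cMup : FN (M * q * q * ℓ) →ₐ[Kbar] LaurentSeries Kbar :=
  cMid (M * q * q * ℓ) q (M * ℓ) B' k' (lvlUp q M ℓ) hB' hq

theorem cMup_jdF1 (D d d' : ℕ) (hD : D = d) (hM : M * ℓ = d * d') [NeZero D]
    (h : D ∣ M * q * q * ℓ) :
    cMup q M ℓ B' k' hB' hq (jdF (M * q * q * ℓ) D h) = qExpand Kbar D jBar := by
  subst hD
  exact cMid_jdF1 _ q (M * ℓ) B' k' _ hB' hq D d' hM h

theorem cMup_jdF2 (D d d' : ℕ) (hD : D = d * q) (hM : M * ℓ = d * d') [NeZero D]
    (h : D ∣ M * q * q * ℓ) :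
    cMup q M ℓ B' k' hB' hq (jdF (M * q * q * ℓ) D h) = qExpand Kbar D jBar := by
  subst hD
  exact cMid_jdF2 _ q (M * ℓ) B' k' _ hB' hq d d' hM h

theorem cMup_jdF3 (D d d' : ℕ) (hD : D = d * (q * q)) (hM : M * ℓ = d * d') [NeZero D]
    [NeZero d] (h : D ∣ M * q * q * ℓ) :
    cMup q M ℓ B' k' hB' hq (jdF (M * q * q * ℓ) D h)
      = twist (zetaK q ^ B') (qExpand Kbar d jBar) := by
  subst hD
  exact cMid_jdF3 _ q (M * ℓ) B' k' _ hB' hq d d' hM h

include hB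

/-- **`cMup ∘ β = (t ↦ t ^ ℓ) ∘ cM`.** -/
theorem cMup_comp_beta :
    (cMup q M ℓ B' k' hB' hq).comp (heckeBetaBar Kbar (M * q * q) ℓ)
      = (qExpandAlgHomC Kbar ℓ).comp (cM q M B k hB hq) := by
  apply algHom_ext_of_adjoin _ (adjoin_jdF (M * q * q))
  rintro x ⟨D, hD0, hD, rfl⟩
  have hℓ0 : 0 < ℓ := Nat.pos_of_ne_zero (NeZero.ne ℓ)
  haveI : NeZero (D * ℓ) := ⟨(Nat.mul_pos (Nat.pos_of_ne_zero (NeZero.ne D)) hℓ0).ne'⟩
  rw [AlgHom.comp_apply, AlgHom.comp_apply, beta_jdF, qExpandAlgHomC_apply]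
  obtain ⟨d, d', hM, h | h | h⟩ := mid_dvd_cases (M * q * q) q M B k (lvl q M) hB hq D hD
  · rw [cMup_jdF1 q M ℓ B' k' hB' hq (D * ℓ) (D * ℓ) d' rfl (by rw [hM, h]; ring) _,
      cM_jdF1 q M B k hB hq D d d' h hM hD, qExpand_qExpand]
    exact qExpand_congr (mul_comm D ℓ) _
  · rw [cMup_jdF2 q M ℓ B' k' hB' hq (D * ℓ) (d * ℓ) d' (by rw [h]; ring) (by rw [hM]; ring) _,
      cM_jdF2 q M B k hB hq D d d' h hM hD, qExpand_qExpand]
    exact qExpand_congr (mul_comm D ℓ) _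
  · have hd0 : 0 < d := by
      rcases Nat.eq_zero_or_pos d with h0 | h0
      · exfalso
        apply NeZero.ne D
        rw [h, h0, zero_mul]
      · exact h0
    haveI : NeZero d := ⟨hd0.ne'⟩
    haveI : NeZero (d * ℓ) := ⟨(Nat.mul_pos hd0 hℓ0).ne'⟩
    rw [cMup_jdF3 q M ℓ B' k' hB' hq (D * ℓ) (d * ℓ) d' (by rw [h]; ring) (by rw [hM]; ring) _,
      cM_jdF3 q M B k hB hq D d d' h hM hD, twist_qExpand, twist_qExpand, qExpand_qExpand]
    have e : (zetaK q ^ B') ^ ((d * ℓ : ℕ) : ℤ) = (zetaK q ^ B) ^ ((d : ℕ) : ℤ) := by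
      rw [zpow_natCast, zpow_natCast, mul_comm d ℓ, pow_mul,
        zMid_up_pow q M ℓ B k B' k' hB hB']
    rw [e]
    exact qExpand_congr (mul_comm d ℓ) _

theorem cMup_beta (x : FN (M * q * q)) :
    cMup q M ℓ B' k' hB' hq (heckeBetaBar Kbar (M * q * q) ℓ x)
      = qExpand Kbar ℓ (cM q M B k hB hq x) :=
  congrArg (fun f : FN (M * q * q) →ₐ[Kbar] LaurentSeries Kbar => f x)
    (cMup_comp_beta q M ℓ B k B' k' hB hB' hq)

/-- **`cMup (α (σ x)) = σ (cM x)`** for `σ` with `σ (ζ ^ B) = ζ ^ B'`. -/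
theorem cMup_alpha_arith (σ : Kbar ≃ₐ[ℚ] Kbar) (hσ : σ (zetaK q ^ B) = zetaK q ^ B')
    (x : FN (M * q * q)) :
    cMup q M ℓ B' k' hB' hq (heckeAlphaBar Kbar (M * q * q) ℓ
        (arithmeticRingAut (modularFunctionFieldFull (M * q * q)) σ x))
      = coeffMap (σ : Kbar →+* Kbar) (cM q M B k hB hq x) := by
  have hx : x ∈ IntermediateField.adjoin Kbar
      {x : FN (M * q * q) | ∃ (d : ℕ) (_ : NeZero d) (hd : d ∣ M * q * q),
        x = jdF (M * q * q) d hd} := by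
    rw [adjoin_jdF]; exact IntermediateField.mem_top
  induction hx using IntermediateField.adjoin_induction with
  | mem y hy =>
    obtain ⟨D, hD0, hD, rfl⟩ := hy
    rw [arith_jdF, alpha_jdF]
    obtain ⟨d, d', hM, h | h | h⟩ := mid_dvd_cases (M * q * q) q M B k (lvl q M) hB hq D hD
    · rw [cMup_jdF1 q M ℓ B' k' hB' hq D d (d' * ℓ) h (by rw [hM]; ring) _,
        cM_jdF1 q M B k hB hq D d d' h hM hD, qExpand_jBar, coeffMap_coeffEmb]
    · rw [cMup_jdF2 q M ℓ B' k' hB' hq D d (d' * ℓ) h (by rw [hM]; ring) _,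
        cM_jdF2 q M B k hB hq D d d' h hM hD, qExpand_jBar, coeffMap_coeffEmb]
    · have hd0 : 0 < d := by
        rcases Nat.eq_zero_or_pos d with h0 | h0
        · exfalso
          apply NeZero.ne D
          rw [h, h0, zero_mul]
        · exact h0
      haveI : NeZero d := ⟨hd0.ne'⟩
      rw [cMup_jdF3 q M ℓ B' k' hB' hq D d (d' * ℓ) h (by rw [hM]; ring) _,
        cM_jdF3 q M B k hB hq D d d' h hM hD, coeffMap_twist, qExpand_jBar, coeffMap_coeffEmb]
      congr 1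
      exact hσ.symm
  | algebraMap c =>
    rw [arithmeticRingAut_algebraMap, AlgHom.commutes, AlgHom.commutes, AlgHom.commutes,
      coeffMap_algebraMap]
    rfl
  | add y z _ _ hy hz => rw [map_add, map_add, map_add, map_add, map_add, hy, hz]
  | inv y _ hy => rw [map_inv₀, map_inv₀, map_inv₀, map_inv₀, map_inv₀, hy]
  | mul y z _ _ hy hz => rw [map_mul, map_mul, map_mul, map_mul, map_mul, hy, hz]

end MidTower

end Fermat.Agent.S59.LL.SQ.H35
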