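import Fermat.Agent.S59.LL.SQ.H35_MidRed
import Fermat.Agent.S43.CompEis.H57_Desc
import Fermat.Agent.S36.NU.H82_Val0
import Fermat.Agent.RED.H95_IsFF

/-!
# S59 / LL / SQ, leaf U3 REG-UP (helper94)

Level `N = M q²`, `q ∤ M`, `ℓ ≠ q` prime, `A` a valuation ring of `ℚ̄` over `q`.

* `Reg11 … p U` : **REG at `V₁₁`** (R1), for a level `N = M' q²` given up to equality (helper35's
  `V11g`, `r11g`) and relative to a condition `U` on the inertia-fixed functions (in the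
  application `U = IsUnit3`): if `p` divides all the orders of `h ∈ L0 A N` and `U h`, then `p`
  divides all the orders of the reduction `r₁₁ h` on the reduced field `Ft A M'`;
* `reg11_up` : `Reg11` at the level `(M ℓ) q²` implies `Reg11` at the level `M q²`, if
  `[F~_{M ℓ} : F~_M] < p` and `U h → U' (α h)`;
* `reg11_up_of_lt` : the same for `ℓ + 1 < p`.

[`H35.alpha_mem_V11_iff`, `H35.red_alpha` (the reduction of `α h` is that of `h`),
`Place.ord_restrictAlong`, and the descent `S43.CompEis.H57.dvd_ord_intermediate`.]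

No `sorry`.
-/

set_option autoImplicit false
set_option linter.style.haveILetI false
set_option linter.unusedSectionVars false
set_option synthInstance.maxHeartbeats 400000
set_option maxHeartbeats 1000000

noncomputable section

open AlgebraicCurve ModularCurve
open Fermat.Agent.S24 Fermat.Agent.BAD Fermat.Agent.BAD.H88
open Fermat.Agent.S28 Fermat.Agent.S28.H73 Fermat.Agent.RED.H73 Fermat.Agent.RED.H17
open Fermat.Agent.S36.NU.H88 Fermat.Agent.S36.NU.H23 Fermat.Agent.S36.NU.H26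
open Fermat.Agent.S43.Old.H35 Fermat.Agent.Lib.HeckeComm

namespace Fermat.Agent.S59.LL.SQ.H94

open Fermat.Agent.S59.LL.SQ.H35

section Def

variable (A : ValuationSubring Kbar) (N q M' : ℕ) (B' k' : ℤ) (hN : N = M' * (q * q))
  (hB' : B' * M' + k' * q = 1) (hq : q.Prime) [NeZero N] [NeZero q] [NeZero M']
  (hqM' : ¬ q ∣ M') (hA : A.LiesOverPrime q) (hN2 : N = M' * q * q)

/-- **REG at `V₁₁`**, relative to a condition `U`. -/
def Reg11 (p : ℕ) (U : ↥(L0 A N) → Prop) : Prop :=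
  ∀ h : ↥(L0 A N),
    (∀ P : Place Kbar ↥(modularFunctionFieldBar N), (p : ℤ) ∣ P.ord (h : FN N)) → U h →
    ∀ h11 : h ∈ V11g A N q M' B' k' hN hB' hq,
    ∀ Q : Place (kV A) ↥(Ft A M'),
      (p : ℤ) ∣ Q.ord (r11g A N q M' B' k' hN hB' hq hqM' hA hN2 ⟨h, h11⟩)

end Def

section Up

variable (A : ValuationSubring Kbar) (q M ℓ : ℕ) (B k B' k' : ℤ) (hB : B * M + k * q = 1)
  (hB' : B' * ((M * ℓ : ℕ) : ℤ) + k' * q = 1) (hq : q.Prime)
  [NeZero M] [NeZero q] [NeZero ℓ] [NeZero (M * q * q)] [NeZero (M * q * q * ℓ)]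
  [NeZero (M * ℓ)]
  (hqM : ¬ q ∣ M) (hqMℓ : ¬ q ∣ M * ℓ) (hA : A.LiesOverPrime q)

omit [NeZero M] [NeZero q] [NeZero ℓ] [NeZero (M * q * q)] [NeZero (M * q * q * ℓ)]
  [NeZero (M * ℓ)] in
theorem lvlUp2 : M * q * q * ℓ = M * ℓ * q * q := by ring

/-- `α h` as an element of `L0`. -/
def alphaL0 (h : ↥(L0 A (M * q * q))) : ↥(L0 A (M * q * q * ℓ)) :=
  ⟨heckeAlphaBar Kbar (M * q * q) ℓ (h : FN (M * q * q)),
    Fermat.Agent.S36.NU.H82.alpha_mem_L0 A (M * q * q) ℓ _ h.2⟩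

/-- **REG-UP.** -/
theorem reg11_up (hℓq : Nat.Coprime ℓ q) (p : ℕ) (hp : p.Prime)
    (hdeg : (Ft A M).relfinrank (Ft A (M * ℓ)) < p)
    (U : ↥(L0 A (M * q * q)) → Prop) (U' : ↥(L0 A (M * q * q * ℓ)) → Prop)
    (hU : ∀ h : ↥(L0 A (M * q * q)), U h → U' (alphaL0 A q M ℓ h))
    (hup : Reg11 A (M * q * q * ℓ) q (M * ℓ) B' k' (lvlUp q M ℓ) hB' hq hqMℓ hA
      (lvlUp2 q M ℓ) p U') :
    Reg11 A (M * q * q) q M B k (lvl q M) hB hq hqM hA rfl p U := by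
  intro h hord hUh h11 Q
  haveI : IsAlgClosed (kV A) := isAlgClosed_kV A
  have hE : Fermat.Agent.RED.IsFF Kbar (FN (M * q * q)) := Fermat.Agent.RED.H95.isFF_FN _
  have hL : Fermat.Agent.RED.IsFF Kbar (FN (M * q * q * ℓ)) := Fermat.Agent.RED.H95.isFF_FN _
  -- the orders of `α h`
  have hord' : ∀ P : Place Kbar ↥(modularFunctionFieldBar (M * q * q * ℓ)),
      (p : ℤ) ∣ P.ord ((alphaL0 A q M ℓ h : ↥(L0 A (M * q * q * ℓ))) : FN (M * q * q * ℓ)) := by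
    intro P
    have h1 := Place.ord_restrictAlong (heckeAlphaBar Kbar (M * q * q) ℓ)
      (Fermat.Agent.NEB.H14.isIntegral_hom hE hL _) P (h : FN (M * q * q))
    show (p : ℤ) ∣ P.ord (heckeAlphaBar Kbar (M * q * q) ℓ (h : FN (M * q * q)))
    rw [h1]
    exact Dvd.dvd.mul_left (hord _) _
  -- `α h ∈ V₁₁`
  have h11c : cM q M B k hB hq (h : FN (M * q * q)) ∈ gaussRingV A := h11
  have h11' : alphaL0 A q M ℓ h ∈ V11g A (M * q * q * ℓ) q (M * ℓ) B' k' (lvlUp q M ℓ) hB' hq :=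
    (alpha_mem_V11_iff A q M ℓ B k B' k' hB hB' hq hA hℓq _ h.2).mpr h11c
  have key := hup (alphaL0 A q M ℓ h) hord' (hU h hUh) h11'
  -- the reductions agree
  have hg : ((r11g A (M * q * q * ℓ) q (M * ℓ) B' k' (lvlUp q M ℓ) hB' hq hqMℓ hA
        (lvlUp2 q M ℓ) ⟨alphaL0 A q M ℓ h, h11'⟩ : ↥(Ft A (M * ℓ))) : LaurentSeries (kV A))
      = ((r11g A (M * q * q) q M B k (lvl q M) hB hq hqM hA rfl ⟨h, h11⟩ : ↥(Ft A M)) :
          LaurentSeries (kV A)) := by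
    rw [coe_r11g, coe_r11g, s11g_mk, s11g_mk]
    exact red_alpha A q M ℓ B k B' k' hB hB' hq hA hℓq _ h.2 h11c h11'
  have hqℓ' : ¬ q ∣ M * ℓ := hqMℓ
  exact Fermat.Agent.S43.CompEis.H57.dvd_ord_intermediate (ft_le A (dvd_mul_right M ℓ))
    (Fermat.Agent.S43.CompEis.H57.isFF_redN_of_not_dvd hq hqM hA)
    (Fermat.Agent.S43.CompEis.H57.isFF_redN_of_not_dvd hq hqℓ' hA) p hp hdeg _ _ hg key Q

/-- **REG-UP** for `ℓ + 1 < p`. -/
theorem reg11_up_of_lt (hℓ : ℓ.Prime) (hℓq : ℓ ≠ q) (p : ℕ) (hp : p.Prime) (hlt : ℓ + 1 < p)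
    (U : ↥(L0 A (M * q * q)) → Prop) (U' : ↥(L0 A (M * q * q * ℓ)) → Prop)
    (hU : ∀ h : ↥(L0 A (M * q * q)), U h → U' (alphaL0 A q M ℓ h))
    (hup : Reg11 A (M * q * q * ℓ) q (M * ℓ) B' k' (lvlUp q M ℓ) hB' hq hqMℓ hA
      (lvlUp2 q M ℓ) p U') :
    Reg11 A (M * q * q) q M B k (lvl q M) hB hq hqM hA rfl p U := by
  have hcop : Nat.Coprime ℓ q := (Nat.coprime_primes hℓ hq).mpr hℓq
  have hdeg := Fermat.Agent.S43.CompEis.H57.relfinrank_redN_le (A := A) (M := M) hq hℓ hℓq hqM hA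
  exact reg11_up A q M ℓ B k B' k' hB hB' hq hqM hqMℓ hA hcop p hp
    (lt_of_le_of_lt hdeg hlt) U U' hU hup

end Up

end Fermat.Agent.S59.LL.SQ.H94
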