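import Fermat.Agent.S59.LL.SQ.H35_RDefs
import Fermat.Agent.S59.LL.SQ.H94_RegUp

/-!
# S59 / LL / SQ, leaf (R) (helper35): REG in helper94's shape gives `Reg11At`

`H94.Reg11` (level given up to equality, divisibility of the orders, a unit predicate `U`) at
`N = M q²`, `U = IsUnit3`, is the hypothesis `Reg11At` of `oldRedSqAt_of`.
-/

set_option autoImplicit false
set_option synthInstance.maxHeartbeats 400000
set_option maxHeartbeats 1000000
set_option linter.unusedSectionVars false
set_option linter.unusedVariables false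
set_option linter.style.haveILetI false

noncomputable section

open ModularCurve AlgebraicCurve
open Fermat.Agent.S24 Fermat.Agent.S28 Fermat.Agent.S28.H73 Fermat.Agent.RED.H73
open Fermat.Agent.RED Fermat.Agent.S36.NU.H23 Fermat.Agent.S36.NU.H88 Fermat.Agent.BAD.H88

namespace Fermat.Agent.S59.LL.SQ.H35

section Bridge

variable (A : ValuationSubring Kbar) (q M : ℕ) (B k : ℤ) (hB : B * M + k * q = 1) (hq : q.Prime)
  [NeZero M] [NeZero q] [NeZero (M * q)] [NeZero (M * q * q)]
  (hqM : ¬ q ∣ M) (hA : A.LiesOverPrime q)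

/-- `r11g` at the level `M q²` is helper23's `r11`. -/
theorem r11g_eq_r11 (x : ↥(V11o A q M B k hB hq)) :
    r11g A (M * q * q) q M B k (lvl q M) hB hq hqM hA rfl x = r11 A q M B k hB hq hqM hA x :=
  rfl

/-- **REG** in helper94's shape gives `Reg11At`. -/
theorem reg11At_of_reg11 (p : ℕ)
    (H : H94.Reg11 A (M * q * q) q M B k (lvl q M) hB hq hqM hA rfl p
      (fun h => SQ.IsUnit3 A q M B k hB hq h)) :
    Reg11At A q M B k hB hq hqM hA p := by
  intro h D hD hU h11 Q
  exact H h (fun P => ⟨D P, (hD P).symm⟩) hU h11 Q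

end Bridge

end Fermat.Agent.S59.LL.SQ.H35
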