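import Fermat.Agent.S36.NU.H26_DivNormL0

/-!
# S59 / LL / SQ, leaf OLD-RED at `q²` (helper35): roots of inertia-fixed functions

`A` a valuation ring of `ℚ̄`, `I` its inertia group, `L0 A N` the functions of level `N` fixed by
`I`.

* `root_L0` : if `G ∈ L0 A N` and `div G = n · div h` (`n ≠ 0`) for a function `h` of level `N`,
  then `G = c · h₀ ^ n` with a constant `c` fixed by `I` and `h₀ ∈ L0 A N` with the divisor of `h`
  (normalisation by the leading coefficient of the `q`-expansion).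
-/

set_option autoImplicit false
set_option linter.style.haveILetI false
set_option linter.unusedSectionVars false
set_option synthInstance.maxHeartbeats 400000
set_option maxHeartbeats 1000000

noncomputable section

open AlgebraicCurve ModularCurve
open Fermat.Agent.S24 Fermat.Agent.BAD Fermat.Agent.BAD.H88
open Fermat.Agent.S36.NU.H23 Fermat.Agent.S36.NU.H26 Fermat.Agent.S36.H44

namespace Fermat.Agent.S59.LL.SQ.H35

/-- **Roots in `L0`.** -/
theorem root_L0 (A : ValuationSubring Kbar) {N : ℕ} [NeZero N] (n : ℕ) (hn : n ≠ 0)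
    (G : FN N) (hG0 : G ≠ 0) (hG : G ∈ L0 A N) (h : FN N) (hh0 : h ≠ 0)
    (hord : ∀ P : Place Kbar (FN N), P.ord G = (n : ℤ) * P.ord h) :
    ∃ (c : Kbar) (h₀ : FN N), c ≠ 0 ∧ (∀ σ ∈ A.inertiaSubgroupIn ℚ, σ c = c) ∧
      h₀ ≠ 0 ∧ h₀ ∈ L0 A N ∧ (∀ P : Place Kbar (FN N), P.ord h₀ = P.ord h) ∧
      G = algebraMap Kbar (FN N) c * h₀ ^ n := by
  have hhn0 : h ^ n ≠ 0 := pow_ne_zero n hh0
  have hu : ∀ P : Place Kbar (FN N), P.ord (G * (h ^ n)⁻¹) = 0 := by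
    intro P
    rw [P.ord_mul hG0 (inv_ne_zero hhn0), P.ord_inv, Fermat.Agent.RED.H17.ord_pow, hord P]
    ring
  obtain ⟨c₁, hc₁⟩ := Fermat.Agent.FL.H2.exists_const_of_ord_eq_zero (isFF_FN N) hu
  have hc₁0 : c₁ ≠ 0 := by
    rintro rfl
    rw [map_zero] at hc₁
    exact mul_ne_zero hG0 (inv_ne_zero hhn0) hc₁.symm
  have hG1 : G = algebraMap Kbar (FN N) c₁ * h ^ n := by
    rw [hc₁, inv_mul_cancel_right₀ hhn0]
  -- normalise `h`
  set a : Kbar := Fermat.Agent.S36.H61.lcQ N h with ha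
  have ha0 : a ≠ 0 := (Fermat.Agent.S36.H61.leadCoeffH N ⊤).lc_ne_zero h hh0
  set h₀ : FN N := algebraMap Kbar (FN N) a⁻¹ * h with hh₀
  have hai0 : algebraMap Kbar (FN N) a⁻¹ ≠ 0 :=
    (map_ne_zero_iff _ (algebraMap Kbar (FN N)).injective).mpr (inv_ne_zero ha0)
  have hh₀0 : h₀ ≠ 0 := mul_ne_zero hai0 hh0
  have hlc : Fermat.Agent.S36.H61.lcQ N h₀ = 1 := by
    rw [hh₀, lcQ_mul', lcQ_algebraMap', ← ha, inv_mul_cancel₀ ha0]
  set c : Kbar := c₁ * a ^ n with hc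
  have hc0 : c ≠ 0 := mul_ne_zero hc₁0 (pow_ne_zero n ha0)
  have hG2 : G = algebraMap Kbar (FN N) c * h₀ ^ n := by
    have h0 : algebraMap Kbar (FN N) (a ^ n) * algebraMap Kbar (FN N) (a⁻¹ ^ n) = 1 := by
      rw [← map_mul, inv_pow, mul_inv_cancel₀ (pow_ne_zero n ha0), map_one]
    rw [hG1, hc, hh₀, mul_pow, map_mul, ← map_pow (algebraMap Kbar (FN N)) a⁻¹ n, mul_assoc,
      ← mul_assoc (algebraMap Kbar (FN N) (a ^ n)), h0, one_mul]
  have hlcG : Fermat.Agent.S36.H61.lcQ N G = c := by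
    rw [hG2, lcQ_mul', lcQ_algebraMap', lcQ_pow', hlc, one_pow, mul_one]
  have hcfix : ∀ σ ∈ A.inertiaSubgroupIn ℚ, σ c = c := by
    intro σ hσ
    rw [← hlcG, ← lcQ_arith, hG σ hσ]
  have hh₀fix : h₀ ∈ L0 A N := by
    intro σ hσ
    set s := arithmeticRingAut (modularFunctionFieldFull N) σ with hs
    have h1 : s G = G := hG σ hσ
    rw [hG2, map_mul, map_pow, hs, arithmeticRingAut_algebraMap, hcfix σ hσ, ← hs] at h1
    have hc0' : algebraMap Kbar (FN N) c ≠ 0 :=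
      (map_ne_zero_iff _ (algebraMap Kbar (FN N)).injective).mpr hc0
    have h2 : s h₀ ^ n = h₀ ^ n := mul_left_cancel₀ hc0' h1
    have hsg0 : s h₀ ≠ 0 := (map_ne_zero_iff _ s.injective).mpr hh₀0
    have h3 : (s h₀ * h₀⁻¹) ^ n = 1 := by
      rw [mul_pow, h2, inv_pow, mul_inv_cancel₀ (pow_ne_zero n hh₀0)]
    have hu' : ∀ Q : Place Kbar (FN N), Q.ord (s h₀ * h₀⁻¹) = 0 := by
      intro Q
      have h4 : (n : ℤ) * Q.ord (s h₀ * h₀⁻¹) = 0 := by
        rw [← Fermat.Agent.RED.H17.ord_pow, h3, Q.ord_one]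
      rcases mul_eq_zero.mp h4 with h5 | h5
      · exact absurd (by exact_mod_cast h5) hn
      · exact h5
    obtain ⟨c', hc'⟩ := Fermat.Agent.FL.H2.exists_const_of_ord_eq_zero (isFF_FN N) hu'
    have h6 : Fermat.Agent.S36.H61.lcQ N (s h₀ * h₀⁻¹) * Fermat.Agent.S36.H61.lcQ N h₀
        = Fermat.Agent.S36.H61.lcQ N (s h₀) := by
      rw [← lcQ_mul', inv_mul_cancel_right₀ hh₀0]
    rw [← hc', lcQ_algebraMap', hs, lcQ_arith, hlc, map_one, mul_one] at h6
    rw [h6, map_one] at hc'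
    have h7 : s h₀ = h₀ := by
      have := congrArg (· * h₀) hc'
      simp only [one_mul, inv_mul_cancel_right₀ hh₀0] at this
      exact this.symm
    exact h7
  refine ⟨c, h₀, hc0, hcfix, hh₀0, hh₀fix, fun Q => ?_, hG2⟩
  rw [hh₀, Fermat.Agent.RED.H17.ord_algebraMap_mul Q (inv_ne_zero ha0)]

end Fermat.Agent.S59.LL.SQ.H35
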