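import Fermat.Agent.S59.LL.SQ.H35_EigAbs
import Fermat.Agent.S59.LL.SQ.H35_RootL0
import Fermat.Agent.S59.LL.SQ.H33_CompEisNV
import Fermat.Agent.S36.NU.H79_NormVal
import Fermat.Agent.S36.NU.H23_Mod3

/-!
# S59 / LL / SQ, leaf OLD-RED at `q²` (helper35): the scaling at `V₂₀`

Level `N = M q²`, `q ∤ M`, `A` over `q`, `L₀ = L0 A N`.

* `val_res_eq_one_iff` : units of the restriction of a valuation ring to a subfield;
* `exact20` : the value group of `V₂₀` on `L₀` is generated by the value of `q`;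
* `exists_scale20_L0` : every non-zero `h ∈ L₀` is a power of `q` times a unit of `V₂₀`;
* `const_unit_of_val20` : a constant of value `1` for `V₂₀` is a unit of `A`, hence of value `1`
  for `V₁₁`.
-/

set_option autoImplicit false
set_option linter.style.haveILetI false
set_option linter.unusedSectionVars false
set_option synthInstance.maxHeartbeats 400000
set_option maxHeartbeats 1000000

noncomputable section

open AlgebraicCurve ModularCurve
open Fermat.Agent.S24 Fermat.Agent.BAD Fermat.Agent.BAD.H88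
open Fermat.Agent.S28 Fermat.Agent.S28.H73 Fermat.Agent.RED.H73 Fermat.Agent.RED.H17
open Fermat.Agent.S36.NU.H88 Fermat.Agent.S36.NU.H23

namespace Fermat.Agent.S59.LL.SQ.H35

section Res

variable {F : Type} [Field F] (L₀ : Subfield F) (V : ValuationSubring F)

theorem val_res_eq_one_iff (x : ↥L₀) :
    (resV0 L₀ V).valuation x = 1 ↔ V.valuation (x : F) = 1 := by
  have h := valuation_resV0_eq_iff L₀ V x 1
  rw [map_one, Subfield.coe_one, map_one] at h
  exact h

end Res

section Scale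

variable (A : ValuationSubring Kbar) (q M : ℕ) (B k : ℤ) (hB : B * M + k * q = 1) (hq : q.Prime)
  [NeZero M] [NeZero q] [NeZero (M * q * q)] (hqM : ¬ q ∣ M) (hA : A.LiesOverPrime q)

include B k hB hq hqM hA in
/-- **EXACT** at `V₂₀`: the value group of `V₂₀` on `L₀` is generated by the value of `q`. -/
theorem exact20 (x : ↥(L0 A (M * q * q))) (hx : x ≠ 0) :
    ∃ j : ℤ, (V20o A q M).valuation x
      = (V20o A q M).valuation ((q : ℕ) : ↥(L0 A (M * q * q))) ^ j := by
  letI := algL0 A (hleMN q M)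
  letI := algM A q M hq hqM hA
  haveI : Module.Finite ↥(L0 A M) ↥(L0 A (M * q * q)) := finite_L0_NU A q M
  obtain ⟨j, hj⟩ := Fermat.Agent.S36.NU.H79.nv_exists_val_eq_zpow
    (nrM A q M B k hB hq hqM hA) (nrM_hdeg A q M B k hB hq hqM hA) 0 x hx
  refine ⟨j, ?_⟩
  have hπ : (nrM A q M B k hB hq hqM hA).π 0 = ((q : ℕ) : ↥(L0 A (M * q * q))) := by
    show algebraMap ↥(L0 A M) ↥(L0 A (M * q * q)) (piE A q M) = _
    rw [piE, map_natCast]
  rw [← hπ]
  exact hj

include B k hB hq hqM hA in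
/-- Every non-zero inertia-fixed function is a power of `q` times a unit of `V₂₀`. -/
theorem exists_scale20_L0 (x : FN (M * q * q)) (hx0 : x ≠ 0) (hx : x ∈ L0 A (M * q * q)) :
    ∃ (j : ℤ) (y : FN (M * q * q)), y ∈ L0 A (M * q * q) ∧
      (V20 A (M * q * q)).valuation y = 1 ∧
      x = algebraMap Kbar (FN (M * q * q)) (((q : ℕ) : Kbar) ^ j) * y := by
  have hxL0 : (⟨x, hx⟩ : ↥(L0 A (M * q * q))) ≠ 0 := fun h => hx0 (congrArg Subtype.val h)
  obtain ⟨j, hj⟩ := exact20 A q M B k hB hq hqM hA ⟨x, hx⟩ hxL0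
  set qL : ↥(L0 A (M * q * q)) := ((q : ℕ) : ↥(L0 A (M * q * q))) with hqL
  have hq0 : qL ≠ 0 := by
    rw [hqL]
    exact_mod_cast hq.ne_zero
  set u : ↥(L0 A (M * q * q)) := qL ^ j with hu
  have hu0 : u ≠ 0 := zpow_ne_zero j hq0
  set y : ↥(L0 A (M * q * q)) := ⟨x, hx⟩ * u⁻¹ with hy
  have hvy : (V20o A q M).valuation y = 1 := by
    rw [hy, map_mul, map_inv₀, hu, map_zpow₀, hj]
    exact mul_inv_cancel₀ (zpow_ne_zero j ((Valuation.ne_zero_iff _).2 hq0))
  have hucoe : (u : FN (M * q * q)) = algebraMap Kbar (FN (M * q * q)) (((q : ℕ) : Kbar) ^ j) := by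
    have h1 : (u : FN (M * q * q)) = (L0 A (M * q * q)).subtype (qL ^ j) := rfl
    rw [h1, map_zpow₀, map_zpow₀, hqL, map_natCast, map_natCast]
  refine ⟨j, (y : FN (M * q * q)), y.2, ?_, ?_⟩
  · exact (val_res_eq_one_iff (L0 A (M * q * q)) (V20 A (M * q * q)) y).1 hvy
  · rw [← hucoe]
    have h2 : (y : FN (M * q * q)) = x * (u : FN (M * q * q))⁻¹ := by
      rw [hy]
      rfl
    rw [h2, mul_comm x, ← mul_assoc, mul_inv_cancel₀ (fun h => hu0 (Subtype.ext h)), one_mul]

/-- A constant of value `1` for `V₂₀` is a unit of `A`. -/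
theorem const_unit_of_val20 (c : Kbar)
    (h : (V20 A (M * q * q)).valuation (algebraMap Kbar (FN (M * q * q)) c) = 1) :
    c ∈ A ∧ c⁻¹ ∈ A := by
  obtain ⟨-, h1, h2⟩ := (isVU_iff_val _ _).2 h
  rw [← map_inv₀] at h2
  exact ⟨(const_mem20 A (M * q * q) c).1 h1, (const_mem20 A (M * q * q) c⁻¹).1 h2⟩

/-- A unit of `A` has value `1` for `V₁₁`. -/
theorem val11_const (c : Kbar) (hc0 : c ≠ 0) (hc : c ∈ A) (hc' : c⁻¹ ∈ A) :
    (V11 A (M * q * q) q M B k (lvl q M) hB hq).valuation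
      (algebraMap Kbar (FN (M * q * q)) c) = 1 := by
  apply (isVU_iff_val _ _).1
  refine ⟨(map_ne_zero_iff _ (algebraMap Kbar (FN (M * q * q))).injective).2 hc0, ?_, ?_⟩
  · exact (const_mem11 A (M * q * q) q M B k (lvl q M) hB hq c).2 hc
  · rw [← map_inv₀]
    exact (const_mem11 A (M * q * q) q M B k (lvl q M) hB hq c⁻¹).2 hc'

end Scale

end Fermat.Agent.S59.LL.SQ.H35
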