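import Fermat.Agent.S59.LL.SQ.H38_UpVal
import Fermat.Agent.S36.NU.H44_NormBCNU

/-!
# S59 / LL / SQ, leaf U1 T3-UP (helper38): the hypotheses of (T′) pass to the level `M ℓ`

Level `M q²`, `q ∤ M`; `ℓ` prime to `q`; `ι^* = upPull : J₀(M q²) → J₀((M ℓ) q²)`.

* `isKum_up`, `isUnit3_up`, `isCPow3_up`, `inG3_up`, `inT3_up` : Kummer functions and the finite
  and toric parts;
* `upPull_fixed` : points fixed by inertia;
* `push_pull_alpha`, `push_pull_beta`, `isQNew_up` : `q`-new points (base change of the norms,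
  `S36.NU.H44.norm_alpha_up_dvd`);
* `upPull_ne_zero` (`ℓ ∣ 36`, torsion points), `upPull_zsmul_eq_zero`;
* `t3_up` : the package.
-/

set_option autoImplicit false
set_option linter.style.haveILetI false
set_option linter.unusedSectionVars false
set_option synthInstance.maxHeartbeats 400000
set_option maxHeartbeats 1000000

noncomputable section

open AlgebraicCurve ModularCurve
open Fermat.Agent.S24 Fermat.Agent.BAD Fermat.Agent.BAD.H88
open Fermat.Agent.S28 Fermat.Agent.S28.H73 Fermat.Agent.RED.H73 Fermat.Agent.RED.H17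
open Fermat.Agent.S36.NU.H88 Fermat.Agent.S36.NU.H23
open Fermat.Agent.Lib.HeckeComm Fermat.Agent.NEB.H14 Fermat.Agent.RED
open Fermat.Agent.S35.H89 Fermat.Agent.S36.H44

namespace Fermat.Agent.S59.LL.SQ.H38

section Kum

variable (A : ValuationSubring Kbar) (q M ℓ : ℕ) (B k B' k' : ℤ) (hB : B * M + k * q = 1)
  (hB' : B' * ((M * ℓ : ℕ) : ℤ) + k' * q = 1) (hq : q.Prime)
  [NeZero M] [NeZero q] [NeZero ℓ] [NeZero (M * ℓ)] [NeZero (M * q)] [NeZero (M * ℓ * q)]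
  [NeZero (M * q * q)] [NeZero (M * ℓ * q * q)]

/-- Kummer functions pass to the upper level. -/
theorem isKum_up (n : ℕ) (x : JZero (M * q * q)) (h : ↥(L0 A (M * q * q)))
    (H : IsKum A q M n x h) :
    IsKum A q (M * ℓ) n (upPull M q (M * ℓ) (dvd_mul_right M ℓ) x)
      (upL0 A M q (M * ℓ) (dvd_mul_right M ℓ) h) := by
  obtain ⟨D, rfl, hD⟩ := H
  have hF := H95.stmt_HKA_isFF (M * q * q)
  have hF' := H95.stmt_HKA_isFF (M * ℓ * q * q)
  haveI : HasPrincipalDivisors Kbar ↥(modularFunctionFieldBar (M * ℓ * q * q)) := hasPD hF'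
  refine ⟨_, upPull_mk M q (M * ℓ) (dvd_mul_right M ℓ) D, fun P => ?_⟩
  rw [coe_degZeroMap, pullD_eq hF hF', Divisor.pullbackAlong_apply, coe_upL0,
    Place.ord_restrictAlong (upF M q (M * ℓ) (dvd_mul_right M ℓ))
      (upF_integral M q (M * ℓ) (dvd_mul_right M ℓ)), ← hD]
  ring

variable (hA : A.LiesOverPrime q) (hℓq : Nat.Coprime ℓ q)

include hA hℓq in
/-- Units for the three valuations pass to the upper level. -/
theorem isUnit3_up (h : ↥(L0 A (M * q * q))) (H : IsUnit3 A q M B k hB hq h) :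
    IsUnit3 A q (M * ℓ) B' k' hB' hq (upL0 A M q (M * ℓ) (dvd_mul_right M ℓ) h) := by
  obtain ⟨⟨h20, e20⟩, ⟨h11, e11⟩, ⟨h02, e02⟩⟩ := H
  have h20' := (up_mem_V20o_iff A q M ℓ h).2 h20
  have h11' := (up_mem_V11o_iff A q M ℓ B k B' k' hB hB' hq hA hℓq h).2 h11
  have h02' := (up_mem_V02o_iff A q M ℓ B k B' k' hB hB' h).2 h02
  refine ⟨⟨h20', ?_⟩, ⟨h11', ?_⟩, ⟨h02', ?_⟩⟩
  · rw [s20_up A q M ℓ h h20 h20']
    exact e20
  · rw [s11_up A q M ℓ B k B' k' hB hB' hq hA hℓq h h11 h11']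
    exact e11
  · rw [s02_up A q M ℓ B k B' k' hB hB' h h02 h02']
    exact e02

include hA hℓq in
/-- "Constant times `n`-th power" passes to the upper level. -/
theorem isCPow3_up (n : ℕ) (h : ↥(L0 A (M * q * q))) (H : IsCPow3 A q M B k hB hq n h) :
    IsCPow3 A q (M * ℓ) B' k' hB' hq n (upL0 A M q (M * ℓ) (dvd_mul_right M ℓ) h) := by
  obtain ⟨⟨h20, c, ⟨g, hg⟩, hc, hg0, e⟩, ⟨h11, c', ⟨g', hg'⟩, hc', hg'0, e'⟩,
    ⟨h02, c'', ⟨g'', hg''⟩, hc'', hg''0, e''⟩⟩ := H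
  have h20' := (up_mem_V20o_iff A q M ℓ h).2 h20
  have h11' := (up_mem_V11o_iff A q M ℓ B k B' k' hB hB' hq hA hℓq h).2 h11
  have h02' := (up_mem_V02o_iff A q M ℓ B k B' k' hB hB' h).2 h02
  have hg20' := (up_mem_V20o_iff A q M ℓ g).2 hg
  have hg11' := (up_mem_V11o_iff A q M ℓ B k B' k' hB hB' hq hA hℓq g').2 hg'
  have hg02' := (up_mem_V02o_iff A q M ℓ B k B' k' hB hB' g'').2 hg''
  refine ⟨⟨h20', c, ⟨_, hg20'⟩, hc, ?_, ?_⟩, ⟨h11', c', ⟨_, hg11'⟩, hc', ?_, ?_⟩,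
    ⟨h02', c'', ⟨_, hg02'⟩, hc'', ?_, ?_⟩⟩
  · rw [s20_up A q M ℓ g hg hg20']
    exact hg0
  · rw [s20_up A q M ℓ g hg hg20', s20_up A q M ℓ h h20 h20']
    exact e
  · rw [s11_up A q M ℓ B k B' k' hB hB' hq hA hℓq g' hg' hg11']
    exact hg'0
  · rw [s11_up A q M ℓ B k B' k' hB hB' hq hA hℓq g' hg' hg11',
      s11_up A q M ℓ B k B' k' hB hB' hq hA hℓq h h11 h11']
    exact e'
  · rw [s02_up A q M ℓ B k B' k' hB hB' g'' hg'' hg02']
    exact hg''0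
  · rw [s02_up A q M ℓ B k B' k' hB hB' g'' hg'' hg02',
      s02_up A q M ℓ B k B' k' hB hB' h h02 h02']
    exact e''

include hA hℓq in
/-- **The finite part passes to the upper level.** -/
theorem inG3_up (n : ℕ) (x : JZero (M * q * q)) (H : InG3 A q M B k hB hq n x) :
    InG3 A q (M * ℓ) B' k' hB' hq n (upPull M q (M * ℓ) (dvd_mul_right M ℓ) x) := by
  obtain ⟨h, h1, h2⟩ := H
  exact ⟨upL0 A M q (M * ℓ) (dvd_mul_right M ℓ) h, isKum_up A q M ℓ n x h h1,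
    isUnit3_up A q M ℓ B k B' k' hB hB' hq hA hℓq h h2⟩

include hA hℓq in
/-- **The toric part passes to the upper level.** -/
theorem inT3_up (n : ℕ) (x : JZero (M * q * q)) (H : InT3 A q M B k hB hq n x) :
    InT3 A q (M * ℓ) B' k' hB' hq n (upPull M q (M * ℓ) (dvd_mul_right M ℓ) x) := by
  obtain ⟨h, h1, h2⟩ := H
  exact ⟨upL0 A M q (M * ℓ) (dvd_mul_right M ℓ) h, isKum_up A q M ℓ n x h h1,
    isCPow3_up A q M ℓ B k B' k' hB hB' hq hA hℓq n h h2⟩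

end Kum

/-! ## Galois, torsion -/

section Gal

variable (A : ValuationSubring Kbar) (q M ℓ : ℕ)
  [NeZero (M * q * q)] [NeZero (M * ℓ * q * q)]

/-- Points fixed by inertia pass to the upper level. -/
theorem upPull_fixed (x : JZero (M * q * q))
    (hI : ∀ σ ∈ A.inertiaSubgroupIn ℚ, σ • x = x) :
    ∀ σ ∈ A.inertiaSubgroupIn ℚ,
      σ • upPull M q (M * ℓ) (dvd_mul_right M ℓ) x
        = upPull M q (M * ℓ) (dvd_mul_right M ℓ) x := by
  intro σ hσ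
  rw [← upPull_smul, hI σ hσ]

theorem upPull_zsmul_eq_zero (n : ℤ) (x : JZero (M * q * q)) (hx : n • x = 0) :
    n • upPull M q (M * ℓ) (dvd_mul_right M ℓ) x = 0 := by
  rw [← map_zsmul, hx, map_zero]

/-- Non-zero torsion points stay non-zero (`ℓ ∣ 36`). -/
theorem upPull_ne_zero (hℓ : ℓ ∣ 36) (m : ℕ) (hm : 0 < m) (x : JZero (M * q * q))
    (hmx : m • x = 0) (hx : x ≠ 0) :
    upPull M q (M * ℓ) (dvd_mul_right M ℓ) x ≠ 0 := by
  intro h0
  refine hx (upPull_injective_of_torsion M q (M * ℓ) (dvd_mul_right M ℓ) ?_ m hm x hmx h0)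
  obtain ⟨c, hc⟩ := hℓ
  exact ⟨c, by rw [hc]; ring⟩

end Gal

/-! ## `q`-new points -/

section New

variable (q M ℓ : ℕ) [NeZero M] [NeZero q] [NeZero ℓ] [NeZero (M * q)] [NeZero (M * ℓ * q)]
  [NeZero (M * q * q)] [NeZero (M * ℓ * q * q)]

omit [NeZero M] [NeZero q] [NeZero ℓ] [NeZero (M * q)] [NeZero (M * ℓ * q)]
  [NeZero (M * q * q)] [NeZero (M * ℓ * q * q)] in
theorem dvd_lowLevel : M * q ∣ M * ℓ * q := ⟨ℓ, by ring⟩

/-- The inclusion at the lower level, `ι' : F_{M q} → F_{(M ℓ) q}`. -/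
def lowF : FN (M * q) →ₐ[Kbar] FN (M * ℓ * q) := inclFN (M * q) (M * ℓ * q) (dvd_lowLevel q M ℓ)

@[simp]
theorem coe_lowF (x : FN (M * q)) :
    (lowF q M ℓ x : LaurentSeries Kbar) = (x : LaurentSeries Kbar) :=
  coe_inclFN _ _ _ x

/-- Base change of the norm along `α`, generic upper level. -/
theorem norm_alpha_bc_gen (hq : q.Prime) (hqℓ : ¬ q ∣ ℓ) (X : ℕ) [NeZero X] [NeZero (X * q)]
    (hX : X = ℓ * (M * q)) (h1 : M * q ∣ X) (h2 : M * q * q ∣ X * q) (x : FN (M * q * q)) :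
    inclFN (M * q) X h1 (normAlongHom (heckeAlphaBar Kbar (M * q) q).toRingHom x)
      = normAlongHom (heckeAlphaBar Kbar X q).toRingHom (inclFN (M * q * q) (X * q) h2 x) := by
  subst hX
  exact Fermat.Agent.S36.NU.H44.norm_alpha_up_dvd (M * q) q ℓ hq (dvd_mul_left q M) hqℓ x

/-- Base change of the norm along `β`, generic upper level. -/
theorem norm_beta_bc_gen (hq : q.Prime) (hqℓ : ¬ q ∣ ℓ) (X : ℕ) [NeZero X] [NeZero (X * q)]
    (hX : X = ℓ * (M * q)) (h1 : M * q ∣ X) (h2 : M * q * q ∣ X * q) (x : FN (M * q * q)) :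
    inclFN (M * q) X h1 (normAlongHom (heckeBetaBar Kbar (M * q) q).toRingHom x)
      = normAlongHom (heckeBetaBar Kbar X q).toRingHom (inclFN (M * q * q) (X * q) h2 x) := by
  subst hX
  exact Fermat.Agent.S36.NU.H44.norm_beta_up_dvd (M * q) q ℓ hq (dvd_mul_left q M) hqℓ x

theorem norm_alpha_bc (hq : q.Prime) (hqℓ : ¬ q ∣ ℓ) (x : FN (M * q * q)) :
    lowF q M ℓ (normAlongHom (heckeAlphaBar Kbar (M * q) q).toRingHom x)
      = normAlongHom (heckeAlphaBar Kbar (M * ℓ * q) q).toRingHom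
          (upF M q (M * ℓ) (dvd_mul_right M ℓ) x) :=
  norm_alpha_bc_gen q M ℓ hq hqℓ (M * ℓ * q) (by ring) _ _ x

theorem norm_beta_bc (hq : q.Prime) (hqℓ : ¬ q ∣ ℓ) (x : FN (M * q * q)) :
    lowF q M ℓ (normAlongHom (heckeBetaBar Kbar (M * q) q).toRingHom x)
      = normAlongHom (heckeBetaBar Kbar (M * ℓ * q) q).toRingHom
          (upF M q (M * ℓ) (dvd_mul_right M ℓ) x) :=
  norm_beta_bc_gen q M ℓ hq hqℓ (M * ℓ * q) (by ring) _ _ x

/-- **Base change**: `α'_* ι^* = ι'^* α_*` on divisors. -/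
theorem push_pull_alpha (hq : q.Prime) (hqℓ : ¬ q ∣ ℓ) :
    (pushD (heckeAlphaBar Kbar (M * ℓ * q) q)).comp
        (pullD (upF M q (M * ℓ) (dvd_mul_right M ℓ)))
      = (pullD (lowF q M ℓ)).comp (pushD (heckeAlphaBar Kbar (M * q) q)) := by
  have hF1 := H95.stmt_HKA_isFF (M * q)
  have hF2 := H95.stmt_HKA_isFF (M * q * q)
  have hF1' := H95.stmt_HKA_isFF (M * ℓ * q)
  have hF2' := H95.stmt_HKA_isFF (M * ℓ * q * q)
  haveI := hasPD hF2
  refine ((isCorr_pushD hF1' hF2' _).comp (isCorr_pullD hF2 hF2' _)).eq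
    ((isCorr_pullD hF1 hF1' _).comp (isCorr_pushD hF1 hF2 _)) (fun f _ => ?_)
  exact (norm_alpha_bc q M ℓ hq hqℓ f).symm

/-- **Base change**: `β'_* ι^* = ι'^* β_*` on divisors. -/
theorem push_pull_beta (hq : q.Prime) (hqℓ : ¬ q ∣ ℓ) :
    (pushD (heckeBetaBar Kbar (M * ℓ * q) q)).comp
        (pullD (upF M q (M * ℓ) (dvd_mul_right M ℓ)))
      = (pullD (lowF q M ℓ)).comp (pushD (heckeBetaBar Kbar (M * q) q)) := by
  have hF1 := H95.stmt_HKA_isFF (M * q)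
  have hF2 := H95.stmt_HKA_isFF (M * q * q)
  have hF1' := H95.stmt_HKA_isFF (M * ℓ * q)
  have hF2' := H95.stmt_HKA_isFF (M * ℓ * q * q)
  haveI := hasPD hF2
  refine ((isCorr_pushD hF1' hF2' _).comp (isCorr_pullD hF2 hF2' _)).eq
    ((isCorr_pullD hF1 hF1' _).comp (isCorr_pushD hF1 hF2 _)) (fun f _ => ?_)
  exact (norm_beta_bc q M ℓ hq hqℓ f).symm

/-- **`q`-new points pass to the upper level.** -/
theorem isQNew_up (hq : q.Prime) (hqℓ : ¬ q ∣ ℓ) (x : JZero (M * q * q))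
    (H : IsQNew (M * q) q x) :
    IsQNew (M * ℓ * q) q (upPull M q (M * ℓ) (dvd_mul_right M ℓ) x) := by
  obtain ⟨hα, hβ, D, rfl, hDα, hDβ⟩ := H
  have hF1 := H95.stmt_HKA_isFF (M * q)
  have hF2 := H95.stmt_HKA_isFF (M * q * q)
  have hF1' := H95.stmt_HKA_isFF (M * ℓ * q)
  have hF2' := H95.stmt_HKA_isFF (M * ℓ * q * q)
  refine ⟨alpha_integral (M * ℓ * q) q, beta_integral (M * ℓ * q) q, _,
    upPull_mk M q (M * ℓ) (dvd_mul_right M ℓ) D, ?_, ?_⟩
  · rw [coe_degZeroMap]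
    have h1 := DFunLike.congr_fun (push_pull_alpha q M ℓ hq hqℓ)
      (D : Divisor Kbar (FN (M * q * q)))
    rw [AddMonoidHom.comp_apply, AddMonoidHom.comp_apply, pushD_eq hF1' hF2',
      pushD_eq hF1 hF2] at h1
    have h2 : pullD (lowF q M ℓ)
        (Divisor.pushforwardAlong (heckeAlphaBar Kbar (M * q) q) hα
          (D : Divisor Kbar (FN (M * q * q))))
        ∈ Divisor.principal (K := Kbar) (F := FN (M * ℓ * q)) :=
      (isCorr_pullD hF1 hF1' (lowF q M ℓ)).hasFn.map_principal hDα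
    rw [← h1] at h2
    exact h2
  · rw [coe_degZeroMap]
    have h1 := DFunLike.congr_fun (push_pull_beta q M ℓ hq hqℓ)
      (D : Divisor Kbar (FN (M * q * q)))
    rw [AddMonoidHom.comp_apply, AddMonoidHom.comp_apply, pushD_eq hF1' hF2',
      pushD_eq hF1 hF2] at h1
    have h2 : pullD (lowF q M ℓ)
        (Divisor.pushforwardAlong (heckeBetaBar Kbar (M * q) q) hβ
          (D : Divisor Kbar (FN (M * q * q))))
        ∈ Divisor.principal (K := Kbar) (F := FN (M * ℓ * q)) :=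
      (isCorr_pullD hF1 hF1' (lowF q M ℓ)).hasFn.map_principal hDβ
    rw [← h1] at h2
    exact h2

end New

/-! ## The package -/

section Package

variable (A : ValuationSubring Kbar) (q M ℓ : ℕ) (B k B' k' : ℤ) (hB : B * M + k * q = 1)
  (hB' : B' * ((M * ℓ : ℕ) : ℤ) + k' * q = 1) (hq : q.Prime)
  [NeZero M] [NeZero q] [NeZero ℓ] [NeZero (M * ℓ)] [NeZero (M * q)] [NeZero (M * ℓ * q)]
  [NeZero (M * q * q)] [NeZero (M * ℓ * q * q)]

/-- **U1 T3-UP**: the hypotheses of `TorSpanSqAt` pass from the level `M` to the level `M ℓ`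
(`ℓ ∣ 36` prime to `q`), along `ι^* = upPull`. -/
theorem t3_up (hA : A.LiesOverPrime q) (hℓ : ℓ ∣ 36) (hqℓ : ¬ q ∣ ℓ) (p : ℕ) (hp : 0 < p)
    (x : JZero (M * q * q)) (hx0 : x ≠ 0) (hxp : (p : ℤ) • x = 0)
    (hnew : IsQNew (M * q) q x)
    (hI : ∀ σ ∈ A.inertiaSubgroupIn ℚ, σ • x = x)
    (hT3 : InT3 A q M B k hB hq p x) :
    upPull M q (M * ℓ) (dvd_mul_right M ℓ) x ≠ 0 ∧
    (p : ℤ) • upPull M q (M * ℓ) (dvd_mul_right M ℓ) x = 0 ∧
    IsQNew (M * ℓ * q) q (upPull M q (M * ℓ) (dvd_mul_right M ℓ) x) ∧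
    (∀ σ ∈ A.inertiaSubgroupIn ℚ,
      σ • upPull M q (M * ℓ) (dvd_mul_right M ℓ) x
        = upPull M q (M * ℓ) (dvd_mul_right M ℓ) x) ∧
    InT3 A q (M * ℓ) B' k' hB' hq p (upPull M q (M * ℓ) (dvd_mul_right M ℓ) x) := by
  have hℓq : Nat.Coprime ℓ q :=
    (Nat.coprime_comm.mp ((Nat.Prime.coprime_iff_not_dvd hq).2 hqℓ))
  have hxp' : p • x = 0 := by
    rw [← natCast_zsmul]
    exact hxp
  exact ⟨upPull_ne_zero q M ℓ hℓ p hp x hxp' hx0, upPull_zsmul_eq_zero q M ℓ _ x hxp,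
    isQNew_up q M ℓ hq hqℓ x hnew, upPull_fixed A q M ℓ x hI,
    inT3_up A q M ℓ B k B' k' hB hB' hq hA hℓq p x hT3⟩

end Package

end Fermat.Agent.S59.LL.SQ.H38
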