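import Fermat.Agent.S59.LL.SQ.Defs
import Fermat.Agent.FL.H2_Level

/-!
# S59 / LL / SQ, tame → all levels (helper38): the level-raising inclusion `F_{M q²} ⊂ F_{M₂ q²}`

`M ∣ M₂`.  The upper level is written `M₂ * q * q` (a VARIABLE `M₂`), so that the objects of
`SQ/Defs.lean` (`InT3 A q M₂ …`, `TorSpanSqAt A q M₂ …`) apply to the pull-backs WITHOUT casts;
the consumer takes `M₂ = M * ℓ` or `ℓ * M` as he likes.

* `upF M q M₂ h : F_{M q²} →ₐ F_{M₂ q²}` the inclusion (`= inclFN`), `coe_upF`, `upF_integral`,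
  `upF_FI`;
* `upL0 A M q M₂ h : L0 A (M q²) →+* L0 A (M₂ q²)` on the inertia-fixed functions;
* `upPull M q M₂ h : J₀(M q²) →+ J₀(M₂ q²)` the pull-back `ι^*` (`= FL.H2.levelPull`),
  `upPull_mk`, `upPull_eq_pic0Pull` (`= H40.pic0Pull (upF …)`), `upPull_smul` (Galois),
  `upPull_injective_of_torsion` (`M₂ ∣ 36 M`), `upPull_kummer`.
-/

set_option autoImplicit false
set_option linter.style.haveILetI false
set_option linter.unusedSectionVars false

noncomputable section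

open ModularCurve AlgebraicCurve
open Fermat.Agent.S24 Fermat.Agent.S36.NU.H23 Fermat.Agent.Lib.HeckeComm
open Fermat.Agent.NEB.H14 Fermat.Agent.RED

namespace Fermat.Agent.S59.LL.SQ.H38

section Up

variable (A : ValuationSubring Kbar) (M q M₂ : ℕ) [NeZero (M * q * q)] [NeZero (M₂ * q * q)]

omit [NeZero (M * q * q)] [NeZero (M₂ * q * q)] in
theorem dvd_upLevel (h : M ∣ M₂) : M * q * q ∣ M₂ * q * q :=
  Nat.mul_dvd_mul_right (Nat.mul_dvd_mul_right h q) q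

/-- `F_{M q²} ≤ F_{M₂ q²}`. -/
theorem le_upLevel (h : M ∣ M₂) :
    modularFunctionFieldBar (M * q * q) ≤ modularFunctionFieldBar (M₂ * q * q) :=
  modularFunctionFieldBar_mono (dvd_upLevel M q M₂ h)

/-- The inclusion `ι : F_{M q²} → F_{M₂ q²}`. -/
def upF (h : M ∣ M₂) : FN (M * q * q) →ₐ[Kbar] FN (M₂ * q * q) :=
  inclFN (M * q * q) (M₂ * q * q) (dvd_upLevel M q M₂ h)

@[simp]
theorem coe_upF (h : M ∣ M₂) (x : FN (M * q * q)) :
    (upF M q M₂ h x : LaurentSeries Kbar) = (x : LaurentSeries Kbar) :=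
  coe_inclFN _ _ _ x

theorem upF_eq_inclusion (h : M ∣ M₂) (x : FN (M * q * q)) :
    upF M q M₂ h x = IntermediateField.inclusion (le_upLevel M q M₂ h) x := rfl

theorem upF_injective (h : M ∣ M₂) : Function.Injective (upF M q M₂ h) :=
  (upF M q M₂ h).toRingHom.injective

theorem upF_jdF (h : M ∣ M₂) (d : ℕ) [NeZero d] (hd : d ∣ M * q * q) :
    upF M q M₂ h (jdF (M * q * q) d hd)
      = jdF (M₂ * q * q) d (hd.trans (dvd_upLevel M q M₂ h)) :=
  inclFN_jdF _ _ _ d hd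

theorem upF_integral (h : M ∣ M₂) : (upF M q M₂ h).toRingHom.IsIntegral :=
  (Fermat.Agent.RED.H51.stmt_FFB_finite Kbar _ _ (H95.stmt_HKA_isFF (M * q * q))
    (H95.stmt_HKA_isFF (M₂ * q * q)) (upF M q M₂ h)).1

theorem upF_FI (h : M ∣ M₂) : haveI := H40.hasPD_FN (M₂ * q * q)
    FundamentalIdentityAlong Kbar (upF M q M₂ h) (upF_integral M q M₂ h) :=
  Fermat.Agent.RED.H51.stmt_FFB_fundamental Kbar _ _ (H95.stmt_HKA_isFF (M * q * q))
    (H95.stmt_HKA_isFF (M₂ * q * q)) (upF M q M₂ h) (upF_integral M q M₂ h)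
    (H40.hasPD_FN (M₂ * q * q))

/-- The inclusion on the inertia-fixed functions. -/
def upL0 (h : M ∣ M₂) : ↥(L0 A (M * q * q)) →+* ↥(L0 A (M₂ * q * q)) :=
  inclL0 A (le_upLevel M q M₂ h)

@[simp]
theorem coe_upL0 (h : M ∣ M₂) (x : ↥(L0 A (M * q * q))) :
    ((upL0 A M q M₂ h x : ↥(L0 A (M₂ * q * q))) : FN (M₂ * q * q))
      = upF M q M₂ h (x : FN (M * q * q)) := rfl

theorem coe_upL0_series (h : M ∣ M₂) (x : ↥(L0 A (M * q * q))) :
    (((upL0 A M q M₂ h x : ↥(L0 A (M₂ * q * q))) : FN (M₂ * q * q)) : LaurentSeries Kbar)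
      = ((x : FN (M * q * q)) : LaurentSeries Kbar) := by
  rw [coe_upL0, coe_upF]

/-- The pull-back `ι^* : J₀(M q²) → J₀(M₂ q²)`. -/
def upPull (h : M ∣ M₂) : JZero (M * q * q) →+ JZero (M₂ * q * q) :=
  Fermat.Agent.FL.H2.levelPull (M * q * q) (M₂ * q * q) (dvd_upLevel M q M₂ h)

theorem upPull_mk (h : M ∣ M₂) (D : Divisor.degZero (K := Kbar) (F := FN (M * q * q))) :
    upPull M q M₂ h (Pic0.mk D)
      = Pic0.mk (degZeroMap (pullD (upF M q M₂ h))
          (isCorr_pullD (H95.stmt_HKA_isFF (M * q * q)) (H95.stmt_HKA_isFF (M₂ * q * q))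
            _).isGood D) :=
  Fermat.Agent.FL.H2.levelPull_mk _ _ _ D

/-- `upPull` is the pull-back `H40.pic0Pull` along `upF`. -/
theorem upPull_eq_pic0Pull (h : M ∣ M₂) (x : JZero (M * q * q)) :
    haveI := H40.hasPD_FN (M₂ * q * q)
    upPull M q M₂ h x
      = H40.pic0Pull (upF M q M₂ h) (upF_integral M q M₂ h) (upF_FI M q M₂ h) x := by
  haveI := H40.hasPD_FN (M₂ * q * q)
  obtain ⟨D, rfl⟩ := Pic0.mk_surjective x
  rw [upPull_mk, H40.pic0Pull_mk]
  refine congrArg Pic0.mk (Subtype.ext ?_)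
  rw [coe_degZeroMap, H40.coe_degZeroPull,
    pullD_eq (H95.stmt_HKA_isFF (M * q * q)) (H95.stmt_HKA_isFF (M₂ * q * q))]

/-- Galois equivariance. -/
theorem upPull_smul (h : M ∣ M₂) (σ : Kbar ≃ₐ[ℚ] Kbar) (x : JZero (M * q * q)) :
    upPull M q M₂ h (σ • x) = σ • upPull M q M₂ h x :=
  Fermat.Agent.FL.H2.levelPull_smul _ _ _ σ x

/-- Injectivity on torsion, for `M₂ ∣ 36 M`. -/
theorem upPull_injective_of_torsion (h : M ∣ M₂) (h36 : M₂ ∣ 36 * M) (m : ℕ) (hm : 0 < m)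
    (x : JZero (M * q * q)) (hmx : m • x = 0) (hx : upPull M q M₂ h x = 0) : x = 0 := by
  refine Fermat.Agent.FL.H2.levelPull_injective_of_torsion _ _ (dvd_upLevel M q M₂ h) ?_ m hm x
    hmx hx
  obtain ⟨c, hc⟩ := h36
  exact ⟨c, by
    calc 36 * (M * q * q) = 36 * M * (q * q) := by ring
      _ = M₂ * c * (q * q) := by rw [hc]
      _ = M₂ * q * q * c := by ring⟩

/-- Kummer form: `n D = div f ⟹ n ι^* D = div (ι f)`. -/
theorem upPull_kummer (h : M ∣ M₂) (n : ℤ) (D : Divisor Kbar (FN (M * q * q)))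
    {f : FN (M * q * q)} (hf : f ≠ 0) (hD : ∀ v, n * D v = v.ord f)
    (w : Place Kbar (FN (M₂ * q * q))) :
    n * pullD (upF M q M₂ h) D w = w.ord (upF M q M₂ h f) :=
  pullD_kummer (H95.stmt_HKA_isFF (M * q * q)) (H95.stmt_HKA_isFF (M₂ * q * q)) _ n D hf hD w

end Up

end Fermat.Agent.S59.LL.SQ.H38
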