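import Fermat.Agent.S59.LL.SQ.H38_UpDefs
import Fermat.Agent.S59.LL.SQ.H35_MidRed

/-!
# S59 / LL / SQ, leaf U1 T3-UP (helper38): the three valuations in the tower `F_{M q²} ⊂ F_{Mℓ q²}`

`ℓ` prime to `q`, `ι = upF : F_{M q²} → F_{(M ℓ) q²}` the inclusion, Bezout data
`B M + k q = 1` (level `M`) and `B' (M ℓ) + k' q = 1` (level `M ℓ`).  On the inertia-fixed
functions `L0`:

* `up_mem_V20o_iff`, `s20_up` : `ι h ∈ V₂₀ ↔ h ∈ V₂₀`, same reduction;
* `wS_upF` : `W_{q²} ∘ ι = ι ∘ W_{q²}`; `up_mem_V02o_iff`, `s02_up`;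
* `cM_upF_arith`, `up_mem_V11o_iff`, `s11_up` : the same for the middle cusp (the two roots of
  unity `ζ^B`, `ζ^{B'}` are conjugate under inertia).
-/

set_option autoImplicit false
set_option linter.style.haveILetI false
set_option linter.unusedSectionVars false
set_option synthInstance.maxHeartbeats 400000
set_option maxHeartbeats 1000000

noncomputable section

open AlgebraicCurve ModularCurve
open Fermat.Agent.S24 Fermat.Agent.BAD Fermat.Agent.BAD.H88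
open Fermat.Agent.S28 Fermat.Agent.S28.H73 Fermat.Agent.RED.H73 Fermat.Agent.RED.H17
open Fermat.Agent.S36.NU.H88 Fermat.Agent.S36.NU.H23 Fermat.Agent.S36.NU.H26
open Fermat.Agent.Lib.HeckeComm

namespace Fermat.Agent.S59.LL.SQ.H38

section Val

variable (A : ValuationSubring Kbar) (q M ℓ : ℕ) (B k B' k' : ℤ) (hB : B * M + k * q = 1)
  (hB' : B' * ((M * ℓ : ℕ) : ℤ) + k' * q = 1) (hq : q.Prime)
  [NeZero M] [NeZero q] [NeZero ℓ] [NeZero (M * ℓ)] [NeZero (M * q * q)]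
  [NeZero (M * ℓ * q * q)]

/-! ### `V₂₀` -/

theorem up_mem_V20o_iff (h : ↥(L0 A (M * q * q))) :
    upL0 A M q (M * ℓ) (dvd_mul_right M ℓ) h ∈ V20o A q (M * ℓ) ↔ h ∈ V20o A q M := by
  rw [mem_V20o_iff, mem_V20o_iff, coe_upL0_series]

theorem s20_up (h : ↥(L0 A (M * q * q))) (h1 : h ∈ V20o A q M)
    (h2 : upL0 A M q (M * ℓ) (dvd_mul_right M ℓ) h ∈ V20o A q (M * ℓ)) :
    s20 A q (M * ℓ) ⟨_, h2⟩ = s20 A q M ⟨h, h1⟩ := by
  rw [s20_mk, s20_mk]
  rfl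

/-! ### `V₀₂` -/

include hB hB' in
/-- `W_{q²} ∘ ι = ι ∘ W_{q²}`. -/
theorem wS_comp_upF :
    (wS q (M * ℓ) B' k' hB').toAlgHom.comp (upF M q (M * ℓ) (dvd_mul_right M ℓ))
      = (upF M q (M * ℓ) (dvd_mul_right M ℓ)).comp (wS q M B k hB).toAlgHom := by
  apply algHom_ext_of_adjoin _ (adjoin_jdF (M * q * q))
  rintro x ⟨D, hD0, hD, rfl⟩
  rw [AlgHom.comp_apply, AlgHom.comp_apply, upF_jdF]
  obtain ⟨d, d', e, e', rfl, hM, hQ⟩ :=
    dvd_casesQ (M * q * q) (q * q) M _ _ (lvl q M) (bezout_sq q M B k hB) D hD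
  have hQ0 := Q_pos (M * q * q) (q * q) M _ _ (lvl q M) (bezout_sq q M B k hB)
  have hd : 0 < d := Nat.pos_of_ne_zero (by rintro rfl; exact NeZero.ne (0 * e) (zero_mul e))
  have he' : 0 < e' := Nat.pos_of_ne_zero (by rintro rfl; rw [mul_zero] at hQ; omega)
  haveI : NeZero (d * e') := ⟨(Nat.mul_pos hd he').ne'⟩
  have hdvd : d * e' ∣ M * q * q :=
    dvd_of_factors (M * q * q) (q * q) M _ _ (lvl q M) (bezout_sq q M B k hB) d d' e e' hM hQ
  have h1 : (wS q M B k hB).toAlgHom (jdF (M * q * q) (d * e) hD)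
      = jdF (M * q * q) (d * e') hdvd :=
    wQ_jdF (M * q * q) (q * q) M _ _ (lvl q M) (bezout_sq q M B k hB) d d' e e' hM hQ hD hdvd
  have h2 : (wS q (M * ℓ) B' k' hB').toAlgHom
      (jdF (M * ℓ * q * q) (d * e) (hD.trans (dvd_upLevel M q (M * ℓ) (dvd_mul_right M ℓ))))
      = jdF (M * ℓ * q * q) (d * e')
          (hdvd.trans (dvd_upLevel M q (M * ℓ) (dvd_mul_right M ℓ))) :=
    wQ_jdF (M * ℓ * q * q) (q * q) (M * ℓ) _ _ (lvl q (M * ℓ)) (bezout_sq q (M * ℓ) B' k' hB')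
      d (d' * ℓ) e e' (by rw [hM]; ring) hQ _ _
  rw [h1, h2, upF_jdF]

include hB hB' in
theorem wS_upF (x : FN (M * q * q)) :
    wS q (M * ℓ) B' k' hB' (upF M q (M * ℓ) (dvd_mul_right M ℓ) x)
      = upF M q (M * ℓ) (dvd_mul_right M ℓ) (wS q M B k hB x) :=
  congrArg (fun f : FN (M * q * q) →ₐ[Kbar] FN (M * ℓ * q * q) => f x)
    (wS_comp_upF q M ℓ B k B' k' hB hB')

include hB in
theorem up_mem_V02o_iff (h : ↥(L0 A (M * q * q))) :
    upL0 A M q (M * ℓ) (dvd_mul_right M ℓ) h ∈ V02o A q (M * ℓ) B' k' hB'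
      ↔ h ∈ V02o A q M B k hB := by
  rw [mem_V02o_iff, mem_V02o_iff, coe_upL0, wS_upF q M ℓ B k B' k' hB hB', mem_V20_iff,
    mem_V20_iff, coe_upF]

include hB in
theorem s02_up (h : ↥(L0 A (M * q * q))) (h1 : h ∈ V02o A q M B k hB)
    (h2 : upL0 A M q (M * ℓ) (dvd_mul_right M ℓ) h ∈ V02o A q (M * ℓ) B' k' hB') :
    s02 A q (M * ℓ) B' k' hB' ⟨_, h2⟩ = s02 A q M B k hB ⟨h, h1⟩ := by
  rw [s02_mk, s02_mk]
  congr 1
  apply Subtype.ext
  show ((wS q (M * ℓ) B' k' hB'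
      ((upL0 A M q (M * ℓ) (dvd_mul_right M ℓ) h : ↥(L0 A (M * ℓ * q * q))) :
        FN (M * ℓ * q * q)) : FN (M * ℓ * q * q)) : LaurentSeries Kbar)
    = ((wS q M B k hB (h : FN (M * q * q)) : FN (M * q * q)) : LaurentSeries Kbar)
  rw [coe_upL0, wS_upF q M ℓ B k B' k' hB hB', coe_upF]

/-! ### `V₁₁` -/

include hB in
/-- **`cM' (ι (σ x)) = σ (cM x)`** for `σ` with `σ (ζ ^ B) = ζ ^ B'`. -/
theorem cM_upF_arith (σ : Kbar ≃ₐ[ℚ] Kbar) (hσ : σ (zetaK q ^ B) = zetaK q ^ B')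
    (x : FN (M * q * q)) :
    cM q (M * ℓ) B' k' hB' hq (upF M q (M * ℓ) (dvd_mul_right M ℓ)
        (arithmeticRingAut (modularFunctionFieldFull (M * q * q)) σ x))
      = coeffMap (σ : Kbar →+* Kbar) (cM q M B k hB hq x) := by
  have hx : x ∈ IntermediateField.adjoin Kbar
      {x : FN (M * q * q) | ∃ (d : ℕ) (_ : NeZero d) (hd : d ∣ M * q * q),
        x = jdF (M * q * q) d hd} := by
    rw [adjoin_jdF]; exact IntermediateField.mem_top
  induction hx using IntermediateField.adjoin_induction with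
  | mem y hy =>
    obtain ⟨D, hD0, hD, rfl⟩ := hy
    rw [arith_jdF, upF_jdF]
    obtain ⟨d, d', hM, h | h | h⟩ := mid_dvd_cases (M * q * q) q M B k (lvl q M) hB hq D hD
    · rw [cM_jdF1 q (M * ℓ) B' k' hB' hq D d (d' * ℓ) h (by rw [hM]; ring) _,
        cM_jdF1 q M B k hB hq D d d' h hM hD, qExpand_jBar, coeffMap_coeffEmb]
    · rw [cM_jdF2 q (M * ℓ) B' k' hB' hq D d (d' * ℓ) h (by rw [hM]; ring) _,
        cM_jdF2 q M B k hB hq D d d' h hM hD, qExpand_jBar, coeffMap_coeffEmb]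
    · have hd0 : 0 < d := by
        rcases Nat.eq_zero_or_pos d with h0 | h0
        · exfalso
          apply NeZero.ne D
          rw [h, h0, zero_mul]
        · exact h0
      haveI : NeZero d := ⟨hd0.ne'⟩
      rw [cM_jdF3 q (M * ℓ) B' k' hB' hq D d (d' * ℓ) h (by rw [hM]; ring) _,
        cM_jdF3 q M B k hB hq D d d' h hM hD, coeffMap_twist, qExpand_jBar, coeffMap_coeffEmb]
      congr 1
      exact hσ.symm
  | algebraMap c =>
    rw [arithmeticRingAut_algebraMap, AlgHom.commutes, AlgHom.commutes, AlgHom.commutes,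
      coeffMap_algebraMap]
    rfl
  | add y z _ _ hy hz => rw [map_add, map_add, map_add, map_add, map_add, hy, hz]
  | inv y _ hy => rw [map_inv₀, map_inv₀, map_inv₀, map_inv₀, map_inv₀, hy]
  | mul y z _ _ hy hz => rw [map_mul, map_mul, map_mul, map_mul, map_mul, hy, hz]

include hB in
theorem cM_upF_of_mem (σ : Kbar ≃ₐ[ℚ] Kbar) (hσ : σ ∈ A.inertiaSubgroupIn ℚ)
    (hσz : σ (zetaK q ^ B) = zetaK q ^ B') (x : FN (M * q * q)) (hx : x ∈ L0 A (M * q * q)) :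
    cM q (M * ℓ) B' k' hB' hq (upF M q (M * ℓ) (dvd_mul_right M ℓ) x)
      = coeffMap (σ : Kbar →+* Kbar) (cM q M B k hB hq x) := by
  have h := cM_upF_arith q M ℓ B k B' k' hB hB' hq σ hσz x
  rwa [hx σ hσ] at h

variable (hA : A.LiesOverPrime q) (hℓq : Nat.Coprime ℓ q)

include hB hA hℓq in
/-- `ι x ∈ V₁₁ (M ℓ) ↔ x ∈ V₁₁ (M)` for `x` fixed by inertia. -/
theorem up_mem_V11o_iff (h : ↥(L0 A (M * q * q))) :
    upL0 A M q (M * ℓ) (dvd_mul_right M ℓ) h ∈ V11o A q (M * ℓ) B' k' hB' hq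
      ↔ h ∈ V11o A q M B k hB hq := by
  obtain ⟨σ, hσ, hσz⟩ := H35.exists_inertia_mid A q M ℓ B k B' k' hA hℓq hB hB' hq
  rw [mem_V11o_iff, mem_V11o_iff, coe_upL0,
    cM_upF_of_mem A q M ℓ B k B' k' hB hB' hq σ hσ hσz _ h.2]
  constructor
  · intro h'
    have h2 := Fermat.Agent.BAD.H91.coeffMap_mem_gaussRingV
      (Fermat.Agent.BAD.H91.inertialOn_of_mem_inertia A (inv_mem hσ)) h'
    rwa [H35.coeffMap_inv_cancel] at h2
  · exact Fermat.Agent.BAD.H91.coeffMap_mem_gaussRingV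
      (Fermat.Agent.BAD.H91.inertialOn_of_mem_inertia A hσ)

include hB hA hℓq in
/-- The reduction at `V₁₁` of `ι x` is that of `x`, for `x` fixed by inertia. -/
theorem s11_up (h : ↥(L0 A (M * q * q))) (h1 : h ∈ V11o A q M B k hB hq)
    (h2 : upL0 A M q (M * ℓ) (dvd_mul_right M ℓ) h ∈ V11o A q (M * ℓ) B' k' hB' hq) :
    s11 A q (M * ℓ) B' k' hB' hq ⟨_, h2⟩ = s11 A q M B k hB hq ⟨h, h1⟩ := by
  obtain ⟨σ, hσ, hσz⟩ := H35.exists_inertia_mid A q M ℓ B k B' k' hA hℓq hB hB' hq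
  have e := cM_upF_of_mem A q M ℓ B k B' k' hB hB' hq σ hσ hσz _ h.2
  rw [s11_mk, s11_mk]
  have h1' : cM q M B k hB hq (h : FN (M * q * q)) ∈ gaussRingV A := h1
  have h2' : cM q (M * ℓ) B' k' hB' hq
      ((upL0 A M q (M * ℓ) (dvd_mul_right M ℓ) h : ↥(L0 A (M * ℓ * q * q))) :
        FN (M * ℓ * q * q)) ∈ gaussRingV A := h2
  have h'' : coeffMap (σ : Kbar →+* Kbar) (cM q M B k hB hq (h : FN (M * q * q)))
      ∈ gaussRingV A := by
    rw [← e]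
    exact h2'
  have e2 : (⟨cM q (M * ℓ) B' k' hB' hq
      ((upL0 A M q (M * ℓ) (dvd_mul_right M ℓ) h : ↥(L0 A (M * ℓ * q * q))) :
        FN (M * ℓ * q * q)), h2'⟩ : gaussRingV A)
      = ⟨coeffMap (σ : Kbar →+* Kbar) (cM q M B k hB hq (h : FN (M * q * q))), h''⟩ :=
    Subtype.ext e
  rw [e2]
  exact Fermat.Agent.BAD.H91.gaussRedV_coeffMap
    (Fermat.Agent.BAD.H91.inertialOn_of_mem_inertia A hσ) h1' h''

end Val

end Fermat.Agent.S59.LL.SQ.H38
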