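import Mathlib

/-!
# S59, package LL / SQ, abstract counting for ST-RANK (helper40)

The toric part `T'` of `J₀(M'q)[p^k]` embeds into `Gam_k = μ_{p^k}^{SS} / μ_{p^k}` by the gluing
map `γ₁`.  Counting shows that the cokernel is bounded independently of `k`; hence every
`p`-torsion element of `Gam` is a gluing invariant.

* `card_le_card_ker_mul`: `#J ≤ #J^I · #T` if `(σ - 1) J ⊆ T` and `ker (σ - 1) = J^I`;
* `card_le_of_count`: the arithmetic: `#J = p^(a + 2r)`, `#J^I ≤ #T · C · p^a`, `C ≤ p^(2c)`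
  give `p^r ≤ p^c · #T`;
* `exists_preimage_smul`: `γ : A → B`, `#B = p^n`, `#B ≤ p^c · #(range γ)`: then `p^c • b` is in
  the range of `γ` for every `b`;
* `exists_torsion_preimage`: if moreover `γ` is injective and `p • (p^c • b) = 0`, the preimage is
  killed by `p`.
-/

set_option autoImplicit false

namespace Fermat.Agent.S59.LL.SQ.H40

/-- `#J = #ker d · #range d ≤ #J^I · #T`. -/
theorem card_le_card_ker_mul {J : Type*} [AddCommGroup J] [Finite J] (d : J →+ J)
    (T JI : AddSubgroup J) (hker : d.ker ≤ JI) (him : d.range ≤ T) :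
    Nat.card J ≤ Nat.card JI * Nat.card T := by
  have h1 : Nat.card J = Nat.card d.ker * Nat.card d.range := by
    rw [mul_comm, ← Nat.card_congr (QuotientAddGroup.quotientKerEquivRange d).toEquiv]
    exact AddSubgroup.card_eq_card_quotient_mul_card_addSubgroup d.ker
  rw [h1]
  exact Nat.mul_le_mul (AddSubgroup.card_le_of_le hker) (AddSubgroup.card_le_of_le him)

/-- The arithmetic of ST-RANK. -/
theorem card_le_of_count (p a r c C nJ nI nT : ℕ) (hp : 1 < p) (hJ : nJ = p ^ (a + 2 * r))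
    (h1 : nJ ≤ nI * nT) (h2 : nI ≤ nT * (C * p ^ a)) (hC : C ≤ p ^ (2 * c)) :
    p ^ r ≤ p ^ c * nT := by
  have hp0 : 0 < p := by omega
  have h3 : p ^ (a + 2 * r) ≤ nT * (p ^ (2 * c) * p ^ a) * nT := by
    calc p ^ (a + 2 * r) = nJ := hJ.symm
      _ ≤ nI * nT := h1
      _ ≤ nT * (C * p ^ a) * nT := Nat.mul_le_mul_right _ h2
      _ ≤ nT * (p ^ (2 * c) * p ^ a) * nT :=
          Nat.mul_le_mul_right _ (Nat.mul_le_mul_left _ (Nat.mul_le_mul_right _ hC))
  have h4 : p ^ a * (p ^ r) ^ 2 ≤ p ^ a * (p ^ c * nT) ^ 2 := by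
    calc p ^ a * (p ^ r) ^ 2 = p ^ (a + 2 * r) := by ring
      _ ≤ nT * (p ^ (2 * c) * p ^ a) * nT := h3
      _ = p ^ a * (p ^ c * nT) ^ 2 := by ring
  have h5 : (p ^ r) ^ 2 ≤ (p ^ c * nT) ^ 2 :=
    Nat.le_of_mul_le_mul_left h4 (pow_pos hp0 a)
  exact (Nat.pow_le_pow_iff_left (by norm_num)).mp h5

/-- **Bounded cokernel**: if `#B = p^n` and `#B ≤ p^c · #(range γ)` then `p^c • b ∈ range γ`. -/
theorem exists_preimage_smul {A B : Type*} [AddCommGroup A] [AddCommGroup B] [Finite B]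
    (p c n : ℕ) (hp : p.Prime) (γ : A →+ B) (hB : Nat.card B = p ^ n)
    (hcard : Nat.card B ≤ p ^ c * Nat.card γ.range) (b : B) :
    ∃ a : A, γ a = p ^ c • b := by
  classical
  have hlag : Nat.card B = Nat.card (B ⧸ γ.range) * Nat.card γ.range :=
    AddSubgroup.card_eq_card_quotient_mul_card_addSubgroup γ.range
  have hrpos : 0 < Nat.card γ.range := Nat.card_pos
  have hQle : Nat.card (B ⧸ γ.range) ≤ p ^ c := by
    rw [hlag] at hcard
    exact Nat.le_of_mul_le_mul_right hcard hrpos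
  have hQdvd : Nat.card (B ⧸ γ.range) ∣ p ^ n := by
    rw [← hB, hlag]
    exact dvd_mul_right _ _
  obtain ⟨j, hjn, hj⟩ := (Nat.dvd_prime_pow hp).mp hQdvd
  have hjc : j ≤ c := by
    by_contra h
    push Not at h
    have : p ^ c < p ^ j := Nat.pow_lt_pow_right hp.one_lt h
    rw [hj] at hQle
    omega
  have hkill : (p ^ c) • (QuotientAddGroup.mk b : B ⧸ γ.range) = 0 := by
    obtain ⟨e, rfl⟩ := Nat.exists_eq_add_of_le hjc
    rw [pow_add, mul_comm, mul_smul, ← hj]
    have : Nat.card (B ⧸ γ.range) • (QuotientAddGroup.mk b : B ⧸ γ.range) = 0 :=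
      card_nsmul_eq_zero'
    rw [this, smul_zero]
  have hmem : p ^ c • b ∈ γ.range := by
    rw [← QuotientAddGroup.eq_zero_iff]
    exact hkill
  exact hmem

/-- **Surjectivity on `p`-torsion** from a bounded cokernel. -/
theorem exists_torsion_preimage {A B : Type*} [AddCommGroup A] [AddCommGroup B] [Finite B]
    (p c n : ℕ) (hp : p.Prime) (γ : A →+ B) (hγ : Function.Injective γ)
    (hB : Nat.card B = p ^ n) (hcard : Nat.card B ≤ p ^ c * Nat.card γ.range)
    (b₁ b : B) (hb : b₁ = p ^ c • b) (hb₁ : p • b₁ = 0) :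
    ∃ a : A, γ a = b₁ ∧ p • a = 0 := by
  obtain ⟨a, ha⟩ := exists_preimage_smul p c n hp γ hB hcard b
  refine ⟨a, by rw [ha, hb], ?_⟩
  apply hγ
  rw [map_nsmul, ha, ← hb, hb₁, map_zero]

end Fermat.Agent.S59.LL.SQ.H40
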