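import Fermat.Agent.S36.NU.H79_B3

/-!
# S59, package LL / SQ, step (T): abstract gluing data at the triple points (helper40)

Setting: helper79's `NUData` (S36 / NU-B): the conservation datum `D.T` of the higher level
(`q² M'`, valuations `i₂₀`, `i₁₁`, `i₀₂`), the datum `D.T'` of the lower level (`q M'`), the triple
points `D.SS`.

* `GlueData n H a b` : the unit `H` has reductions `c · G i ^ n`, local generators at the triple
  points, and at every triple point `z` the values of `G i · red i s` (`s` a local generator) are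
  `u`, `a z · u`, `b z · u` for `i = i₂₀, i₁₁, i₀₂` (the GLUING INVARIANTS of `H` are `(a, b)`);
* `GlueData.trivRed` : gluing invariants `(1, 1)` on `SS` is `NUData.TrivRed` (input of TI3);
* `GlueData.mul`, `GlueData.inv`, `GlueData.congr` : the gluing invariants are multiplicative;
* `glueAt_of_gen` : the values for ONE local generator determine the values for all;
* `exists_glueData` : every unit whose three reductions are constants times `n`-th powers has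
  gluing invariants, with values in `μ_n`.
-/

set_option autoImplicit false
set_option linter.style.haveILetI false

noncomputable section

open AlgebraicCurve

attribute [local instance] Classical.propDecidable

namespace Fermat.Agent.S59.LL.SQ.H40

open Fermat.Agent.RED.H17 Fermat.Agent.RED Fermat.Agent.BAD.H79 Fermat.Agent.BAD
  Fermat.Agent.S36.NU.H79

variable {K L₀ L k ι Z : Type*} {E : ι → Type*} {K' L' L₁ L₂ : Type*}
  [Field K] [Field L₀] [Field L] [Algebra K L] [Algebra L₀ L] [Field k] [Fintype ι]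
  [∀ i, Field (E i)] [∀ i, Algebra k (E i)] [Field K'] [Field L'] [Algebra K' L']
  [Field L₁] [Algebra k L₁] [Field L₂] [Algebra k L₂]

/-! ## Units of `TotN` -/

section Units

variable (T : TotN K L₀ L k ι Z E)

theorem rdN_mul_ne_zero {i : ι} {f g : L₀} (hf : T.rdN i f ≠ 0) (hg : T.rdN i g ≠ 0) :
    T.rdN i (f * g) ≠ 0 := by
  rw [T.rdN_mul (T.mem_of_rdN_ne_zero hf) (T.mem_of_rdN_ne_zero hg)]
  exact mul_ne_zero hf hg

theorem ne_zero_of_rdN {i : ι} {f : L₀} (hf : T.rdN i f ≠ 0) : f ≠ 0 := by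
  rintro rfl
  apply hf
  rw [T.rdN_of_mem (T.V i).zero_mem]
  exact map_zero _

theorem rdN_inv {i : ι} {f : L₀} (hf : T.rdN i f ≠ 0) : T.rdN i f⁻¹ = (T.rdN i f)⁻¹ := by
  have h1 := T.rdN_mul (T.mem_of_rdN_ne_zero hf) (T.inv_mem_of_rdN_ne_zero hf)
  rw [mul_inv_cancel₀ (ne_zero_of_rdN T hf), T.rdN_one] at h1
  exact eq_inv_of_mul_eq_one_right h1.symm

theorem rdN_inv_ne_zero {i : ι} {f : L₀} (hf : T.rdN i f ≠ 0) : T.rdN i f⁻¹ ≠ 0 := by
  rw [rdN_inv T hf]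
  exact inv_ne_zero hf

theorem rdN_pow_ne_zero {i : ι} {f : L₀} (hf : T.rdN i f ≠ 0) (m : ℕ) :
    T.rdN i (f ^ m) ≠ 0 := by
  rw [T.rdN_pow (T.mem_of_rdN_ne_zero hf)]
  exact pow_ne_zero m hf

end Units

variable (D : NUData K L₀ L k ι Z E K' L' L₁ L₂)

/-! ## Local generators -/

theorem IsGen.s_ne_zero {n : ℕ} {z : Z} {H s : L₀} (h : D.IsGen n z H s) : s ≠ 0 :=
  ne_zero_of_rdN D.T (h.1 D.i₂₀)

theorem IsGen.mul {n : ℕ} {z : Z} {H H' s s' : L₀} (hH : H ≠ 0) (hH' : H' ≠ 0)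
    (h : D.IsGen n z H s) (h' : D.IsGen n z H' s') : D.IsGen n z (H * H') (s * s') := by
  refine ⟨fun i => rdN_mul_ne_zero D.T (h.1 i) (h'.1 i), fun P hP => ?_⟩
  have e : H * H' * (s * s') ^ n = (H * s ^ n) * (H' * s' ^ n) := by ring
  have h1 : algebraMap L₀ L (H * s ^ n) ≠ 0 :=
    (map_ne_zero (algebraMap L₀ L)).2 (mul_ne_zero hH (pow_ne_zero n (IsGen.s_ne_zero D h)))
  have h2 : algebraMap L₀ L (H' * s' ^ n) ≠ 0 :=
    (map_ne_zero (algebraMap L₀ L)).2 (mul_ne_zero hH' (pow_ne_zero n (IsGen.s_ne_zero D h')))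
  rw [e, map_mul, Place.ord_mul _ h1 h2, h.2 P hP, h'.2 P hP, add_zero]

theorem IsGen.inv {n : ℕ} {z : Z} {H s : L₀} (h : D.IsGen n z H s) :
    D.IsGen n z H⁻¹ s⁻¹ := by
  refine ⟨fun i => rdN_inv_ne_zero D.T (h.1 i), fun P hP => ?_⟩
  have e : H⁻¹ * s⁻¹ ^ n = (H * s ^ n)⁻¹ := by rw [mul_inv, inv_pow]
  rw [e, map_inv₀, Place.ord_inv, h.2 P hP, neg_zero]

/-- The quotient of two local generators of `H` at `z` is a unit of `R_z`. -/
theorem IsGen.quot {n : ℕ} (hn : n ≠ 0) {z : Z} {H s s₀ : L₀} (hH : H ≠ 0)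
    (h : D.IsGen n z H s) (h₀ : D.IsGen n z H s₀) :
    (∀ i, D.T.rdN i (s * s₀⁻¹) ≠ 0) ∧
      ∀ P, D.T.ρ P = z → P.ord (algebraMap L₀ L (s * s₀⁻¹)) = 0 := by
  refine ⟨fun i => rdN_mul_ne_zero D.T (h.1 i) (rdN_inv_ne_zero D.T (h₀.1 i)), fun P hP => ?_⟩
  have hs : s ≠ 0 := IsGen.s_ne_zero D h
  have hs₀ : s₀ ≠ 0 := IsGen.s_ne_zero D h₀
  have e : (s * s₀⁻¹) ^ n = (H * s ^ n) * (H * s₀ ^ n)⁻¹ := by
    have hX : s₀ ^ n ≠ 0 := pow_ne_zero n hs₀
    rw [mul_pow, inv_pow]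
    generalize s₀ ^ n = X at hX ⊢
    generalize s ^ n = Y
    field_simp
  have h1 : algebraMap L₀ L (H * s ^ n) ≠ 0 :=
    (map_ne_zero (algebraMap L₀ L)).2 (mul_ne_zero hH (pow_ne_zero n hs))
  have h2 : algebraMap L₀ L (H * s₀ ^ n)⁻¹ ≠ 0 :=
    (map_ne_zero (algebraMap L₀ L)).2 (inv_ne_zero (mul_ne_zero hH (pow_ne_zero n hs₀)))
  have h3 : P.ord (algebraMap L₀ L ((s * s₀⁻¹) ^ n)) = 0 := by
    rw [e, map_mul, Place.ord_mul _ h1 h2, map_inv₀, Place.ord_inv, h.2 P hP, h₀.2 P hP]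
    simp
  rw [map_pow, ord_pow] at h3
  rcases mul_eq_zero.mp h3 with h4 | h4
  · exact absurd (by exact_mod_cast h4) hn
  · exact h4

/-- A unit for all valuations without zero or pole on the fibre of the triple point `z` takes
the same non-zero value on the three components at `z`. -/
theorem exists_common_value [Infinite k] (hP : HasPrincipalDivisors K L) {z : Z}
    (hz : z ∈ D.SS) {t : L₀} (hu : ∀ i, D.T.rdN i t ≠ 0)
    (hgood : ∀ P, D.T.ρ P = z → P.ord (algebraMap L₀ L t) = 0) :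
    ∃ τ : k, τ ≠ 0 ∧ ∀ i, HasValue (D.T.pt i z) (D.T.rdN i t) τ := by
  obtain ⟨τ, hτ0, hτ⟩ := D.T.exists_value_of_unit hP hu hgood (D.deg_one z hz) D.i₂₀
  have hR : D.T.InR z t := ⟨fun i => D.T.mem_of_rdN_ne_zero (hu i), fun P hPz =>
    regAt_of_ord_nonneg (hgood P hPz).ge⟩
  exact ⟨τ, hτ0, fun i => (D.glue z hz t hR D.i₂₀ i τ).mp hτ⟩

/-! ## Gluing data -/

/-- The values at the triple point `z` of the roots `G i` of the reductions of `H`, corrected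
by a local generator, are `u`, `a u`, `b u`. -/
def GlueAt (n : ℕ) (H : L₀) (G : ∀ i, E i) (z : Z) (a b : k) : Prop :=
  ∀ s : L₀, D.IsGen n z H s →
    ∃ u : k, u ≠ 0 ∧ HasValue (D.T.pt D.i₂₀ z) (G D.i₂₀ * D.T.rdN D.i₂₀ s) u ∧
      HasValue (D.T.pt D.i₁₁ z) (G D.i₁₁ * D.T.rdN D.i₁₁ s) (a * u) ∧
      HasValue (D.T.pt D.i₀₂ z) (G D.i₀₂ * D.T.rdN D.i₀₂ s) (b * u)

/-- **Gluing data**: `H` is a unit for the three valuations with local generators at the triple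
points, reductions `c · G i ^ n` and gluing invariants `(a z, b z)` at `z ∈ SS`. -/
structure GlueData (n : ℕ) (H : L₀) (a b : Z → k) : Prop where
  unit : ∀ i, D.T.rdN i H ≠ 0
  gen : ∀ z ∈ D.SS, ∃ s, D.IsGen n z H s
  ne : ∀ z ∈ D.SS, a z ≠ 0 ∧ b z ≠ 0
  glue : ∃ (c : k) (G : ∀ i, E i), c ≠ 0 ∧
    (∀ i, D.T.rdN i H = algebraMap k (E i) c * G i ^ n) ∧
    ∀ z ∈ D.SS, GlueAt D n H G z (a z) (b z)

/-- The values for one local generator determine the values for all. -/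
theorem glueAt_of_gen [Infinite k] (hP : HasPrincipalDivisors K L) {n : ℕ} (hn : n ≠ 0)
    {H : L₀} (hH : H ≠ 0) (G : ∀ i, E i) {z : Z} (hz : z ∈ D.SS) {a b : k} {s₀ : L₀}
    (h₀ : D.IsGen n z H s₀) {u : k} (hu : u ≠ 0)
    (h20 : HasValue (D.T.pt D.i₂₀ z) (G D.i₂₀ * D.T.rdN D.i₂₀ s₀) u)
    (h11 : HasValue (D.T.pt D.i₁₁ z) (G D.i₁₁ * D.T.rdN D.i₁₁ s₀) (a * u))
    (h02 : HasValue (D.T.pt D.i₀₂ z) (G D.i₀₂ * D.T.rdN D.i₀₂ s₀) (b * u)) :
    GlueAt D n H G z a b := by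
  intro s hs
  obtain ⟨hq1, hq2⟩ := IsGen.quot D hn hH hs h₀
  obtain ⟨τ, hτ0, hτ⟩ := exists_common_value D hP hz hq1 hq2
  have key : ∀ i, G i * D.T.rdN i s = (G i * D.T.rdN i s₀) * D.T.rdN i (s * s₀⁻¹) := by
    intro i
    have hs₀ : s₀ ≠ 0 := IsGen.s_ne_zero D h₀
    have e : s = s₀ * (s * s₀⁻¹) := by field_simp
    conv_lhs => rw [e]
    rw [D.T.rdN_mul (D.T.mem_of_rdN_ne_zero (h₀.1 i)) (D.T.mem_of_rdN_ne_zero (hq1 i)),
      mul_assoc]
  refine ⟨u * τ, mul_ne_zero hu hτ0, ?_, ?_, ?_⟩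
  · rw [key]; exact h20.mul (hτ _)
  · rw [key, ← mul_assoc]; exact h11.mul (hτ _)
  · rw [key, ← mul_assoc]; exact h02.mul (hτ _)

namespace GlueData

variable {D}

theorem H_ne_zero {n : ℕ} {H : L₀} {a b : Z → k} (h : GlueData D n H a b) : H ≠ 0 :=
  ne_zero_of_rdN D.T (h.unit D.i₂₀)

/-- Gluing invariants `(1, 1)` on the triple points: trivial reduction data. -/
theorem trivRed {n : ℕ} {H : L₀} {a b : Z → k} (h : GlueData D n H a b)
    (ha : ∀ z ∈ D.SS, a z = 1) (hb : ∀ z ∈ D.SS, b z = 1) : D.TrivRed n H := by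
  obtain ⟨c, G, hc, hG, hgl⟩ := h.glue
  refine ⟨c, G, hc, hG, fun z hz s hs => ?_⟩
  obtain ⟨u, hu, h20, h11, h02⟩ := hgl z hz s hs
  rw [ha z hz, one_mul] at h11
  rw [hb z hz, one_mul] at h02
  refine ⟨u, hu, fun i => ?_⟩
  rcases D.cases i with rfl | rfl | rfl
  · exact h20
  · exact h11
  · exact h02

/-- The gluing invariants only matter on the triple points. -/
theorem congr {n : ℕ} {H : L₀} {a b a' b' : Z → k} (h : GlueData D n H a b)
    (ha : ∀ z ∈ D.SS, a z = a' z) (hb : ∀ z ∈ D.SS, b z = b' z) : GlueData D n H a' b' := by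
  obtain ⟨c, G, hc, hG, hgl⟩ := h.glue
  refine ⟨h.unit, h.gen, fun z hz => ?_, c, G, hc, hG, fun z hz => ?_⟩
  · rw [← ha z hz, ← hb z hz]; exact h.ne z hz
  · rw [← ha z hz, ← hb z hz]; exact hgl z hz

/-- The gluing invariants are multiplicative. -/
theorem mul {n : ℕ} {H H' : L₀} {a b a' b' : Z → k} (h : GlueData D n H a b)
    (h' : GlueData D n H' a' b') : GlueData D n (H * H') (a * a') (b * b') := by
  obtain ⟨c, G, hc, hG, hgl⟩ := h.glue
  obtain ⟨c', G', hc', hG', hgl'⟩ := h'.glue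
  have hH := h.H_ne_zero
  have hH' := h'.H_ne_zero
  refine ⟨fun i => rdN_mul_ne_zero D.T (h.unit i) (h'.unit i), fun z hz => ?_, fun z hz => ?_,
    c * c', fun i => G i * G' i, mul_ne_zero hc hc', fun i => ?_, fun z hz => ?_⟩
  · obtain ⟨s, hs⟩ := h.gen z hz
    obtain ⟨s', hs'⟩ := h'.gen z hz
    exact ⟨s * s', IsGen.mul D hH hH' hs hs'⟩
  · exact ⟨mul_ne_zero (h.ne z hz).1 (h'.ne z hz).1, mul_ne_zero (h.ne z hz).2 (h'.ne z hz).2⟩
  · rw [D.T.rdN_mul (D.T.mem_of_rdN_ne_zero (h.unit i)) (D.T.mem_of_rdN_ne_zero (h'.unit i)),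
      hG i, hG' i, map_mul, mul_pow]
    ring
  · intro s hs
    obtain ⟨s₁, hs₁⟩ := h.gen z hz
    -- `s₂ = s / s₁` is a local generator of `H'`
    have hs₁0 : s₁ ≠ 0 := IsGen.s_ne_zero D hs₁
    have hs0 : s ≠ 0 := IsGen.s_ne_zero D hs
    have hs₂ : D.IsGen n z H' (s * s₁⁻¹) := by
      refine ⟨fun i => rdN_mul_ne_zero D.T (hs.1 i) (rdN_inv_ne_zero D.T (hs₁.1 i)),
        fun P hPz => ?_⟩
      have e : H' * (s * s₁⁻¹) ^ n = (H * H' * s ^ n) * (H * s₁ ^ n)⁻¹ := by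
        have hX : s₁ ^ n ≠ 0 := pow_ne_zero n hs₁0
        rw [mul_pow, inv_pow]
        generalize s₁ ^ n = X at hX ⊢
        generalize s ^ n = Y
        field_simp
      have h1 : algebraMap L₀ L (H * H' * s ^ n) ≠ 0 :=
        (map_ne_zero (algebraMap L₀ L)).2 (mul_ne_zero (mul_ne_zero hH hH') (pow_ne_zero n hs0))
      have h2 : algebraMap L₀ L (H * s₁ ^ n)⁻¹ ≠ 0 :=
        (map_ne_zero (algebraMap L₀ L)).2 (inv_ne_zero (mul_ne_zero hH (pow_ne_zero n hs₁0)))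
      rw [e, map_mul, Place.ord_mul _ h1 h2, map_inv₀, Place.ord_inv, hs.2 P hPz, hs₁.2 P hPz]
      simp
    obtain ⟨u, hu, h20, h11, h02⟩ := hgl z hz s₁ hs₁
    obtain ⟨u', hu', h20', h11', h02'⟩ := hgl' z hz _ hs₂
    have key : ∀ i, G i * G' i * D.T.rdN i s
        = (G i * D.T.rdN i s₁) * (G' i * D.T.rdN i (s * s₁⁻¹)) := by
      intro i
      have e : s = s₁ * (s * s₁⁻¹) := by field_simp
      conv_lhs => rw [e]
      rw [D.T.rdN_mul (D.T.mem_of_rdN_ne_zero (hs₁.1 i)) (D.T.mem_of_rdN_ne_zero (hs₂.1 i))]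
      ring
    refine ⟨u * u', mul_ne_zero hu hu', ?_, ?_, ?_⟩
    · rw [key]; exact h20.mul h20'
    · rw [key]
      have e : (a * a') z * (u * u') = (a z * u) * (a' z * u') := by
        rw [Pi.mul_apply]; ring
      rw [e]; exact h11.mul h11'
    · rw [key]
      have e : (b * b') z * (u * u') = (b z * u) * (b' z * u') := by
        rw [Pi.mul_apply]; ring
      rw [e]; exact h02.mul h02'

/-- The gluing invariants of the inverse. -/
theorem inv {n : ℕ} {H : L₀} {a b : Z → k} (h : GlueData D n H a b) :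
    GlueData D n H⁻¹ a⁻¹ b⁻¹ := by
  obtain ⟨c, G, hc, hG, hgl⟩ := h.glue
  refine ⟨fun i => rdN_inv_ne_zero D.T (h.unit i), fun z hz => ?_, fun z hz => ?_,
    c⁻¹, fun i => (G i)⁻¹, inv_ne_zero hc, fun i => ?_, fun z hz => ?_⟩
  · obtain ⟨s, hs⟩ := h.gen z hz
    exact ⟨s⁻¹, IsGen.inv D hs⟩
  · exact ⟨inv_ne_zero (h.ne z hz).1, inv_ne_zero (h.ne z hz).2⟩
  · rw [rdN_inv D.T (h.unit i), hG i, mul_inv, map_inv₀, inv_pow]
  · intro s hs
    have hs' : D.IsGen n z H s⁻¹ := by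
      have := IsGen.inv D hs
      rwa [inv_inv] at this
    obtain ⟨u, hu, h20, h11, h02⟩ := hgl z hz _ hs'
    have key : ∀ i, (G i)⁻¹ * D.T.rdN i s = (G i * D.T.rdN i s⁻¹)⁻¹ := by
      intro i
      rw [rdN_inv D.T (hs.1 i), mul_inv, inv_inv]
    refine ⟨u⁻¹, inv_ne_zero hu, ?_, ?_, ?_⟩
    · rw [key]; exact h20.inv (D.deg_one z hz _) hu
    · rw [key]
      have e : a⁻¹ z * u⁻¹ = (a z * u)⁻¹ := by rw [Pi.inv_apply, mul_inv]
      rw [e]; exact h11.inv (D.deg_one z hz _) (mul_ne_zero (h.ne z hz).1 hu)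
    · rw [key]
      have e : b⁻¹ z * u⁻¹ = (b z * u)⁻¹ := by rw [Pi.inv_apply, mul_inv]
      rw [e]; exact h02.inv (D.deg_one z hz _) (mul_ne_zero (h.ne z hz).2 hu)

end GlueData

end Fermat.Agent.S59.LL.SQ.H40
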