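import Fermat.Agent.S36.H44_BetaNorm
import Fermat.Agent.S36.H44_PushComm
import Fermat.Agent.S35.H44_CruxAlpha
import Fermat.Agent.RED.H51_Final
attribute [local instance 10000] SubalgebraClass.toAlgebra
attribute [local instance 10000] HahnSeries.powerSeriesAlgebra

/-!
# S59, package LL / SQ, leaf EQUIV-PB (helper40): the degeneracy PULL-BACKS on `J₀`

* `pic0Pull φ hφ hFI : Pic0 K F →+ Pic0 K F'` : the pull-back of divisor classes of degree `0`
  along a finite morphism of function fields (generic);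
* `alphaPull M q`, `betaPull M q : JZero M →+ JZero (M * q)` : the pull-backs along the two
  degeneracy maps `heckeAlphaBar`, `heckeBetaBar`;
* `alpha_pull_norm_comm`, `beta_pull_norm_comm` : base change of the norm functions of `T_ℓ`
  (`ℓ ∤ M q`) along `α_q`, `β_q` (helper44's squares, `adjoin_alpha_jdF`, `stmt_GenJ`);
* `alphaPull_hecke`, `betaPull_hecke` : `α^* T_ℓ = T_ℓ α^*`, `β^* T_ℓ = T_ℓ β^*` for `ℓ ∤ M q`.
-/

set_option autoImplicit false
set_option linter.style.haveILetI false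
set_option linter.unusedSectionVars false

noncomputable section

namespace Fermat.Agent.S59.LL.SQ.H40

open AlgebraicCurve ModularCurve Fermat.Agent.S24 Fermat.Agent.Lib.HeckeComm
  Fermat.Agent.GTor Fermat.Agent.GTor.H2 Fermat.Agent.S36.H44

local notation "Kb" => AlgebraicClosure ℚ

section Generic

variable {K F F' : Type*} [Field K] [Field F] [Field F'] [Algebra K F] [Algebra K F']
variable [HasPrincipalDivisors K F']
variable (φ : F →ₐ[K] F') (hφ : φ.toRingHom.IsIntegral)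
variable (hFI : FundamentalIdentityAlong K φ hφ)

/-- The pull-back on divisors of degree `0`. -/
def degZeroPull :
    Divisor.degZero (K := K) (F := F) →+ Divisor.degZero (K := K) (F := F') :=
  ((Divisor.pullbackAlong φ hφ).comp (Divisor.degZero (K := K) (F := F)).subtype).codRestrict _
    (fun D => Divisor.pullbackAlong_mem_degZero φ hφ hFI D.2)

@[simp]
theorem coe_degZeroPull (D : Divisor.degZero (K := K) (F := F)) :
    (degZeroPull φ hφ hFI D : Divisor K F') = Divisor.pullbackAlong φ hφ (D : Divisor K F) :=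
  rfl

/-- The pull-back on `Pic⁰`. -/
def pic0Pull : Pic0 K F →+ Pic0 K F' :=
  QuotientAddGroup.map _ _ (degZeroPull φ hφ hFI) (by
    rintro ⟨D, hD0⟩ hD
    simp only [AddSubgroup.mem_addSubgroupOf] at hD ⊢
    exact Divisor.isPrincipal_pullbackAlong φ hφ hD)

theorem pic0Pull_mk (D : Divisor.degZero (K := K) (F := F)) :
    pic0Pull φ hφ hFI (Pic0.mk D) = Pic0.mk (degZeroPull φ hφ hFI D) :=
  rfl

/-- `φ^* (div f) = div (φ f)`. -/
theorem pullbackAlong_ord {f : F} (D : Divisor K F) (hD : ∀ v : Place K F, D v = v.ord f)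
    (w : Place K F') :
    Divisor.pullbackAlong φ hφ D w = w.ord (φ f) := by
  rw [Divisor.pullbackAlong_apply, hD, Place.ord_restrictAlong φ hφ]

end Generic

section Modular

variable (M q : ℕ) [NeZero M] [NeZero q]

theorem hasPD_FN (N : ℕ) [NeZero N] : HasPrincipalDivisors Kb (FN N) :=
  hasPrincipalDivisors_FN N

theorem alpha_FI : haveI := hasPD_FN (M * q)
    FundamentalIdentityAlong Kb (heckeAlphaBar Kb M q) (alpha_integral M q) :=
  Fermat.Agent.RED.H51.stmt_FFB_fundamental Kb _ _ (isFF_FN M) (isFF_FN (M * q))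
    (heckeAlphaBar Kb M q) (alpha_integral M q) (hasPD_FN (M * q))

theorem beta_FI : haveI := hasPD_FN (M * q)
    FundamentalIdentityAlong Kb (heckeBetaBar Kb M q) (beta_integral M q) :=
  Fermat.Agent.RED.H51.stmt_FFB_fundamental Kb _ _ (isFF_FN M) (isFF_FN (M * q))
    (heckeBetaBar Kb M q) (beta_integral M q) (hasPD_FN (M * q))

/-- `α^* : J₀(M) → J₀(M q)`. -/
def alphaPull : JZero M →+ JZero (M * q) :=
  haveI := hasPD_FN (M * q)
  pic0Pull (heckeAlphaBar Kb M q) (alpha_integral M q) (alpha_FI M q)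

/-- `β^* : J₀(M) → J₀(M q)`. -/
def betaPull : JZero M →+ JZero (M * q) :=
  haveI := hasPD_FN (M * q)
  pic0Pull (heckeBetaBar Kb M q) (beta_integral M q) (beta_FI M q)

theorem alphaPull_mk (D : Divisor.degZero (K := Kb) (F := FN M)) :
    haveI := hasPD_FN (M * q)
    alphaPull M q (Pic0.mk D)
      = Pic0.mk (degZeroPull (heckeAlphaBar Kb M q) (alpha_integral M q) (alpha_FI M q) D) :=
  rfl

theorem betaPull_mk (D : Divisor.degZero (K := Kb) (F := FN M)) :
    haveI := hasPD_FN (M * q)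
    betaPull M q (Pic0.mk D)
      = Pic0.mk (degZeroPull (heckeBetaBar Kb M q) (beta_integral M q) (beta_FI M q) D) :=
  rfl

variable (ℓ : ℕ) [NeZero ℓ]

/-- A pull-back commutes with the Hecke correspondence on divisors if it commutes with the norm
functions. -/
theorem pull_heckeDiv_comm_of (p : FN M →ₐ[Kb] FN (M * q)) (hp : p.toRingHom.IsIntegral)
    (hα : HeckeAlphaBarIntegral Kb M ℓ) (hβ : HeckeBetaBarIntegral Kb M ℓ)
    (hP : HasPrincipalDivisors Kb (laurentBaseChange Kb (modularFunctionFieldFull (M * ℓ))))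
    (hfin : FiniteAlong Kb (heckeAlphaBar Kb M ℓ))
    (hN : NormFormulaAlong Kb (heckeAlphaBar Kb M ℓ) hfin)
    (hα' : HeckeAlphaBarIntegral Kb (M * q) ℓ) (hβ' : HeckeBetaBarIntegral Kb (M * q) ℓ)
    (hP' : HasPrincipalDivisors Kb
      (laurentBaseChange Kb (modularFunctionFieldFull (M * q * ℓ))))
    (hfin' : FiniteAlong Kb (heckeAlphaBar Kb (M * q) ℓ))
    (hN' : NormFormulaAlong Kb (heckeAlphaBar Kb (M * q) ℓ) hfin')
    (hcomm : ∀ f : FN M, f ≠ 0 →
      p (heckeNormFn Kb M ℓ f) = heckeNormFn Kb (M * q) ℓ (p f)) :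
    haveI := hasPD_FN (M * q)
    (Divisor.pullbackAlong p hp).comp (heckeDivBar (L := Kb) hα hβ)
      = (heckeDivBar (L := Kb) hα' hβ').comp (Divisor.pullbackAlong p hp) := by
  haveI := hasPD_FN (M * q)
  haveI := hasPD_FN M
  refine eq_of_eq_on_principal _ _
    (FinPre.comp (finPre_pullbackAlong p hp) (finPre_heckeDivBar M ℓ hα hβ))
    (FinPre.comp (finPre_heckeDivBar (M * q) ℓ hα' hβ') (finPre_pullbackAlong p hp)) ?_
  intro f D hf hD
  apply Finsupp.ext
  intro w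
  rw [AddMonoidHom.comp_apply, AddMonoidHom.comp_apply]
  have h1 := heckeDivBar_ord M ℓ hα hβ hfin hN D hf hD
  have h2 : ∀ w : Place Kb (FN (M * q)), Divisor.pullbackAlong p hp D w = w.ord (p f) :=
    pullbackAlong_ord p hp D hD
  have hf2 : p f ≠ 0 := fun h0 => hf (p.toRingHom.injective (by simpa using h0))
  rw [pullbackAlong_ord p hp _ h1 w, heckeDivBar_ord (M * q) ℓ hα' hβ' hfin' hN' _ hf2 h2 w,
    hcomm f hf]

/-- **Base change of the norm function of `T_ℓ` along `α_q`.** -/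
theorem alpha_pull_norm_comm (hℓ : ℓ.Prime) (hℓM : ¬ ℓ ∣ M * q) (f : FN M) :
    heckeAlphaBar Kb M q (heckeNormFn Kb M ℓ f)
      = heckeNormFn Kb (M * q) ℓ (heckeAlphaBar Kb M q f) := by
  have hℓM' : ¬ ℓ ∣ M := fun h => hℓM (dvd_mul_of_dvd_left h q)
  rw [heckeNormFn_eq_normAlongHom, heckeNormFn_eq_normAlongHom]
  have h := normAlongHom_baseChange (heckeAlphaBar Kb M ℓ).toRingHom
    (heckeAlphaBar Kb (M * q) ℓ).toRingHom (heckeAlphaBar Kb M q).toRingHom
    (alphaLift M q ℓ).toRingHom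
    (fun a => (RingHom.congr_fun (alpha_square M q ℓ) a).symm)
    (alpha_finite M ℓ) (alpha_finite (M * q) ℓ) (jdF (M * ℓ) (M * ℓ) dvd_rfl)
    (stmt_GenJ M (M * ℓ) (dvd_mul_right M ℓ)) ?_ ?_ (heckeBetaBar Kb M ℓ f)
  · have e := alpha_square_beta M q ℓ f
    simp only [AlgHom.toRingHom_eq_coe, RingHom.coe_coe] at e h
    rw [e]
    exact h
  · have e : (alphaLift M q ℓ).toRingHom (jdF (M * ℓ) (M * ℓ) dvd_rfl)
        = heckeBetaBar Kb (M * q) ℓ (jdF (M * q) M (dvd_mul_right M q)) := by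
      apply Subtype.ext
      simp only [AlgHom.toRingHom_eq_coe, RingHom.coe_coe, coe_alphaLift, coe_heckeBetaBar,
        Fermat.Agent.RED.H95.coe_jdF, qExpand_qExpand]
      exact qExpand_congr (mul_comm M ℓ) _
    rw [e]
    exact Fermat.Agent.S35.H44.adjoin_alpha_jdF hℓ hℓM M (dvd_mul_right M q)
  · exact (Fermat.Agent.RED.H95.finrankAlong_alpha hℓ hℓM').trans
      (Fermat.Agent.RED.H95.finrankAlong_alpha hℓ hℓM).symm

/-- **Base change of the norm function of `T_ℓ` along `β_q`.** -/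
theorem beta_pull_norm_comm (hℓ : ℓ.Prime) (hℓM : ¬ ℓ ∣ M * q) (f : FN M) :
    heckeBetaBar Kb M q (heckeNormFn Kb M ℓ f)
      = heckeNormFn Kb (M * q) ℓ (heckeBetaBar Kb M q f) := by
  have hℓM' : ¬ ℓ ∣ M := fun h => hℓM (dvd_mul_of_dvd_left h q)
  rw [heckeNormFn_eq_normAlongHom, heckeNormFn_eq_normAlongHom]
  have h := normAlongHom_baseChange (heckeAlphaBar Kb M ℓ).toRingHom
    (heckeAlphaBar Kb (M * q) ℓ).toRingHom (heckeBetaBar Kb M q).toRingHom
    (betaLift M q ℓ).toRingHom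
    (fun a => (RingHom.congr_fun (beta_square M q ℓ) a).symm)
    (alpha_finite M ℓ) (alpha_finite (M * q) ℓ) (jdF (M * ℓ) (M * ℓ) dvd_rfl)
    (stmt_GenJ M (M * ℓ) (dvd_mul_right M ℓ)) ?_ ?_ (heckeBetaBar Kb M ℓ f)
  · have e := beta_square_beta M q ℓ f
    simp only [AlgHom.toRingHom_eq_coe, RingHom.coe_coe] at e h
    rw [e]
    exact h
  · have e : (betaLift M q ℓ).toRingHom (jdF (M * ℓ) (M * ℓ) dvd_rfl)
        = jdF (M * q * ℓ) (M * q * ℓ) dvd_rfl := by
      apply Subtype.ext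
      simp only [AlgHom.toRingHom_eq_coe, RingHom.coe_coe, coe_betaLift,
        Fermat.Agent.RED.H95.coe_jdF, qExpand_qExpand]
      exact qExpand_congr (by ring) _
    rw [e]
    exact stmt_GenJ (M * q) (M * q * ℓ) (dvd_mul_right (M * q) ℓ)
  · exact (Fermat.Agent.RED.H95.finrankAlong_alpha hℓ hℓM').trans
      (Fermat.Agent.RED.H95.finrankAlong_alpha hℓ hℓM).symm

end Modular

/-- A pull-back commutes with `T_ℓ` on `J₀` if it commutes with the norm functions. -/
theorem pic0Pull_hecke_of (M q : ℕ) [NeZero M] [NeZero q] (ℓ : Nat.Primes)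
    (p : FN M →ₐ[Kb] FN (M * q)) (hp : p.toRingHom.IsIntegral)
    (hFI : haveI := hasPD_FN (M * q); FundamentalIdentityAlong Kb p hp)
    (hcomm : haveI : NeZero (ℓ : ℕ) := ⟨ℓ.2.ne_zero⟩
      ∀ f : FN M, f ≠ 0 → p (heckeNormFn Kb M ℓ f) = heckeNormFn Kb (M * q) ℓ (p f))
    (y : JZero M) :
    haveI := hasPD_FN (M * q)
    pic0Pull p hp hFI (heckeOperatorBar M ℓ y)
      = heckeOperatorBar (M * q) ℓ (pic0Pull p hp hFI y) := by
  haveI : NeZero (ℓ : ℕ) := ⟨ℓ.2.ne_zero⟩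
  haveI := hasPD_FN (M * q)
  obtain ⟨hα, hβ, hP, hfin, hFI0, hN⟩ := Fermat.Agent.RED.H51.stmt_HKA M ℓ
  obtain ⟨hα', hβ', hP', hfin', hFI', hN'⟩ := Fermat.Agent.RED.H51.stmt_HKA (M * q) ℓ
  have hdiv := pull_heckeDiv_comm_of M q ℓ p hp hα hβ hP hfin hN hα' hβ' hP' hfin' hN' hcomm
  obtain ⟨D, rfl⟩ := Pic0.mk_surjective y
  rw [heckeOperatorBar_mk M ℓ hα hβ hP hfin hFI0 hN D, pic0Pull_mk, pic0Pull_mk,
    heckeOperatorBar_mk (M * q) ℓ hα' hβ' hP' hfin' hFI' hN']
  congr 1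
  apply Subtype.ext
  exact congrArg (fun Φ : Divisor Kb (FN M) →+ Divisor Kb (FN (M * q)) =>
    Φ (D : Divisor Kb (FN M))) hdiv

/-- **`α^* T_ℓ = T_ℓ α^*`** for the primes `ℓ ∤ M q`. -/
theorem alphaPull_hecke (M q : ℕ) [NeZero M] [NeZero q] (ℓ : Nat.Primes)
    (hℓ : ¬ (ℓ : ℕ) ∣ M * q) (y : JZero M) :
    alphaPull M q (heckeOperatorBar M ℓ y) = heckeOperatorBar (M * q) ℓ (alphaPull M q y) := by
  haveI : NeZero (ℓ : ℕ) := ⟨ℓ.2.ne_zero⟩
  exact pic0Pull_hecke_of M q ℓ (heckeAlphaBar Kb M q) (alpha_integral M q) (alpha_FI M q)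
    (fun f _ => alpha_pull_norm_comm M q ℓ ℓ.2 hℓ f) y

/-- **`β^* T_ℓ = T_ℓ β^*`** for the primes `ℓ ∤ M q`. -/
theorem betaPull_hecke (M q : ℕ) [NeZero M] [NeZero q] (ℓ : Nat.Primes)
    (hℓ : ¬ (ℓ : ℕ) ∣ M * q) (y : JZero M) :
    betaPull M q (heckeOperatorBar M ℓ y) = heckeOperatorBar (M * q) ℓ (betaPull M q y) := by
  haveI : NeZero (ℓ : ℕ) := ⟨ℓ.2.ne_zero⟩
  exact pic0Pull_hecke_of M q ℓ (heckeBetaBar Kb M q) (beta_integral M q) (beta_FI M q)
    (fun f _ => beta_pull_norm_comm M q ℓ ℓ.2 hℓ f) y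

end Fermat.Agent.S59.LL.SQ.H40
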