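import Fermat.Agent.S59.LL.SQWire
import Fermat.Agent.S36.H44_Y1
import Fermat.Agent.S43.Old.H75_WireAbs
import Fermat.Agent.L.LiftEig.H37_TorsRel
import Fermat.Agent.L.LiftEig.H46_CharMStmt

/-!
# S59, package LL / SQ: STEP 0 (helper40)

`N = M q`, `q ∥ M` (so `q² ∥ N`).

* `suppConv` (**SUPP-CONV**, the converse of `HasSupport`): a nonzero `p`-torsion point of
  `J₀(M)(ℚ̄)` which is an eigenvector of the good Hecke operators with eigenvalues `t ℓ` gives a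
  normalised eigenform of level `M` congruent to `t` modulo a maximal ideal over `p`
  (TORS-REL + CHAR-M, both landed).
* `step0` : if the eigenvector `x ∈ J₀(M q)[p]` is NOT `q`-new (`α_* x ≠ 0` or `β_* x ≠ 0`) its
  system of eigenvalues occurs at level `M` (the degeneracy push-forwards commute with `T_ℓ`).
* `HasSqNewPartAt`, `Stmt_SqNew` : "BAD at `q²`" for `q`-NEW inertia-fixed eigenvectors only;
* `sqQ_of_new : Stmt_SqNew → Stmt_SqQ`.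

So the geometric package SQ has to treat only `q`-new points: `x = [D]`, `p D = div h`, with
`N_α h`, `N_β h` `p`-th powers up to constants.
-/

set_option autoImplicit false
set_option linter.style.haveILetI false
set_option synthInstance.maxHeartbeats 400000
set_option maxHeartbeats 1000000

noncomputable section

open AlgebraicCurve ModularCurve

namespace Fermat.Agent.S59.LL.SQ.H40

open Fermat.Agent.S44 Fermat.Agent.S59.LL Fermat.Agent.L.LiftEig Fermat.Agent.S36.H44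
  Fermat.Agent.S35.H89

/-- **SUPP-CONV.** -/
theorem suppConv (p : ℕ) (hp : p.Prime) (M : ℕ) [NeZero M] (S : Finset ℕ) (t : ℕ → ℤ)
    (y : JZero M) (hy0 : y ≠ 0) (hyp : (p : ℤ) • y = 0)
    (hyT : ∀ ℓ : Nat.Primes, (ℓ : ℕ) ∉ S → ¬ (ℓ : ℕ) ∣ M → heckeOperatorBar M ℓ y = t ℓ • y) :
    ∃ (g : CuspForm (CongruenceSubgroup.Gamma0 M) 2) (𝔪 : Ideal (integralClosure ℤ ℂ)),
      g.IsNormalizedEigenform ∧ 𝔪.IsMaximal ∧ (p : integralClosure ℤ ℂ) ∈ 𝔪 ∧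
      ∀ ℓ : ℕ, ℓ.Prime → ℓ ∉ S → ¬ ℓ ∣ M →
        ∃ a : integralClosure ℤ ℂ, (a : ℂ) = ModularFormClass.qCoeff g ℓ ∧
          a - ((t ℓ : ℤ) : integralClosure ℤ ℂ) ∈ 𝔪 := by
  refine H46.stmt_CharM p hp M S t fun P hP => ?_
  have hyp' : p • y = 0 := by
    have := hyp
    rwa [natCast_zsmul] at this
  have h1 : evalJ M ↑S P y = 0 := H37.stmt_TorsRel M ↑S P hP p hp.ne_zero y hyp'
  have h2 := Fermat.Agent.S43.Old.H75.red_lift_eq (AddMonoidHom.id (JZero M))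
    (fun ℓ : GoodPrime M (↑S : Set ℕ) => heckeOperatorBar M ⟨ℓ.1, ℓ.2.1⟩)
    (fun ℓ : GoodPrime M (↑S : Set ℕ) => t ℓ.1)
    (fun ℓ u hu => by
      have hu' : u = 0 := hu
      rw [hu', map_zero]
      rfl)
    y
    (fun ℓ => hyT ⟨ℓ.1, ℓ.2.1⟩ (fun h => ℓ.2.2.2 (Finset.mem_coe.mpr h)) ℓ.2.2.1)
    P y 1 (one_smul ℤ _).symm
  have h3 : evalt M ↑S t P • y = 0 := by
    have h4 : evalJ M ↑S P y = (evalt M ↑S t P * 1) • y := h2
    rw [h1, mul_one] at h4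
    exact h4.symm
  exact Fermat.Agent.S43.Old.H75.dvd_of_smul_eq_zero hp hy0 hyp h3

/-- **STEP 0**: an eigenvector of level `M q` which is not `q`-new comes from level `M`. -/
theorem step0 (p : ℕ) (hp : p.Prime) (M q : ℕ) [NeZero M] [NeZero q] (hq : q.Prime)
    (S : Finset ℕ) (t : ℕ → ℤ) (x : JZero (M * q)) (hxp : (p : ℤ) • x = 0)
    (hxT : ∀ ℓ : Nat.Primes, (ℓ : ℕ) ∉ S → ¬ (ℓ : ℕ) ∣ M * q → (ℓ : ℕ) ≠ p →
      heckeOperatorBar (M * q) ℓ x = t ℓ • x)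
    (hnew : ¬ IsQNew M q x) :
    ∃ (g : CuspForm (CongruenceSubgroup.Gamma0 M) 2) (𝔪 : Ideal (integralClosure ℤ ℂ)),
      g.IsNormalizedEigenform ∧ 𝔪.IsMaximal ∧ (p : integralClosure ℤ ℂ) ∈ 𝔪 ∧
      ∀ ℓ : ℕ, ℓ.Prime → ℓ ∉ S → ¬ ℓ ∣ M * q → ℓ ≠ p →
        ∃ a : integralClosure ℤ ℂ, (a : ℂ) = ModularFormClass.qCoeff g ℓ ∧
          a - ((t ℓ : ℤ) : integralClosure ℤ ℂ) ∈ 𝔪 := by
  classical
  -- one of the two push-forwards is nonzero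
  have hne : alphaPush M q x ≠ 0 ∨ betaPush M q x ≠ 0 := by
    by_contra h
    push Not at h
    exact hnew (isQNew_of_push M q x h.1 h.2)
  -- the enlarged exceptional set
  set S' : Finset ℕ := insert p (insert q S) with hS'
  have hS'1 : ∀ ℓ : ℕ, ℓ ∉ S' → ℓ ∉ S ∧ ℓ ≠ p ∧ ℓ ≠ q := by
    intro ℓ hℓ
    rw [hS', Finset.mem_insert, Finset.mem_insert] at hℓ
    push Not at hℓ
    exact ⟨hℓ.2.2, hℓ.1, hℓ.2.1⟩
  have hdvd : ∀ ℓ : ℕ, ℓ.Prime → ℓ ≠ q → ¬ ℓ ∣ M → ¬ ℓ ∣ M * q := by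
    intro ℓ hℓ hℓq hℓM h
    rcases (Nat.Prime.dvd_mul hℓ).1 h with h | h
    · exact hℓM h
    · exact hℓq ((Nat.prime_dvd_prime_iff_eq hℓ hq).1 h)
  have key : ∀ (π : JZero (M * q) →+ JZero M),
      (∀ (ℓ : Nat.Primes), ¬ (ℓ : ℕ) ∣ M * q → ∀ x : JZero (M * q),
        π (heckeOperatorBar (M * q) ℓ x) = heckeOperatorBar M ℓ (π x)) →
      π x ≠ 0 →
      ∃ (g : CuspForm (CongruenceSubgroup.Gamma0 M) 2) (𝔪 : Ideal (integralClosure ℤ ℂ)),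
        g.IsNormalizedEigenform ∧ 𝔪.IsMaximal ∧ (p : integralClosure ℤ ℂ) ∈ 𝔪 ∧
        ∀ ℓ : ℕ, ℓ.Prime → ℓ ∉ S → ¬ ℓ ∣ M * q → ℓ ≠ p →
          ∃ a : integralClosure ℤ ℂ, (a : ℂ) = ModularFormClass.qCoeff g ℓ ∧
            a - ((t ℓ : ℤ) : integralClosure ℤ ℂ) ∈ 𝔪 := by
    intro π hπ hπx
    have hyp : (p : ℤ) • π x = 0 := by rw [← map_zsmul, hxp, map_zero]
    obtain ⟨g, 𝔪, hg, h𝔪, hp𝔪, hc⟩ := suppConv p hp M S' t (π x) hπx hyp (by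
      intro ℓ hℓS' hℓM
      obtain ⟨hℓS, hℓp, hℓq⟩ := hS'1 ℓ hℓS'
      have hℓMq := hdvd ℓ ℓ.2 hℓq hℓM
      rw [← hπ ℓ hℓMq x, hxT ℓ hℓS hℓMq hℓp, map_zsmul])
    refine ⟨g, 𝔪, hg, h𝔪, hp𝔪, fun ℓ hℓ hℓS hℓMq hℓp => ?_⟩
    have hℓq : ℓ ≠ q := by
      rintro rfl
      exact hℓMq (dvd_mul_left _ _)
    have hℓM : ¬ ℓ ∣ M := fun h => hℓMq (h.mul_right q)
    refine hc ℓ hℓ ?_ hℓM
    rw [hS', Finset.mem_insert, Finset.mem_insert]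
    push Not
    exact ⟨hℓp, hℓq, hℓS⟩
  rcases hne with h | h
  · exact key (alphaPush M q) (fun ℓ hℓ x => alphaPush_hecke M q ℓ hℓ x) h
  · exact key (betaPush M q) (fun ℓ hℓ x => betaPush_hecke M q ℓ hℓ x) h

/-- **BAD at `q²` for `q`-new points**, level `M q`, `q ∥ M`: a nonzero `q`-new `p`-torsion point,
fixed by the inertia group of `A`, eigenvector of the good Hecke operators with a non-Eisenstein
system of eigenvalues `t`: then `t` comes from level `M`. -/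
def HasSqNewPartAt (p M q : ℕ) [NeZero M] [NeZero q]
    (A : ValuationSubring (AlgebraicClosure ℚ)) : Prop :=
  ∀ (S : Finset ℕ) (t : ℕ → ℤ) (x : JZero (M * q)), x ≠ 0 → (p : ℤ) • x = 0 →
    IsQNew M q x →
    (∀ σ ∈ A.inertiaSubgroupIn ℚ, σ • x = x) →
    (∀ ℓ : Nat.Primes, (ℓ : ℕ) ∉ S → ¬ (ℓ : ℕ) ∣ M * q → (ℓ : ℕ) ≠ p →
      heckeOperatorBar (M * q) ℓ x = t ℓ • x) →
    (∃ ℓ : ℕ, ℓ.Prime ∧ ℓ ∉ S ∧ ¬ ℓ ∣ M * q ∧ ℓ ≠ p ∧
      ((t ℓ : ℤ) : ZMod p) ≠ 1 + (ℓ : ZMod p)) →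
    ∃ (g : CuspForm (CongruenceSubgroup.Gamma0 M) 2) (𝔪 : Ideal (integralClosure ℤ ℂ)),
      g.IsNormalizedEigenform ∧ 𝔪.IsMaximal ∧ (p : integralClosure ℤ ℂ) ∈ 𝔪 ∧
      ∀ ℓ : ℕ, ℓ.Prime → ℓ ∉ S → ¬ ℓ ∣ M * q → ℓ ≠ p →
        ∃ a : integralClosure ℤ ℂ, (a : ℂ) = ModularFormClass.qCoeff g ℓ ∧
          a - ((t ℓ : ℤ) : integralClosure ℤ ℂ) ∈ 𝔪

/-- **Package SQ, reduced form**: only `q`-new points. -/
def Stmt_SqNew : Prop :=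
  ∀ (p : ℕ), p.Prime → p ≠ 2 → ∀ (M q : ℕ) [NeZero M] [NeZero q], q.Prime → q ≠ p →
    q ∣ M → ¬ q ^ 2 ∣ M →
    ∀ A : ValuationSubring (AlgebraicClosure ℚ), A.LiesOverPrime q → HasSqNewPartAt p M q A

/-- The point underlying `c • x`, `c` an integer. -/
theorem pt_intCast_smul (N p : ℕ) [NeZero N] (k : ℤ) (x : (jzModule N p).J) :
    jzModule.pt N p (((k : ℤ) : ZMod p) • x) = k • jzModule.pt N p x := by
  rw [Int.cast_smul_eq_zsmul]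
  rfl

/-- **The package SQ from its `q`-new part** (STEP 0). -/
theorem sqQ_of_new (h : Stmt_SqNew) : Stmt_SqQ := by
  intro p hp hp2 N hN q hq hqp hq2 hq3 A hA
  have hqN : q ∣ N := (dvd_pow_self q two_ne_zero).trans hq2
  obtain ⟨M, rfl⟩ : ∃ M, N = M * q := ⟨N / q, (Nat.div_mul_cancel hqN).symm⟩
  have hM0 : M ≠ 0 := by
    rintro rfl
    exact hN.out (zero_mul q)
  haveI : NeZero M := ⟨hM0⟩
  haveI : NeZero q := ⟨hq.ne_zero⟩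
  have hqM : q ∣ M := by
    rw [pow_two] at hq2
    exact (Nat.mul_dvd_mul_iff_right hq.pos).1 hq2
  have hq2M : ¬ q ^ 2 ∣ M := by
    intro hd
    apply hq3
    rw [pow_succ]
    exact Nat.mul_dvd_mul hd dvd_rfl
  have hdiv : M * q / q = M := Nat.mul_div_cancel M hq.pos
  intro S t x hx0 hI hT hNE
  have hx0' : jzModule.pt (M * q) p x ≠ 0 := fun h0 =>
    hx0 (jzModule.pt_injective (M * q) p (by rw [h0]; rfl))
  have hxp : (p : ℤ) • jzModule.pt (M * q) p x = 0 := jzModule.pt_torsion (M * q) p x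
  have hxT : ∀ ℓ : Nat.Primes, (ℓ : ℕ) ∉ S → ¬ (ℓ : ℕ) ∣ M * q → (ℓ : ℕ) ≠ p →
      heckeOperatorBar (M * q) ℓ (jzModule.pt (M * q) p x) = t ℓ • jzModule.pt (M * q) p x := by
    intro ℓ hℓS hℓN hℓp
    have h1 := jzModule.pt_T (M * q) p ℓ.2 hℓN x
    have h2 : heckeOperatorBar (M * q) ℓ (jzModule.pt (M * q) p x)
        = jzModule.pt (M * q) p ((jzModule (M * q) p).T ℓ x) := h1.symm
    rw [h2, hT ℓ ℓ.2 hℓS hℓN hℓp, pt_intCast_smul]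
  have hconcl : ∃ (g : CuspForm (CongruenceSubgroup.Gamma0 M) 2)
      (𝔪 : Ideal (integralClosure ℤ ℂ)),
      g.IsNormalizedEigenform ∧ 𝔪.IsMaximal ∧ (p : integralClosure ℤ ℂ) ∈ 𝔪 ∧
      ∀ ℓ : ℕ, ℓ.Prime → ℓ ∉ S → ¬ ℓ ∣ M * q → ℓ ≠ p →
        ∃ a : integralClosure ℤ ℂ, (a : ℂ) = ModularFormClass.qCoeff g ℓ ∧
          a - ((t ℓ : ℤ) : integralClosure ℤ ℂ) ∈ 𝔪 := by
    by_cases hnew : IsQNew M q (jzModule.pt (M * q) p x)
    · refine h p hp hp2 M q hq hqp hqM hq2M A hA S t (jzModule.pt (M * q) p x) hx0' hxp hnew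
        (fun σ hσ => ?_) hxT hNE
      rw [← jzModule.pt_gal, hI σ hσ]
    · exact step0 p hp M q hq S t (jzModule.pt (M * q) p x) hxp hxT hnew
  rw [hdiv]
  exact hconcl

end Fermat.Agent.S59.LL.SQ.H40
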