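import Fermat.Agent.S59.LL.SQ.H40_Pull
import Fermat.Agent.S59.LL.SQ.H40_Step0
import Fermat.Agent.S59.LL.SQ.H40_EigAbs

/-!
# S59, package LL / SQ, leaf PB-ASM (helper40): eigenvectors in the span of two pull-backs

* `eig_of_span` : `π₁, π₂ : J₀(M) → J₀(N)` additive, commuting with the good Hecke operators;
  if a nonzero eigenvector `x ∈ J₀(N)[p]` is `π₁ y + π₂ y'` with `y, y' ∈ J₀(M)[p]`, its system of
  eigenvalues occurs at level `M` (abstract algebra `exists_eigen_of_map_eigen` + SUPP-CONV).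
* `HasSqSpanAt`, `Stmt_SqSpan` : the GEOMETRIC content of package SQ: a nonzero `q`-new,
  inertia-fixed, non-Eisenstein eigenvector of `J₀(M q)[p]`, `q ∥ M`, lies in
  `α^* J₀(M)[p] + β^* J₀(M)[p]`.
* `sqNew_of_span : Stmt_SqSpan → Stmt_SqNew`.
-/

set_option autoImplicit false
set_option linter.style.haveILetI false
set_option synthInstance.maxHeartbeats 400000
set_option maxHeartbeats 1000000

noncomputable section

open AlgebraicCurve ModularCurve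

namespace Fermat.Agent.S59.LL.SQ.H40

open Fermat.Agent.S44 Fermat.Agent.S59.LL Fermat.Agent.S35.H89

/-- **Eigenvectors in the span of two equivariant maps come from the lower level.** -/
theorem eig_of_span (p : ℕ) (hp : p.Prime) (hp2 : p ≠ 2) (M N : ℕ) [NeZero M] [NeZero N]
    (π₁ π₂ : JZero M →+ JZero N)
    (hπ₁ : ∀ ℓ : Nat.Primes, ¬ (ℓ : ℕ) ∣ N → ¬ (ℓ : ℕ) ∣ M → ∀ y : JZero M,
      π₁ (heckeOperatorBar M ℓ y) = heckeOperatorBar N ℓ (π₁ y))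
    (hπ₂ : ∀ ℓ : Nat.Primes, ¬ (ℓ : ℕ) ∣ N → ¬ (ℓ : ℕ) ∣ M → ∀ y : JZero M,
      π₂ (heckeOperatorBar M ℓ y) = heckeOperatorBar N ℓ (π₂ y))
    (hMN : ∀ ℓ : ℕ, ¬ ℓ ∣ N → ¬ ℓ ∣ M)
    (S : Finset ℕ) (t : ℕ → ℤ) (x : JZero N) (hx0 : x ≠ 0)
    (hxT : ∀ ℓ : Nat.Primes, (ℓ : ℕ) ∉ S → ¬ (ℓ : ℕ) ∣ N → (ℓ : ℕ) ≠ p →
      heckeOperatorBar N ℓ x = t ℓ • x)
    (y y' : JZero M) (hy : (p : ℤ) • y = 0) (hy' : (p : ℤ) • y' = 0)
    (hx : x = π₁ y + π₂ y') :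
    ∃ (g : CuspForm (CongruenceSubgroup.Gamma0 M) 2) (𝔪 : Ideal (integralClosure ℤ ℂ)),
      g.IsNormalizedEigenform ∧ 𝔪.IsMaximal ∧ (p : integralClosure ℤ ℂ) ∈ 𝔪 ∧
      ∀ ℓ : ℕ, ℓ.Prime → ℓ ∉ S → ¬ ℓ ∣ N → ℓ ≠ p →
        ∃ a : integralClosure ℤ ℂ, (a : ℂ) = ModularFormClass.qCoeff g ℓ ∧
          a - ((t ℓ : ℤ) : integralClosure ℤ ℂ) ∈ 𝔪 := by
  classical
  haveI : Fact p.Prime := ⟨hp⟩
  obtain ⟨⟨hfinJ, -, hTcomm, -⟩, -, -⟩ := stmt_TateModP p hp hp2 M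
  haveI : Finite (JTors M p) := hfinJ
  haveI : Module.Finite (ZMod p) (JTors M p) := Module.Finite.of_finite
  -- the index set of good primes
  let ι : Type := {ℓ : Nat.Primes // (ℓ : ℕ) ∉ S ∧ ¬ (ℓ : ℕ) ∣ N ∧ (ℓ : ℕ) ≠ p}
  let TY : ι → Module.End (ZMod p) (JTors M p × JTors M p) := fun i =>
    (heckeTors M p i.1).prodMap (heckeTors M p i.1)
  let TJ : ι → Module.End (ZMod p) (JTors N p) := fun i => heckeTors N p i.1
  have hcommM : ∀ i j : ι, heckeTors M p i.1 * heckeTors M p j.1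
      = heckeTors M p j.1 * heckeTors M p i.1 := by
    intro i j
    have h := hTcomm (i.1 : ℕ) (j.1 : ℕ)
    rw [jzModule.T_eq M p i.1.2 (hMN _ i.2.2.1), jzModule.T_eq M p j.1.2 (hMN _ j.2.2.1)] at h
    exact h
  have hcomm : ∀ i j, Commute (TY i) (TY j) := by
    intro i j
    apply LinearMap.ext
    rintro ⟨a, b⟩
    have h1 := LinearMap.congr_fun (hcommM i j) a
    have h2 := LinearMap.congr_fun (hcommM i j) b
    exact Prod.ext h1 h2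
  -- the map `(a, b) ↦ π₁ a + π₂ b`
  let φ₀ : JTors M p × JTors M p →+ JTors N p :=
    { toFun := fun ab => ⟨π₁ (ab.1 : JZero M) + π₂ (ab.2 : JZero M), by
        rw [Pic0.mem_torsion, zsmul_add, ← map_zsmul, ← map_zsmul,
          Pic0.mem_torsion.mp ab.1.property, Pic0.mem_torsion.mp ab.2.property, map_zero,
          map_zero, add_zero]⟩
      map_zero' := by
        apply Subtype.ext
        simp
      map_add' := fun ab cd => by
        apply Subtype.ext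
        simp only [Prod.fst_add, Prod.snd_add, AddSubgroup.coe_add, map_add]
        abel }
  let φ : JTors M p × JTors M p →ₗ[ZMod p] JTors N p := φ₀.toZModLinearMap p
  have hφ : ∀ i z, φ (TY i z) = TJ i (φ z) := by
    rintro i ⟨a, b⟩
    apply Subtype.ext
    show π₁ (heckeOperatorBar M i.1 (a : JZero M)) + π₂ (heckeOperatorBar M i.1 (b : JZero M))
      = heckeOperatorBar N i.1 (π₁ (a : JZero M) + π₂ (b : JZero M))
    rw [hπ₁ i.1 i.2.2.1 (hMN _ i.2.2.1), hπ₂ i.1 i.2.2.1 (hMN _ i.2.2.1), map_add]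
  let y₀ : JTors M p × JTors M p :=
    (⟨y, Pic0.mem_torsion.mpr hy⟩, ⟨y', Pic0.mem_torsion.mpr hy'⟩)
  have hφy : ((φ y₀ : JTors N p) : JZero N) = x := hx.symm
  have hφ0 : φ y₀ ≠ 0 := by
    intro h0
    apply hx0
    rw [← hφy, h0]
    rfl
  have hcoe_smul : ∀ (L : ℕ) [NeZero L] (k : ℤ) (v : JTors L p),
      (((((k : ℤ) : ZMod p) • v : JTors L p)) : JZero L) = k • (v : JZero L) := by
    intro L _ k v
    rw [Int.cast_smul_eq_zsmul]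
    rfl
  have hxe : ∀ i : ι, TJ i (φ y₀) = ((t (i.1 : ℕ) : ℤ) : ZMod p) • φ y₀ := by
    intro i
    apply Subtype.ext
    rw [hcoe_smul N, hφy]
    show heckeOperatorBar N i.1 ((φ y₀ : JTors N p) : JZero N) = _
    rw [hφy]
    exact hxT i.1 i.2.1 i.2.2.1 i.2.2.2
  obtain ⟨z, hz0, hz⟩ := exists_eigen_of_map_eigen TY TJ hcomm φ hφ
    (fun i : ι => ((t (i.1 : ℕ) : ℤ) : ZMod p)) y₀ hφ0 hxe
  -- a nonzero component of `z`
  obtain ⟨w, hw0, hw⟩ : ∃ w : JTors M p, w ≠ 0 ∧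
      ∀ i : ι, heckeTors M p i.1 w = ((t (i.1 : ℕ) : ℤ) : ZMod p) • w := by
    by_cases h1 : z.1 = 0
    · refine ⟨z.2, fun h2 => hz0 (Prod.ext h1 h2), fun i => ?_⟩
      exact congrArg Prod.snd (hz i)
    · exact ⟨z.1, h1, fun i => congrArg Prod.fst (hz i)⟩
  -- SUPP-CONV at level `M`
  set S' : Finset ℕ := insert p (S ∪ N.primeFactors) with hS'
  have hN0 : N ≠ 0 := NeZero.ne N
  have hw0' : (w : JZero M) ≠ 0 := fun h0 => hw0 (Subtype.ext h0)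
  have hwp : (p : ℤ) • (w : JZero M) = 0 := Pic0.mem_torsion.mp w.property
  obtain ⟨g, 𝔪, hg, h𝔪, hp𝔪, hc⟩ := suppConv p hp M S' t (w : JZero M) hw0' hwp (by
    intro ℓ hℓS' hℓM
    rw [hS', Finset.mem_insert, Finset.mem_union, Nat.mem_primeFactors] at hℓS'
    push Not at hℓS'
    obtain ⟨hℓp, hℓS, hℓN⟩ := hℓS'
    have hℓN' : ¬ (ℓ : ℕ) ∣ N := fun hd => hN0 (hℓN ℓ.2 hd)
    have h := hw ⟨ℓ, hℓS, hℓN', hℓp⟩
    have h2 := congrArg (fun v : JTors M p => (v : JZero M)) h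
    simp only [hcoe_smul M] at h2
    exact h2)
  refine ⟨g, 𝔪, hg, h𝔪, hp𝔪, fun ℓ hℓ hℓS hℓN hℓp => ?_⟩
  refine hc ℓ hℓ ?_ (hMN ℓ hℓN)
  rw [hS', Finset.mem_insert, Finset.mem_union, Nat.mem_primeFactors]
  push Not
  exact ⟨hℓp, hℓS, fun _ hd => absurd hd hℓN⟩

/-- **The geometric content of package SQ** at a place over `q`, level `M q`, `q ∥ M`: a nonzero
`q`-new `p`-torsion point, fixed by the inertia group of `A`, eigenvector of the good Hecke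
operators with a non-Eisenstein system of eigenvalues, lies in `α^* J₀(M)[p] + β^* J₀(M)[p]`. -/
def HasSqSpanAt (p M q : ℕ) [NeZero M] [NeZero q]
    (A : ValuationSubring (AlgebraicClosure ℚ)) : Prop :=
  ∀ (S : Finset ℕ) (t : ℕ → ℤ) (x : JZero (M * q)), x ≠ 0 → (p : ℤ) • x = 0 →
    IsQNew M q x →
    (∀ σ ∈ A.inertiaSubgroupIn ℚ, σ • x = x) →
    (∀ ℓ : Nat.Primes, (ℓ : ℕ) ∉ S → ¬ (ℓ : ℕ) ∣ M * q → (ℓ : ℕ) ≠ p →
      heckeOperatorBar (M * q) ℓ x = t ℓ • x) →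
    (∃ ℓ : ℕ, ℓ.Prime ∧ ℓ ∉ S ∧ ¬ ℓ ∣ M * q ∧ ℓ ≠ p ∧
      ((t ℓ : ℤ) : ZMod p) ≠ 1 + (ℓ : ZMod p)) →
    ∃ y y' : JZero M, (p : ℤ) • y = 0 ∧ (p : ℤ) • y' = 0 ∧
      x = alphaPull M q y + betaPull M q y'

/-- **Package SQ, geometric form.** -/
def Stmt_SqSpan : Prop :=
  ∀ (p : ℕ), p.Prime → p ≠ 2 → ∀ (M q : ℕ) [NeZero M] [NeZero q], q.Prime → q ≠ p →
    q ∣ M → ¬ q ^ 2 ∣ M →
    ∀ A : ValuationSubring (AlgebraicClosure ℚ), A.LiesOverPrime q → HasSqSpanAt p M q A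

/-- **PB-ASM**: the span statement gives the package SQ for `q`-new points. -/
theorem sqNew_of_span (h : Stmt_SqSpan) : Stmt_SqNew := by
  intro p hp hp2 M q _ _ hq hqp hqM hq2M A hA S t x hx0 hxp hnew hI hT hNE
  obtain ⟨y, y', hy, hy', hx⟩ := h p hp hp2 M q hq hqp hqM hq2M A hA S t x hx0 hxp hnew hI hT hNE
  exact eig_of_span p hp hp2 M (M * q) (alphaPull M q) (betaPull M q)
    (fun ℓ hℓ _ y => alphaPull_hecke M q ℓ hℓ y) (fun ℓ hℓ _ y => betaPull_hecke M q ℓ hℓ y)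
    (fun ℓ hℓ hd => hℓ (hd.mul_right q)) S t x hx0 hT y y' hy hy' hx

/-- **Package SQ from its geometric form.** -/
theorem sqQ_of_span (h : Stmt_SqSpan) : Stmt_SqQ := sqQ_of_new (sqNew_of_span h)

end Fermat.Agent.S59.LL.SQ.H40
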