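import Fermat.Agent.S59.LL.SQ.H40_PullAsm

/-!
# S59, package LL / SQ, leaf PB-ASM, general form (helper40)

`eig_of_span_tors` : the same as `eig_of_span` with TORSION points `y, y'` of ANY order (the
points found by ST-RANK live in `T₁[p^{c+1}]`): TORS-REL kills all torsion, so every relation `P`
of level `M` satisfies `P(T) x = π₁ (P(T) y) + π₂ (P(T) y') = 0`, hence `p ∣ P(t)`, and CHAR-M
gives the eigenform of level `M`.  No finiteness, no `p ≠ 2`.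

* `lift_map_comm` : an additive map which intertwines two families of operators intertwines
  their noncommutative polynomials;
* `eig_of_span_tors`;
* `HasSqSpanTorsAt`, `Stmt_SqSpanTors`, `sqNew_of_spanTors` : the interface for the toric part:
  conclusion `x = α^* y + β^* y'` with `y, y'` torsion, OR the eigenform of level `M` directly.
-/

set_option autoImplicit false
set_option linter.style.haveILetI false
set_option synthInstance.maxHeartbeats 400000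
set_option maxHeartbeats 1000000

noncomputable section

open AlgebraicCurve ModularCurve

namespace Fermat.Agent.S59.LL.SQ.H40

open Fermat.Agent.S44 Fermat.Agent.S59.LL Fermat.Agent.S35.H89 Fermat.Agent.L.LiftEig

/-- An additive map intertwining two families of operators intertwines their polynomials. -/
theorem lift_map_comm {ι J J' : Type*} [AddCommGroup J] [AddCommGroup J'] (π : J →+ J')
    (T : ι → Module.End ℤ J) (T' : ι → Module.End ℤ J')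
    (hπ : ∀ (i : ι) (y : J), π (T i y) = T' i (π y)) (P : FreeAlgebra ℤ ι) :
    ∀ y : J, π (FreeAlgebra.lift ℤ T P y) = FreeAlgebra.lift ℤ T' P (π y) := by
  induction P using FreeAlgebra.induction with
  | grade0 a =>
    intro y
    rw [AlgHom.commutes, AlgHom.commutes, Module.algebraMap_end_apply,
      Module.algebraMap_end_apply, map_zsmul]
  | grade1 i =>
    intro y
    rw [FreeAlgebra.lift_ι_apply, FreeAlgebra.lift_ι_apply]
    exact hπ i y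
  | mul a b iha ihb =>
    intro y
    rw [map_mul, map_mul, Module.End.mul_apply, Module.End.mul_apply, iha, ihb]
  | add a b iha ihb =>
    intro y
    rw [map_add, map_add, LinearMap.add_apply, LinearMap.add_apply, map_add, iha, ihb]

/-- **Eigenvectors in the span of two equivariant maps, torsion form.** -/
theorem eig_of_span_tors (p : ℕ) (hp : p.Prime) (M N : ℕ) [NeZero M] [NeZero N]
    (π₁ π₂ : JZero M →+ JZero N)
    (hπ₁ : ∀ ℓ : Nat.Primes, ¬ (ℓ : ℕ) ∣ N → ¬ (ℓ : ℕ) ∣ M → ∀ y : JZero M,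
      π₁ (heckeOperatorBar M ℓ y) = heckeOperatorBar N ℓ (π₁ y))
    (hπ₂ : ∀ ℓ : Nat.Primes, ¬ (ℓ : ℕ) ∣ N → ¬ (ℓ : ℕ) ∣ M → ∀ y : JZero M,
      π₂ (heckeOperatorBar M ℓ y) = heckeOperatorBar N ℓ (π₂ y))
    (hMN : ∀ ℓ : ℕ, ¬ ℓ ∣ N → ¬ ℓ ∣ M)
    (S : Finset ℕ) (t : ℕ → ℤ) (x : JZero N) (hx0 : x ≠ 0) (hxp : (p : ℤ) • x = 0)
    (hxT : ∀ ℓ : Nat.Primes, (ℓ : ℕ) ∉ S → ¬ (ℓ : ℕ) ∣ N → (ℓ : ℕ) ≠ p →
      heckeOperatorBar N ℓ x = t ℓ • x)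
    (y y' : JZero M) (n n' : ℕ) (hn : n ≠ 0) (hn' : n' ≠ 0) (hy : n • y = 0) (hy' : n' • y' = 0)
    (hx : x = π₁ y + π₂ y') :
    ∃ (g : CuspForm (CongruenceSubgroup.Gamma0 M) 2) (𝔪 : Ideal (integralClosure ℤ ℂ)),
      g.IsNormalizedEigenform ∧ 𝔪.IsMaximal ∧ (p : integralClosure ℤ ℂ) ∈ 𝔪 ∧
      ∀ ℓ : ℕ, ℓ.Prime → ℓ ∉ S → ¬ ℓ ∣ N → ℓ ≠ p →
        ∃ a : integralClosure ℤ ℂ, (a : ℂ) = ModularFormClass.qCoeff g ℓ ∧
          a - ((t ℓ : ℤ) : integralClosure ℤ ℂ) ∈ 𝔪 := by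
  classical
  obtain ⟨S', hS'⟩ : ∃ S' : Finset ℕ, S' = insert p (S ∪ N.primeFactors) := ⟨_, rfl⟩
  have hN0 : N ≠ 0 := NeZero.ne N
  have hgood : ∀ ℓ : GoodPrime M (↑S' : Set ℕ),
      (ℓ : ℕ) ∉ S ∧ ¬ (ℓ : ℕ) ∣ N ∧ (ℓ : ℕ) ≠ p := by
    rintro ⟨ℓ, hℓ, -, h⟩
    rw [Finset.mem_coe, hS', Finset.mem_insert, Finset.mem_union, Nat.mem_primeFactors] at h
    push Not at h
    exact ⟨h.2.1, fun hd => hN0 (h.2.2 hℓ hd), h.1⟩
  -- the operators of level `N` indexed by the good primes of level `M`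
  let T' : GoodPrime M (↑S' : Set ℕ) → Module.End ℤ (JZero N) :=
    fun ℓ => heckeOperatorBar N ⟨ℓ.1, ℓ.2.1⟩
  obtain ⟨g, 𝔪, hg, h𝔪, hp𝔪, hc⟩ := H46.stmt_CharM p hp M S' t (fun P hP => by
    have h1 : evalJ M ↑S' P y = 0 := H37.stmt_TorsRel M ↑S' P hP n hn y hy
    have h1' : evalJ M ↑S' P y' = 0 := H37.stmt_TorsRel M ↑S' P hP n' hn' y' hy'
    have e1 := lift_map_comm π₁
      (fun ℓ : GoodPrime M (↑S' : Set ℕ) => heckeOperatorBar M ⟨ℓ.1, ℓ.2.1⟩) T'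
      (fun ℓ u => hπ₁ ⟨ℓ.1, ℓ.2.1⟩ (hgood ℓ).2.1 ℓ.2.2.1 u) P y
    have e2 := lift_map_comm π₂
      (fun ℓ : GoodPrime M (↑S' : Set ℕ) => heckeOperatorBar M ⟨ℓ.1, ℓ.2.1⟩) T'
      (fun ℓ u => hπ₂ ⟨ℓ.1, ℓ.2.1⟩ (hgood ℓ).2.1 ℓ.2.2.1 u) P y'
    have h2 : FreeAlgebra.lift ℤ T' P x = 0 := by
      rw [hx, map_add, ← e1, ← e2]
      have h1a : FreeAlgebra.lift ℤ
          (fun ℓ : GoodPrime M (↑S' : Set ℕ) => heckeOperatorBar M ⟨ℓ.1, ℓ.2.1⟩) P y = 0 := h1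
      have h1b : FreeAlgebra.lift ℤ
          (fun ℓ : GoodPrime M (↑S' : Set ℕ) => heckeOperatorBar M ⟨ℓ.1, ℓ.2.1⟩) P y' = 0 := h1'
      rw [h1a, h1b, map_zero, map_zero, add_zero]
    have h3 := Fermat.Agent.S43.Old.H75.red_lift_eq (AddMonoidHom.id (JZero N)) T'
      (fun ℓ : GoodPrime M (↑S' : Set ℕ) => t ℓ.1)
      (fun ℓ u hu => by
        have hu' : u = 0 := hu
        rw [hu', map_zero]
        rfl)
      x
      (fun ℓ => hxT ⟨ℓ.1, ℓ.2.1⟩ (hgood ℓ).1 (hgood ℓ).2.1 (hgood ℓ).2.2)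
      P x 1 (one_smul ℤ _).symm
    have h4 : evalt M ↑S' t P • x = 0 := by
      have h5 : FreeAlgebra.lift ℤ T' P x = (evalt M ↑S' t P * 1) • x := h3
      rw [h2, mul_one] at h5
      exact h5.symm
    exact Fermat.Agent.S43.Old.H75.dvd_of_smul_eq_zero hp hx0 hxp h4)
  refine ⟨g, 𝔪, hg, h𝔪, hp𝔪, fun ℓ hℓ hℓS hℓN hℓp => ?_⟩
  refine hc ℓ hℓ ?_ (hMN ℓ hℓN)
  rw [hS', Finset.mem_insert, Finset.mem_union, Nat.mem_primeFactors]
  push Not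
  exact ⟨hℓp, hℓS, fun _ hd => absurd hd hℓN⟩

/-- **The geometric content of package SQ, torsion form with alternative**: a nonzero `q`-new
`p`-torsion point of `J₀(M q)`, `q ∥ M`, fixed by the inertia group of `A`, eigenvector of the good
Hecke operators with a non-Eisenstein system of eigenvalues, EITHER lies in
`α^* J₀(M)_tors + β^* J₀(M)_tors` OR its system of eigenvalues comes from level `M`. -/
def HasSqSpanTorsAt (p M q : ℕ) [NeZero M] [NeZero q]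
    (A : ValuationSubring (AlgebraicClosure ℚ)) : Prop :=
  ∀ (S : Finset ℕ) (t : ℕ → ℤ) (x : JZero (M * q)), x ≠ 0 → (p : ℤ) • x = 0 →
    IsQNew M q x →
    (∀ σ ∈ A.inertiaSubgroupIn ℚ, σ • x = x) →
    (∀ ℓ : Nat.Primes, (ℓ : ℕ) ∉ S → ¬ (ℓ : ℕ) ∣ M * q → (ℓ : ℕ) ≠ p →
      heckeOperatorBar (M * q) ℓ x = t ℓ • x) →
    (∃ ℓ : ℕ, ℓ.Prime ∧ ℓ ∉ S ∧ ¬ ℓ ∣ M * q ∧ ℓ ≠ p ∧
      ((t ℓ : ℤ) : ZMod p) ≠ 1 + (ℓ : ZMod p)) →
    (∃ (y y' : JZero M) (n n' : ℕ), n ≠ 0 ∧ n' ≠ 0 ∧ n • y = 0 ∧ n' • y' = 0 ∧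
      x = alphaPull M q y + betaPull M q y') ∨
    (∃ (g : CuspForm (CongruenceSubgroup.Gamma0 M) 2) (𝔪 : Ideal (integralClosure ℤ ℂ)),
      g.IsNormalizedEigenform ∧ 𝔪.IsMaximal ∧ (p : integralClosure ℤ ℂ) ∈ 𝔪 ∧
      ∀ ℓ : ℕ, ℓ.Prime → ℓ ∉ S → ¬ ℓ ∣ M * q → ℓ ≠ p →
        ∃ a : integralClosure ℤ ℂ, (a : ℂ) = ModularFormClass.qCoeff g ℓ ∧
          a - ((t ℓ : ℤ) : integralClosure ℤ ℂ) ∈ 𝔪)

/-- **Package SQ, geometric form (torsion span or old).** -/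
def Stmt_SqSpanTors : Prop :=
  ∀ (p : ℕ), p.Prime → p ≠ 2 → ∀ (M q : ℕ) [NeZero M] [NeZero q], q.Prime → q ≠ p →
    q ∣ M → ¬ q ^ 2 ∣ M →
    ∀ A : ValuationSubring (AlgebraicClosure ℚ), A.LiesOverPrime q → HasSqSpanTorsAt p M q A

/-- The span `α^* y + β^* y'` of two torsion points of level `M`: the system of eigenvalues of a
nonzero `p`-torsion eigenvector in it comes from level `M`. -/
theorem eig_of_pull_span (p : ℕ) (hp : p.Prime) (M q : ℕ) [NeZero M] [NeZero q]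
    (S : Finset ℕ) (t : ℕ → ℤ) (x : JZero (M * q)) (hx0 : x ≠ 0) (hxp : (p : ℤ) • x = 0)
    (hxT : ∀ ℓ : Nat.Primes, (ℓ : ℕ) ∉ S → ¬ (ℓ : ℕ) ∣ M * q → (ℓ : ℕ) ≠ p →
      heckeOperatorBar (M * q) ℓ x = t ℓ • x)
    (y y' : JZero M) (n n' : ℕ) (hn : n ≠ 0) (hn' : n' ≠ 0) (hy : n • y = 0) (hy' : n' • y' = 0)
    (hx : x = alphaPull M q y + betaPull M q y') :
    ∃ (g : CuspForm (CongruenceSubgroup.Gamma0 M) 2) (𝔪 : Ideal (integralClosure ℤ ℂ)),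
      g.IsNormalizedEigenform ∧ 𝔪.IsMaximal ∧ (p : integralClosure ℤ ℂ) ∈ 𝔪 ∧
      ∀ ℓ : ℕ, ℓ.Prime → ℓ ∉ S → ¬ ℓ ∣ M * q → ℓ ≠ p →
        ∃ a : integralClosure ℤ ℂ, (a : ℂ) = ModularFormClass.qCoeff g ℓ ∧
          a - ((t ℓ : ℤ) : integralClosure ℤ ℂ) ∈ 𝔪 :=
  eig_of_span_tors p hp M (M * q) (alphaPull M q) (betaPull M q)
    (fun ℓ hℓ _ y => alphaPull_hecke M q ℓ hℓ y) (fun ℓ hℓ _ y => betaPull_hecke M q ℓ hℓ y)
    (fun _ hℓ hd => hℓ (hd.mul_right q)) S t x hx0 hxp hxT y y' n n' hn hn' hy hy' hx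

/-- **PB-ASM, general form.** -/
theorem sqNew_of_spanTors (h : Stmt_SqSpanTors) : Stmt_SqNew := by
  intro p hp hp2 M q _ _ hq hqp hqM hq2M A hA S t x hx0 hxp hnew hI hT hNE
  rcases h p hp hp2 M q hq hqp hqM hq2M A hA S t x hx0 hxp hnew hI hT hNE with
    ⟨y, y', n, n', hn, hn', hy, hy', hx⟩ | hold
  · exact eig_of_pull_span p hp M q S t x hx0 hxp hT y y' n n' hn hn' hy hy' hx
  · exact hold

/-- **Package SQ from its geometric form.** -/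
theorem sqQ_of_spanTors (h : Stmt_SqSpanTors) : Stmt_SqQ := sqQ_of_new (sqNew_of_spanTors h)

end Fermat.Agent.S59.LL.SQ.H40
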