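import Fermat.Agent.S36.NU.H24_FinLocal

/-!
# S59, package LL / SQ, step (T), leaf TI3-TRIV (helper40)

The second half of helper24's `fin_local` (S36 / NU-B), isolated: a unit `H` for the three
valuations with (HOR) in both charts and TRIVIAL REDUCTION DATA (`NUData.TrivRed`, i.e. trivial
gluing invariants) is an integral constant times an `n`-th power.  No norm condition, no power
`(q + 1) (q - 1)`: this is the exact form needed for the injectivity of the gluing map `γ₃` on the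
toric part `T₃[n]` at level `q² M'`.
-/

set_option autoImplicit false
set_option linter.style.haveILetI false

noncomputable section

open AlgebraicCurve

attribute [local instance] Classical.propDecidable

namespace Fermat.Agent.S59.LL.SQ.H40

open Fermat.Agent.RED.H17 Fermat.Agent.RED Fermat.Agent.S36.NU.H16 Fermat.Agent.S36.NU.H79
  Fermat.Agent.S36.NU.H65 Fermat.Agent.S36.NU.H17 Fermat.Agent.S36.NU.H24

variable {R F k ι Z K L : Type*} {κ : ι → Type*} [CommRing R] [Field F] [Algebra R F]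
  [Field k] [∀ i, Field (κ i)] [∀ i, Algebra k (κ i)] [Fintype ι]
  [Field K] [Field L] [Algebra K L] [Algebra F L]
  {K' L' L₁ L₂ : Type*} [Field K'] [Field L'] [Algebra K' L'] [Field L₁] [Algebra k L₁]
  [Field L₂] [Algebra k L₂]

variable (D : NUData K F L k ι Z κ K' L' L₁ L₂)

/-- **TI3 from trivial reduction data.** -/
theorem ti3_of_trivRed [IsAlgClosed k] [IsNoetherianRing R] [IsDomain R] [IsIntegrallyClosed R]
    (Kf : Type*) [Field Kf] [Algebra R Kf] [IsFractionRing R Kf] [Algebra Kf F]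
    [IsScalarTower R Kf F]
    (C0 Coo : Chart R F k ι κ) [IsNoetherianRing C0.B] [IsFractionRing C0.B F]
    [IsNoetherianRing Coo.B] [IsFractionRing Coo.B F]
    (hc0 : Compat C0 D.T) (hcoo : Compat Coo D.T) (hP : HasPrincipalDivisors K L)
    (n : ℕ) (hC0 : ChartHyp C0 D.q n) (hCoo : ChartHyp Coo D.q n)
    (j : F) (hjt : Transcendental Kf j) (hB0 : C0.B = intSub R j) (hBoo : Coo.B = intSub R j⁻¹)
    (q : R) (hq0 : q ≠ 0) (hqu : ¬ IsUnit q) (n' : R) (hnn : (n : R) * n' = 1)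
    (hpt0 : PointData C0 D q) (hptoo : PointData Coo D q)
    (hrad0 : ∀ β ∈ C0.B, (∀ i, C0.rd i β = 0) → IsRadQ C0.B q β)
    (hradoo : ∀ β ∈ Coo.B, (∀ i, Coo.rd i β = 0) → IsRadQ Coo.B q β)
    (H : F) (huH : ∀ i, D.T.rdN i H ≠ 0) (hHOR0 : HOR C0 q n H) (hHORoo : HOR Coo q n H)
    (hfg : (MInt R j⁻¹ H n hC0.n_pos).FG)
    (htriv : D.TrivRed n H) :
    ∃ s : F, s ≠ 0 ∧ IsIntegral R (H * s ^ n) := by
  have hn : 0 < n := hC0.n_pos
  haveI : Infinite k := IsAlgClosed.instInfinite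
  have H0 : H ≠ 0 := by
    intro h0
    apply huH D.i₂₀
    rw [h0, D.T.rdN_of_mem (D.T.V _).zero_mem]
    exact map_zero _
  obtain ⟨g, hg, heqv⟩ := exists_g_of_trivRed D hn.ne'
    (fun c => IsAlgClosed.exists_pow_nat_eq c hn) huH htriv
  have S0 : Setup C0 D.q n H g := hC0.setup (fun i => by rw [hc0.hrd]; exact hg i)
  have Soo : Setup Coo D.q n H g := hCoo.setup (fun i => by rw [hcoo.hrd]; exact hg i)
  obtain ⟨a, ha, hra⟩ := chart_of_bridge D hc0 hP D.q q n H g S0 H0 hHOR0 hpt0 huH heqv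
  obtain ⟨b, hb, hrb⟩ := chart_of_bridge D hcoo hP D.q q n H g Soo H0 hHORoo hptoo huH heqv
  exact ti3_const Kf C0 Coo D.q n H g S0 Soo j hjt hB0 hBoo
    (fun i => by rw [hc0.hV, hcoo.hV]) (fun i x => by rw [hc0.hrd, hcoo.hrd]) q hq0 hqu n' hnn
    hfg hrad0 hradoo a b ha hra hb hrb

end Fermat.Agent.S59.LL.SQ.H40
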