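import Fermat.Agent.S36.NU.H44_GalFix
import Fermat.Agent.Lib.HeckeComm.H44_GenJ

/-!
# S59 / LL / SQ, leaf U2 SPAN-UP (helper50), part 1: the compositum `F_b (j_c) = F_d`

For `b ∣ d`, `c ∣ d` such that every integer divisible by `b` and by `c` is divisible by `d`
(`d = lcm (b, c)`): `F_d` is generated over `F_b` by `j (q ^ c)`.

Galois correspondence in the S24 closure `LN d / EN`: an automorphism `piN d γ` fixing
`j (q ^ b)` and `j (q ^ c)` has `γ ∈ Γ₀(b) ∩ Γ₀(c) = Γ₀(d)`, hence fixes `F_d`.
-/

set_option autoImplicit false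
set_option linter.style.haveILetI false
set_option linter.unusedSectionVars false

noncomputable section

namespace Fermat.Agent.S59.LL.SQ.H50

open AlgebraicCurve ModularCurve Fermat.Agent.S24 Fermat.Agent.Lib.HeckeComm
  Fermat.Agent.S36.NU.H44
open scoped MatrixGroups

local notation "Kb" => AlgebraicClosure ℚ

section Comp

variable (b c d : ℕ) [NeZero b] [NeZero c] [NeZero d] (hb : b ∣ d) (hc : c ∣ d)
  (hlcm : ∀ n : ℤ, (b : ℤ) ∣ n → (c : ℤ) ∣ n → (d : ℤ) ∣ n)

include hlcm in
theorem mem_Gamma0_of_lcm {γ : SL(2, ℤ)} (h1 : γ ∈ CongruenceSubgroup.Gamma0 b)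
    (h2 : γ ∈ CongruenceSubgroup.Gamma0 c) : γ ∈ CongruenceSubgroup.Gamma0 d := by
  rw [CongruenceSubgroup.Gamma0_mem, ZMod.intCast_zmod_eq_zero_iff_dvd] at h1 h2 ⊢
  exact hlcm _ h1 h2

include hlcm in
/-- An automorphism of the closure fixing `j_b` and `j_c` fixes `F_d`. -/
theorem fixingSubgroup_adjoin_pair_le :
    (IntermediateField.adjoin EN {phi d (jdF d b hb), phi d (jdF d c hc)} :
        IntermediateField EN (LN d)).fixingSubgroup
      ≤ (IsScalarTower.toAlgHom EN (FN d) (LN d)).fieldRange.fixingSubgroup := by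
  intro σ hσ
  obtain ⟨γ, rfl⟩ := piN_surjective d σ
  rw [IntermediateField.mem_fixingSubgroup_iff] at hσ ⊢
  have hγb : γ ∈ CongruenceSubgroup.Gamma0 b := by
    have h1 := hσ (phi d (jdF d b hb))
      (IntermediateField.subset_adjoin _ _ (Set.mem_insert _ _))
    rw [piN_phi_jdF, phi_jdF] at h1
    have h2 := IsFractionRing.injective (AT d) (LN d) h1
    have h3 := (toAT d).injective h2
    exact mem_Gamma0_of_smul_jdA_d d b (Nat.pos_of_ne_zero (NeZero.ne b)) hb γ h3
  have hγc : γ ∈ CongruenceSubgroup.Gamma0 c := by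
    have h1 := hσ (phi d (jdF d c hc))
      (IntermediateField.subset_adjoin _ _ (Set.mem_insert_of_mem _ (Set.mem_singleton _)))
    rw [piN_phi_jdF, phi_jdF] at h1
    have h2 := IsFractionRing.injective (AT d) (LN d) h1
    have h3 := (toAT d).injective h2
    exact mem_Gamma0_of_smul_jdA_d d c (Nat.pos_of_ne_zero (NeZero.ne c)) hc γ h3
  have hγ := mem_Gamma0_of_lcm b c d hlcm hγb hγc
  rintro _ ⟨y, rfl⟩
  exact piN_phi_of_mem_Gamma0 d γ hγ y

include hlcm in
/-- The image of `F_d` in the closure is `EN (j_b, j_c)`. -/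
theorem fieldRange_eq_adjoin_pair :
    (IsScalarTower.toAlgHom EN (FN d) (LN d)).fieldRange
      = IntermediateField.adjoin EN {phi d (jdF d b hb), phi d (jdF d c hc)} := by
  apply le_antisymm
  · rw [← IsGalois.fixedField_fixingSubgroup
      (IntermediateField.adjoin EN {phi d (jdF d b hb), phi d (jdF d c hc)} :
        IntermediateField EN (LN d)),
      IntermediateField.le_iff_le]
    exact fixingSubgroup_adjoin_pair_le b c d hb hc hlcm
  · rw [IntermediateField.adjoin_le_iff]
    rintro _ (rfl | rfl)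
    · exact ⟨jdF d b hb, rfl⟩
    · exact ⟨jdF d c hc, rfl⟩

include hlcm in
/-- `F_d` is generated by `j_b`, `j_c` over `EN = Q̄(j)`. -/
theorem adjoin_EN_pair :
    (IntermediateField.adjoin EN {jdF d b hb, jdF d c hc} : IntermediateField EN (FN d)) = ⊤ := by
  apply IntermediateField.map_injective (IsScalarTower.toAlgHom EN (FN d) (LN d))
  rw [IntermediateField.adjoin_map, Set.image_pair, ← AlgHom.fieldRange_eq_map,
    fieldRange_eq_adjoin_pair b c d hb hc hlcm]
  rfl

include hlcm in
/-- **The compositum**: `F_d = F_b (j (q ^ c))` for `d = lcm (b, c)`. -/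
theorem adjoin_FN_jdF_of_lcm :
    letI := (inclFN b d hb).toRingHom.toAlgebra
    IntermediateField.adjoin (FN b) {jdF d c hc} = ⊤ := by
  letI := (inclFN b d hb).toRingHom.toAlgebra
  show (IntermediateField.adjoin (FN b) {jdF d c hc} : IntermediateField (FN b) (FN d)) = ⊤
  let D : IntermediateField Kb (FN d) :=
    { (IntermediateField.adjoin (FN b) {jdF d c hc} :
        IntermediateField (FN b) (FN d)).toSubfield with
      algebraMap_mem' := fun x => by
        have hx : algebraMap Kb (FN d) x = algebraMap (FN b) (FN d) (algebraMap Kb (FN b) x) :=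
          ((inclFN b d hb).commutes x).symm
        rw [hx]
        exact (IntermediateField.adjoin (FN b) {jdF d c hc} :
          IntermediateField (FN b) (FN d)).algebraMap_mem _ }
  have hjD : jF d ∈ D := by
    have hj : jF d = algebraMap (FN b) (FN d) (jF b) := (inclFN_jF b d hb).symm
    rw [hj]
    exact (IntermediateField.adjoin (FN b) {jdF d c hc} :
      IntermediateField (FN b) (FN d)).algebraMap_mem _
  have hbD : jdF d b hb ∈ D := by
    have hj : jdF d b hb = algebraMap (FN b) (FN d) (jdF b b dvd_rfl) :=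
      (inclFN_jdF b d hb b dvd_rfl).symm
    rw [hj]
    exact (IntermediateField.adjoin (FN b) {jdF d c hc} :
      IntermediateField (FN b) (FN d)).algebraMap_mem _
  have hcD : jdF d c hc ∈ D :=
    IntermediateField.subset_adjoin (FN b) _ (Set.mem_singleton _)
  let B : IntermediateField EN (FN d) :=
    { D.toSubfield with
      algebraMap_mem' := fun y => H44.algebraMap_EN_mem d D hjD y }
  have hB : B = ⊤ := by
    rw [eq_top_iff, ← adjoin_EN_pair b c d hb hc hlcm, IntermediateField.adjoin_le_iff]
    rintro _ (rfl | rfl)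
    · exact hbD
    · exact hcD
  rw [eq_top_iff]
  intro x _
  have hx : x ∈ B := by rw [hB]; exact IntermediateField.mem_top
  exact hx

end Comp

end Fermat.Agent.S59.LL.SQ.H50
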