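import Fermat.Agent.S59.LL.SQ.H50_Compositum
import Fermat.Agent.S59.LL.SQ.H40_Pull
import Fermat.Agent.NEB.H14_CorrFF
import Fermat.Agent.S36.NU.H44_NormBCNU

/-!
# S59 / LL / SQ, leaf U2 SPAN-UP (helper50)

Levels `a ∣ c` (lower row), `a q ∣ c q` (upper row), `q` prime, `q ∣ a`,
`lcm (a q, c) = c q` (e.g. `c = a r`, `q ∤ r`).  In the square

```
   F_a   --α_q, β_q-->  F_{a q}
    | ι₁                   | ι₂
   F_c   --α_q, β_q-->  F_{c q}
```

* `norm_alpha_bc`, `norm_beta_bc` : base change of the norms along `ι` :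
  `α (N_{ι₁} f) = N_{ι₂} (α' f)`, `β (N_{ι₁} f) = N_{ι₂} (β' f)`;
* `push_pull_alpha`, `push_pull_beta` : `ι₂_* α'^* = α^* ι₁_*`, `ι₂_* β'^* = β^* ι₁_*` on divisors;
* `spanUp` : **U2**: `ι₂^* x = α'^* y + β'^* y'  ⟹  [F_{cq} : F_{aq}] • x = α^* (ι₁_* y) + β^* (ι₁_* y')`;
* `spanUp_tors` : the descent of the conclusion of `TorSpanSqAt` for `p ∤ [F_{cq} : F_{aq}]`.
-/

set_option autoImplicit false
set_option linter.style.haveILetI false
set_option linter.unusedSectionVars false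
set_option linter.unusedVariables false

noncomputable section

namespace Fermat.Agent.S59.LL.SQ.H50

open AlgebraicCurve ModularCurve Fermat.Agent.S24 Fermat.Agent.Lib.HeckeComm
  Fermat.Agent.S36.H44 Fermat.Agent.S36.NU.H44 Fermat.Agent.NEB.H14

local notation "Kb" => AlgebraicClosure ℚ

section Square

variable (a c q : ℕ) [NeZero a] [NeZero c] [NeZero q] (hac : a ∣ c)

/-- `ι₁ : F_a ⊂ F_c`. -/
def inclL : FN a →ₐ[Kb] FN c := inclFN a c hac

/-- `ι₂ : F_{a q} ⊂ F_{c q}`. -/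
def inclU : FN (a * q) →ₐ[Kb] FN (c * q) := inclFN (a * q) (c * q) (Nat.mul_dvd_mul_right hac q)

theorem coe_inclL (x : FN a) : (inclL a c hac x : LaurentSeries Kb) = (x : LaurentSeries Kb) :=
  coe_inclFN _ _ _ x

theorem coe_inclU (x : FN (a * q)) :
    (inclU a c q hac x : LaurentSeries Kb) = (x : LaurentSeries Kb) :=
  coe_inclFN _ _ _ x

/-- `lcm (a q, c) = c q` for `c = a r`, `q ∤ r`. -/
theorem lcm_of_mul {r : ℕ} (hq : q.Prime) (hc : c = a * r) (hqr : ¬ q ∣ r) :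
    ∀ n : ℤ, ((a * q : ℕ) : ℤ) ∣ n → (c : ℤ) ∣ n → ((c * q : ℕ) : ℤ) ∣ n := by
  subst hc
  intro n h1 h2
  have ha0 : (a : ℤ) ≠ 0 := by exact_mod_cast NeZero.ne a
  obtain ⟨u, rfl⟩ : (a : ℤ) ∣ n := dvd_trans ⟨(q : ℤ), by push_cast; ring⟩ h1
  have h1' : (q : ℤ) ∣ u := by
    have : (a : ℤ) * q ∣ a * u := by simpa using h1
    exact (mul_dvd_mul_iff_left ha0).1 this
  have h2' : (r : ℤ) ∣ u := by
    have : (a : ℤ) * r ∣ a * u := by simpa using h2
    exact (mul_dvd_mul_iff_left ha0).1 this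
  have hcop : IsCoprime (r : ℤ) (q : ℤ) :=
    Nat.isCoprime_iff_coprime.2 ((Nat.Prime.coprime_iff_not_dvd hq).2 hqr).symm
  have h3 : (r : ℤ) * q ∣ u := hcop.mul_dvd h2' h1'
  obtain ⟨v, rfl⟩ := h3
  exact ⟨v, by push_cast; ring⟩

/-- The degrees of `ι₁` and `ι₂` agree, for a prime `q ∣ a`. -/
theorem finrank_inclU_eq (hq : q.Prime) (hqa : q ∣ a) :
    finrankHom (inclU a c q hac).toRingHom = finrankHom (inclL a c hac).toRingHom := by
  have h1 := stmt_Deg a c hac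
  have h2 := stmt_Deg (a * q) (c * q) (Nat.mul_dvd_mul_right hac q)
  unfold Stmt_Deg at h1 h2
  rw [Fermat.Agent.S36.NU.H82.dedekindPsi_mul_of_dvd hq (NeZero.ne a) hqa,
    Fermat.Agent.S36.NU.H82.dedekindPsi_mul_of_dvd hq (NeZero.ne c) (hqa.trans hac), ← h1] at h2
  have hq0 : 0 < q * dedekindPsi a := Nat.mul_pos hq.pos (dedekindPsi_pos_h2 a)
  have h3 : finrankHom (inclU a c q hac).toRingHom * (q * dedekindPsi a)
      = finrankHom (inclL a c hac).toRingHom * (q * dedekindPsi a) := by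
    rw [show finrankHom (inclL a c hac).toRingHom * (q * dedekindPsi a)
      = q * (finrankHom (inclL a c hac).toRingHom * dedekindPsi a) by ring]
    exact h2
  exact Nat.eq_of_mul_eq_mul_right hq0 h3

variable (hlcm : ∀ n : ℤ, ((a * q : ℕ) : ℤ) ∣ n → (c : ℤ) ∣ n → ((c * q : ℕ) : ℤ) ∣ n)

include hlcm in
/-- **Base change of the norm of `ι` along `α_q`.** -/
theorem norm_alpha_bc (hq : q.Prime) (hqa : q ∣ a) (f : FN c) :
    heckeAlphaBar Kb a q (normAlongHom (inclL a c hac).toRingHom f)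
      = normAlongHom (inclU a c q hac).toRingHom (heckeAlphaBar Kb c q f) := by
  refine normAlongHom_baseChange (inclL a c hac).toRingHom (inclU a c q hac).toRingHom
    (heckeAlphaBar Kb a q).toRingHom (heckeAlphaBar Kb c q).toRingHom ?_
    (stmt_Fin a c hac) (stmt_Fin (a * q) (c * q) (Nat.mul_dvd_mul_right hac q))
    (jdF c c dvd_rfl) (stmt_GenJ a c hac) ?_ ?_ f
  · intro x
    apply Subtype.ext
    simp only [AlgHom.toRingHom_eq_coe, RingHom.coe_coe, coe_heckeAlphaBar, coe_inclU,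
      coe_inclL]
  · have e : (heckeAlphaBar Kb c q).toRingHom (jdF c c dvd_rfl)
        = jdF (c * q) c (dvd_mul_right c q) :=
      inclFN_jdF c (c * q) (dvd_mul_right c q) c dvd_rfl
    rw [e]
    exact adjoin_FN_jdF_of_lcm (a * q) c (c * q) (Nat.mul_dvd_mul_right hac q)
      (dvd_mul_right c q) hlcm
  · exact (finrank_inclU_eq a c q hac hq hqa).symm

include hlcm in
/-- **Base change of the norm of `ι` along `β_q`.** -/
theorem norm_beta_bc (hq : q.Prime) (hqa : q ∣ a) (f : FN c) :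
    heckeBetaBar Kb a q (normAlongHom (inclL a c hac).toRingHom f)
      = normAlongHom (inclU a c q hac).toRingHom (heckeBetaBar Kb c q f) := by
  refine normAlongHom_baseChange (inclL a c hac).toRingHom (inclU a c q hac).toRingHom
    (heckeBetaBar Kb a q).toRingHom (heckeBetaBar Kb c q).toRingHom ?_
    (stmt_Fin a c hac) (stmt_Fin (a * q) (c * q) (Nat.mul_dvd_mul_right hac q))
    (jdF c c dvd_rfl) (stmt_GenJ a c hac) ?_ ?_ f
  · intro x
    apply Subtype.ext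
    simp only [AlgHom.toRingHom_eq_coe, RingHom.coe_coe, coe_heckeBetaBar, coe_inclU,
      coe_inclL]
  · have e : (heckeBetaBar Kb c q).toRingHom (jdF c c dvd_rfl)
        = jdF (c * q) (c * q) dvd_rfl := by
      apply Subtype.ext
      simp only [AlgHom.toRingHom_eq_coe, RingHom.coe_coe, coe_heckeBetaBar,
        Fermat.Agent.RED.H95.coe_jdF, qExpand_qExpand]
      exact qExpand_congr (mul_comm q c) _
    rw [e]
    exact stmt_GenJ (a * q) (c * q) (Nat.mul_dvd_mul_right hac q)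
  · exact (finrank_inclU_eq a c q hac hq hqa).symm

include hlcm in
/-- `ι₂_* α'^* = α^* ι₁_*` on divisors. -/
theorem push_pull_alpha (hq : q.Prime) (hqa : q ∣ a) :
    (pushD (inclU a c q hac)).comp (pullD (heckeAlphaBar Kb c q))
      = (pullD (heckeAlphaBar Kb a q)).comp (pushD (inclL a c hac)) := by
  haveI := hasPD (isFF_FN c)
  refine ((isCorr_pushD (isFF_FN (a * q)) (isFF_FN (c * q)) (inclU a c q hac)).comp
    (isCorr_pullD (isFF_FN c) (isFF_FN (c * q)) (heckeAlphaBar Kb c q))).eq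
    ((isCorr_pullD (isFF_FN a) (isFF_FN (a * q)) (heckeAlphaBar Kb a q)).comp
      (isCorr_pushD (isFF_FN a) (isFF_FN c) (inclL a c hac))) (fun f _ => ?_)
  exact (norm_alpha_bc a c q hac hlcm hq hqa f).symm

include hlcm in
/-- `ι₂_* β'^* = β^* ι₁_*` on divisors. -/
theorem push_pull_beta (hq : q.Prime) (hqa : q ∣ a) :
    (pushD (inclU a c q hac)).comp (pullD (heckeBetaBar Kb c q))
      = (pullD (heckeBetaBar Kb a q)).comp (pushD (inclL a c hac)) := by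
  haveI := hasPD (isFF_FN c)
  refine ((isCorr_pushD (isFF_FN (a * q)) (isFF_FN (c * q)) (inclU a c q hac)).comp
    (isCorr_pullD (isFF_FN c) (isFF_FN (c * q)) (heckeBetaBar Kb c q))).eq
    ((isCorr_pullD (isFF_FN a) (isFF_FN (a * q)) (heckeBetaBar Kb a q)).comp
      (isCorr_pushD (isFF_FN a) (isFF_FN c) (inclL a c hac))) (fun f _ => ?_)
  exact (norm_beta_bc a c q hac hlcm hq hqa f).symm

include hlcm in
/-- `ι₂_* α'^* = α^* ι₁_*` on `Pic⁰`. -/
theorem pushP_pullP_alpha (hq : q.Prime) (hqa : q ∣ a) (y : JZero c) :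
    pushP (inclU a c q hac) (pullP (heckeAlphaBar Kb c q) y)
      = pullP (heckeAlphaBar Kb a q) (pushP (inclL a c hac) y) := by
  have h1 := picMap_comp
    (isCorr_pushD (isFF_FN (a * q)) (isFF_FN (c * q)) (inclU a c q hac)).isGood
    (isCorr_pullD (isFF_FN c) (isFF_FN (c * q)) (heckeAlphaBar Kb c q)).isGood
  have h2 := picMap_comp
    (isCorr_pullD (isFF_FN a) (isFF_FN (a * q)) (heckeAlphaBar Kb a q)).isGood
    (isCorr_pushD (isFF_FN a) (isFF_FN c) (inclL a c hac)).isGood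
  rw [push_pull_alpha a c q hac hlcm hq hqa, h2] at h1
  exact (DFunLike.congr_fun h1 y).symm

include hlcm in
/-- `ι₂_* β'^* = β^* ι₁_*` on `Pic⁰`. -/
theorem pushP_pullP_beta (hq : q.Prime) (hqa : q ∣ a) (y : JZero c) :
    pushP (inclU a c q hac) (pullP (heckeBetaBar Kb c q) y)
      = pullP (heckeBetaBar Kb a q) (pushP (inclL a c hac) y) := by
  have h1 := picMap_comp
    (isCorr_pushD (isFF_FN (a * q)) (isFF_FN (c * q)) (inclU a c q hac)).isGood
    (isCorr_pullD (isFF_FN c) (isFF_FN (c * q)) (heckeBetaBar Kb c q)).isGood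
  have h2 := picMap_comp
    (isCorr_pullD (isFF_FN a) (isFF_FN (a * q)) (heckeBetaBar Kb a q)).isGood
    (isCorr_pushD (isFF_FN a) (isFF_FN c) (inclL a c hac)).isGood
  rw [push_pull_beta a c q hac hlcm hq hqa, h2] at h1
  exact (DFunLike.congr_fun h1 y).symm

end Square

/-! ## Bridge: `H40.pic0Pull = pullP` -/

section Bridge

/-- The pull-back of helper40 is the pull-back of helper14. -/
theorem pic0Pull_eq_pullP (M N : ℕ) [NeZero M] [NeZero N] (φ : FN M →ₐ[Kb] FN N)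
    (hφ : φ.toRingHom.IsIntegral)
    (hFI : haveI := H40.hasPD_FN N; FundamentalIdentityAlong Kb φ hφ) :
    haveI := H40.hasPD_FN N
    H40.pic0Pull φ hφ hFI = pullP φ := by
  haveI := H40.hasPD_FN N
  refine AddMonoidHom.ext fun x => ?_
  obtain ⟨D, rfl⟩ := Pic0.mk_surjective x
  rw [H40.pic0Pull_mk, pullP, picMap_mk (isCorr_pullD (isFF_FN M) (isFF_FN N) φ).isGood]
  refine congrArg Pic0.mk (Subtype.ext ?_)
  rw [coe_degZeroMap, H40.coe_degZeroPull, pullD_eq (isFF_FN M) (isFF_FN N)]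

theorem alphaPull_eq_pullP (M q : ℕ) [NeZero M] [NeZero q] :
    H40.alphaPull M q = pullP (heckeAlphaBar Kb M q) :=
  pic0Pull_eq_pullP M (M * q) _ _ _

theorem betaPull_eq_pullP (M q : ℕ) [NeZero M] [NeZero q] :
    H40.betaPull M q = pullP (heckeBetaBar Kb M q) :=
  pic0Pull_eq_pullP M (M * q) _ _ _

end Bridge

/-! ## U2 SPAN-UP -/

section Main

variable (a c q : ℕ) [NeZero a] [NeZero c] [NeZero q] (hac : a ∣ c)
  (hlcm : ∀ n : ℤ, ((a * q : ℕ) : ℤ) ∣ n → (c : ℤ) ∣ n → ((c * q : ℕ) : ℤ) ∣ n)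

/-- The degree `[F_{c q} : F_{a q}]`. -/
def degU : ℕ := finrankAlong Kb (inclU a c q hac)

theorem degU_mul_psi : degU a c q hac * dedekindPsi (a * q) = dedekindPsi (c * q) :=
  stmt_Deg (a * q) (c * q) (Nat.mul_dvd_mul_right hac q)

theorem degU_pos : 0 < degU a c q hac :=
  finrank_FN_pos (a * q) (c * q) (Nat.mul_dvd_mul_right hac q)

/-- `[F_{a ℓ q} : F_{a q}] = ℓ` for a prime `ℓ ∣ a`. -/
theorem degU_of_dvd {ℓ : ℕ} (hℓ : ℓ.Prime) (hc : c = a * ℓ) (hℓa : ℓ ∣ a) :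
    degU a c q hac = ℓ := by
  have h := degU_mul_psi a c q hac
  have e : c * q = a * q * ℓ := by rw [hc]; ring
  rw [e, Fermat.Agent.S36.NU.H82.dedekindPsi_mul_of_dvd hℓ (NeZero.ne (a * q))
    (dvd_mul_of_dvd_left hℓa q)] at h
  exact Nat.eq_of_mul_eq_mul_right (dedekindPsi_pos_h2 (a * q)) h

/-- `[F_{a ℓ q} : F_{a q}] = ℓ + 1` for a prime `ℓ ∤ a q`. -/
theorem degU_of_not_dvd {ℓ : ℕ} (hℓ : ℓ.Prime) (hc : c = a * ℓ) (hℓa : ¬ ℓ ∣ a * q) :
    degU a c q hac = ℓ + 1 := by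
  have h := degU_mul_psi a c q hac
  have e : c * q = a * q * ℓ := by rw [hc]; ring
  have hcop : (a * q).Coprime ℓ := ((Nat.Prime.coprime_iff_not_dvd hℓ).mpr hℓa).symm
  have hpp := Fermat.Agent.S20.H19.dedekindPsi_prime_pow hℓ (n := 1) one_pos
  simp only [pow_one, Nat.sub_self, pow_zero] at hpp
  rw [e, Fermat.Agent.S20.H19.dedekindPsi_mul hcop, hpp, mul_comm (dedekindPsi (a * q))] at h
  have h' : degU a c q hac * dedekindPsi (a * q) = (ℓ + 1) * dedekindPsi (a * q) := by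
    rw [h]
  exact Nat.eq_of_mul_eq_mul_right (dedekindPsi_pos_h2 (a * q)) h'

include hlcm in
/-- **U2 SPAN-UP** (in terms of `pullP`, `pushP`). -/
theorem spanUp (hq : q.Prime) (hqa : q ∣ a) (x : JZero (a * q)) (y y' : JZero c)
    (h : pullP (inclU a c q hac) x = H40.alphaPull c q y + H40.betaPull c q y') :
    degU a c q hac • x
      = H40.alphaPull a q (pushP (inclL a c hac) y)
        + H40.betaPull a q (pushP (inclL a c hac) y') := by
  have h1 := congrArg (pushP (inclU a c q hac)) h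
  rw [pushP_pullP (isFF_FN (a * q)) (isFF_FN (c * q)), map_add, alphaPull_eq_pullP,
    betaPull_eq_pullP, pushP_pullP_alpha a c q hac hlcm hq hqa,
    pushP_pullP_beta a c q hac hlcm hq hqa] at h1
  rw [alphaPull_eq_pullP, betaPull_eq_pullP]
  exact h1

include hlcm in
/-- **U2 SPAN-UP** (in terms of `H40.pic0Pull`). -/
theorem spanUp' (hq : q.Prime) (hqa : q ∣ a) (hdvd : a * q ∣ c * q)
    (hint : (inclFN (a * q) (c * q) hdvd).toRingHom.IsIntegral)
    (hFI : haveI := H40.hasPD_FN (c * q)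
      FundamentalIdentityAlong Kb (inclFN (a * q) (c * q) hdvd) hint)
    (x : JZero (a * q)) (y y' : JZero c)
    (h : (haveI := H40.hasPD_FN (c * q)
        H40.pic0Pull (inclFN (a * q) (c * q) hdvd) hint hFI) x
      = H40.alphaPull c q y + H40.betaPull c q y') :
    degU a c q hac • x
      = H40.alphaPull a q (pushP (inclL a c hac) y)
        + H40.betaPull a q (pushP (inclL a c hac) y') := by
  refine spanUp a c q hac hlcm hq hqa x y y' ?_
  rw [← h, pic0Pull_eq_pullP]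
  rfl

include hlcm in
/-- **Descent of TOR-SPAN**: if `p ∤ [F_{c q} : F_{a q}]`, a `p`-torsion point `x` of level `a q`
whose pull-back to level `c q` is `α^* y + β^* y'` with torsion points `y`, `y'` of level `c` is
itself `α^* z + β^* z'` with torsion points `z`, `z'` of level `a`. -/
theorem spanUp_tors (hq : q.Prime) (hqa : q ∣ a) (p : ℕ) (hp : p.Prime)
    (hpd : ¬ p ∣ degU a c q hac) (x : JZero (a * q)) (hxp : (p : ℤ) • x = 0)
    (y y' : JZero c) (n n' : ℕ) (hn : n ≠ 0) (hn' : n' ≠ 0) (hy : n • y = 0) (hy' : n' • y' = 0)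
    (h : pullP (inclU a c q hac) x = H40.alphaPull c q y + H40.betaPull c q y') :
    ∃ (z z' : JZero a) (m m' : ℕ), m ≠ 0 ∧ m' ≠ 0 ∧ m • z = 0 ∧ m' • z' = 0 ∧
      x = H40.alphaPull a q z + H40.betaPull a q z' := by
  have hU := spanUp a c q hac hlcm hq hqa x y y' h
  have hcop : IsCoprime (degU a c q hac : ℤ) (p : ℤ) :=
    Nat.isCoprime_iff_coprime.2 ((Nat.Prime.coprime_iff_not_dvd hp).2 hpd).symm
  obtain ⟨u, v, huv⟩ := hcop
  refine ⟨u • pushP (inclL a c hac) y, u • pushP (inclL a c hac) y', n, n', hn, hn', ?_, ?_, ?_⟩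
  · rw [smul_comm, ← map_nsmul, hy, map_zero, smul_zero]
  · rw [smul_comm, ← map_nsmul, hy', map_zero, smul_zero]
  · have hx : x = u • ((degU a c q hac : ℤ) • x) := by
      have e : ((u * (degU a c q hac : ℤ) + v * (p : ℤ)) : ℤ) • x = x := by
        rw [huv, one_zsmul]
      rw [add_zsmul, mul_zsmul, mul_zsmul, hxp, zsmul_zero, add_zero] at e
      exact e.symm
    rw [natCast_zsmul, hU] at hx
    rw [map_zsmul, map_zsmul, ← zsmul_add]
    exact hx

end Main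

/-! ## The form used by SQ: levels `M q ∣ M₂ q`, `M q² ∣ M₂ q²`, `M₂ = M r`, `q ∤ r` -/

section SQ

variable (M q M₂ : ℕ) [NeZero M] [NeZero q] [NeZero M₂] [NeZero (M * q)] [NeZero (M₂ * q)]

theorem dvd_lowLevel (hM : M ∣ M₂) : M * q ∣ M₂ * q := Nat.mul_dvd_mul_right hM q

theorem dvd_topLevel (hM : M ∣ M₂) : M * q * q ∣ M₂ * q * q :=
  Nat.mul_dvd_mul_right (Nat.mul_dvd_mul_right hM q) q

/-- The degree `[F_{M₂ q²} : F_{M q²}]`. -/
def degSq (hM : M ∣ M₂) : ℕ := degU (M * q) (M₂ * q) q (dvd_lowLevel M q M₂ hM)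

theorem degSq_eq (hM : M ∣ M₂) :
    degSq M q M₂ hM = finrankAlong Kb (inclFN (M * q * q) (M₂ * q * q) (dvd_topLevel M q M₂ hM)) :=
  rfl

theorem degSq_mul_psi (hM : M ∣ M₂) :
    degSq M q M₂ hM * dedekindPsi (M * q * q) = dedekindPsi (M₂ * q * q) :=
  degU_mul_psi _ _ _ _

/-- `[F_{M ℓ q²} : F_{M q²}] = ℓ` for a prime `ℓ ∣ M`. -/
theorem degSq_of_dvd (hM : M ∣ M₂) {ℓ : ℕ} (hℓ : ℓ.Prime) (hM₂ : M₂ = M * ℓ) (hℓM : ℓ ∣ M) :
    degSq M q M₂ hM = ℓ :=
  degU_of_dvd _ _ _ _ hℓ (by rw [hM₂]; ring) (dvd_mul_of_dvd_left hℓM q)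

/-- `[F_{M ℓ q²} : F_{M q²}] = ℓ + 1` for a prime `ℓ ∤ M q`. -/
theorem degSq_of_not_dvd (hM : M ∣ M₂) {ℓ : ℕ} (hℓ : ℓ.Prime) (hM₂ : M₂ = M * ℓ)
    (hℓM : ¬ ℓ ∣ M) (hℓq : ℓ ≠ q) (hq : q.Prime) :
    degSq M q M₂ hM = ℓ + 1 := by
  refine degU_of_not_dvd _ _ _ _ hℓ (by rw [hM₂]; ring) ?_
  intro h
  rcases (Nat.Prime.dvd_mul hℓ).1 h with h | h
  · rcases (Nat.Prime.dvd_mul hℓ).1 h with h | h
    · exact hℓM h
    · exact hℓq ((Nat.prime_dvd_prime_iff_eq hℓ hq).1 h)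
  · exact hℓq ((Nat.prime_dvd_prime_iff_eq hℓ hq).1 h)

/-- **U2 SPAN-UP, SQ form.**  `x` of level `M q²`, `y`, `y'` of level `M₂ q`, `M₂ = M r`, `q ∤ r`:
`ι^* x = α^* y + β^* y'` at level `M₂ q²` gives
`[F_{M₂ q²} : F_{M q²}] • x = α^* (ι'_* y) + β^* (ι'_* y')` at level `M q²`. -/
theorem spanUp_sq (hq : q.Prime) (hM : M ∣ M₂) {r : ℕ} (hM₂ : M₂ = M * r) (hqr : ¬ q ∣ r)
    (x : JZero (M * q * q)) (y y' : JZero (M₂ * q))
    (h : pullP (inclFN (M * q * q) (M₂ * q * q) (dvd_topLevel M q M₂ hM)) x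
      = H40.alphaPull (M₂ * q) q y + H40.betaPull (M₂ * q) q y') :
    degSq M q M₂ hM • x
      = H40.alphaPull (M * q) q (pushP (inclFN (M * q) (M₂ * q) (dvd_lowLevel M q M₂ hM)) y)
        + H40.betaPull (M * q) q
            (pushP (inclFN (M * q) (M₂ * q) (dvd_lowLevel M q M₂ hM)) y') :=
  spanUp (M * q) (M₂ * q) q (dvd_lowLevel M q M₂ hM)
    (lcm_of_mul (M * q) (M₂ * q) q hq (by rw [hM₂]; ring) hqr) hq (dvd_mul_left q M) x y y' h

/-- **Descent of the conclusion of `TorSpanSqAt`** from level `M₂ q²` to level `M q²`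
(`M₂ = M r`, `q ∤ r`, `p ∤ [F_{M₂ q²} : F_{M q²}]`). -/
theorem torSpan_descend (hq : q.Prime) (hM : M ∣ M₂) {r : ℕ} (hM₂ : M₂ = M * r) (hqr : ¬ q ∣ r)
    (p : ℕ) (hp : p.Prime) (hpd : ¬ p ∣ degSq M q M₂ hM)
    (x : JZero (M * q * q)) (hxp : (p : ℤ) • x = 0)
    (h : ∃ (y y' : JZero (M₂ * q)) (n n' : ℕ), n ≠ 0 ∧ n' ≠ 0 ∧ n • y = 0 ∧ n' • y' = 0 ∧
      pullP (inclFN (M * q * q) (M₂ * q * q) (dvd_topLevel M q M₂ hM)) x
        = H40.alphaPull (M₂ * q) q y + H40.betaPull (M₂ * q) q y') :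
    ∃ (z z' : JZero (M * q)) (m m' : ℕ), m ≠ 0 ∧ m' ≠ 0 ∧ m • z = 0 ∧ m' • z' = 0 ∧
      x = H40.alphaPull (M * q) q z + H40.betaPull (M * q) q z' := by
  obtain ⟨y, y', n, n', hn, hn', hy, hy', hx⟩ := h
  exact spanUp_tors (M * q) (M₂ * q) q (dvd_lowLevel M q M₂ hM)
    (lcm_of_mul (M * q) (M₂ * q) q hq (by rw [hM₂]; ring) hqr) hq (dvd_mul_left q M) p hp hpd x hxp
    y y' n n' hn hn' hy hy' hx

/-- The pull-back `ι^*` in the form of `H40.pic0Pull`. -/
theorem pic0Pull_top_eq (hM : M ∣ M₂)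
    (hint : (inclFN (M * q * q) (M₂ * q * q) (dvd_topLevel M q M₂ hM)).toRingHom.IsIntegral)
    (hFI : haveI := H40.hasPD_FN (M₂ * q * q);
      FundamentalIdentityAlong Kb (inclFN (M * q * q) (M₂ * q * q) (dvd_topLevel M q M₂ hM)) hint) :
    (haveI := H40.hasPD_FN (M₂ * q * q);
      H40.pic0Pull (inclFN (M * q * q) (M₂ * q * q) (dvd_topLevel M q M₂ hM)) hint hFI)
      = pullP (inclFN (M * q * q) (M₂ * q * q) (dvd_topLevel M q M₂ hM)) :=
  pic0Pull_eq_pullP _ _ _ _ _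

/-- `ι_* ι^* = deg` at the top level. -/
theorem pushP_pullP_top (hM : M ∣ M₂) (x : JZero (M * q * q)) :
    pushP (inclFN (M * q * q) (M₂ * q * q) (dvd_topLevel M q M₂ hM))
        (pullP (inclFN (M * q * q) (M₂ * q * q) (dvd_topLevel M q M₂ hM)) x)
      = degSq M q M₂ hM • x :=
  pushP_pullP (isFF_FN (M * q * q)) (isFF_FN (M₂ * q * q)) _ x

/-- `ι^*` is injective on `p`-torsion for `p ∤ deg`. -/
theorem pullP_top_ne_zero (hM : M ∣ M₂) (p : ℕ) (hp : p.Prime) (hpd : ¬ p ∣ degSq M q M₂ hM)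
    (x : JZero (M * q * q)) (hxp : (p : ℤ) • x = 0) (hx : x ≠ 0) :
    pullP (inclFN (M * q * q) (M₂ * q * q) (dvd_topLevel M q M₂ hM)) x ≠ 0 := by
  intro h0
  have h1 := pushP_pullP_top M q M₂ hM x
  rw [h0, map_zero] at h1
  have hcop : IsCoprime (degSq M q M₂ hM : ℤ) (p : ℤ) :=
    Nat.isCoprime_iff_coprime.2 ((Nat.Prime.coprime_iff_not_dvd hp).2 hpd).symm
  obtain ⟨u, v, huv⟩ := hcop
  have e : ((u * (degSq M q M₂ hM : ℤ) + v * (p : ℤ)) : ℤ) • x = x := by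
    rw [huv, one_zsmul]
  rw [add_zsmul, mul_zsmul, mul_zsmul, hxp, zsmul_zero, add_zero, natCast_zsmul, ← h1,
    zsmul_zero] at e
  exact hx e.symm

end SQ

end Fermat.Agent.S59.LL.SQ.H50
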