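import Mathlib

/-!
# S59 / LL / SQ, leaf ST-RANK (d), abstract part (helper56): the component map

`Y` a commutative group (the inertia-fixed `n`-torsion classes), `U` a commutative group (the
inertia-fixed functions), `δ : U → ℤ` additive (the difference of the two valuations), `R y h`
the relation "`h` is a Kummer function of `y`".  If every `y` has a Kummer function, Kummer
functions can be divided and multiplied by `n`-th powers, then the classes with a Kummer function
of `δ = 0` have index at most `n`: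

`card_le_mul_card_of_delta : Nat.card Y ≤ n * Nat.card G`.

The component map is `y ↦ δ(h_y) / λ mod n`, `λ` the generator of `δ(U) ⊆ ℤ`.
This file contains no unproved statement.
-/

set_option autoImplicit false

namespace Fermat.Agent.S59.LL.SQ.H56

section Abs

variable {Y U : Type*} [AddCommGroup Y] [CommGroup U]

theorem delta_one (δ : U → ℤ) (hδ : ∀ a b, δ (a * b) = δ a + δ b) : δ 1 = 0 := by
  have := hδ 1 1
  rw [mul_one] at this
  omega

theorem delta_inv (δ : U → ℤ) (hδ : ∀ a b, δ (a * b) = δ a + δ b) (a : U) : δ a⁻¹ = - δ a := by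
  have := hδ a a⁻¹
  rw [mul_inv_cancel, delta_one δ hδ] at this
  omega

theorem delta_div (δ : U → ℤ) (hδ : ∀ a b, δ (a * b) = δ a + δ b) (a b : U) :
    δ (a / b) = δ a - δ b := by
  rw [div_eq_mul_inv, hδ, delta_inv δ hδ]
  ring

theorem delta_pow (δ : U → ℤ) (hδ : ∀ a b, δ (a * b) = δ a + δ b) (a : U) (n : ℕ) :
    δ (a ^ n) = n * δ a := by
  induction n with
  | zero => rw [pow_zero, delta_one δ hδ]; simp
  | succ n ih => rw [pow_succ, hδ, ih]; push_cast; ring

theorem delta_zpow (δ : U → ℤ) (hδ : ∀ a b, δ (a * b) = δ a + δ b) (a : U) (n : ℤ) :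
    δ (a ^ n) = n * δ a := by
  cases n with
  | ofNat n => rw [Int.ofNat_eq_natCast, zpow_natCast, delta_pow δ hδ]
  | negSucc n =>
    rw [zpow_negSucc, delta_inv δ hδ, delta_pow δ hδ, Int.negSucc_eq]
    push_cast
    ring

/-- The values of `δ` are the multiples of one value. -/
theorem exists_generator (δ : U → ℤ) (hδ : ∀ a b, δ (a * b) = δ a + δ b) :
    ∃ (w₀ : U), ∀ u : U, ∃ t : ℤ, δ u = t * δ w₀ := by
  let Λ : AddSubgroup ℤ :=
    { carrier := Set.range δ
      zero_mem' := ⟨1, delta_one δ hδ⟩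
      add_mem' := by
        rintro _ _ ⟨a, rfl⟩ ⟨b, rfl⟩
        exact ⟨a * b, hδ a b⟩
      neg_mem' := by
        rintro _ ⟨a, rfl⟩
        exact ⟨a⁻¹, delta_inv δ hδ a⟩ }
  obtain ⟨lam, hlam⟩ := Int.subgroup_cyclic Λ
  have hmem : lam ∈ Λ := by
    rw [hlam]
    exact AddSubgroup.subset_closure (Set.mem_singleton lam)
  obtain ⟨w₀, hw₀⟩ := hmem
  refine ⟨w₀, fun u => ?_⟩
  have hu : δ u ∈ Λ := ⟨u, rfl⟩
  rw [hlam, AddSubgroup.mem_closure_singleton] at hu
  obtain ⟨t, ht⟩ := hu
  refine ⟨t, ?_⟩
  rw [hw₀, ← ht, smul_eq_mul]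

/-- **The component map count.** -/
theorem card_le_mul_card_of_delta (n : ℕ) (hn : 0 < n) (δ : U → ℤ)
    (hδ : ∀ a b, δ (a * b) = δ a + δ b) (R : Y → U → Prop)
    (hex : ∀ y, ∃ h, R y h)
    (hsub : ∀ y y' h h', R y h → R y' h' → R (y - y') (h / h'))
    (hpow : ∀ y h w, R y h → R y (h * w ^ n))
    (G : Set Y) (hG : ∀ y h, R y h → δ h = 0 → y ∈ G) :
    Nat.card Y ≤ n * Nat.card G := by
  classical
  rcases finite_or_infinite Y with hfin | hinf
  swap
  · rw [Nat.card_eq_zero_of_infinite]
    exact Nat.zero_le _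
  have : NeZero n := ⟨hn.ne'⟩
  have := Fintype.ofFinite Y
  obtain ⟨w₀, hw₀⟩ := exists_generator δ hδ
  choose hy hRy using hex
  choose t ht using fun y => hw₀ (hy y)
  let φ : Y → ZMod n := fun y => (t y : ZMod n)
  -- equal values of `φ` differ by an element of `G`
  have key : ∀ y y', φ y = φ y' → y - y' ∈ G := by
    intro y y' hφ
    have hd : (n : ℤ) ∣ t y - t y' := by
      rw [← ZMod.intCast_zmod_eq_zero_iff_dvd]
      push_cast
      exact sub_eq_zero.2 hφ
    obtain ⟨s, hs⟩ := hd
    refine hG (y - y') (hy y / hy y' * (w₀ ^ (-s)) ^ n)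
      (hpow _ _ _ (hsub _ _ _ _ (hRy y) (hRy y'))) ?_
    rw [hδ, delta_div δ hδ, delta_pow δ hδ, delta_zpow δ hδ, ht y, ht y']
    have : t y * δ w₀ - t y' * δ w₀ = (t y - t y') * δ w₀ := by ring
    rw [this, hs]
    ring
  -- count the fibres
  have hfib : ∀ a ∈ (Finset.univ : Finset Y).image φ,
      (Finset.univ.filter fun y => φ y = a).card ≤ Nat.card G := by
    intro a ha
    obtain ⟨y₀, -, hy₀⟩ := Finset.mem_image.1 ha
    have hinj : Function.Injective
        (fun y : {y : Y // y ∈ Finset.univ.filter fun y => φ y = a} =>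
          (⟨(y : Y) - y₀, key _ _ (by
            have := (Finset.mem_filter.1 y.2).2
            rw [this, hy₀])⟩ : G)) := by
      intro y y' hyy
      have h1 : (y : Y) - y₀ = (y' : Y) - y₀ := congrArg Subtype.val hyy
      exact Subtype.ext (sub_left_injective h1)
    have := Nat.card_le_card_of_injective _ hinj
    rwa [Nat.card_eq_fintype_card, Fintype.card_coe] at this
  have h1 := Finset.card_le_mul_card_image (f := φ) (Finset.univ : Finset Y) (Nat.card G) hfib
  have h2 : ((Finset.univ : Finset Y).image φ).card ≤ n := by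
    calc ((Finset.univ : Finset Y).image φ).card ≤ (Finset.univ : Finset (ZMod n)).card :=
          Finset.card_le_card (Finset.subset_univ _)
      _ = n := by rw [Finset.card_univ, ZMod.card]
  rw [Nat.card_eq_fintype_card, ← Finset.card_univ]
  calc (Finset.univ : Finset Y).card ≤ Nat.card G * ((Finset.univ : Finset Y).image φ).card := h1
    _ ≤ Nat.card G * n := Nat.mul_le_mul_left _ h2
    _ = n * Nat.card G := mul_comm _ _

end Abs

end Fermat.Agent.S59.LL.SQ.H56
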