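import Fermat.Agent.S59.LL.SQ.H56_CompAbs
import Fermat.Agent.S59.LL.SQ.H69_StRankFAbs

/-!
# S59 / LL / SQ, leaf ST-RANK (d) (helper56): the component map, abstract datum

`S : BAD.SSD K F k F₁ F₂` a semistable Deuring datum, `L` a subfield of `F` (modular: the
functions fixed by the inertia group), `q` a natural number (the residue characteristic).

* `IntScale S L q` : every `h ≠ 0` of `L` becomes a unit for the first valuation after
  multiplication by a power `q ^ m₁`, a unit for the second valuation after multiplication by a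
  power `q ^ m₂` (`m₁, m₂ ∈ ℤ`), and `q ^ m` is a unit only for `m = 0`.
* `card_le_of_intScale` : **ST-RANK (d), abstract form**: if `Y` is a subgroup of `Pic⁰(F)`
  whose elements have Kummer functions in `L` (exponent `n > 0`), then
  `#Y ≤ n · #{y ∈ Y | InGA S L n y}` (`InGA` = the finite part, helper69's definition).

Proof: the component map `y ↦ (m₂ - m₁)(h_y) / λ mod n`, see `H56_CompAbs.lean`.
This file contains no unproved statement.
-/

set_option autoImplicit false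
set_option linter.style.haveILetI false
set_option linter.unusedSectionVars false

noncomputable section

open AlgebraicCurve

attribute [local instance] Classical.propDecidable

namespace Fermat.Agent.S59.LL.SQ.H56

open Fermat.Agent.RED.H17 Fermat.Agent.RED Fermat.Agent.BAD Fermat.Agent.S59.LL.SQ.H69

section Defs

variable {K F k F₁ F₂ : Type*} [Field K] [Field F] [Algebra K F] [Field k] [Field F₁]
  [Algebra k F₁] [Field F₂] [Algebra k F₂]

/-- The constant `q ^ m` as a function. -/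
def qc (K F : Type*) [Field K] [Field F] [Algebra K F] (q : ℕ) (m : ℤ) : F :=
  algebraMap K F ((q : K) ^ m)

theorem qc_add {q : ℕ} (hq0 : (q : K) ≠ 0) (m m' : ℤ) :
    qc K F q (m + m') = qc K F q m * qc K F q m' := by
  unfold qc
  rw [zpow_add₀ hq0, map_mul]

theorem qc_neg (q : ℕ) (m : ℤ) : qc K F q (-m) = (qc K F q m)⁻¹ := by
  unfold qc
  rw [zpow_neg, map_inv₀]

theorem qc_sub {q : ℕ} (hq0 : (q : K) ≠ 0) (m m' : ℤ) :
    qc K F q (m - m') = qc K F q m / qc K F q m' := by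
  rw [sub_eq_add_neg, qc_add hq0, qc_neg, div_eq_mul_inv]

theorem qc_ne_zero {q : ℕ} (hq0 : (q : K) ≠ 0) (m : ℤ) : qc K F q m ≠ 0 := by
  unfold qc
  exact (map_ne_zero_iff _ (algebraMap K F).injective).mpr (zpow_ne_zero m hq0)

/-- **Integral scales** of the functions of `L` for the two valuations. -/
def IntScale (S : SSD K F k F₁ F₂) (L : Subfield F) (q : ℕ) : Prop :=
  (∀ h : F, h ∈ L → h ≠ 0 →
    (∃ m : ℤ, S.c₁.IsGU (qc K F q m * h)) ∧ (∃ m : ℤ, S.c₂.IsGU (qc K F q m * h))) ∧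
  (∀ m : ℤ, S.c₁.IsGU (qc K F q m) → m = 0) ∧ ∀ m : ℤ, S.c₂.IsGU (qc K F q m) → m = 0

variable {S : SSD K F k F₁ F₂} {L : Subfield F} {q : ℕ}

theorem IntScale.unique₁ (hint : IntScale S L q) (hq0 : (q : K) ≠ 0) {h : F} {m m' : ℤ}
    (hm : S.c₁.IsGU (qc K F q m * h)) (hm' : S.c₁.IsGU (qc K F q m' * h)) : m = m' := by
  have h0 : h ≠ 0 := fun h0 => hm.ne_zero (by rw [h0, mul_zero])
  have h1 := hm.div hm'
  have e : qc K F q m * h / (qc K F q m' * h) = qc K F q (m - m') := by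
    rw [qc_sub hq0, mul_div_mul_right _ _ h0]
  rw [e] at h1
  have h2 := hint.2.1 (m - m') h1
  omega

theorem IntScale.unique₂ (hint : IntScale S L q) (hq0 : (q : K) ≠ 0) {h : F} {m m' : ℤ}
    (hm : S.c₂.IsGU (qc K F q m * h)) (hm' : S.c₂.IsGU (qc K F q m' * h)) : m = m' := by
  have h0 : h ≠ 0 := fun h0 => hm.ne_zero (by rw [h0, mul_zero])
  have h1 := hm.div hm'
  have e : qc K F q m * h / (qc K F q m' * h) = qc K F q (m - m') := by
    rw [qc_sub hq0, mul_div_mul_right _ _ h0]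
  rw [e] at h1
  have h2 := hint.2.2 (m - m') h1
  omega

end Defs

section Main

variable {K F k F₁ F₂ : Type*} [Field K] [Field F] [Algebra K F] [Field k] [Field F₁]
  [Algebra k F₁] [Field F₂] [Algebra k F₂]

/-- Kummer functions can be multiplied by `n`-th powers. -/
theorem isKumA_mul_pow (hP : HasPrincipalDivisors K F) {n : ℕ} {x : Pic0 K F} {f : F}
    (h : IsKumA n x f) (hf : f ≠ 0) {w : F} (hw : w ≠ 0) : IsKumA n x (f * w ^ n) := by
  obtain ⟨D, rfl, hD⟩ := h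
  have hdeg : dv hP w ∈ Divisor.degZero (K := K) (F := F) := degree_dv hP w
  refine ⟨D + ⟨dv hP w, hdeg⟩, ?_, fun P => ?_⟩
  · have e : (Pic0.mk (D + ⟨dv hP w, hdeg⟩) : Pic0 K F)
        = Pic0.mk D + Pic0.mk ⟨dv hP w, hdeg⟩ := rfl
    have e0 : (Pic0.mk ⟨dv hP w, hdeg⟩ : Pic0 K F) = 0 := by
      rw [Pic0.mk, QuotientAddGroup.eq_zero_iff, AddSubgroup.mem_addSubgroupOf]
      exact dv_mem_principal hP hw
    rw [e, e0, add_zero]
  · rw [P.ord_mul hf (pow_ne_zero _ hw), ord_pow, ← hD P]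
    show (n : ℤ) * ((D : Divisor K F) + dv hP w) P = _
    rw [Finsupp.add_apply, dv_apply]
    ring

/-- Kummer functions can be multiplied by non-zero constants. -/
theorem isKumA_const_mul {n : ℕ} {x : Pic0 K F} {f : F} (h : IsKumA n x f) {c : K}
    (hc : c ≠ 0) : IsKumA n x (algebraMap K F c * f) := by
  obtain ⟨D, rfl, hD⟩ := h
  refine ⟨D, rfl, fun P => ?_⟩
  rw [ord_algebraMap_mul P hc, hD P]

/-- A class with a Kummer function fixed by `g` is fixed by `g`. -/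
theorem smul_eq_of_isKumA (g : SemilinearAut K F) {n : ℕ} (hn : 0 < n) {x : Pic0 K F} {f : F}
    (h : IsKumA n x f) (hf : g • f = f) : g • x = x := by
  obtain ⟨D, rfl, hD⟩ := h
  rw [SemilinearAut.pic0_smul_mk]
  congr 1
  apply Subtype.ext
  rw [SemilinearAut.coe_degZeroSMulHom]
  ext w
  rw [SemilinearAut.divisor_smul_apply]
  have h1 := hD (g⁻¹ • w)
  have h2 := SemilinearAut.ord_smul g (g⁻¹ • w) f
  rw [smul_inv_smul, hf] at h2
  have h3 := hD w
  have hn' : (n : ℤ) ≠ 0 := by exact_mod_cast hn.ne'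
  have h4 : (n : ℤ) * (D : Divisor K F) (g⁻¹ • w) = (n : ℤ) * (D : Divisor K F) w := by
    rw [h1, h3, h2]
  exact mul_left_cancel₀ hn' h4

/-- **ST-RANK (d), abstract form** (count inside `Y`). -/
theorem card_le_of_intScale' (S : SSD K F k F₁ F₂) (hP : HasPrincipalDivisors K F)
    (L : Subfield F) (q : ℕ) (hq0 : (q : K) ≠ 0) (hint : IntScale S L q)
    (hqL : algebraMap K F (q : K) ∈ L)
    (Y : AddSubgroup (Pic0 K F)) (n : ℕ) (hn : 0 < n)
    (hex : ∀ y ∈ Y, ∃ h : F, h ∈ L ∧ h ≠ 0 ∧ IsKumA n y h) :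
    Nat.card Y ≤ n * Nat.card {y : Y | InGA S L n (y : Pic0 K F)} := by
  have hqcL : ∀ m : ℤ, qc K F q m ∈ L := by
    intro m
    unfold qc
    rw [map_zpow₀]
    exact zpow_mem hqL m
  have hu0 : ∀ u : (↥L)ˣ, ((u : ↥L) : F) ≠ 0 := fun u h0 =>
    u.ne_zero (Subtype.ext h0)
  -- the scales
  have hsc₁ : ∀ u : (↥L)ˣ, ∃ m : ℤ, S.c₁.IsGU (qc K F q m * ((u : ↥L) : F)) :=
    fun u => (hint.1 _ (u : ↥L).2 (hu0 u)).1
  have hsc₂ : ∀ u : (↥L)ˣ, ∃ m : ℤ, S.c₂.IsGU (qc K F q m * ((u : ↥L) : F)) :=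
    fun u => (hint.1 _ (u : ↥L).2 (hu0 u)).2
  choose m₁ hm₁ using hsc₁
  choose m₂ hm₂ using hsc₂
  have hcoe : ∀ u v : (↥L)ˣ, (((u * v : (↥L)ˣ) : ↥L) : F) = ((u : ↥L) : F) * ((v : ↥L) : F) :=
    fun u v => rfl
  have hadd₁ : ∀ u v : (↥L)ˣ, m₁ (u * v) = m₁ u + m₁ v := by
    intro u v
    refine hint.unique₁ hq0 (hm₁ (u * v)) ?_
    have h1 := (hm₁ u).mul (hm₁ v)
    have e : qc K F q (m₁ u) * ((u : ↥L) : F) * (qc K F q (m₁ v) * ((v : ↥L) : F))
        = qc K F q (m₁ u + m₁ v) * (((u * v : (↥L)ˣ) : ↥L) : F) := by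
      rw [qc_add hq0, hcoe]
      ring
    rwa [e] at h1
  have hadd₂ : ∀ u v : (↥L)ˣ, m₂ (u * v) = m₂ u + m₂ v := by
    intro u v
    refine hint.unique₂ hq0 (hm₂ (u * v)) ?_
    have h1 := (hm₂ u).mul (hm₂ v)
    have e : qc K F q (m₂ u) * ((u : ↥L) : F) * (qc K F q (m₂ v) * ((v : ↥L) : F))
        = qc K F q (m₂ u + m₂ v) * (((u * v : (↥L)ˣ) : ↥L) : F) := by
      rw [qc_add hq0, hcoe]
      ring
    rwa [e] at h1
  refine card_le_mul_card_of_delta (Y := ↥Y) (U := (↥L)ˣ) n hn (fun u => m₂ u - m₁ u)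
    (fun u v => by rw [hadd₁, hadd₂]; ring)
    (fun y u => IsKumA n (y : Pic0 K F) ((u : ↥L) : F)) ?_ ?_ ?_
    {y : Y | InGA S L n (y : Pic0 K F)} ?_
  · -- existence
    intro y
    obtain ⟨h, hL, h0, hK⟩ := hex (y : Pic0 K F) y.2
    exact ⟨Units.mk0 ⟨h, hL⟩ (fun e => h0 (congrArg Subtype.val e)), hK⟩
  · -- quotients
    intro y y' u u' hu hu'
    have e : (((u / u' : (↥L)ˣ) : ↥L) : F) = ((u : ↥L) : F) / ((u' : ↥L) : F) := by
      rw [Units.val_div_eq_div_val]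
      rfl
    show IsKumA n (((y - y' : ↥Y)) : Pic0 K F) _
    rw [e, AddSubgroup.coe_sub]
    exact hu.div hu' (hu0 u) (hu0 u')
  · -- `n`-th powers
    intro y u w hu
    have e : (((u * w ^ n : (↥L)ˣ) : ↥L) : F) = ((u : ↥L) : F) * ((w : ↥L) : F) ^ n := by
      rw [hcoe, Units.val_pow_eq_pow_val]
      rfl
    show IsKumA n (y : Pic0 K F) _
    rw [e]
    exact isKumA_mul_pow hP hu (hu0 u) (hu0 w)
  · -- the kernel of the component map
    intro y u hu hδ
    have hδ' : m₂ u = m₁ u := by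
      have : m₂ u - m₁ u = 0 := hδ
      omega
    refine ⟨qc K F q (m₁ u) * ((u : ↥L) : F), L.mul_mem (hqcL _) (u : ↥L).2, ?_, hm₁ u, ?_⟩
    · exact isKumA_const_mul hu (zpow_ne_zero _ hq0)
    · rw [← hδ']
      exact hm₂ u

/-- **ST-RANK (d), abstract form**: `#Y ≤ n · #G` if the finite part `G` lies in `Y`. -/
theorem card_le_of_intScale (S : SSD K F k F₁ F₂) (hP : HasPrincipalDivisors K F)
    (L : Subfield F) (q : ℕ) (hq0 : (q : K) ≠ 0) (hint : IntScale S L q)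
    (hqL : algebraMap K F (q : K) ∈ L)
    (Y : AddSubgroup (Pic0 K F)) (n : ℕ) (hn : 0 < n)
    (hex : ∀ y ∈ Y, ∃ h : F, h ∈ L ∧ h ≠ 0 ∧ IsKumA n y h)
    (hGY : ∀ x : Pic0 K F, InGA S L n x → x ∈ Y) :
    Nat.card Y ≤ n * Nat.card {x : Pic0 K F | InGA S L n x} := by
  have h1 := card_le_of_intScale' S hP L q hq0 hint hqL Y n hn hex
  have e : {y : Y | InGA S L n (y : Pic0 K F)} ≃ {x : Pic0 K F | InGA S L n x} :=
    { toFun := fun y => ⟨((y : ↥Y) : Pic0 K F), y.2⟩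
      invFun := fun x => ⟨⟨(x : Pic0 K F), hGY _ x.2⟩, x.2⟩
      left_inv := fun y => rfl
      right_inv := fun x => rfl }
  rwa [Nat.card_congr e] at h1

/-- Integral scales from the valuations: the values of the two valuations on `L` are powers of
the value of `q`, which is `< 1`. -/
theorem intScale_of_val (S : SSD K F k F₁ F₂) (L : Subfield F) (q : ℕ)
    (h₁ : ∀ x : F, x ∈ L → x ≠ 0 →
      ∃ m : ℤ, S.c₁.V.valuation x = S.c₁.V.valuation (algebraMap K F (q : K)) ^ m)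
    (h₂ : ∀ x : F, x ∈ L → x ≠ 0 →
      ∃ m : ℤ, S.c₂.V.valuation x = S.c₂.V.valuation (algebraMap K F (q : K)) ^ m)
    (hlt₁ : S.c₁.V.valuation (algebraMap K F (q : K)) < 1)
    (hlt₂ : S.c₂.V.valuation (algebraMap K F (q : K)) < 1)
    (hne : algebraMap K F (q : K) ≠ 0) : IntScale S L q := by
  have key : ∀ (c : PRed K F k F₁) (x : F), c.V.valuation x = 1 → c.IsGU x := by
    intro c x hx
    have hmem : x ∈ c.V := (ValuationSubring.valuation_le_one_iff _ _).1 hx.le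
    rw [c.isGU_iff_isUnit hmem]
    exact (ValuationSubring.valuation_eq_one_iff c.V ⟨x, hmem⟩).2 hx
  have key' : ∀ (c : PRed K F k F₂) (x : F), c.V.valuation x = 1 → c.IsGU x := by
    intro c x hx
    have hmem : x ∈ c.V := (ValuationSubring.valuation_le_one_iff _ _).1 hx.le
    rw [c.isGU_iff_isUnit hmem]
    exact (ValuationSubring.valuation_eq_one_iff c.V ⟨x, hmem⟩).2 hx
  have conv : ∀ (c : PRed K F k F₁) (x : F), c.IsGU x → c.V.valuation x = 1 := by
    intro c x hx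
    have h := (c.isGU_iff_isUnit hx.mem).1 hx
    exact (ValuationSubring.valuation_eq_one_iff c.V ⟨x, hx.mem⟩).1 h
  have conv' : ∀ (c : PRed K F k F₂) (x : F), c.IsGU x → c.V.valuation x = 1 := by
    intro c x hx
    have h := (c.isGU_iff_isUnit hx.mem).1 hx
    exact (ValuationSubring.valuation_eq_one_iff c.V ⟨x, hx.mem⟩).1 h
  have hqc : ∀ m : ℤ, qc K F q m = algebraMap K F (q : K) ^ m := by
    intro m
    unfold qc
    rw [map_zpow₀]
  refine ⟨fun h hL h0 => ⟨?_, ?_⟩, ?_, ?_⟩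
  · obtain ⟨m, hm⟩ := h₁ h hL h0
    refine ⟨-m, key _ _ ?_⟩
    have hv0 : S.c₁.V.valuation (algebraMap K F (q : K)) ≠ 0 :=
      (Valuation.ne_zero_iff _).2 hne
    rw [map_mul, hqc, map_zpow₀, hm, ← zpow_add₀ hv0, neg_add_cancel, zpow_zero]
  · obtain ⟨m, hm⟩ := h₂ h hL h0
    refine ⟨-m, key' _ _ ?_⟩
    have hv0 : S.c₂.V.valuation (algebraMap K F (q : K)) ≠ 0 :=
      (Valuation.ne_zero_iff _).2 hne
    rw [map_mul, hqc, map_zpow₀, hm, ← zpow_add₀ hv0, neg_add_cancel, zpow_zero]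
  · intro m hm
    have h1 := conv _ _ hm
    rw [hqc, map_zpow₀] at h1
    have hv0 : 0 < S.c₁.V.valuation (algebraMap K F (q : K)) :=
      zero_lt_iff.2 ((Valuation.ne_zero_iff _).2 hne)
    by_contra hm0
    rcases lt_or_gt_of_ne hm0 with hneg | hpos
    · have h2 : 1 < S.c₁.V.valuation (algebraMap K F (q : K)) ^ m :=
        one_lt_zpow_of_neg₀ hv0 hlt₁ hneg
      rw [h1] at h2
      exact lt_irrefl _ h2
    · have h2 : S.c₁.V.valuation (algebraMap K F (q : K)) ^ m < 1 :=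
        zpow_lt_one₀ hv0 hlt₁ hpos
      rw [h1] at h2
      exact lt_irrefl _ h2
  · intro m hm
    have h1 := conv' _ _ hm
    rw [hqc, map_zpow₀] at h1
    have hv0 : 0 < S.c₂.V.valuation (algebraMap K F (q : K)) :=
      zero_lt_iff.2 ((Valuation.ne_zero_iff _).2 hne)
    by_contra hm0
    rcases lt_or_gt_of_ne hm0 with hneg | hpos
    · have h2 : 1 < S.c₂.V.valuation (algebraMap K F (q : K)) ^ m :=
        one_lt_zpow_of_neg₀ hv0 hlt₂ hneg
      rw [h1] at h2
      exact lt_irrefl _ h2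
    · have h2 : S.c₂.V.valuation (algebraMap K F (q : K)) ^ m < 1 :=
        zpow_lt_one₀ hv0 hlt₂ hpos
      rw [h1] at h2
      exact lt_irrefl _ h2

end Main

end Fermat.Agent.S59.LL.SQ.H56

end
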