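import Fermat.Agent.S59.LL.SQ.H86_PBGlueAbs

/-!
# S59, package LL / SQ, step (T′): the abstract core of the assembly (helper58)

Setting: helper79's `NUData` `D`, helper40's `GlueData`, helper86's `PullTable` and `GlueLow`.

* `trivRed_of_pull` : if `H` has gluing invariants `(a, b)`, `f` has the gluing vector `θ` along
  `zα`, `f'` has the gluing vector `θ'` along `zβ`, and `θ' = a`, `θ θ' = b` on the triple points,
  then `H / (α^* f · β^* f')` has TRIVIAL reduction data (the input of TI3);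
* `GlueData.pow_exp` : the gluing invariants do not change when `(n, H)` is replaced by
  `(n m, H ^ m)`.
-/

set_option autoImplicit false
set_option linter.style.haveILetI false
set_option linter.unusedSectionVars false

noncomputable section

open AlgebraicCurve

attribute [local instance] Classical.propDecidable

namespace Fermat.Agent.S59.LL.SQ.H58

open Fermat.Agent.RED.H17 Fermat.Agent.RED Fermat.Agent.BAD.H79 Fermat.Agent.BAD
  Fermat.Agent.S36.NU.H79 Fermat.Agent.S59.LL.SQ.H40 Fermat.Agent.S59.LL.SQ.H86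

variable {K L₀ L k ι Z : Type*} {E : ι → Type*} {K' L' L₁ L₂ : Type*}
  [Field K] [Field L₀] [Field L] [Algebra K L] [Algebra L₀ L] [Field k] [Fintype ι]
  [∀ i, Field (E i)] [∀ i, Algebra k (E i)] [Field K'] [Field L'] [Algebra K' L']
  [Field L₁] [Algebra k L₁] [Field L₂] [Algebra k L₂]
  {L₀' : Type*} [Field L₀'] [Algebra L₀' L']

variable (D : NUData K L₀ L k ι Z E K' L' L₁ L₂)

/-- The gluing invariants of `H / (α^* f · β^* f')`. -/
theorem glueData_of_pull [Infinite k] (hP : HasPrincipalDivisors K L) {pα pβ : L₀' →+* L₀}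
    (PT : PullTable D pα pβ) {n : ℕ} (hn : n ≠ 0) {H : L₀} {a b : Z → k}
    (hH : GlueData D n H a b) {f f' : L₀'} {θ θ' : Z → k}
    (hf : GlueLow D D.zα n f θ) (hf' : GlueLow D D.zβ n f' θ') :
    GlueData D n (H * (pα f * pβ f')⁻¹) (a * ((fun _ => 1) * θ')⁻¹) (b * (θ * θ')⁻¹) :=
  hH.mul ((glueData_pullA hP PT hn hf).mul (glueData_pullB hP PT hn hf')).inv

/-- **(T′), abstract core.**  The gluing invariants of `α^* f` are `(1, θ)`, those of `β^* f'` are
`(θ', θ')`; if `θ' = a` and `θ θ' = b` on the triple points, the quotient of `H` by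
`α^* f · β^* f'` has trivial reduction data. -/
theorem trivRed_of_pull [Infinite k] (hP : HasPrincipalDivisors K L) {pα pβ : L₀' →+* L₀}
    (PT : PullTable D pα pβ) {n : ℕ} (hn : n ≠ 0) {H : L₀} {a b : Z → k}
    (hH : GlueData D n H a b) {f f' : L₀'} {θ θ' : Z → k}
    (hf : GlueLow D D.zα n f θ) (hf' : GlueLow D D.zβ n f' θ')
    (h1 : ∀ z ∈ D.SS, θ' z = a z) (h2 : ∀ z ∈ D.SS, θ z * θ' z = b z) :
    D.TrivRed n (H * (pα f * pβ f')⁻¹) := by
  refine (glueData_of_pull D hP PT hn hH hf hf').trivRed (fun z hz => ?_) (fun z hz => ?_)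
  · simp only [Pi.mul_apply, Pi.inv_apply, one_mul]
    rw [h1 z hz]
    exact mul_inv_cancel₀ (hH.ne z hz).1
  · simp only [Pi.mul_apply, Pi.inv_apply]
    rw [h2 z hz]
    exact mul_inv_cancel₀ (hH.ne z hz).2

/-- The quotient of `H` by `α^* f · β^* f'` is a unit for the three valuations. -/
theorem unit_of_pull [Infinite k] (hP : HasPrincipalDivisors K L) {pα pβ : L₀' →+* L₀}
    (PT : PullTable D pα pβ) {n : ℕ} (hn : n ≠ 0) {H : L₀} {a b : Z → k}
    (hH : GlueData D n H a b) {f f' : L₀'} {θ θ' : Z → k}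
    (hf : GlueLow D D.zα n f θ) (hf' : GlueLow D D.zβ n f' θ') :
    ∀ i, D.T.rdN i (H * (pα f * pβ f')⁻¹) ≠ 0 :=
  (glueData_of_pull D hP PT hn hH hf hf').unit

end Fermat.Agent.S59.LL.SQ.H58
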