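import Fermat.Agent.S36.NU.H65_Inst2
import Fermat.Agent.S36.NU.H74_InstA
import Fermat.Agent.S36.NU.H15_InstB
import Fermat.Agent.S59.LL.SQ.H64_Hor1

/-!
# S59, package LL / SQ, step (T), leaf TI3: cusp-only form and modular wiring (helper96)

helper40's `SQ.H40.ti3_of_trivRed` (file `H40_TI3.lean`) is the second half of helper24's
`fin_local`.  Here:

* `ti3_of_trivRed'` : the same statement in the form of helper65's `fin_local'`: the local data
  of the chart at infinity are asked only at the closed points where `1 / j` vanishes (this is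
  what the modular instances of NU-B provide);
* `Stmt_HOR1` : (HOR) with exponent `1` at level `N` (the statement of the SQ leaf HOR1),
  `stmt_HOR1_all` : it holds (helper64's `H64.stmt_HOR1`);
* `hor1_inst` : `Stmt_HOR1 N` gives `HOR C q n h` in every chart over `Rur A`;
* `ti3Mod_of` : **the modular instance of TI3** at level `M q²`, with the modular instances as
  hypotheses (the same ones as in `H65.finMod_of`, without the norm bridges): a unit `h` for the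
  three valuations, fixed by inertia, with `n ∣ div h` and TRIVIAL REDUCTION DATA
  (`NUData.TrivRed n h`) is a constant times an `n`-th power, EXACTLY (no exponent `E`).
-/

set_option autoImplicit false
set_option synthInstance.maxHeartbeats 400000
set_option maxHeartbeats 1000000
set_option linter.style.haveILetI false
set_option linter.unusedSectionVars false

noncomputable section

open ModularCurve AlgebraicCurve IntermediateField

attribute [local instance] Classical.propDecidable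

namespace Fermat.Agent.S59.LL.SQ.H96

open Fermat.Agent.RED.H17 Fermat.Agent.RED Fermat.Agent.S36.NU.H16 Fermat.Agent.S36.NU.H79
  Fermat.Agent.S36.NU.H65 Fermat.Agent.S36.NU.H17 Fermat.Agent.S36.NU.H24

section Abstract

variable {R F k ι Z K L : Type*} {κ : ι → Type*} [CommRing R] [Field F] [Algebra R F]
  [Field k] [∀ i, Field (κ i)] [∀ i, Algebra k (κ i)] [Fintype ι]
  [Field K] [Field L] [Algebra K L] [Algebra F L]
  {K' L' L₁ L₂ : Type*} [Field K'] [Field L'] [Algebra K' L'] [Field L₁] [Algebra k L₁]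
  [Field L₂] [Algebra k L₂]

variable (D : NUData K F L k ι Z κ K' L' L₁ L₂)

/-- **TI3 from trivial reduction data, cusp-only form**: as `H40.ti3_of_trivRed`, but the local
data of the chart at infinity are asked only at the closed points where `1 / j` vanishes. -/
theorem ti3_of_trivRed' [IsAlgClosed k] [IsNoetherianRing R] [IsDomain R]
    [IsIntegrallyClosed R]
    (Kf : Type*) [Field Kf] [Algebra R Kf] [IsFractionRing R Kf] [Algebra Kf F]
    [IsScalarTower R Kf F]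
    (C0 Coo : Chart R F k ι κ) [IsNoetherianRing C0.B] [IsFractionRing C0.B F]
    [IsNoetherianRing Coo.B] [IsFractionRing Coo.B F]
    (hc0 : Compat C0 D.T) (hcoo : Compat Coo D.T) (hP : HasPrincipalDivisors K L)
    (n : ℕ) (hC0 : ChartHyp C0 D.q n) (hCoo : ChartHyp Coo D.q n)
    (j : F) (hjt : Transcendental Kf j) (hB0 : C0.B = intSub R j) (hBoo : Coo.B = intSub R j⁻¹)
    (q : R) (hq0 : q ≠ 0) (hqu : ¬ IsUnit q) (n' : R) (hnn : (n : R) * n' = 1)
    (hpt0 : PointData C0 D q)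
    (hptoo : ∀ 𝔪 : Ideal Coo.B, 𝔪.IsMaximal → (∃ i, Coo.Icomp i ≤ 𝔪) →
      (∀ β : Coo.B, (β : F) = j⁻¹ → β ∈ 𝔪) → PointDataAt Coo D q 𝔪)
    (hrad0 : ∀ β ∈ C0.B, (∀ i, C0.rd i β = 0) → IsRadQ C0.B q β)
    (hradoo : ∀ β ∈ Coo.B, (∀ i, Coo.rd i β = 0) → IsRadQ Coo.B q β)
    (H : F) (huH : ∀ i, D.T.rdN i H ≠ 0) (hHOR0 : HOR C0 q n H) (hHORoo : HOR Coo q n H)
    (hfg : (MInt R j⁻¹ H n hC0.n_pos).FG)
    (htriv : D.TrivRed n H) :
    ∃ s : F, s ≠ 0 ∧ IsIntegral R (H * s ^ n) := by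
  have hn : 0 < n := hC0.n_pos
  haveI : Infinite k := IsAlgClosed.instInfinite
  have H0 : H ≠ 0 := by
    intro h0
    apply huH D.i₂₀
    rw [h0, D.T.rdN_of_mem (D.T.V _).zero_mem]
    exact map_zero _
  -- the residues `g`
  obtain ⟨g, hg, heqv⟩ := exists_g_of_trivRed D hn.ne'
    (fun c => IsAlgClosed.exists_pow_nat_eq c hn) huH htriv
  have S0 : Setup C0 D.q n H g := hC0.setup (fun i => by rw [hc0.hrd]; exact hg i)
  have Soo : Setup Coo D.q n H g := hCoo.setup (fun i => by rw [hcoo.hrd]; exact hg i)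
  have hVV : ∀ i, C0.V i = Coo.V i := fun i => by rw [hc0.hV, hcoo.hV]
  have hrr : ∀ i x, C0.rd i x = Coo.rd i x := fun i x => by rw [hc0.hrd, hcoo.hrd]
  have hj : j ≠ 0 := by
    rintro rfl
    exact hjt ⟨Polynomial.X, Polynomial.X_ne_zero, by simp⟩
  have G : Glue C0 Coo j := glue_of_intSub C0 Coo j hj hB0 hBoo hVV hrr
  have hint : ∀ y ∈ Coo.B, IsIntegral (Algebra.adjoin R {j⁻¹}) y := by
    intro y hy
    rw [hBoo] at hy
    exact hy
  -- the chart `C0`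
  obtain ⟨a, ha, hra⟩ := chart_of_bridge D hc0 hP D.q q n H g S0 H0 hHOR0 hpt0 huH heqv
  -- the chart at infinity
  obtain ⟨b, hb, hrb⟩ := patch Coo D.q n H g Soo (fun 𝔪 hmax hex => by
    by_cases hcusp : (⟨j⁻¹, G.inv_mem⟩ : Coo.B) ∈ 𝔪
    · refine point_of_bridge D hcoo hP D.q q n H g Soo H0 hHORoo 𝔪 hmax hex
        (hptoo 𝔪 hmax hex (fun β hβ => ?_)) huH heqv
      have : β = ⟨j⁻¹, G.inv_mem⟩ := Subtype.ext hβ
      rw [this]
      exact hcusp
    · haveI := hmax.isPrime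
      haveI := hmax
      have L : Linked C0 Coo j (pull G 𝔪) 𝔪 := linked_pull G 𝔪 hcusp
      obtain ⟨i₀, hi₀⟩ := hex
      have hmax0 : (pull G 𝔪).IsMaximal := L.isMaximal G hint i₀ hi₀
      have hex0 : ∃ i, C0.Icomp i ≤ pull G 𝔪 :=
        ⟨i₀, (L.symm G.u_ne).icomp_le G.symm hi₀⟩
      exact good_transfer G L D.q n H g S0
        (point_of_bridge D hc0 hP D.q q n H g S0 H0 hHOR0 _ hmax0 hex0
          (hpt0 _ hmax0 hex0) huH heqv))
  -- TI3
  exact ti3_const Kf C0 Coo D.q n H g S0 Soo j hjt hB0 hBoo hVV hrr q hq0 hqu n' hnn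
    hfg hrad0 hradoo a b ha hra hb hrb

end Abstract

section Modular

open Fermat.Agent.S24 Fermat.Agent.BAD.H88 Fermat.Agent.S36.NU.H23 Fermat.Agent.S36.NU.H41
  Fermat.Agent.S36.NU.H88 Fermat.Agent.S36.NU.H10 Fermat.Agent.S36.NU.H74

/-- **(HOR) with exponent `1`** at level `N` (the statement of the SQ leaf HOR1): an `I`-fixed
function whose divisor over `ℚ̄` is divisible by `n` is an `n`-th power times a unit at every
valuation ring `W ≠ ⊤` of `L0 A N` which contains the constants. -/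
def Stmt_HOR1 (N : ℕ) [NeZero N] : Prop :=
  ∀ (A : ValuationSubring Kbar) (n : ℕ) (h : ↥(L0 A N)), h ≠ 0 →
    (∀ P : Place Kbar (FN N), (n : ℤ) ∣ P.ord (h : FN N)) →
    ∀ W : ValuationSubring ↥(L0 A N),
      (∀ c : ↥(L0 A N), (∃ c' : Kbar, (c : FN N) = algebraMap Kbar (FN N) c') → c ∈ W) → W ≠ ⊤ →
      ∃ s : ↥(L0 A N), s ≠ 0 ∧ h * s ^ n ∈ W ∧ (h * s ^ n)⁻¹ ∈ W

/-- (HOR) with exponent `1` holds at every level (helper64). -/
theorem stmt_HOR1_all (N : ℕ) [NeZero N] : Stmt_HOR1 N :=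
  fun A n h h0 hdiv W hWc hW => Fermat.Agent.S59.LL.SQ.H64.stmt_HOR1 N A n h h0 hdiv W hWc hW

/-- **(HOR) with exponent `1` in every chart** over `Rur A`, from `Stmt_HOR1`. -/
theorem hor1_inst (N : ℕ) [NeZero N] (hH : Stmt_HOR1 N) (A : ValuationSubring Kbar) (q : ℕ)
    (hq : q.Prime) (hA : A.LiesOverPrime q) (n : ℕ) (h : ↥(L0 A N)) (hh0 : h ≠ 0)
    (hdiv : ∀ P : Place Kbar (FN N), (n : ℤ) ∣ P.ord (h : FN N))
    {k ι : Type*} {κ : ι → Type*} [Field k] [∀ i, Field (κ i)] [∀ i, Algebra k (κ i)]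
    (C : Chart ↥(Rur A) ↥(L0 A N) k ι κ) :
    HOR C ((q : ℕ) : ↥(Rur A)) n h := by
  intro W hB hqW hW
  refine hH A n h hh0 hdiv W (fun c hc => ?_) hW
  refine const_mem_of_Rur A q hq hA N W (fun r => ?_) hqW c hc
  exact hB ⟨algebraMap ↥(Rur A) ↥(L0 A N) r, C.B.algebraMap_mem r⟩

variable (A : ValuationSubring Kbar) (q M : ℕ) (hq : q.Prime)
  [NeZero M] [NeZero q] [NeZero (M * q * q)]
  {kk ι Z K L K' L' L₁ L₂ : Type*} {κ : ι → Type*} [Field kk] [∀ i, Field (κ i)]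
  [∀ i, Algebra kk (κ i)] [Fintype ι] [Field K] [Field L] [Algebra K L]
  [Algebra ↥(L0 A (M * q * q)) L] [Field K'] [Field L'] [Algebra K' L'] [Field L₁]
  [Algebra kk L₁] [Field L₂] [Algebra kk L₂]

include hq in
/-- **TI3, the modular instance, pointwise form**: at level `M q²`, for ONE exponent `n` prime
to `q` and ONE function `h` (a unit for the reductions of `D`, with (HOR) in both charts and
trivial reduction data), `h` is a constant times an `n`-th power of an `I`-fixed function. -/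
theorem ti3Mod_point [IsAlgClosed kk] (hA : A.LiesOverPrime q)
    (D : NUData K ↥(L0 A (M * q * q)) L kk ι Z κ K' L' L₁ L₂) (hDq : D.q = q)
    (C0 Coo : Chart ↥(Rur A) ↥(L0 A (M * q * q)) kk ι κ)
    (hc0 : Compat C0 D.T) (hcoo : Compat Coo D.T) (hP : HasPrincipalDivisors K L)
    (hB0 : C0.B = intSub ↥(Rur A) (j0 A (M * q * q)))
    (hBoo : Coo.B = intSub ↥(Rur A) (j0 A (M * q * q))⁻¹)
    (n : ℕ) (hcop : Nat.Coprime n q)
    (hchart0 : ChartHyp C0 q n) (hchartoo : ChartHyp Coo q n)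
    -- the local data (M2, M4, DISJ)
    (hpt0 : PointData C0 D ((q : ℕ) : ↥(Rur A)))
    (hptoo : ∀ 𝔪 : Ideal Coo.B, 𝔪.IsMaximal → (∃ i, Coo.Icomp i ≤ 𝔪) →
      (∀ β : Coo.B, (β : ↥(L0 A (M * q * q))) = (j0 A (M * q * q))⁻¹ → β ∈ 𝔪) →
      PointDataAt Coo D ((q : ℕ) : ↥(Rur A)) 𝔪)
    -- RADQ
    (hrad0 : ∀ β ∈ C0.B, (∀ i, C0.rd i β = 0) → IsRadQ C0.B ((q : ℕ) : ↥(Rur A)) β)
    (hradoo : ∀ β ∈ Coo.B, (∀ i, Coo.rd i β = 0) → IsRadQ Coo.B ((q : ℕ) : ↥(Rur A)) β)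
    (h : ↥(L0 A (M * q * q))) (hu : ∀ i, D.T.rdN i h ≠ 0)
    (hHOR0 : HOR C0 ((q : ℕ) : ↥(Rur A)) n h) (hHORoo : HOR Coo ((q : ℕ) : ↥(Rur A)) n h)
    (htriv : D.TrivRed n h) :
    ∃ (s : ↥(L0 A (M * q * q))) (c : Kbar), s ≠ 0 ∧
      (h : FN (M * q * q)) * (s : FN (M * q * q)) ^ n = algebraMap Kbar (FN (M * q * q)) c := by
  haveI := isDiscreteValuationRing_Rur A q hq hA
  haveI : IsNoetherianRing ↥C0.B :=
    isNoetherianRing_chart A q hq hA (M * q * q) C0 (Or.inl hB0)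
  haveI : IsFractionRing ↥C0.B ↥(L0 A (M * q * q)) :=
    isFractionRing_chart A (M * q * q) C0 (Or.inl hB0)
  haveI : IsNoetherianRing ↥Coo.B :=
    isNoetherianRing_chart A q hq hA (M * q * q) Coo (Or.inr hBoo)
  haveI : IsFractionRing ↥Coo.B ↥(L0 A (M * q * q)) :=
    isFractionRing_chart A (M * q * q) Coo (Or.inr hBoo)
  have hn : 0 < n := hchart0.n_pos
  have h0 : h ≠ 0 := by
    intro h0
    apply hu D.i₂₀
    rw [h0, D.T.rdN_of_mem (D.T.V _).zero_mem]
    exact map_zero _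
  -- `n` is invertible in `R`
  obtain ⟨n', hnn⟩ := (isUnit_natCast_Rur A q hq hA n hcop).exists_right_inv
  have hq0 : ((q : ℕ) : ↥(Rur A)) ≠ 0 := by exact_mod_cast hq.ne_zero
  have hqu : ¬ IsUnit ((q : ℕ) : ↥(Rur A)) := (irreducible_natCast A q hq hA).not_isUnit
  have hC0 : ChartHyp C0 D.q n := by rw [hDq]; exact hchart0
  have hCoo : ChartHyp Coo D.q n := by rw [hDq]; exact hchartoo
  obtain ⟨s, hs0, hsint⟩ := ti3_of_trivRed' D ↥(Kur A) C0 Coo hc0 hcoo hP n hC0 hCoo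
    (j0 A (M * q * q)) (transcendental_j0 A (M * q * q)) hB0 hBoo ((q : ℕ) : ↥(Rur A)) hq0 hqu n'
    hnn hpt0 hptoo hrad0 hradoo h hu hHOR0 hHORoo
    (hfg_inv A q hq hA (M * q * q) h h0 n hC0.n_pos) htriv
  obtain ⟨c, hc⟩ := Fermat.Agent.S36.NU.H15.hconst_L0 A (M * q * q) _ hsint
  exact ⟨s, c, hs0, by rw [← hc]; rfl⟩

/-- **The modular form of TI3 for the datum `D`**: for every `n` prime to `q`, a unit `h` for
the three valuations with `n ∣ div h` and trivial reduction data is a constant times an `n`-th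
power of an `I`-fixed function (exponent EXACTLY `1` on `h`). -/
def Stmt_TI3Mod (B k : ℤ) (hB : B * M + k * q = 1)
    (D : NUData K ↥(L0 A (M * q * q)) L kk ι Z κ K' L' L₁ L₂) : Prop :=
  ∀ n : ℕ, 0 < n → Nat.Coprime n q →
    ∀ h : ↥(L0 A (M * q * q)), h ≠ 0 → IsUnit3 A q M B k hB hq h →
      (∀ P : Place Kbar (FN (M * q * q)), (n : ℤ) ∣ P.ord (h : FN (M * q * q))) →
      D.TrivRed n h →
      ∃ (s : ↥(L0 A (M * q * q))) (c : Kbar), s ≠ 0 ∧
        (h : FN (M * q * q)) * (s : FN (M * q * q)) ^ n = algebraMap Kbar (FN (M * q * q)) c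

/-- **TI3, the modular instance** (mirror of `H65.finMod_of`): `Stmt_TI3Mod` from the modular
instances (charts, local data, RADQ, `hunit`); (HOR) with exponent `1` is helper64's HOR1. -/
theorem ti3Mod_of [IsAlgClosed kk] (B k : ℤ) (hB : B * M + k * q = 1) (hA : A.LiesOverPrime q)
    (D : NUData K ↥(L0 A (M * q * q)) L kk ι Z κ K' L' L₁ L₂) (hDq : D.q = q)
    (C0 Coo : Chart ↥(Rur A) ↥(L0 A (M * q * q)) kk ι κ)
    (hc0 : Compat C0 D.T) (hcoo : Compat Coo D.T) (hP : HasPrincipalDivisors K L)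
    (hB0 : C0.B = intSub ↥(Rur A) (j0 A (M * q * q)))
    (hBoo : Coo.B = intSub ↥(Rur A) (j0 A (M * q * q))⁻¹)
    (hchart0 : ∀ n : ℕ, 0 < n → Nat.Coprime n q → ChartHyp C0 q n)
    (hchartoo : ∀ n : ℕ, 0 < n → Nat.Coprime n q → ChartHyp Coo q n)
    -- the local data (M2, M4, DISJ)
    (hpt0 : PointData C0 D ((q : ℕ) : ↥(Rur A)))
    (hptoo : ∀ 𝔪 : Ideal Coo.B, 𝔪.IsMaximal → (∃ i, Coo.Icomp i ≤ 𝔪) →
      (∀ β : Coo.B, (β : ↥(L0 A (M * q * q))) = (j0 A (M * q * q))⁻¹ → β ∈ 𝔪) →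
      PointDataAt Coo D ((q : ℕ) : ↥(Rur A)) 𝔪)
    -- RADQ
    (hrad0 : ∀ β ∈ C0.B, (∀ i, C0.rd i β = 0) → IsRadQ C0.B ((q : ℕ) : ↥(Rur A)) β)
    (hradoo : ∀ β ∈ Coo.B, (∀ i, Coo.rd i β = 0) → IsRadQ Coo.B ((q : ℕ) : ↥(Rur A)) β)
    -- INST-B
    (hunit : ∀ h : ↥(L0 A (M * q * q)), h ≠ 0 → IsUnit3 A q M B k hB hq h →
      ∀ i, D.T.rdN i h ≠ 0) :
    Stmt_TI3Mod A q M hq B k hB D := by
  intro n hn hcop h h0 hU hdiv htriv
  exact ti3Mod_point A q M hq hA D hDq C0 Coo hc0 hcoo hP hB0 hBoo n hcop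
    (hchart0 n hn hcop) (hchartoo n hn hcop) hpt0 hptoo hrad0 hradoo h (hunit h h0 hU)
    (hor1_inst (M * q * q) (stmt_HOR1_all _) A q hq hA n h h0 hdiv C0)
    (hor1_inst (M * q * q) (stmt_HOR1_all _) A q hq hA n h h0 hdiv Coo) htriv

end Modular

end Fermat.Agent.S59.LL.SQ.H96
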