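import Fermat.Agent.S59.LL.SQ.Defs
import Fermat.Agent.S59.LL.SQ.H58_TorAbs
import Fermat.Agent.S59.LL.SQ.H46_ExistsGlue
import Fermat.Agent.S59.LL.SQ.H35_KumSpan
import Fermat.Agent.S59.LL.SQ.H96_TI3Mod
import Fermat.Agent.S36.NU.H79_NuMDefs
attribute [local instance 10000] SubalgebraClass.toAlgebra
attribute [local instance 10000] HahnSeries.powerSeriesAlgebra

/-!
# S59, package LL / SQ, step (T′): the assembly at one level (helper58)

Level `M q²`, `D` a modular datum (`H79.IsNuM`), `pα, pβ : L0 A (M q) → L0 A (M q²)` the two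
degeneracy maps on the inertia-fixed functions.

Interface (one `Prop` per leaf, for the datum `D`):

* `GlueOfT3At D n`  (**I1**, helper46 + helper84): a function of `L₀` whose three reductions are
  constants times `n`-th powers and whose divisor is divisible by `n` has gluing invariants
  `(a, b)` with values in `μ_n` at the triple points;
* `StRankGlueAt D p n` (**I2**, ST-RANK of helper20 + G5 of helper89/helper92): every vector
  `θ` with values in `μ_p` at the triple points is the gluing vector, along `zα` and along `zβ`,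
  of a function of level `M q` fixed by inertia whose divisor is divisible by `n`;
* `H86.PullTable D pα pβ` (**I3**, helper86), `H96.Stmt_TI3Mod … D` (**I4**, helper96).

`torSpanSqAt_of` : these give `SQ.TorSpanSqAt` (**(T′)** at the level `M q²`), by
`H58.trivRed_of_pull` (the gluing invariants of `H ^ (p^(e-1)) / (α^* f · β^* f')` are trivial),
TI3 and `H35.kum_span`.
-/

set_option autoImplicit false
set_option synthInstance.maxHeartbeats 400000
set_option maxHeartbeats 1000000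
set_option linter.unusedSectionVars false
set_option linter.unusedVariables false
set_option linter.style.haveILetI false

noncomputable section

open ModularCurve AlgebraicCurve

attribute [local instance] Classical.propDecidable

namespace Fermat.Agent.S59.LL.SQ.H58

open Fermat.Agent.S24 Fermat.Agent.BAD Fermat.Agent.BAD.H88 Fermat.Agent.S28 Fermat.Agent.S28.H73
  Fermat.Agent.RED.H73 Fermat.Agent.RED.H17 Fermat.Agent.RED
  Fermat.Agent.S36.NU.H23 Fermat.Agent.S36.NU.H79 Fermat.Agent.S36.H44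
  Fermat.Agent.Lib.HeckeComm

section Asm

variable (A : ValuationSubring Kbar) (q M : ℕ) (B k : ℤ) (hB : B * M + k * q = 1) (hq : q.Prime)
  [NeZero M] [NeZero q] [NeZero (M * q)] [NeZero (M * q * q)]
  (hqM : ¬ q ∣ M) (hA : A.LiesOverPrime q) (ht : H91.TameAt M q)

attribute [local instance] algkM

/-- **I1**: the gluing invariants of the Kummer functions of the toric part. -/
def GlueOfT3At (D : NUDataM A q M) (n : ℕ) : Prop :=
  ∀ H : ↥(L0 A (M * q * q)), IsCPow3 A q M B k hB hq n H →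
    (∀ P : Place Kbar (FN (M * q * q)), (n : ℤ) ∣ P.ord (H : FN (M * q * q))) →
    ∃ a b : Place (kV A) (FM A M) → kV A, H40.GlueData D n H a b ∧
      ∀ z ∈ D.SS, a z ^ n = 1 ∧ b z ^ n = 1

/-- **I2**: every vector with values in `μ_p` at the triple points is a gluing vector of the
lower level, along `zα` and along `zβ` (exponent `n`). -/
def StRankGlueAt (D : NUDataM A q M) (p n : ℕ) : Prop :=
  ∀ θ : Place (kV A) (FM A M) → kV A, (∀ z ∈ D.SS, θ z ^ p = 1) →
    (∃ f : ↥(L0 A (M * q)),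
      (∀ Q : Place Kbar (FN (M * q)), (n : ℤ) ∣ Q.ord (f : FN (M * q))) ∧
      H86.GlueLow D D.zα n f θ) ∧
    (∃ f : ↥(L0 A (M * q)),
      (∀ Q : Place Kbar (FN (M * q)), (n : ℤ) ∣ Q.ord (f : FN (M * q))) ∧
      H86.GlueLow D D.zβ n f θ)

/-- The order of a pull-back is divisible by `n` if the orders of the function are. -/
theorem dvd_ord_pull {N N' : ℕ} (φ : FN N →ₐ[Kbar] FN N') (hφ : φ.toRingHom.IsIntegral)
    (n : ℕ) (g : FN N) (hg : ∀ Q : Place Kbar (FN N), (n : ℤ) ∣ Q.ord g)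
    (P : Place Kbar (FN N')) : (n : ℤ) ∣ P.ord (φ g) := by
  rw [Place.ord_restrictAlong φ hφ]
  exact Dvd.dvd.mul_left (hg _) _

/-- **(T′) at one level**, from the leaves I1 – I4. -/
theorem torSpanSqAt_of (D : NUDataM A q M) (hD : IsNuM A q M B k hB hq hqM hA ht D)
    (p : ℕ) (hp : p.Prime) (hqp : q ≠ p)
    (pα pβ : ↥(L0 A (M * q)) →+* ↥(L0 A (M * q * q)))
    (hpα : ∀ f : ↥(L0 A (M * q)),
      ((pα f : ↥(L0 A (M * q * q))) : FN (M * q * q))
        = heckeAlphaBar Kbar (M * q) q (f : FN (M * q)))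
    (hpβ : ∀ f : ↥(L0 A (M * q)),
      ((pβ f : ↥(L0 A (M * q * q))) : FN (M * q * q))
        = heckeBetaBar Kbar (M * q) q (f : FN (M * q)))
    (PT : H86.PullTable D pα pβ)
    (hTI : H96.Stmt_TI3Mod A q M hq B k hB D)
    (hI1 : GlueOfT3At A q M B k hB hq D p)
    (e : ℕ) (he : 0 < e) (hI2 : StRankGlueAt A q M D p (p ^ e)) :
    TorSpanSqAt A q M B k hB hq p := by
  haveI : IsAlgClosed (kV A) := isAlgClosed_kV A
  haveI : Infinite (kV A) := IsAlgClosed.instInfinite
  have hP : HasPrincipalDivisors Kbar (FN (M * q * q)) := H40.hasPD_FN (M * q * q)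
  intro x hx0 hxp hnew hI hT3
  obtain ⟨H, ⟨Dv, hxD, hHD⟩, hcp⟩ := hT3
  have hdivH : ∀ P : Place Kbar (FN (M * q * q)), (p : ℤ) ∣ P.ord (H : FN (M * q * q)) :=
    fun P => ⟨_, (hHD P).symm⟩
  obtain ⟨a, b, hG, hab⟩ := hI1 H hcp hdivH
  -- the exponent `n = p ^ e`
  have hp0 : p ≠ 0 := hp.ne_zero
  have hm0 : p ^ (e - 1) ≠ 0 := pow_ne_zero _ hp0
  have hn0 : p ^ e ≠ 0 := pow_ne_zero _ hp0
  have hnm : p * p ^ (e - 1) = p ^ e := by
    rw [← pow_succ', Nat.sub_add_cancel he]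
  have hG' : H40.GlueData D (p ^ e) (H ^ p ^ (e - 1)) a b := by
    have h1 := H46.glueData_pow_exp hP hm0 hG
    rwa [hnm] at h1
  -- the two functions of the lower level
  obtain ⟨⟨f, hfdiv, hf⟩, -⟩ := hI2 (fun z => b z / a z) (fun z hz => by
    rw [div_pow, (hab z hz).1, (hab z hz).2, div_one])
  obtain ⟨-, ⟨f', hf'div, hf'⟩⟩ := hI2 a (fun z hz => (hab z hz).1)
  have htriv := trivRed_of_pull D hP PT hn0 hG' hf hf' (fun z hz => rfl)
    (fun z hz => div_mul_cancel₀ _ (hG.ne z hz).1)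
  have hunit := unit_of_pull D hP PT hn0 hG' hf hf'
  -- non-vanishing
  have hH0 : H ≠ 0 := hG.H_ne_zero
  have hf0 : f ≠ 0 := by
    intro h0
    apply hf.unit₁
    rw [h0, map_zero]
    exact D.T'.p₁.rd_zero
  have hf'0 : f' ≠ 0 := by
    intro h0
    apply hf'.unit₁
    rw [h0, map_zero]
    exact D.T'.p₁.rd_zero
  have hf0' : (f : FN (M * q)) ≠ 0 := fun h0 => hf0 (Subtype.ext h0)
  have hf'0' : (f' : FN (M * q)) ≠ 0 := fun h0 => hf'0 (Subtype.ext h0)
  have hHc0 : (H : FN (M * q * q)) ≠ 0 := fun h0 => hH0 (Subtype.ext h0)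
  have hαf0 : heckeAlphaBar Kbar (M * q) q (f : FN (M * q)) ≠ 0 :=
    (map_ne_zero (heckeAlphaBar Kbar (M * q) q)).2 hf0'
  have hβf0 : heckeBetaBar Kbar (M * q) q (f' : FN (M * q)) ≠ 0 :=
    (map_ne_zero (heckeBetaBar Kbar (M * q) q)).2 hf'0'
  have hpαf0 : pα f ≠ 0 := (map_ne_zero pα).2 hf0
  have hpβf0 : pβ f' ≠ 0 := (map_ne_zero pβ).2 hf'0
  -- the quotient
  have hh0 : H ^ p ^ (e - 1) * (pα f * pβ f')⁻¹ ≠ 0 :=
    mul_ne_zero (pow_ne_zero _ hH0) (inv_ne_zero (mul_ne_zero hpαf0 hpβf0))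
  have e1 : ((H ^ p ^ (e - 1) * (pα f * pβ f')⁻¹ : ↥(L0 A (M * q * q))) : FN (M * q * q))
      = (H : FN (M * q * q)) ^ p ^ (e - 1)
        * (heckeAlphaBar Kbar (M * q) q (f : FN (M * q))
          * heckeBetaBar Kbar (M * q) q (f' : FN (M * q)))⁻¹ := by
    push_cast
    rw [hpα, hpβ]
  have hU : Fermat.Agent.S36.NU.H10.IsUnit3 A q M B k hB hq
      (H ^ p ^ (e - 1) * (pα f * pβ f')⁻¹) := by
    refine Fermat.Agent.S36.NU.H15.isUnit3_of_rdN A q M B k hB hq hqM hA ht _ ?_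
    have hT := hD.hT
    rw [← hT]
    exact hunit
  have hdivh : ∀ P : Place Kbar (FN (M * q * q)),
      ((p ^ e : ℕ) : ℤ) ∣ P.ord
        ((H ^ p ^ (e - 1) * (pα f * pβ f')⁻¹ : ↥(L0 A (M * q * q))) : FN (M * q * q)) := by
    intro P
    rw [e1, P.ord_mul (pow_ne_zero _ hHc0) (inv_ne_zero (mul_ne_zero hαf0 hβf0)), ord_pow,
      Place.ord_inv, P.ord_mul hαf0 hβf0]
    have h1 : ((p ^ e : ℕ) : ℤ) ∣ ((p ^ (e - 1) : ℕ) : ℤ) * P.ord (H : FN (M * q * q)) := by
      rw [← hHD P, ← mul_assoc]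
      refine Dvd.dvd.mul_right ?_ _
      rw [← hnm]
      push_cast
      rw [mul_comm]
    refine dvd_add h1 (dvd_neg.2 (dvd_add ?_ ?_))
    · exact dvd_ord_pull _ (alpha_integral (M * q) q) _ _ hfdiv P
    · exact dvd_ord_pull _ (beta_integral (M * q) q) _ _ hf'div P
  have hcop : Nat.Coprime (p ^ e) q :=
    Nat.Coprime.pow_left e ((Nat.coprime_primes hp hq).2 (Ne.symm hqp))
  obtain ⟨s, c, hs0, hsc⟩ := hTI (p ^ e) (Nat.pos_of_ne_zero hn0) hcop _ hh0 hU hdivh htriv
  have hs0' : (s : FN (M * q * q)) ≠ 0 := fun h0 => hs0 (Subtype.ext h0)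
  rw [e1] at hsc
  have hc0 : c ≠ 0 := by
    rintro rfl
    rw [map_zero] at hsc
    exact (mul_ne_zero (mul_ne_zero (pow_ne_zero _ hHc0)
      (inv_ne_zero (mul_ne_zero hαf0 hβf0))) (pow_ne_zero _ hs0')) hsc
  -- the Kummer relation
  have heq : (H : FN (M * q * q)) ^ p ^ (e - 1) * (s : FN (M * q * q)) ^ p ^ e
      = algebraMap Kbar (FN (M * q * q)) c
        * (heckeAlphaBar Kbar (M * q) q (f : FN (M * q))
          * heckeBetaBar Kbar (M * q) q (f' : FN (M * q))) := by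
    have hX : heckeAlphaBar Kbar (M * q) q (f : FN (M * q))
        * heckeBetaBar Kbar (M * q) q (f' : FN (M * q)) ≠ 0 := mul_ne_zero hαf0 hβf0
    rw [← hsc]
    generalize heckeAlphaBar Kbar (M * q) q (f : FN (M * q))
        * heckeBetaBar Kbar (M * q) q (f' : FN (M * q)) = X at hX ⊢
    field_simp
  obtain ⟨y, y', hy, hy', hxy⟩ := H35.kum_span M q p e hp0 he x Dv hxD (H : FN (M * q * q)) hHD
    (f : FN (M * q)) (f' : FN (M * q)) hf0' hf'0' hfdiv hf'div (s : FN (M * q * q)) hs0' c hc0 heq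
  exact ⟨y, y', p ^ e, p ^ e, hn0, hn0, hy, hy', hxy⟩

end Asm

end Fermat.Agent.S59.LL.SQ.H58
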