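import Fermat.Agent.S59.LL.SQ.H84_GenMod
import Fermat.Agent.S36.NU.H10_Core
attribute [local instance 10000] SubalgebraClass.toAlgebra
attribute [local instance 10000] HahnSeries.powerSeriesAlgebra

/-!
# S59, package LL / SQ, step (T′) tame assembly, leaf G2 GEN-MOD, unconditional form (helper84)

`genMod` : at every tame level `M q²` (`(5 ≤ q ∧ 4 ∣ M) ∨ (q = 3 ∧ 4 ∣ M) ∨ (q = 2 ∧ 9 ∣ M)`), for
every modular datum `D` (`H79.IsNuM`): `Stmt_GenMod A q M D`, i.e. every `I`-fixed unit `H` of the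
three valuations with `n ∣ div H` has a local generator at every triple point.

The point data are helper10's `H10.stmt_Pt0All_of H10.stmt_MidSmall H10.stmt_PtHypsAll`
(unconditional since `H10_Core`).
-/

set_option autoImplicit false
set_option synthInstance.maxHeartbeats 400000
set_option maxHeartbeats 1000000
set_option linter.style.haveILetI false
set_option linter.unusedSectionVars false

noncomputable section

open ModularCurve AlgebraicCurve IntermediateField

attribute [local instance] Classical.propDecidable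

namespace Fermat.Agent.S59.LL.SQ.H84

open Fermat.Agent.S24 Fermat.Agent.BAD Fermat.Agent.BAD.H88 Fermat.Agent.S28 Fermat.Agent.S28.H73
  Fermat.Agent.S36.NU.H23
  Fermat.Agent.S36.NU.H41 Fermat.Agent.S36.NU.H88 Fermat.Agent.S36.NU.H16
  Fermat.Agent.S36.NU.H17 Fermat.Agent.S36.NU.H24 Fermat.Agent.S36.NU.H79
  Fermat.Agent.S36.NU.H65 Fermat.Agent.S36.NU.H74 Fermat.Agent.S36.NU.H10
  Fermat.Agent.Lib.HeckeComm

section GenFinal

variable (A : ValuationSubring Kbar) (q M : ℕ) (B k : ℤ) (hB : B * M + k * q = 1) (hq : q.Prime)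
  [NeZero M] [NeZero q] [NeZero (M * q)] [NeZero (M * q * q)]
  (hqM : ¬ q ∣ M) (hA : A.LiesOverPrime q) (ht : H91.TameAt M q)

attribute [local instance] algkM

/-- The point data of the chart of `j`, unconditionally (helper10 and his leaves). -/
theorem pointData_chart0_final
    (hc : (5 ≤ q ∧ 4 ∣ M) ∨ (q = 3 ∧ 4 ∣ M) ∨ (q = 2 ∧ 9 ∣ M))
    (D : NUDataM A q M) (hD : IsNuM A q M B k hB hq hqM hA ht D) :
    PointData (chart0 A q M B k hB hq hqM hA ht) D ((q : ℕ) : ↥(Rur A)) :=
  stmt_Pt0All_of stmt_MidSmall stmt_PtHypsAll A q M B k hB hq hqM hA ht hc D hD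

/-- **GEN-MOD, unconditionally**: local generators at the triple points, at every tame level. -/
theorem genMod (hc : (5 ≤ q ∧ 4 ∣ M) ∨ (q = 3 ∧ 4 ∣ M) ∨ (q = 2 ∧ 9 ∣ M))
    (D : NUDataM A q M) (hD : IsNuM A q M B k hB hq hqM hA ht D) : Stmt_GenMod A q M D :=
  fun n hn H hu hdiv z hz =>
    genMod_of_pt0 A q M B k hB hq hqM hA ht D hD
      (pointData_chart0_final A q M B k hB hq hqM hA ht hc D hD) n hn H hu hdiv z hz

/-- **GEN-MOD, unconditionally, for units of the three valuations** (`H10.IsUnit3`). -/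
theorem genMod_isUnit3 (hc : (5 ≤ q ∧ 4 ∣ M) ∨ (q = 3 ∧ 4 ∣ M) ∨ (q = 2 ∧ 9 ∣ M))
    (D : NUDataM A q M) (hD : IsNuM A q M B k hB hq hqM hA ht D)
    (n : ℕ) (hn : 0 < n) (H : ↥(L0 A (M * q * q))) (H0 : H ≠ 0)
    (hU : IsUnit3 A q M B k hB hq H)
    (hdiv : ∀ P : Place Kbar (FN (M * q * q)), (n : ℤ) ∣ P.ord (H : FN (M * q * q)))
    (z : Place (kV A) (FM A M)) (hz : z ∈ D.SS) : ∃ s, D.IsGen n z H s :=
  genMod_unit3 A q M B k hB hq hqM hA ht D hD
    (pointData_chart0_final A q M B k hB hq hqM hA ht hc D hD) n hn H H0 hU hdiv z hz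

end GenFinal

end Fermat.Agent.S59.LL.SQ.H84
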