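import Fermat.Agent.S59.LL.SQ.H86_PBGlueAbs
import Fermat.Agent.S36.NU.H79_NmFibM
import Fermat.Agent.S36.NU.H69_NrA2
import Fermat.Agent.S36.NU.H69_NrB1
import Fermat.Agent.S36.NU.H87_NrB2
import Fermat.Agent.S36.NU.H23_NmP2
attribute [local instance 10000] SubalgebraClass.toAlgebra
attribute [local instance 10000] HahnSeries.powerSeriesAlgebra

/-!
# S59, package LL / SQ, step (T), leaf PB-GLUE, modular part (helper86)

Level `N = M q²`, `q ∤ M` tame, `A` over `q`; `D = H79.nuMod` the modular `NUData`;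
`pα = inclL0 A (hleA q M)` (`= α` on the inertia-fixed functions), `pβ = bL0 A q M` (`= β`).

* `rowA20`, `rowA11`, `rowA02`, `rowB20`, `rowB11`, `rowB02` : the six rows of the pull-back table
  (`rd3 i (α g)`, `rd3 i (β g)` in terms of the two reductions of `g` of level `M q`);
* `rho_alpha_conv`, `rho_beta_conv` : `ρ P = z → ρ' (P | α) = zA z`, `ρ' (P | β) = zB z` (the
  converses of helper23's `rho_alpha`, `rho_beta`; the second for supersingular `z`);
* `pullTable_mod : PullTable (nuMod ..) (inclL0 ..) (bL0 ..)`;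
* `glueData_alpha_mod`, `glueData_beta_mod` : PB-GLUE for the modular datum.
-/

set_option autoImplicit false
set_option synthInstance.maxHeartbeats 400000
set_option maxHeartbeats 1000000
set_option linter.style.haveILetI false
set_option linter.unusedSectionVars false

noncomputable section

open ModularCurve AlgebraicCurve
open Fermat.Agent.S24 Fermat.Agent.BAD.H88 Fermat.Agent.S28 Fermat.Agent.S28.H73
open Fermat.Agent.RED.H73 Fermat.Agent.RED.H17 Fermat.Agent.S36.NU.H88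
open Fermat.Agent.Lib.HeckeComm Fermat.Agent.S36.NU.H23 Fermat.Agent.S36.NU.H74
open Fermat.Agent.S36.NU.H89 Fermat.Agent.S36.NU.H79

namespace Fermat.Agent.S59.LL.SQ.H86

open Fermat.Agent.BAD Fermat.Agent.RED Fermat.Agent.BAD.H79

section Rows

variable (A : ValuationSubring Kbar) (q M : ℕ) (B k : ℤ) (hB : B * M + k * q = 1) (hq : q.Prime)
  [NeZero M] [NeZero q] [NeZero (M * q)] [NeZero (M * q * q)]
  (hqM : ¬ q ∣ M) (hA : A.LiesOverPrime q) (ht : H91.TameAt M q)

/-- a function with non-zero first reduction is integral for the first valuation. -/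
theorem mem_V1_of_rd {g : FN (M * q)}
    (hg : (TL A q M B k hB hq hqM hA ht).p₁.rd g ≠ 0) : g ∈ V1 A q M := by
  by_contra h
  exact hg ((TL A q M B k hB hq hqM hA ht).p₁.rd_of_not_mem h)

/-- a function with non-zero second reduction is integral for the second valuation. -/
theorem mem_V2_of_rd {g : FN (M * q)}
    (hg : (TL A q M B k hB hq hqM hA ht).p₂.rd g ≠ 0) :
    g ∈ V2 A q M k B (hab_of_hB q M B k hB) hq := by
  by_contra h
  exact hg ((TL A q M B k hB hq hqM hA ht).p₂.rd_of_not_mem h)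

/-- The first reduction, as a series. -/
theorem coe_rd1 {g : FN (M * q)} (hm : g ∈ V1 A q M) :
    (((TL A q M B k hB hq hqM hA ht).p₁.rd g : F1 A q M) : LaurentSeries (kV A))
      = ((red1 A q M ⟨g, hm⟩ : F1 A q M) : LaurentSeries (kV A)) := by
  have hm' : g ∈ (TL A q M B k hB hq hqM hA ht).p₁.V := hm
  rw [(TL A q M B k hB hq hqM hA ht).p₁.rd_of_mem hm']
  rfl

/-- The second reduction, as a series. -/
theorem coe_rd2 {g : FN (M * q)} (hm : g ∈ V2 A q M k B (hab_of_hB q M B k hB) hq) :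
    (((TL A q M B k hB hq hqM hA ht).p₂.rd g : F1 A q M) : LaurentSeries (kV A))
      = ((red2 A q M k B (hab_of_hB q M B k hB) hq ⟨g, hm⟩ : F1 A q M) :
          LaurentSeries (kV A)) := by
  have hm' : g ∈ (TL A q M B k hB hq hqM hA ht).p₂.V := hm
  rw [(TL A q M B k hB hq hqM hA ht).p₂.rd_of_mem hm']
  rfl

/-- **Row `α`, `V₂₀`**: `red₂₀ (α g) = red₁ g`. -/
theorem rowA20 (g : ↥(L0 A (M * q)))
    (hg : (TL A q M B k hB hq hqM hA ht).p₁.rd (g : FN (M * q)) ≠ 0) :
    rd3 A q M B k hB hq hqM hA ht 0 (inclL0 A (Fermat.Agent.S36.NU.H87.hleA q M) g)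
      = (resId A q M B k hB hq hA).j
          ((TL A q M B k hB hq hqM hA ht).p₁.rd (g : FN (M * q))) := by
  have hm : (g : FN (M * q)) ∈ V1 A q M := mem_V1_of_rd A q M B k hB hq hqM hA ht hg
  have hE : g ∈ VE0 A (M * q) := hm
  have h20 : inclL0 A (Fermat.Agent.S36.NU.H87.hleA q M) g ∈ V20o A q M :=
    Fermat.Agent.S36.NU.H87.hVE20A A q M g hE
  rw [rd3_zero A q M B k hB hq hqM hA ht h20]
  apply Subtype.ext
  rw [coe_r20, coe_resId_j, coe_rd1 A q M B k hB hq hqM hA ht hm]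
  exact Fermat.Agent.S36.NU.H87.s20_inclA A q M ⟨g, hE⟩ h20

include hB hq in
/-- **Row `α`, `V₁₁`**: `red₁₁ (α g) = red₁ g`. -/
theorem rowA11 (g : ↥(L0 A (M * q)))
    (hg : (TL A q M B k hB hq hqM hA ht).p₁.rd (g : FN (M * q)) ≠ 0) :
    rd3 A q M B k hB hq hqM hA ht 1 (inclL0 A (Fermat.Agent.S36.NU.H87.hleA q M) g)
      = (resId A q M B k hB hq hA).j
          ((TL A q M B k hB hq hqM hA ht).p₁.rd (g : FN (M * q))) := by
  have hm : (g : FN (M * q)) ∈ V1 A q M := mem_V1_of_rd A q M B k hB hq hqM hA ht hg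
  have hE : g ∈ VE0 A (M * q) := hm
  have h11 : inclL0 A (Fermat.Agent.S36.NU.H87.hleA q M) g ∈ V11o A q M B k hB hq :=
    Fermat.Agent.S36.NU.H87.hVE11A A q M B k hB hq g hE
  rw [rd3_one A q M B k hB hq hqM hA ht h11]
  apply Subtype.ext
  rw [coe_r11, coe_resId_j, coe_rd1 A q M B k hB hq hqM hA ht hm]
  exact Fermat.Agent.S36.NU.H87.s11_inclA A q M B k hB hq ⟨g, hE⟩ h11

/-- **Row `α`, `V₀₂`**: `red₀₂ (α g) = Fr (red₂ g)`. -/
theorem rowA02 (g : ↥(L0 A (M * q)))
    (hg : (TL A q M B k hB hq hqM hA ht).p₂.rd (g : FN (M * q)) ≠ 0) :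
    rd3 A q M B k hB hq hqM hA ht 2 (inclL0 A (Fermat.Agent.S36.NU.H87.hleA q M) g)
      = (resFr A q M B k hB hq hqM hA).j
          ((TL A q M B k hB hq hqM hA ht).p₂.rd (g : FN (M * q))) := by
  have hm : (g : FN (M * q)) ∈ V2 A q M k B (hab_of_hB q M B k hB) hq :=
    mem_V2_of_rd A q M B k hB hq hqM hA ht hg
  have hE : g ∈ Fermat.Agent.S36.NU.H69.VE2 A q M B k hB hq := hm
  have h02 : inclL0 A (Fermat.Agent.S36.NU.H87.hleA q M) g ∈ V02o A q M B k hB :=
    Fermat.Agent.S36.NU.H69.hVA2 A q M B k hB hq g hE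
  rw [rd3_two A q M B k hB hq hqM hA ht h02]
  apply Subtype.ext
  rw [coe_r02, coe_resFr_j, coe_rd2 A q M B k hB hq hqM hA ht hm]
  exact Fermat.Agent.S36.NU.H69.s02_inclA A q M B k hB hq ⟨g, hE⟩ h02

/-- **Row `β`, `V₂₀`**: `red₂₀ (β g) = Fr (red₁ g)`. -/
theorem rowB20 (g : ↥(L0 A (M * q)))
    (hg : (TL A q M B k hB hq hqM hA ht).p₁.rd (g : FN (M * q)) ≠ 0) :
    rd3 A q M B k hB hq hqM hA ht 0 (Fermat.Agent.S36.NU.H69.bL0 A q M g)
      = (resFr A q M B k hB hq hqM hA).j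
          ((TL A q M B k hB hq hqM hA ht).p₁.rd (g : FN (M * q))) := by
  have hm : (g : FN (M * q)) ∈ V1 A q M := mem_V1_of_rd A q M B k hB hq hqM hA ht hg
  have hE : g ∈ VE0 A (M * q) := hm
  have h20 : Fermat.Agent.S36.NU.H69.bL0 A q M g ∈ V20o A q M :=
    Fermat.Agent.S36.NU.H69.hVB1 A q M g hE
  rw [rd3_zero A q M B k hB hq hqM hA ht h20]
  apply Subtype.ext
  rw [coe_r20, coe_resFr_j, coe_rd1 A q M B k hB hq hqM hA ht hm]
  have e := congrArg (fun y : FM A (M * q) => (y : LaurentSeries (kV A)))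
    (Fermat.Agent.S36.NU.H69.r20A_bL0 A q M hq hqM hA ⟨g, hE⟩ h20)
  exact e

include hA in
/-- **Row `β`, `V₁₁`**: `red₁₁ (β g) = red₂ g`. -/
theorem rowB11 (g : ↥(L0 A (M * q)))
    (hg : (TL A q M B k hB hq hqM hA ht).p₂.rd (g : FN (M * q)) ≠ 0) :
    rd3 A q M B k hB hq hqM hA ht 1 (Fermat.Agent.S36.NU.H69.bL0 A q M g)
      = (resId A q M B k hB hq hA).j
          ((TL A q M B k hB hq hqM hA ht).p₂.rd (g : FN (M * q))) := by
  have hm : (g : FN (M * q)) ∈ V2 A q M k B (hab_of_hB q M B k hB) hq :=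
    mem_V2_of_rd A q M B k hB hq hqM hA ht hg
  have hE : g ∈ Fermat.Agent.S36.NU.H51.V2o A q M B k hB hq := hm
  have h11 : Fermat.Agent.S36.NU.H87.mapB A q M g ∈ V11o A q M B k hB hq :=
    Fermat.Agent.S36.NU.H87.hVE11B A q M B k hB hq g hE
  have h11' : Fermat.Agent.S36.NU.H69.bL0 A q M g ∈ V11o A q M B k hB hq := h11
  rw [rd3_one A q M B k hB hq hqM hA ht h11']
  apply Subtype.ext
  rw [coe_r11, coe_resId_j, coe_rd2 A q M B k hB hq hqM hA ht hm]
  exact Fermat.Agent.S36.NU.H87.s11_mapB A q M B k hB hq hA ⟨g, hE⟩ h11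

/-- **Row `β`, `V₀₂`**: `red₀₂ (β g) = red₂ g`. -/
theorem rowB02 (g : ↥(L0 A (M * q)))
    (hg : (TL A q M B k hB hq hqM hA ht).p₂.rd (g : FN (M * q)) ≠ 0) :
    rd3 A q M B k hB hq hqM hA ht 2 (Fermat.Agent.S36.NU.H69.bL0 A q M g)
      = (resId A q M B k hB hq hA).j
          ((TL A q M B k hB hq hqM hA ht).p₂.rd (g : FN (M * q))) := by
  have hm : (g : FN (M * q)) ∈ V2 A q M k B (hab_of_hB q M B k hB) hq :=
    mem_V2_of_rd A q M B k hB hq hqM hA ht hg
  have hE : g ∈ Fermat.Agent.S36.NU.H51.V2o A q M B k hB hq := hm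
  have h02 : Fermat.Agent.S36.NU.H87.mapB A q M g ∈ V02o A q M B k hB :=
    Fermat.Agent.S36.NU.H87.hVE02B A q M B k hB hq g hE
  have h02' : Fermat.Agent.S36.NU.H69.bL0 A q M g ∈ V02o A q M B k hB := h02
  rw [rd3_two A q M B k hB hq hqM hA ht h02']
  apply Subtype.ext
  rw [coe_r02, coe_resId_j, coe_rd2 A q M B k hB hq hqM hA ht hm]
  exact Fermat.Agent.S36.NU.H87.s02_mapB A q M B k hB hq ⟨g, hE⟩ h02

end Rows

section Fib

variable (A : ValuationSubring Kbar) (q M : ℕ) (B k : ℤ) (hB : B * M + k * q = 1) (hq : q.Prime)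
  [NeZero M] [NeZero q] [NeZero (M * q)] [NeZero (M * q * q)]
  (hqM : ¬ q ∣ M) (hA : A.LiesOverPrime q) (ht : H91.TameAt M q)

/-- **`ρ P = z → ρ' (P | α) = zA z`** (the converse of helper23's `rho_alpha`). -/
theorem rho_alpha_conv (z : Place (kV A) (FM A M)) (P : Place Kbar (FN (M * q * q)))
    (h : rhoM A q M hq hqM hA ht P = z) :
    (modTM A q M B k hB hq hqM hA ht).ρ
        (P.restrictAlong (heckeAlphaBar Kbar (M * q) q)
          (Fermat.Agent.S36.H44.alpha_integral (M * q) q))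
      = zA A q M B k hB hq hA z := by
  rw [modTM_rho, zA_def]
  have h1 : Fermat.Agent.BAD.H91.rhoM hq hqM ht hA
      (P.restrictAlong (heckeAlphaBar Kbar (M * q) q)
        (Fermat.Agent.S36.H44.alpha_integral (M * q) q)) = z := by
    unfold Fermat.Agent.BAD.H91.rhoM
    rw [restrictAlong_alpha_incl q M P]
    exact h
  exact congrArg (kapM A q M B k hB hq hA).symm h1

/-- **`ρ P = z → ρ' (P | β) = zB z`** for the supersingular points (the converse of helper23's
`rho_beta`). -/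
theorem rho_beta_conv (z : Place (kV A) (FM A M)) (hz : z ∈ Fermat.Agent.S36.NU.H74.ssM A q M)
    (P : Place Kbar (FN (M * q * q))) (h : rhoM A q M hq hqM hA ht P = z) :
    (modTM A q M B k hB hq hqM hA ht).ρ
        (P.restrictAlong (heckeBetaBar Kbar (M * q) q)
          (Fermat.Agent.S36.H44.beta_integral (M * q) q))
      = zB A q M B k hB hq hqM hA z := by
  have hα := rho_alpha_conv A q M B k hB hq hqM hA ht z P h
  rw [modTM_rho] at hα ⊢
  -- `ρ' (P | β) = ρ' (w⁻¹ (P | α))`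
  have e2 : Fermat.Agent.BAD.H91.rhoF1 k B (hab_kB q M B k hB) hq hA hqM ht
      (P.restrictAlong (heckeBetaBar Kbar (M * q) q)
        (Fermat.Agent.S36.H44.beta_integral (M * q) q))
      = Fermat.Agent.BAD.H91.rhoF1 k B (hab_kB q M B k hB) hq hA hqM ht
        ((Fermat.Agent.BAD.H91.wSemi k B (hab_kB q M B k hB) hq)⁻¹ •
          P.restrictAlong (heckeAlphaBar Kbar (M * q) q)
            (Fermat.Agent.S36.H44.alpha_integral (M * q) q)) := by
    unfold Fermat.Agent.BAD.H91.rhoF1 Fermat.Agent.BAD.H91.rhoM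
    rw [restrictAlong_beta_incl q M P, ← Fermat.Agent.BAD.H91.restrictAlong_wSemi]
  have hnode : (Fermat.Agent.BAD.H91.modT k B (hab_kB q M B k hB) hq hA hqM ht
      (Fermat.Agent.S35.H89.betaMod A q M k B (hab_kB q M B k hB) hq hA)
      (Fermat.Agent.BAD.H23.tot_mod A q M k B (hab_kB q M B k hB) hq hA hqM ht
        (Fermat.Agent.BAD.H82.redField_eq_fullC q M k B (hab_kB q M B k hB) hq A hA))).IsNode
      (Fermat.Agent.BAD.H91.rhoF1 k B (hab_kB q M B k hB) hq hA hqM ht
        (P.restrictAlong (heckeAlphaBar Kbar (M * q) q)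
            (Fermat.Agent.S36.H44.alpha_integral (M * q) q))) := by
    rw [hα]
    exact nodeA A q M B k hB hq hqM hA ht z hz
  have h3 := Fermat.Agent.BAD.H91.rhoW_eq_beta_mod k B (hab_kB q M B k hB) hq hA hqM ht
    (Fermat.Agent.S35.H89.betaMod A q M k B (hab_kB q M B k hB) hq hA)
    (Fermat.Agent.BAD.H23.tot_mod A q M k B (hab_kB q M B k hB) hq hA hqM ht
      (Fermat.Agent.BAD.H82.redField_eq_fullC q M k B (hab_kB q M B k hB) hq A hA))
    (betaL_ord_jRed A q M B k hB hq hA) hnode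
  rw [e2, h3, hα]
  have e4 : betaL A q M B k hB hq hA (zA A q M B k hB hq hA z)
      = zB A q M B k hB hq hqM hA z := by
    rw [betaL_zA A q M B k hB hq hqM hA z, zB_def]
    congr 1
    rw [Equiv.eq_symm_apply]
    exact betaM_betaM A q M B k hB hq hqM hA ht z hz
  exact e4

end Fib

section Table

variable (A : ValuationSubring Kbar) (q M : ℕ) (B k : ℤ) (hB : B * M + k * q = 1) (hq : q.Prime)
  [NeZero M] [NeZero q] [NeZero (M * q)] [NeZero (M * q * q)]
  (hqM : ¬ q ∣ M) (hA : A.LiesOverPrime q) (ht : H91.TameAt M q)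

/-- **The pull-back table of the modular datum.** -/
theorem pullTable_mod :
    letI := algkM A M
    PullTable (nuMod A q M B k hB hq hqM hA ht)
      (inclL0 A (Fermat.Agent.S36.NU.H87.hleA q M)) (Fermat.Agent.S36.NU.H69.bL0 A q M) := by
  letI := algkM A M
  exact
  { α₂₀ := fun g hg => rowA20 A q M B k hB hq hqM hA ht g hg
    α₁₁ := fun g hg => rowA11 A q M B k hB hq hqM hA ht g hg
    α₀₂ := fun g hg => rowA02 A q M B k hB hq hqM hA ht g hg
    β₂₀ := fun g hg => rowB20 A q M B k hB hq hqM hA ht g hg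
    β₁₁ := fun g hg => rowB11 A q M B k hB hq hqM hA ht g hg
    β₀₂ := fun g hg => rowB02 A q M B k hB hq hqM hA ht g hg
    fibα := fun z hz g hg P hP => by
      have e : algebraMap ↥(L0 A (M * q * q)) (FN (M * q * q))
          (inclL0 A (Fermat.Agent.S36.NU.H87.hleA q M) g)
          = heckeAlphaBar Kbar (M * q) q (g : FN (M * q)) :=
        Fermat.Agent.S36.NU.H87.coe_inclL0_alphaA A q M g
      have h0 : (P.restrictAlong (heckeAlphaBar Kbar (M * q) q)
          (Fermat.Agent.S36.H44.alpha_integral (M * q) q)).ord (g : FN (M * q)) = 0 :=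
        hg _ (rho_alpha_conv A q M B k hB hq hqM hA ht z P hP)
      rw [e, Place.ord_restrictAlong _ (Fermat.Agent.S36.H44.alpha_integral (M * q) q),
        h0, mul_zero]
    fibβ := fun z hz g hg P hP => by
      have e : algebraMap ↥(L0 A (M * q * q)) (FN (M * q * q))
          (Fermat.Agent.S36.NU.H69.bL0 A q M g)
          = heckeBetaBar Kbar (M * q) q (g : FN (M * q)) :=
        Fermat.Agent.S36.NU.H69.coe_bL0 A q M g
      have h0 : (P.restrictAlong (heckeBetaBar Kbar (M * q) q)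
          (Fermat.Agent.S36.H44.beta_integral (M * q) q)).ord (g : FN (M * q)) = 0 :=
        hg _ (rho_beta_conv A q M B k hB hq hqM hA ht z hz P hP)
      rw [e, Place.ord_restrictAlong _ (Fermat.Agent.S36.H44.beta_integral (M * q) q),
        h0, mul_zero] }

/-- **PB-GLUE along `α`, modular**: the gluing invariants of `α^* f` are `(1, θ)`. -/
theorem glueData_alpha_mod {n : ℕ} (hn : n ≠ 0) {f : ↥(L0 A (M * q))}
    {θ : Place (kV A) (FM A M) → kV A}
    (h : letI := algkM A M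
      GlueLow (nuMod A q M B k hB hq hqM hA ht) (zA A q M B k hB hq hA) n f θ) :
    letI := algkM A M
    Fermat.Agent.S59.LL.SQ.H40.GlueData (nuMod A q M B k hB hq hqM hA ht) n
      (inclL0 A (Fermat.Agent.S36.NU.H87.hleA q M) f) (fun _ => 1) θ := by
  letI := algkM A M
  haveI : IsAlgClosed (kV A) := isAlgClosed_kV A
  haveI : Infinite (kV A) := IsAlgClosed.instInfinite
  exact glueData_pullA (Fermat.Agent.S36.NU.H74.hasPrincipalDivisors_FN (M * q * q))
    (pullTable_mod A q M B k hB hq hqM hA ht) hn h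

/-- **PB-GLUE along `β`, modular**: the gluing invariants of `β^* f` are `(θ, θ)`. -/
theorem glueData_beta_mod {n : ℕ} (hn : n ≠ 0) {f : ↥(L0 A (M * q))}
    {θ : Place (kV A) (FM A M) → kV A}
    (h : letI := algkM A M
      GlueLow (nuMod A q M B k hB hq hqM hA ht) (zB A q M B k hB hq hqM hA) n f θ) :
    letI := algkM A M
    Fermat.Agent.S59.LL.SQ.H40.GlueData (nuMod A q M B k hB hq hqM hA ht) n
      (Fermat.Agent.S36.NU.H69.bL0 A q M f) θ θ := by
  letI := algkM A M
  haveI : IsAlgClosed (kV A) := isAlgClosed_kV A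
  haveI : Infinite (kV A) := IsAlgClosed.instInfinite
  exact glueData_pullB (Fermat.Agent.S36.NU.H74.hasPrincipalDivisors_FN (M * q * q))
    (pullTable_mod A q M B k hB hq hqM hA ht) hn h

end Table

end Fermat.Agent.S59.LL.SQ.H86

end
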