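import Fermat.Agent.S59.LL.SQ.H40_GlueAbs

/-!
# S59, package LL / SQ, step (T), leaf PB-GLUE, abstract part (helper86)

Setting: helper79's `NUData` `D` (higher level `q² M'` with the three valuations `i₂₀`, `i₁₁`,
`i₀₂`; lower level `q M'` with the two valuations `p₁`, `p₂`), helper40's `GlueData`.
`L₀'` : the inertia-fixed functions of the lower level, `pα`, `pβ : L₀' → L₀` the two pull-backs.

* `PullTable D pα pβ` : the PULL-BACK TABLE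
  `red₂₀ (α g) = j (red₁ g)`, `red₁₁ (α g) = j (red₁ g)`, `red₀₂ (α g) = j (red₂ g)`,
  `red₂₀ (β g) = j (red₁ g)`, `red₁₁ (β g) = j (red₂ g)`, `red₀₂ (β g) = j (red₂ g)`
  (`j` the embeddings of the residue fields of the six `ResNorm`), and the compatibility of the
  fibres of the reduction maps with `α`, `β`;
* `GlueLow D zz n f θ` : gluing data of the lower level at the nodes `zz z`, `z ∈ SS`:
  `red₁ f = c G₁ ^ n`, `red₂ f = c G₂ ^ n`, and for a local generator `s` of `f` at `zz z` the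
  values of `G₁ red₁ s` at `zz z` and of `G₂ red₂ s` at `β (zz z)` are `u`, `θ z · u`;
* `hasValue_of_over` : values are transported UP along a residue embedding;
* `glueData_pullA` : `GlueLow D zα n f θ → GlueData D n (pα f) 1 θ`;
* `glueData_pullB` : `GlueLow D zβ n f θ → GlueData D n (pβ f) θ θ`.
So `γ₃ (α^* y) = (1, θ (y) ∘ zα)`, `γ₃ (β^* y) = (θ (y) ∘ zβ, θ (y) ∘ zβ)`: the matrix is unimodular.
-/

set_option autoImplicit false
set_option linter.style.haveILetI false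
set_option linter.unusedSectionVars false

noncomputable section

open AlgebraicCurve

attribute [local instance] Classical.propDecidable

namespace Fermat.Agent.S59.LL.SQ.H86

open Fermat.Agent.RED.H17 Fermat.Agent.RED Fermat.Agent.BAD.H79 Fermat.Agent.BAD
  Fermat.Agent.S36.NU.H79 Fermat.Agent.S59.LL.SQ.H40

/-! ## Values are transported up along an embedding of residue fields -/

section Over

variable {k E₁ E₂ : Type*} [Field k] [Field E₁] [Field E₂] [Algebra k E₁] [Algebra k E₂]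

/-- If the point `pt` of `E₂` lies over the point `z'` of `E₁` (values go down along `j`), then
values go up along `j`. -/
theorem hasValue_of_over (j : E₁ →ₐ[k] E₂) (pt : Place k E₂) (z' : Place k E₁)
    (hdeg : pt.deg = 1)
    (hover : ∀ (y : E₁) (a : k), HasValue pt (j y) a → HasValue z' y a)
    {y : E₁} {a : k} (h : HasValue z' y a) : HasValue pt (j y) a := by
  have hreg : RegAt pt (j y) := by
    by_contra hnr
    have hy0 : y ≠ 0 := by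
      rintro rfl
      apply hnr
      rw [map_zero]
      exact (vanAt_zero pt).regAt
    have hjy0 : j y ≠ 0 := (map_ne_zero j).2 hy0
    have hneg : pt.ord (j y) < 0 := by
      by_contra hge
      exact hnr (regAt_of_ord_nonneg (not_lt.mp hge))
    have hpos : 0 < pt.ord (j y⁻¹) := by
      rw [map_inv₀, Place.ord_inv]
      omega
    have h1 : HasValue pt (j y⁻¹) 0 := by
      unfold HasValue
      rw [map_zero, sub_zero]
      exact vanAt_of_ord_pos hpos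
    have h2 : HasValue z' y⁻¹ 0 := hover _ _ h1
    have h3 : VanAt z' y⁻¹ := by
      unfold HasValue at h2
      rwa [map_zero, sub_zero] at h2
    have h4 := h3.ord_pos (inv_ne_zero hy0)
    rw [Place.ord_inv] at h4
    have h5 := h.regAt.ord_nonneg
    omega
  obtain ⟨a', ha'⟩ := exists_value pt hdeg hreg
  have ha'' : HasValue pt (j y) a' := ha'
  have e : a' = a := (hover _ _ ha'').unique h
  rw [← e]
  exact ha''

end Over

variable {K L₀ L k ι Z : Type*} {E : ι → Type*} {K' L' L₁ L₂ : Type*}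
  [Field K] [Field L₀] [Field L] [Algebra K L] [Algebra L₀ L] [Field k] [Fintype ι]
  [∀ i, Field (E i)] [∀ i, Algebra k (E i)] [Field K'] [Field L'] [Algebra K' L']
  [Field L₁] [Algebra k L₁] [Field L₂] [Algebra k L₂]
  {L₀' : Type*} [Field L₀'] [Algebra L₀' L']

variable (D : NUData K L₀ L k ι Z E K' L' L₁ L₂)

/-! ## The pull-back table -/

/-- **The pull-back table** of the two degeneracy maps. -/
structure PullTable (pα pβ : L₀' →+* L₀) : Prop where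
  α₂₀ : ∀ g : L₀', D.T'.p₁.rd (algebraMap L₀' L' g) ≠ 0 →
    D.T.rdN D.i₂₀ (pα g) = D.A₂₀.j (D.T'.p₁.rd (algebraMap L₀' L' g))
  α₁₁ : ∀ g : L₀', D.T'.p₁.rd (algebraMap L₀' L' g) ≠ 0 →
    D.T.rdN D.i₁₁ (pα g) = D.A₁₁.j (D.T'.p₁.rd (algebraMap L₀' L' g))
  α₀₂ : ∀ g : L₀', D.T'.p₂.rd (algebraMap L₀' L' g) ≠ 0 →
    D.T.rdN D.i₀₂ (pα g) = D.A₀₂.j (D.T'.p₂.rd (algebraMap L₀' L' g))
  β₂₀ : ∀ g : L₀', D.T'.p₁.rd (algebraMap L₀' L' g) ≠ 0 →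
    D.T.rdN D.i₂₀ (pβ g) = D.B₂₀.j (D.T'.p₁.rd (algebraMap L₀' L' g))
  β₁₁ : ∀ g : L₀', D.T'.p₂.rd (algebraMap L₀' L' g) ≠ 0 →
    D.T.rdN D.i₁₁ (pβ g) = D.B₁₁.j (D.T'.p₂.rd (algebraMap L₀' L' g))
  β₀₂ : ∀ g : L₀', D.T'.p₂.rd (algebraMap L₀' L' g) ≠ 0 →
    D.T.rdN D.i₀₂ (pβ g) = D.B₀₂.j (D.T'.p₂.rd (algebraMap L₀' L' g))
  fibα : ∀ z ∈ D.SS, ∀ g : L₀',
    (∀ Q, D.T'.ρ Q = D.zα z → Q.ord (algebraMap L₀' L' g) = 0) →
    ∀ P, D.T.ρ P = z → P.ord (algebraMap L₀ L (pα g)) = 0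
  fibβ : ∀ z ∈ D.SS, ∀ g : L₀',
    (∀ Q, D.T'.ρ Q = D.zβ z → Q.ord (algebraMap L₀' L' g) = 0) →
    ∀ P, D.T.ρ P = z → P.ord (algebraMap L₀ L (pβ g)) = 0

/-! ## Gluing data of the lower level -/

/-- `s` is a **local generator** of `f` at the point `z'` of the lower level (exponent `n`): a
unit for the two valuations such that `f s ^ n` has no zero or pole on the fibre of `z'`. -/
def IsGenLow (n : ℕ) (z' : Place k L₁) (f s : L₀') : Prop :=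
  D.T'.p₁.rd (algebraMap L₀' L' s) ≠ 0 ∧ D.T'.p₂.rd (algebraMap L₀' L' s) ≠ 0 ∧
    ∀ Q, D.T'.ρ Q = z' → Q.ord (algebraMap L₀' L' (f * s ^ n)) = 0

/-- **Gluing data of the lower level** at the points `zz z`, `z ∈ SS`: `f` is a unit for the two
valuations with reductions `c G₁ ^ n`, `c G₂ ^ n`, and at `zz z` the values of `G₁ red₁ s` (at
`zz z`) and of `G₂ red₂ s` (at `β (zz z)`), `s` a local generator, are `u` and `θ z · u`. -/
structure GlueLow (zz : Z → Place k L₁) (n : ℕ) (f : L₀') (θ : Z → k) : Prop where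
  unit₁ : D.T'.p₁.rd (algebraMap L₀' L' f) ≠ 0
  unit₂ : D.T'.p₂.rd (algebraMap L₀' L' f) ≠ 0
  ne : ∀ z ∈ D.SS, θ z ≠ 0
  glue : ∃ (c : k) (G₁ : L₁) (G₂ : L₂), c ≠ 0 ∧
    D.T'.p₁.rd (algebraMap L₀' L' f) = algebraMap k L₁ c * G₁ ^ n ∧
    D.T'.p₂.rd (algebraMap L₀' L' f) = algebraMap k L₂ c * G₂ ^ n ∧
    ∀ z ∈ D.SS, ∃ (s : L₀') (u : k), IsGenLow D n (zz z) f s ∧ u ≠ 0 ∧
      HasValue (zz z) (G₁ * D.T'.p₁.rd (algebraMap L₀' L' s)) u ∧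
      HasValue (D.T'.β (zz z)) (G₂ * D.T'.p₂.rd (algebraMap L₀' L' s)) (θ z * u)

variable {D}

/-- the pull-back of a local generator is a local generator (along `α`). -/
theorem isGen_pullA {pα pβ : L₀' →+* L₀} (PT : PullTable D pα pβ) {n : ℕ} {z : Z}
    (hz : z ∈ D.SS) {f s : L₀'} (h : IsGenLow D n (D.zα z) f s) :
    D.IsGen n z (pα f) (pα s) := by
  obtain ⟨h1, h2, h3⟩ := h
  refine ⟨fun i => ?_, fun P hP => ?_⟩
  · rcases D.cases i with rfl | rfl | rfl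
    · rw [PT.α₂₀ s h1]
      exact (map_ne_zero D.A₂₀.j).2 h1
    · rw [PT.α₁₁ s h1]
      exact (map_ne_zero D.A₁₁.j).2 h1
    · rw [PT.α₀₂ s h2]
      exact (map_ne_zero D.A₀₂.j).2 h2
  · have e : pα f * pα s ^ n = pα (f * s ^ n) := by rw [map_mul, map_pow]
    rw [e]
    exact PT.fibα z hz _ h3 P hP

/-- the pull-back of a local generator is a local generator (along `β`). -/
theorem isGen_pullB {pα pβ : L₀' →+* L₀} (PT : PullTable D pα pβ) {n : ℕ} {z : Z}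
    (hz : z ∈ D.SS) {f s : L₀'} (h : IsGenLow D n (D.zβ z) f s) :
    D.IsGen n z (pβ f) (pβ s) := by
  obtain ⟨h1, h2, h3⟩ := h
  refine ⟨fun i => ?_, fun P hP => ?_⟩
  · rcases D.cases i with rfl | rfl | rfl
    · rw [PT.β₂₀ s h1]
      exact (map_ne_zero D.B₂₀.j).2 h1
    · rw [PT.β₁₁ s h2]
      exact (map_ne_zero D.B₁₁.j).2 h2
    · rw [PT.β₀₂ s h2]
      exact (map_ne_zero D.B₀₂.j).2 h2
  · have e : pβ f * pβ s ^ n = pβ (f * s ^ n) := by rw [map_mul, map_pow]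
    rw [e]
    exact PT.fibβ z hz _ h3 P hP

/-- **PB-GLUE along `α`**: the gluing invariants of `α^* f` are `(1, θ)`. -/
theorem glueData_pullA [Infinite k] (hP : HasPrincipalDivisors K L)
    {pα pβ : L₀' →+* L₀} (PT : PullTable D pα pβ) {n : ℕ} (hn : n ≠ 0) {f : L₀'} {θ : Z → k}
    (h : GlueLow D D.zα n f θ) : GlueData D n (pα f) (fun _ => 1) θ := by
  obtain ⟨c, G₁, G₂, hc, hG₁, hG₂, hgl⟩ := h.glue
  have hf0 : f ≠ 0 := by
    rintro rfl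
    apply h.unit₁
    rw [map_zero]
    exact PRed.rd_zero _
  have hH0 : pα f ≠ 0 := (map_ne_zero pα).2 hf0
  -- the roots of the reductions of `α^* f`
  let G : ∀ i, E i := fun i =>
    if h₂₀ : i = D.i₂₀ then h₂₀ ▸ D.A₂₀.j G₁
    else if h₁₁ : i = D.i₁₁ then h₁₁ ▸ D.A₁₁.j G₁
    else if h₀₂ : i = D.i₀₂ then h₀₂ ▸ D.A₀₂.j G₂ else 0
  have hG20 : G D.i₂₀ = D.A₂₀.j G₁ := by
    show (if h₂₀ : D.i₂₀ = D.i₂₀ then h₂₀ ▸ D.A₂₀.j G₁ else _) = _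
    rw [dif_pos rfl]
  have hG11 : G D.i₁₁ = D.A₁₁.j G₁ := by
    show (if h₂₀ : D.i₁₁ = D.i₂₀ then h₂₀ ▸ D.A₂₀.j G₁
      else if h₁₁ : D.i₁₁ = D.i₁₁ then h₁₁ ▸ D.A₁₁.j G₁ else _) = _
    rw [dif_neg (Ne.symm D.ne₁), dif_pos rfl]
  have hG02 : G D.i₀₂ = D.A₀₂.j G₂ := by
    show (if h₂₀ : D.i₀₂ = D.i₂₀ then h₂₀ ▸ D.A₂₀.j G₁
      else if h₁₁ : D.i₀₂ = D.i₁₁ then h₁₁ ▸ D.A₁₁.j G₁
      else if h₀₂ : D.i₀₂ = D.i₀₂ then h₀₂ ▸ D.A₀₂.j G₂ else 0) = _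
    rw [dif_neg (Ne.symm D.ne₂), dif_neg (Ne.symm D.ne₃), dif_pos rfl]
  have hred : ∀ i, D.T.rdN i (pα f) = algebraMap k (E i) c * G i ^ n := by
    intro i
    rcases D.cases i with rfl | rfl | rfl
    · rw [PT.α₂₀ f h.unit₁, hG₁, hG20, map_mul, map_pow, AlgHom.commutes]
    · rw [PT.α₁₁ f h.unit₁, hG₁, hG11, map_mul, map_pow, AlgHom.commutes]
    · rw [PT.α₀₂ f h.unit₂, hG₂, hG02, map_mul, map_pow, AlgHom.commutes]
  have hunit : ∀ i, D.T.rdN i (pα f) ≠ 0 := by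
    intro i
    rcases D.cases i with rfl | rfl | rfl
    · rw [PT.α₂₀ f h.unit₁]
      exact (map_ne_zero D.A₂₀.j).2 h.unit₁
    · rw [PT.α₁₁ f h.unit₁]
      exact (map_ne_zero D.A₁₁.j).2 h.unit₁
    · rw [PT.α₀₂ f h.unit₂]
      exact (map_ne_zero D.A₀₂.j).2 h.unit₂
  refine ⟨hunit, fun z hz => ?_, fun z hz => ⟨one_ne_zero, h.ne z hz⟩, c, G, hc, hred,
    fun z hz => ?_⟩
  · obtain ⟨s, u, hs, -⟩ := hgl z hz
    exact ⟨pα s, isGen_pullA PT hz hs⟩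
  · obtain ⟨s, u, hs, hu, hv₁, hv₂⟩ := hgl z hz
    refine glueAt_of_gen D hP hn hH0 G hz (isGen_pullA PT hz hs) hu ?_ ?_ ?_
    · rw [hG20, PT.α₂₀ s hs.1, ← map_mul]
      exact hasValue_of_over D.A₂₀.j _ _ (D.deg_one z hz _) (D.ptA₂₀ z hz) hv₁
    · rw [one_mul, hG11, PT.α₁₁ s hs.1, ← map_mul]
      exact hasValue_of_over D.A₁₁.j _ _ (D.deg_one z hz _) (D.ptA₁₁ z hz) hv₁
    · rw [hG02, PT.α₀₂ s hs.2.1, ← map_mul]
      exact hasValue_of_over D.A₀₂.j _ _ (D.deg_one z hz _) (D.ptA₀₂ z hz) hv₂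

/-- **PB-GLUE along `β`**: the gluing invariants of `β^* f` are `(θ, θ)`. -/
theorem glueData_pullB [Infinite k] (hP : HasPrincipalDivisors K L)
    {pα pβ : L₀' →+* L₀} (PT : PullTable D pα pβ) {n : ℕ} (hn : n ≠ 0) {f : L₀'} {θ : Z → k}
    (h : GlueLow D D.zβ n f θ) : GlueData D n (pβ f) θ θ := by
  obtain ⟨c, G₁, G₂, hc, hG₁, hG₂, hgl⟩ := h.glue
  have hf0 : f ≠ 0 := by
    rintro rfl
    apply h.unit₁
    rw [map_zero]
    exact PRed.rd_zero _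
  have hH0 : pβ f ≠ 0 := (map_ne_zero pβ).2 hf0
  let G : ∀ i, E i := fun i =>
    if h₂₀ : i = D.i₂₀ then h₂₀ ▸ D.B₂₀.j G₁
    else if h₁₁ : i = D.i₁₁ then h₁₁ ▸ D.B₁₁.j G₂
    else if h₀₂ : i = D.i₀₂ then h₀₂ ▸ D.B₀₂.j G₂ else 0
  have hG20 : G D.i₂₀ = D.B₂₀.j G₁ := by
    show (if h₂₀ : D.i₂₀ = D.i₂₀ then h₂₀ ▸ D.B₂₀.j G₁ else _) = _
    rw [dif_pos rfl]
  have hG11 : G D.i₁₁ = D.B₁₁.j G₂ := by
    show (if h₂₀ : D.i₁₁ = D.i₂₀ then h₂₀ ▸ D.B₂₀.j G₁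
      else if h₁₁ : D.i₁₁ = D.i₁₁ then h₁₁ ▸ D.B₁₁.j G₂ else _) = _
    rw [dif_neg (Ne.symm D.ne₁), dif_pos rfl]
  have hG02 : G D.i₀₂ = D.B₀₂.j G₂ := by
    show (if h₂₀ : D.i₀₂ = D.i₂₀ then h₂₀ ▸ D.B₂₀.j G₁
      else if h₁₁ : D.i₀₂ = D.i₁₁ then h₁₁ ▸ D.B₁₁.j G₂
      else if h₀₂ : D.i₀₂ = D.i₀₂ then h₀₂ ▸ D.B₀₂.j G₂ else 0) = _
    rw [dif_neg (Ne.symm D.ne₂), dif_neg (Ne.symm D.ne₃), dif_pos rfl]
  have hred : ∀ i, D.T.rdN i (pβ f) = algebraMap k (E i) c * G i ^ n := by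
    intro i
    rcases D.cases i with rfl | rfl | rfl
    · rw [PT.β₂₀ f h.unit₁, hG₁, hG20, map_mul, map_pow, AlgHom.commutes]
    · rw [PT.β₁₁ f h.unit₂, hG₂, hG11, map_mul, map_pow, AlgHom.commutes]
    · rw [PT.β₀₂ f h.unit₂, hG₂, hG02, map_mul, map_pow, AlgHom.commutes]
  have hunit : ∀ i, D.T.rdN i (pβ f) ≠ 0 := by
    intro i
    rcases D.cases i with rfl | rfl | rfl
    · rw [PT.β₂₀ f h.unit₁]
      exact (map_ne_zero D.B₂₀.j).2 h.unit₁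
    · rw [PT.β₁₁ f h.unit₂]
      exact (map_ne_zero D.B₁₁.j).2 h.unit₂
    · rw [PT.β₀₂ f h.unit₂]
      exact (map_ne_zero D.B₀₂.j).2 h.unit₂
  refine ⟨hunit, fun z hz => ?_, fun z hz => ⟨h.ne z hz, h.ne z hz⟩, c, G, hc, hred,
    fun z hz => ?_⟩
  · obtain ⟨s, u, hs, -⟩ := hgl z hz
    exact ⟨pβ s, isGen_pullB PT hz hs⟩
  · obtain ⟨s, u, hs, hu, hv₁, hv₂⟩ := hgl z hz
    refine glueAt_of_gen D hP hn hH0 G hz (isGen_pullB PT hz hs) hu ?_ ?_ ?_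
    · rw [hG20, PT.β₂₀ s hs.1, ← map_mul]
      exact hasValue_of_over D.B₂₀.j _ _ (D.deg_one z hz _) (D.ptB₂₀ z hz) hv₁
    · rw [hG11, PT.β₁₁ s hs.2.1, ← map_mul]
      exact hasValue_of_over D.B₁₁.j _ _ (D.deg_one z hz _) (D.ptB₁₁ z hz) hv₂
    · rw [hG02, PT.β₀₂ s hs.2.1, ← map_mul]
      exact hasValue_of_over D.B₀₂.j _ _ (D.deg_one z hz _) (D.ptB₀₂ z hz) hv₂

end Fermat.Agent.S59.LL.SQ.H86
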