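/-
S59, package LL / SQ, step (T′), leaf G5 (i) GENLOW (helper92), abstract on `NUData`:
local generators descend along the norm.

Setting: helper79's `NUData` `D`, `L₀'` the inertia-fixed functions of the lower level,
`pα, pβ : L₀' → L₀` the two pull-backs.  Extra inputs (true in the modular case, degree `q`):

* `hN   : ∀ g : L₀', D.Nα (pα g) = algebraMap L₀' L' g ^ D.q`  (norm of a pull-back);
* `hmem : ∀ h : L₀, ∃ t : L₀', algebraMap L₀' L' t = D.Nα h`    (norms are inertia-fixed).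

`isGenLow_of_pullA` : if `n` is prime to `q`, `f ∈ L₀'` is a unit for the two valuations and the
pull-back `pα f` has a local generator `s̃` at the triple point `z`, then `f` has a local generator
at the node `zα z`:  with `u q + v n = 1`, `s := Nα(s̃)^u f^(-v)`,
`f s ^ n = (f^q Nα(s̃)^n)^u = Nα(pα f · s̃^n)^u`.   `isGenLow_of_pullB` : the same along `β`.
-/
import Fermat.Agent.S59.LL.SQ.H86_PBGlueAbs

set_option autoImplicit false
set_option linter.style.haveILetI false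
set_option linter.unusedSectionVars false

noncomputable section

open AlgebraicCurve

namespace Fermat.Agent.S59.LL.SQ.H92

open Fermat.Agent.RED.H17 Fermat.Agent.RED Fermat.Agent.BAD.H79 Fermat.Agent.BAD
  Fermat.Agent.S36.NU.H79 Fermat.Agent.S59.LL.SQ.H40 Fermat.Agent.S59.LL.SQ.H86

variable {K L₀ L k ι Z : Type*} {E : ι → Type*} {K' L' L₁ L₂ : Type*}
  [Field K] [Field L₀] [Field L] [Algebra K L] [Algebra L₀ L] [Field k] [Fintype ι]
  [∀ i, Field (E i)] [∀ i, Algebra k (E i)] [Field K'] [Field L'] [Algebra K' L']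
  [Field L₁] [Algebra k L₁] [Field L₂] [Algebra k L₂]
  {L₀' : Type*} [Field L₀'] [Algebra L₀' L']

/-- Integral powers of Gauss units are Gauss units. -/
theorem isGU_zpow_gl {F' : Type*} [Field F'] [Algebra k F'] {S : PRed K' L' k F'} {f : L'}
    (h : S.IsGU f) (n : ℤ) : S.IsGU (f ^ n) := by
  rcases Int.eq_nat_or_neg n with ⟨m, rfl | rfl⟩
  · rw [zpow_natCast]
    exact h.pow m
  · rw [zpow_neg, zpow_natCast]
    exact (h.pow m).inv

variable {D : NUData K L₀ L k ι Z E K' L' L₁ L₂}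

/-- The abstract core: descent of a local generator along a norm `Nm` of degree `q`. -/
theorem isGenLow_of_norm (Nm : L₀ →* L') (p : L₀' →+* L₀) (z' : Place k L₁)
    (hN : ∀ g : L₀', Nm (p g) = algebraMap L₀' L' g ^ D.q)
    (hmem : ∀ h : L₀, ∃ t : L₀', algebraMap L₀' L' t = Nm h)
    (hu₁ : ∀ h : L₀, (∀ i, D.T.rdN i h ≠ 0) → D.T'.p₁.rd (Nm h) ≠ 0)
    (hu₂ : ∀ h : L₀, (∀ i, D.T.rdN i h ≠ 0) → D.T'.p₂.rd (Nm h) ≠ 0)
    {z : Z}
    (hfib : ∀ h : L₀, (∀ P, D.T.ρ P = z → P.ord (algebraMap L₀ L h) = 0) →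
      ∀ Q, D.T'.ρ Q = z' → Q.ord (Nm h) = 0)
    {n : ℕ} (hcop : Nat.Coprime D.q n) {f : L₀'}
    (hf₁ : D.T'.p₁.rd (algebraMap L₀' L' f) ≠ 0) (hf₂ : D.T'.p₂.rd (algebraMap L₀' L' f) ≠ 0)
    {s' : L₀} (hs : D.IsGen n z (p f) s') :
    ∃ s : L₀', IsGenLow D n z' f s := by
  obtain ⟨t, ht⟩ := hmem s'
  -- Bezout
  have hb : (D.q : ℤ) * Nat.gcdA D.q n + (n : ℤ) * Nat.gcdB D.q n = 1 := by
    have := Nat.gcd_eq_gcd_ab D.q n
    rw [hcop.gcd_eq_one] at this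
    rw [← this]
    simp
  set u : ℤ := Nat.gcdA D.q n with hu
  set v : ℤ := Nat.gcdB D.q n with hv
  have hGf₁ : D.T'.p₁.IsGU (algebraMap L₀' L' f) := isGU_of_rd_ne_zero _ hf₁
  have hGf₂ : D.T'.p₂.IsGU (algebraMap L₀' L' f) := isGU_of_rd_ne_zero _ hf₂
  have hGt₁ : D.T'.p₁.IsGU (algebraMap L₀' L' t) := by
    have h := isGU_of_rd_ne_zero D.T'.p₁ (hu₁ s' hs.1)
    rwa [← ht] at h
  have hGt₂ : D.T'.p₂.IsGU (algebraMap L₀' L' t) := by
    have h := isGU_of_rd_ne_zero D.T'.p₂ (hu₂ s' hs.1)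
    rwa [← ht] at h
  have hf0' : algebraMap L₀' L' f ≠ 0 := hGf₁.ne_zero
  have ht0' : algebraMap L₀' L' t ≠ 0 := hGt₁.ne_zero
  have hf0 : f ≠ 0 := fun h => hf0' (by rw [h, map_zero])
  have ht0 : t ≠ 0 := fun h => ht0' (by rw [h, map_zero])
  refine ⟨t ^ u * f ^ (-v), ?_, ?_, ?_⟩
  · have e : algebraMap L₀' L' (t ^ u * f ^ (-v))
        = algebraMap L₀' L' t ^ u * algebraMap L₀' L' f ^ (-v) := by
      rw [map_mul, map_zpow₀, map_zpow₀]
    rw [e]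
    exact ((isGU_zpow_gl hGt₁ u).mul (isGU_zpow_gl hGf₁ (-v))).rd_ne_zero
  · have e : algebraMap L₀' L' (t ^ u * f ^ (-v))
        = algebraMap L₀' L' t ^ u * algebraMap L₀' L' f ^ (-v) := by
      rw [map_mul, map_zpow₀, map_zpow₀]
    rw [e]
    exact ((isGU_zpow_gl hGt₂ u).mul (isGU_zpow_gl hGf₂ (-v))).rd_ne_zero
  · intro Q hQ
    -- `f s ^ n = (f ^ q t ^ n) ^ u`
    have e1 : f * (t ^ u * f ^ (-v)) ^ n = (f ^ D.q * t ^ n) ^ u := by
      have h1 : (t ^ u * f ^ (-v)) ^ n = t ^ (u * n) * f ^ (-v * n) := by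
        rw [mul_pow, ← zpow_natCast (t ^ u) n, ← zpow_natCast (f ^ (-v)) n, ← zpow_mul,
          ← zpow_mul]
      have h2 : (f ^ D.q * t ^ n) ^ u = f ^ ((D.q : ℤ) * u) * t ^ ((n : ℤ) * u) := by
        rw [mul_zpow, ← zpow_natCast f D.q, ← zpow_natCast t n, ← zpow_mul, ← zpow_mul]
      rw [h1, h2]
      have h3 : f * (t ^ (u * n) * f ^ (-v * n)) = f ^ (1 + -v * (n : ℤ)) * t ^ (u * n) := by
        rw [zpow_add₀ hf0, zpow_one]
        ring
      rw [h3]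
      have h4 : (1 : ℤ) + -v * n = (D.q : ℤ) * u := by
        have := hb
        linarith
      rw [h4, mul_comm u (n : ℤ)]
    have e2 : algebraMap L₀' L' (f * (t ^ u * f ^ (-v)) ^ n) = Nm (p f * s' ^ n) ^ u := by
      rw [e1, map_zpow₀, map_mul, map_pow, map_pow, map_mul, map_pow, hN, ht]
    rw [e2, Place.ord_zpow, hfib _ hs.2 Q hQ, mul_zero]

/-- **GENLOW along `α`**. -/
theorem isGenLow_of_pullA {pα : L₀' →+* L₀}
    (hN : ∀ g : L₀', D.Nα (pα g) = algebraMap L₀' L' g ^ D.q)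
    (hmem : ∀ h : L₀, ∃ t : L₀', algebraMap L₀' L' t = D.Nα h)
    {n : ℕ} (hcop : Nat.Coprime D.q n) {z : Z} (hz : z ∈ D.SS) {f : L₀'}
    (hf₁ : D.T'.p₁.rd (algebraMap L₀' L' f) ≠ 0) (hf₂ : D.T'.p₂.rd (algebraMap L₀' L' f) ≠ 0)
    {s' : L₀} (hs : D.IsGen n z (pα f) s') :
    ∃ s : L₀', IsGenLow D n (D.zα z) f s := by
  refine isGenLow_of_norm (D := D) D.Nα pα (D.zα z) hN hmem (fun h hh => ?_) (fun h hh => ?_)
    (D.fibα z hz) hcop hf₁ hf₂ hs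
  · rw [D.normα₁ h hh]
    exact mul_ne_zero (D.A₂₀.N_ne_zero (hh _)) (pow_ne_zero _ (D.A₁₁.N_ne_zero (hh _)))
  · rw [D.normα₂ h hh]
    exact D.A₀₂.N_ne_zero (hh _)

/-- **GENLOW along `β`**. -/
theorem isGenLow_of_pullB {pβ : L₀' →+* L₀}
    (hN : ∀ g : L₀', D.Nβ (pβ g) = algebraMap L₀' L' g ^ D.q)
    (hmem : ∀ h : L₀, ∃ t : L₀', algebraMap L₀' L' t = D.Nβ h)
    {n : ℕ} (hcop : Nat.Coprime D.q n) {z : Z} (hz : z ∈ D.SS) {f : L₀'}
    (hf₁ : D.T'.p₁.rd (algebraMap L₀' L' f) ≠ 0) (hf₂ : D.T'.p₂.rd (algebraMap L₀' L' f) ≠ 0)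
    {s' : L₀} (hs : D.IsGen n z (pβ f) s') :
    ∃ s : L₀', IsGenLow D n (D.zβ z) f s := by
  refine isGenLow_of_norm (D := D) D.Nβ pβ (D.zβ z) hN hmem (fun h hh => ?_) (fun h hh => ?_)
    (D.fibβ z hz) hcop hf₁ hf₂ hs
  · rw [D.normβ₁ h hh]
    exact D.B₂₀.N_ne_zero (hh _)
  · rw [D.normβ₂ h hh]
    exact mul_ne_zero (pow_ne_zero _ (D.B₁₁.N_ne_zero (hh _))) (D.B₀₂.N_ne_zero (hh _))

end Fermat.Agent.S59.LL.SQ.H92
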