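import Fermat.Agent.S59.LL.SQ.H89_LowGlueMod
import Fermat.Agent.S59.LL.SQ.H86_PBGlueMod
import Fermat.Agent.S59.LL.SQ.H92_GenLow
attribute [local instance 10000] SubalgebraClass.toAlgebra
attribute [local instance 10000] HahnSeries.powerSeriesAlgebra

/-!
# S59 / LL / SQ, step (T'), wiring of GENLOW (helper89): `GenLowAt` from G2 + G5 (i) + G4

* `dvd_ord_map` : if all orders of `g` are divisible by `n`, so are those of `φ g`
  (`ord_w (φ g) = e_w · ord_{w | F} g`);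
* `genLowA_of_gen`, `genLowB_of_gen` (abstract on `NUData`): local generators at the triple
  points for the units of the higher level with divisor divisible by `n` (G2, GEN-MOD), the
  pull-back table (G4) and helper92's descent along the norm (G5 (i), with its two inputs `hN`,
  `hmem`) give local generators in `L₀'` at the nodes `zα z`, `zβ z`;
* `genLowAtA_mod`, `genLowAtB_mod` : the modular instances, `D = nuMod`, `pα = inclL0 ..`,
  `pβ = bL0 ..` (helper86's `pullTable_mod`): `H89LG.GenLowAt .. (zA ..) n`,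
  `H89LG.GenLowAt .. (zB ..) n`.
-/

set_option autoImplicit false
set_option synthInstance.maxHeartbeats 400000
set_option maxHeartbeats 1000000
set_option linter.style.haveILetI false
set_option linter.unusedSectionVars false

noncomputable section

open AlgebraicCurve

attribute [local instance] Classical.propDecidable

namespace Fermat.Agent.S59.LL.SQ.H89LG

open Fermat.Agent.RED.H17 Fermat.Agent.RED Fermat.Agent.BAD.H79 Fermat.Agent.BAD
  Fermat.Agent.S36.NU.H79 Fermat.Agent.S59.LL.SQ.H40 Fermat.Agent.S59.LL.SQ.H86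

/-! ## Orders of a pull-back -/

section Ord

variable {K F F' : Type*} [Field K] [Field F] [Field F'] [Algebra K F] [Algebra K F']

/-- If all orders of `g` are divisible by `n`, so are those of `φ g`. -/
theorem dvd_ord_map (φ : F →ₐ[K] F') (hint : φ.toRingHom.IsIntegral) {n : ℕ} {g : F}
    (h : ∀ Q : Place K F, (n : ℤ) ∣ Q.ord g) (P : Place K F') : (n : ℤ) ∣ P.ord (φ g) := by
  letI := algebraAlong φ
  haveI := isScalarTower_along φ
  haveI := isIntegral_along φ hint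
  have e : φ g = algebraMap F F' g := rfl
  rw [e, P.ord_restrict g]
  exact Dvd.dvd.mul_left (h _) _

end Ord

/-! ## The abstract wiring -/

section Abs

variable {K L₀ L k ι Z : Type*} {E : ι → Type*} {K' L' L₁ L₂ : Type*}
  [Field K] [Field L₀] [Field L] [Algebra K L] [Algebra L₀ L] [Field k] [Fintype ι]
  [∀ i, Field (E i)] [∀ i, Algebra k (E i)] [Field K'] [Field L'] [Algebra K' L']
  [Field L₁] [Algebra k L₁] [Field L₂] [Algebra k L₂]
  {L₀' : Type*} [Field L₀'] [Algebra L₀' L']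

variable (D : NUData K L₀ L k ι Z E K' L' L₁ L₂)

/-- **GENLOW along `α`** from GEN-MOD, the pull-back table and the descent along the norm. -/
theorem genLowA_of_gen {pα pβ : L₀' →+* L₀} (PT : PullTable D pα pβ)
    (hN : ∀ g : L₀', D.Nα (pα g) = algebraMap L₀' L' g ^ D.q)
    (hmem : ∀ h : L₀, ∃ t : L₀', algebraMap L₀' L' t = D.Nα h)
    {n : ℕ} (hcop : Nat.Coprime D.q n)
    (hgen : ∀ H : L₀, (∀ i, D.T.rdN i H ≠ 0) →
      (∀ P : Place K L, (n : ℤ) ∣ P.ord (algebraMap L₀ L H)) → ∀ z ∈ D.SS, ∃ s, D.IsGen n z H s)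
    (hdiv : ∀ g : L₀', (∀ Q : Place K' L', (n : ℤ) ∣ Q.ord (algebraMap L₀' L' g)) →
      ∀ P : Place K L, (n : ℤ) ∣ P.ord (algebraMap L₀ L (pα g)))
    (f : L₀') (hf₁ : D.T'.p₁.rd (algebraMap L₀' L' f) ≠ 0)
    (hf₂ : D.T'.p₂.rd (algebraMap L₀' L' f) ≠ 0)
    (hfd : ∀ Q : Place K' L', (n : ℤ) ∣ Q.ord (algebraMap L₀' L' f)) (z : Z) (hz : z ∈ D.SS) :
    ∃ s : L₀', IsGenLow D n (D.zα z) f s := by
  have hu : ∀ i, D.T.rdN i (pα f) ≠ 0 := by
    intro i
    rcases D.cases i with rfl | rfl | rfl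
    · rw [PT.α₂₀ f hf₁]
      exact (map_ne_zero D.A₂₀.j).2 hf₁
    · rw [PT.α₁₁ f hf₁]
      exact (map_ne_zero D.A₁₁.j).2 hf₁
    · rw [PT.α₀₂ f hf₂]
      exact (map_ne_zero D.A₀₂.j).2 hf₂
  obtain ⟨s', hs'⟩ := hgen (pα f) hu (hdiv f hfd) z hz
  exact Fermat.Agent.S59.LL.SQ.H92.isGenLow_of_pullA hN hmem hcop hz hf₁ hf₂ hs'

/-- **GENLOW along `β`** from GEN-MOD, the pull-back table and the descent along the norm. -/
theorem genLowB_of_gen {pα pβ : L₀' →+* L₀} (PT : PullTable D pα pβ)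
    (hN : ∀ g : L₀', D.Nβ (pβ g) = algebraMap L₀' L' g ^ D.q)
    (hmem : ∀ h : L₀, ∃ t : L₀', algebraMap L₀' L' t = D.Nβ h)
    {n : ℕ} (hcop : Nat.Coprime D.q n)
    (hgen : ∀ H : L₀, (∀ i, D.T.rdN i H ≠ 0) →
      (∀ P : Place K L, (n : ℤ) ∣ P.ord (algebraMap L₀ L H)) → ∀ z ∈ D.SS, ∃ s, D.IsGen n z H s)
    (hdiv : ∀ g : L₀', (∀ Q : Place K' L', (n : ℤ) ∣ Q.ord (algebraMap L₀' L' g)) →
      ∀ P : Place K L, (n : ℤ) ∣ P.ord (algebraMap L₀ L (pβ g)))
    (f : L₀') (hf₁ : D.T'.p₁.rd (algebraMap L₀' L' f) ≠ 0)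
    (hf₂ : D.T'.p₂.rd (algebraMap L₀' L' f) ≠ 0)
    (hfd : ∀ Q : Place K' L', (n : ℤ) ∣ Q.ord (algebraMap L₀' L' f)) (z : Z) (hz : z ∈ D.SS) :
    ∃ s : L₀', IsGenLow D n (D.zβ z) f s := by
  have hu : ∀ i, D.T.rdN i (pβ f) ≠ 0 := by
    intro i
    rcases D.cases i with rfl | rfl | rfl
    · rw [PT.β₂₀ f hf₁]
      exact (map_ne_zero D.B₂₀.j).2 hf₁
    · rw [PT.β₁₁ f hf₂]
      exact (map_ne_zero D.B₁₁.j).2 hf₂
    · rw [PT.β₀₂ f hf₂]
      exact (map_ne_zero D.B₀₂.j).2 hf₂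
  obtain ⟨s', hs'⟩ := hgen (pβ f) hu (hdiv f hfd) z hz
  exact Fermat.Agent.S59.LL.SQ.H92.isGenLow_of_pullB hN hmem hcop hz hf₁ hf₂ hs'

end Abs

/-! ## The modular instances -/

section Mod

open ModularCurve
open Fermat.Agent.S24 Fermat.Agent.BAD.H88 Fermat.Agent.S28 Fermat.Agent.S28.H73
open Fermat.Agent.RED.H73 Fermat.Agent.S36.NU.H88
open Fermat.Agent.Lib.HeckeComm Fermat.Agent.S36.NU.H23 Fermat.Agent.S36.NU.H74

variable (A : ValuationSubring Kbar) (q M : ℕ) (B k : ℤ) (hB : B * M + k * q = 1) (hq : q.Prime)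
  [NeZero M] [NeZero q] [NeZero (M * q)] [NeZero (M * q * q)]
  (hqM : ¬ q ∣ M) (hA : A.LiesOverPrime q) (ht : H91.TameAt M q)

/-- The divisor of `α^* g` is divisible by `n` if the divisor of `g` is. -/
theorem dvd_ord_inclL0 {n : ℕ} (g : ↥(L0 A (M * q)))
    (h : ∀ Q : Place Kbar (FN (M * q)),
      (n : ℤ) ∣ Q.ord (algebraMap ↥(L0 A (M * q)) (FN (M * q)) g))
    (P : Place Kbar (FN (M * q * q))) :
    (n : ℤ) ∣ P.ord (algebraMap ↥(L0 A (M * q * q)) (FN (M * q * q))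
      (inclL0 A (Fermat.Agent.S36.NU.H87.hleA q M) g)) := by
  have e : algebraMap ↥(L0 A (M * q * q)) (FN (M * q * q))
      (inclL0 A (Fermat.Agent.S36.NU.H87.hleA q M) g)
      = heckeAlphaBar Kbar (M * q) q (g : FN (M * q)) :=
    Fermat.Agent.S36.NU.H87.coe_inclL0_alphaA A q M g
  rw [e]
  exact dvd_ord_map (heckeAlphaBar Kbar (M * q) q)
    (Fermat.Agent.S36.H44.alpha_integral (M * q) q) h P

/-- The divisor of `β^* g` is divisible by `n` if the divisor of `g` is. -/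
theorem dvd_ord_bL0 {n : ℕ} (g : ↥(L0 A (M * q)))
    (h : ∀ Q : Place Kbar (FN (M * q)),
      (n : ℤ) ∣ Q.ord (algebraMap ↥(L0 A (M * q)) (FN (M * q)) g))
    (P : Place Kbar (FN (M * q * q))) :
    (n : ℤ) ∣ P.ord (algebraMap ↥(L0 A (M * q * q)) (FN (M * q * q))
      (Fermat.Agent.S36.NU.H69.bL0 A q M g)) := by
  have e : algebraMap ↥(L0 A (M * q * q)) (FN (M * q * q))
      (Fermat.Agent.S36.NU.H69.bL0 A q M g)
      = heckeBetaBar Kbar (M * q) q (g : FN (M * q)) :=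
    Fermat.Agent.S36.NU.H69.coe_bL0 A q M g
  rw [e]
  exact dvd_ord_map (heckeBetaBar Kbar (M * q) q)
    (Fermat.Agent.S36.H44.beta_integral (M * q) q) h P

/-- **`GenLowAt` along `α`**, modular form: from GEN-MOD (G2) at the exponent `n` and the two
inputs `hN`, `hmem` of helper92's GENLOW. -/
theorem genLowAtA_mod {n : ℕ} (hcop : Nat.Coprime q n)
    (hN : letI := algkM A M
      ∀ g : ↥(L0 A (M * q)),
        (nuMod A q M B k hB hq hqM hA ht).Nα (inclL0 A (Fermat.Agent.S36.NU.H87.hleA q M) g)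
          = algebraMap ↥(L0 A (M * q)) (FN (M * q)) g ^ (nuMod A q M B k hB hq hqM hA ht).q)
    (hmem : letI := algkM A M
      ∀ h : ↥(L0 A (M * q * q)), ∃ t : ↥(L0 A (M * q)),
        algebraMap ↥(L0 A (M * q)) (FN (M * q)) t = (nuMod A q M B k hB hq hqM hA ht).Nα h)
    (hgen : letI := algkM A M
      ∀ H : ↥(L0 A (M * q * q)), (∀ i, (nuMod A q M B k hB hq hqM hA ht).T.rdN i H ≠ 0) →
        (∀ P : Place Kbar (FN (M * q * q)),
          (n : ℤ) ∣ P.ord (algebraMap ↥(L0 A (M * q * q)) (FN (M * q * q)) H)) →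
        ∀ z ∈ (nuMod A q M B k hB hq hqM hA ht).SS,
          ∃ s, (nuMod A q M B k hB hq hqM hA ht).IsGen n z H s) :
    GenLowAt A q M B k hB hq hqM hA ht (zA A q M B k hB hq hA) n := by
  letI := algkM A M
  intro f hf₁ hf₂ hfd z hz
  exact genLowA_of_gen (nuMod A q M B k hB hq hqM hA ht)
    (pullTable_mod A q M B k hB hq hqM hA ht) hN hmem hcop hgen
    (fun g hg P => dvd_ord_inclL0 A q M g hg P) f hf₁ hf₂ hfd z hz

/-- **`GenLowAt` along `β`**, modular form. -/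
theorem genLowAtB_mod {n : ℕ} (hcop : Nat.Coprime q n)
    (hN : letI := algkM A M
      ∀ g : ↥(L0 A (M * q)),
        (nuMod A q M B k hB hq hqM hA ht).Nβ (Fermat.Agent.S36.NU.H69.bL0 A q M g)
          = algebraMap ↥(L0 A (M * q)) (FN (M * q)) g ^ (nuMod A q M B k hB hq hqM hA ht).q)
    (hmem : letI := algkM A M
      ∀ h : ↥(L0 A (M * q * q)), ∃ t : ↥(L0 A (M * q)),
        algebraMap ↥(L0 A (M * q)) (FN (M * q)) t = (nuMod A q M B k hB hq hqM hA ht).Nβ h)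
    (hgen : letI := algkM A M
      ∀ H : ↥(L0 A (M * q * q)), (∀ i, (nuMod A q M B k hB hq hqM hA ht).T.rdN i H ≠ 0) →
        (∀ P : Place Kbar (FN (M * q * q)),
          (n : ℤ) ∣ P.ord (algebraMap ↥(L0 A (M * q * q)) (FN (M * q * q)) H)) →
        ∀ z ∈ (nuMod A q M B k hB hq hqM hA ht).SS,
          ∃ s, (nuMod A q M B k hB hq hqM hA ht).IsGen n z H s) :
    GenLowAt A q M B k hB hq hqM hA ht (zB A q M B k hB hq hqM hA) n := by
  letI := algkM A M
  intro f hf₁ hf₂ hfd z hz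
  exact genLowB_of_gen (nuMod A q M B k hB hq hqM hA ht)
    (pullTable_mod A q M B k hB hq hqM hA ht) hN hmem hcop hgen
    (fun g hg P => dvd_ord_bL0 A q M g hg P) f hf₁ hf₂ hfd z hz

end Mod

end Fermat.Agent.S59.LL.SQ.H89LG
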