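/-
S59, package LL / SQ, step (T′), leaf G5 (i) GENLOW, modular instance (helper92).

Level `N = M q²`, `q ∤ M` tame, `A` over `q`; `D = H79.nuMod`, `pα = inclL0 A (hleA q M)` (`= α` on
the inertia-fixed functions), `pβ = bL0 A q M` (`= β`), as in helper86's `pullTable_mod`.

* `nalpha_pull`, `nbeta_pull` : `N_α (α g) = g ^ q`, `N_β (β g) = g ^ q` (degrees:
  `NEB.OLD.H6.finrankAlong_alpha_of_dvd`, `NEB.OLD.H6.stmt_DegBeta`);
* `nalpha_mem`, `nbeta_mem`   : the norms of inertia-fixed functions are inertia-fixed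
  (`S36.NU.H26.norm_mem_L0`);
* `isGenLow_alpha_mod`, `isGenLow_beta_mod` : **GENLOW for `nuMod`**: if `α f` (resp. `β f`) has a
  local generator at the triple point `z ∈ ssM`, then `f` has a local generator at the node
  `zA z` (resp. `zB z`) of the lower level.
-/
import Fermat.Agent.S59.LL.SQ.H92_GenLow
import Fermat.Agent.S59.LL.SQ.H86_PBGlueMod
import Fermat.Agent.NEB.OLD.H6_DegBeta
import Fermat.Agent.S36.NU.H26_DivNormL0
attribute [local instance 10000] SubalgebraClass.toAlgebra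
attribute [local instance 10000] HahnSeries.powerSeriesAlgebra

set_option autoImplicit false
set_option synthInstance.maxHeartbeats 400000
set_option maxHeartbeats 1000000
set_option linter.style.haveILetI false
set_option linter.unusedSectionVars false

noncomputable section

open ModularCurve AlgebraicCurve
open Fermat.Agent.S24 Fermat.Agent.BAD.H88 Fermat.Agent.S28 Fermat.Agent.S28.H73
open Fermat.Agent.RED.H73 Fermat.Agent.RED.H17 Fermat.Agent.S36.NU.H88
open Fermat.Agent.Lib.HeckeComm Fermat.Agent.S36.NU.H23 Fermat.Agent.S36.NU.H74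
open Fermat.Agent.S36.NU.H89 Fermat.Agent.S36.NU.H79

namespace Fermat.Agent.S59.LL.SQ.H92

open Fermat.Agent.BAD Fermat.Agent.RED Fermat.Agent.BAD.H79 Fermat.Agent.S59.LL.SQ.H86

section Mod

variable (A : ValuationSubring Kbar) (q M : ℕ) (B k : ℤ) (hB : B * M + k * q = 1) (hq : q.Prime)
  [NeZero M] [NeZero q] [NeZero (M * q)] [NeZero (M * q * q)]
  (hqM : ¬ q ∣ M) (hA : A.LiesOverPrime q) (ht : H91.TameAt M q)

include hq in
/-- `N_α (α g) = g ^ q`. -/
theorem nalpha_pull (g : ↥(L0 A (M * q))) :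
    NalphaM A q M (inclL0 A (Fermat.Agent.S36.NU.H87.hleA q M) g) = (g : FN (M * q)) ^ q := by
  rw [NalphaM_apply, Fermat.Agent.S36.NU.H87.coe_inclL0_alphaA A q M g]
  have h1 := Fermat.Agent.S36.NU.H10.normAlongHom_apply
    (heckeAlphaBar Kbar (M * q) q).toRingHom (g : FN (M * q))
  have h2 : (letI := (heckeAlphaBar Kbar (M * q) q).toRingHom.toAlgebra
      Module.finrank (FN (M * q)) (FN (M * q * q))) = q :=
    Fermat.Agent.NEB.OLD.H6.finrankAlong_alpha_of_dvd (M * q) q hq (dvd_mul_left q M)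
  rw [h2] at h1
  exact h1

include hq hqM in
/-- `N_β (β g) = g ^ q`. -/
theorem nbeta_pull (g : ↥(L0 A (M * q))) :
    NbetaM A q M (Fermat.Agent.S36.NU.H69.bL0 A q M g) = (g : FN (M * q)) ^ q := by
  rw [NbetaM_apply, Fermat.Agent.S36.NU.H69.coe_bL0]
  have h1 := Fermat.Agent.S36.NU.H10.normAlongHom_apply
    (heckeBetaBar Kbar (M * q) q).toRingHom (g : FN (M * q))
  have h2 : (letI := (heckeBetaBar Kbar (M * q) q).toRingHom.toAlgebra
      Module.finrank (FN (M * q)) (FN (M * q * q))) = q :=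
    Fermat.Agent.NEB.OLD.H6.stmt_DegBeta M q hq hqM
  rw [h2] at h1
  exact h1

/-- The norm along `α` of an inertia-fixed function is inertia-fixed. -/
theorem nalpha_mem (h : ↥(L0 A (M * q * q))) :
    ∃ t : ↥(L0 A (M * q)), (t : FN (M * q)) = NalphaM A q M h :=
  ⟨⟨_, Fermat.Agent.S36.NU.H26.norm_mem_L0 A (heckeAlphaBar Kbar (M * q) q)
    (Fermat.Agent.S36.NU.H26.arithEquivariant_alpha (M * q) q)
    (Fermat.Agent.S36.H44.alpha_finite (M * q) q) (h : FN (M * q * q)) h.2⟩, rfl⟩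

/-- The norm along `β` of an inertia-fixed function is inertia-fixed. -/
theorem nbeta_mem (h : ↥(L0 A (M * q * q))) :
    ∃ t : ↥(L0 A (M * q)), (t : FN (M * q)) = NbetaM A q M h :=
  ⟨⟨_, Fermat.Agent.S36.NU.H26.norm_mem_L0 A (heckeBetaBar Kbar (M * q) q)
    (Fermat.Agent.S36.NU.H26.arithEquivariant_beta (M * q) q)
    (Fermat.Agent.S36.H44.beta_finite (M * q) q) (h : FN (M * q * q)) h.2⟩, rfl⟩

/-- **GENLOW along `α` for the modular datum.** -/
theorem isGenLow_alpha_mod {n : ℕ} (hcop : Nat.Coprime q n) {z : Place (kV A) (FM A M)}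
    (hz : z ∈ ssM A q M) {f : ↥(L0 A (M * q))}
    (hf₁ : letI := algkM A M
      (nuMod A q M B k hB hq hqM hA ht).T'.p₁.rd
        (algebraMap ↥(L0 A (M * q)) (FN (M * q)) f) ≠ 0)
    (hf₂ : letI := algkM A M
      (nuMod A q M B k hB hq hqM hA ht).T'.p₂.rd
        (algebraMap ↥(L0 A (M * q)) (FN (M * q)) f) ≠ 0)
    {s' : ↥(L0 A (M * q * q))}
    (hs : letI := algkM A M
      (nuMod A q M B k hB hq hqM hA ht).IsGen n z
        (inclL0 A (Fermat.Agent.S36.NU.H87.hleA q M) f) s') :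
    letI := algkM A M
    ∃ s : ↥(L0 A (M * q)),
      IsGenLow (nuMod A q M B k hB hq hqM hA ht) n (zA A q M B k hB hq hA z) f s := by
  letI := algkM A M
  exact isGenLow_of_pullA (D := nuMod A q M B k hB hq hqM hA ht)
    (pα := inclL0 A (Fermat.Agent.S36.NU.H87.hleA q M))
    (fun g => nalpha_pull A q M hq g) (fun h => nalpha_mem A q M h) hcop hz hf₁ hf₂ hs

/-- **GENLOW along `β` for the modular datum.** -/
theorem isGenLow_beta_mod {n : ℕ} (hcop : Nat.Coprime q n) {z : Place (kV A) (FM A M)}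
    (hz : z ∈ ssM A q M) {f : ↥(L0 A (M * q))}
    (hf₁ : letI := algkM A M
      (nuMod A q M B k hB hq hqM hA ht).T'.p₁.rd
        (algebraMap ↥(L0 A (M * q)) (FN (M * q)) f) ≠ 0)
    (hf₂ : letI := algkM A M
      (nuMod A q M B k hB hq hqM hA ht).T'.p₂.rd
        (algebraMap ↥(L0 A (M * q)) (FN (M * q)) f) ≠ 0)
    {s' : ↥(L0 A (M * q * q))}
    (hs : letI := algkM A M
      (nuMod A q M B k hB hq hqM hA ht).IsGen n z (Fermat.Agent.S36.NU.H69.bL0 A q M f) s') :
    letI := algkM A M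
    ∃ s : ↥(L0 A (M * q)),
      IsGenLow (nuMod A q M B k hB hq hqM hA ht) n (zB A q M B k hB hq hqM hA z) f s := by
  letI := algkM A M
  exact isGenLow_of_pullB (D := nuMod A q M B k hB hq hqM hA ht)
    (pβ := Fermat.Agent.S36.NU.H69.bL0 A q M)
    (fun g => nbeta_pull A q M hq hqM g) (fun h => nbeta_mem A q M h) hcop hz hf₁ hf₂ hs

end Mod

end Fermat.Agent.S59.LL.SQ.H92
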