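import Fermat.Agent.S36.NU.H10_Top
import Fermat.Agent.S59.LL.SQ.H96_TI3Mod
attribute [local instance 10000] SubalgebraClass.toAlgebra
attribute [local instance 10000] HahnSeries.powerSeriesAlgebra

/-!
# S59, package LL / SQ, step (T), leaf TI3: the modular instance from `H10.TopInputs` (helper96)

`ti3Mod_top` : mirror of helper10's `H10.finMod_top`.  For a modular datum `D` (`H79.IsNuM`) and
the remaining modular inputs of NU-B (`H10.TopInputs`: `hjdd`, `hpt0`, `hptoo`, RADQ), the
modular form of TI3 holds for `D`: a unit `h` for the three valuations, fixed by inertia, with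
`n ∣ div h` (`n` prime to `q`) and trivial reduction data is a constant times an `n`-th power.
So SQ's TI3 arrives together with `Stmt_FinMod` of S36 (same inputs, no new geometry).
-/

set_option autoImplicit false
set_option synthInstance.maxHeartbeats 400000
set_option maxHeartbeats 1000000
set_option linter.style.haveILetI false
set_option linter.unusedSectionVars false

noncomputable section

open ModularCurve AlgebraicCurve IntermediateField

attribute [local instance] Classical.propDecidable

namespace Fermat.Agent.S59.LL.SQ.H96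

open Fermat.Agent.S24 Fermat.Agent.BAD Fermat.Agent.BAD.H88 Fermat.Agent.S28 Fermat.Agent.S28.H73
  Fermat.Agent.S36.NU.H23
  Fermat.Agent.S36.NU.H41 Fermat.Agent.S36.NU.H88 Fermat.Agent.S36.NU.H16
  Fermat.Agent.S36.NU.H17 Fermat.Agent.S36.NU.H24 Fermat.Agent.S36.NU.H79
  Fermat.Agent.S36.NU.H65 Fermat.Agent.S36.NU.H74 Fermat.Agent.S36.NU.H10
  Fermat.Agent.Lib.HeckeComm

section Top

variable (A : ValuationSubring Kbar) (q M : ℕ) (B k : ℤ) (hB : B * M + k * q = 1) (hq : q.Prime)
  [NeZero M] [NeZero q] [NeZero (M * q)] [NeZero (M * q * q)]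
  (hqM : ¬ q ∣ M) (hA : A.LiesOverPrime q) (ht : H91.TameAt M q)

attribute [local instance] algkM

/-- **TI3, the modular instance from the inputs of NU-B**: `Stmt_TI3Mod` for a modular datum
`D` from `H10.TopInputs`. -/
theorem ti3Mod_top (D : NUDataM A q M) (hD : IsNuM A q M B k hB hq hqM hA ht D)
    (hI : TopInputs A q M B k hB hq hqM hA ht D) : Stmt_TI3Mod A q M hq B k hB D := by
  haveI : IsAlgClosed (kV A) := Fermat.Agent.RED.H73.isAlgClosed_kV A
  have hT := hD.hT
  refine ti3Mod_of A q M hq B k hB hA D hD.hq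
    (chart0 A q M B k hB hq hqM hA ht) (chartInf A q M B k hB hq hqM hA ht)
    (by rw [hT]; exact compat_chart0 A q M B k hB hq hqM hA ht)
    (by rw [hT]; exact compat_chartInf A q M B k hB hq hqM hA ht)
    (Fermat.Agent.S36.NU.H74.hasPrincipalDivisors_FN (M * q * q)) rfl rfl
    (fun n hn hcop => chartHyp_chart0 A q M B k hB hq hqM hA ht n hn hcop hI.hjdd)
    (fun n hn hcop => chartHyp_chartInf A q M B k hB hq hqM hA ht n hn hcop hI.hjdd)
    hI.hpt0 hI.hptoo hI.hrad0 hI.hradoo
    (fun h h0 hU => by
      rw [hT]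
      exact Fermat.Agent.S36.NU.H15.hunit_totM A q M B k hB hq hqM hA ht h h0 hU)

/-- **TI3 at the level `M q²`, existential form**: if the remaining inputs of NU-B hold for
every modular datum, there is a modular datum `D` with TI3. -/
theorem exists_ti3Mod_top (hND : Stmt_NuM A q M B k hB hq hqM hA ht)
    (hI : ∀ D : NUDataM A q M, IsNuM A q M B k hB hq hqM hA ht D →
      TopInputs A q M B k hB hq hqM hA ht D) :
    ∃ D : NUDataM A q M, IsNuM A q M B k hB hq hqM hA ht D ∧
      Stmt_TI3Mod A q M hq B k hB D := by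
  obtain ⟨D, hD⟩ := hND
  exact ⟨D, hD, ti3Mod_top A q M B k hB hq hqM hA ht D hD (hI D hD)⟩

end Top

end Fermat.Agent.S59.LL.SQ.H96
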