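import Fermat.Agent.S59.LL.SQ.H69_StRankFAbs2
import Fermat.Agent.S43.CompEis.H60_Node
attribute [local instance 10000] SubalgebraClass.toAlgebra
attribute [local instance 10000] HahnSeries.powerSeriesAlgebra

/-!
# S59 / LL / SQ, leaf ST-RANK (f), REG (helper69)

Level `M q`, `A` a valuation ring of `ℚ̄` over `q`, `S` a semistable Deuring datum of
`F = F_{M q} · ℚ̄` whose first valuation ring is the Gauss valuation ring, on which the inertia
group acts inertially.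

* `slope_dvd` : for an inertia-fixed function `f` which is a unit for the two valuations with
  `n ∣ div f`, at a node `s` with an inertia-fixed annulus coordinate of thickness `q ^ e`:
  `n ∣ e · ord_{s.1} (rd₁ f)`  (`S43.CompEis.H60.slope_node` with slope `0`);
* `reg_of_coord` : **REG**: if `p ∤ e` at all nodes and `p ^ j ∣ div f`, then
  `p ^ j ∣ div (rd₁ f)` and `p ^ j ∣ div (rd₂ f)`;
* `weak_of_coord` : **REG12**: if `e ∣ 12` at all nodes, `p` odd and `p ^ j ∣ div f`, then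
  `p ^ (j - 1)` divides the orders of `rd₁ f` at the first branches of the nodes.

This file contains no unproved statement.
-/

set_option autoImplicit false
set_option synthInstance.maxHeartbeats 400000
set_option maxHeartbeats 1000000
set_option linter.style.haveILetI false
set_option linter.unusedSectionVars false

noncomputable section

open AlgebraicCurve ModularCurve

attribute [local instance] Classical.propDecidable

namespace Fermat.Agent.S59.LL.SQ.H69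

open Fermat.Agent.BAD Fermat.Agent.S44 Fermat.Agent.S28.H73 Fermat.Agent.RED.H73
open Fermat.Agent.S43.BadQ Fermat.Agent.RED.H17 Fermat.Agent.RED
open Fermat.Agent.S43.CompEis.H60

section Reg

variable {A : ValuationSubring (AlgebraicClosure ℚ)}
variable {q M : ℕ} [NeZero (M * q)]
variable {k F₁ F₂ : Type*} [Field k] [Field F₁] [Algebra k F₁] [Field F₂] [Algebra k F₂]
variable (S : SSD (AlgebraicClosure ℚ) ↥(FNbar (M * q)) k F₁ F₂)

/-- **The slope formula with slope `0`.** -/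
theorem slope_dvd (hq' : q.Prime) (hA : A.LiesOverPrime q)
    (hV₁ : ∀ f : ↥(FNbar (M * q)), f ∈ S.c₁.V ↔ f ∈ gaussV A (M * q))
    (hin : ∀ σ ∈ A.inertiaSubgroupIn ℚ, S.IsInertial (galF (M * q) σ))
    {s : Place k F₁ × Place k F₂} (hs : s ∈ S.nodes) {e : ℕ} {t : ↥(FNbar (M * q))}
    (ht : S.IsAnnCoord s t ((q : AlgebraicClosure ℚ) ^ e))
    (htfix : ∀ σ ∈ A.inertiaSubgroupIn ℚ, galF (M * q) σ • t = t)
    (n : ℕ) {f : ↥(FNbar (M * q))}
    (hfix : ∀ σ ∈ A.inertiaSubgroupIn ℚ, galF (M * q) σ • f = f)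
    (G₁ : S.c₁.IsGU f) (G₂ : S.c₂.IsGU f)
    (hdiv : ∀ P : Place (AlgebraicClosure ℚ) ↥(FNbar (M * q)), (n : ℤ) ∣ P.ord f) :
    (n : ℤ) ∣ (e : ℤ) * s.1.ord (S.c₁.rd f) := by
  have hP := hP_FN (M * q)
  have G₁' : S.c₁.IsGU (algebraMap (AlgebraicClosure ℚ) ↥(FNbar (M * q)) 1 * f) := by
    rw [map_one, one_mul]
    exact G₁
  have G₂' : S.c₂.IsGU (algebraMap (AlgebraicClosure ℚ) ↥(FNbar (M * q)) 1 * f) := by
    rw [map_one, one_mul]
    exact G₂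
  obtain ⟨k', hk'⟩ := slope_node S hq' hA hP (hdeg_FN (M * q)) hV₁ hin hs ht htfix
    hfix G₁' G₂' n (fun P => P.ord f / (n : ℤ))
    (fun P _ => (Int.mul_ediv_cancel' (hdiv P)).symm)
  rw [map_one, one_mul, map_one, one_mul] at hk'
  have hq0 := valuation_q_ne_zero (A := A) hq'
  have h4 : (0 : ℤ) = (e : ℤ) * s.1.ord (S.c₁.rd f) + (n : ℤ) * k' := by
    apply zpow_right_injective₀ (zero_lt_iff.mpr hq0) (valuation_q_lt_one hA).ne
    show A.valuation (q : AlgebraicClosure ℚ) ^ (0 : ℤ) = _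
    rw [zpow_zero]
    exact hk'
  have : (e : ℤ) * s.1.ord (S.c₁.rd f) = -((n : ℤ) * k') := by linarith
  rw [this]
  exact (dvd_neg).mpr (dvd_mul_right _ _)

/-- **REG** at a level with inertia-fixed annulus coordinates of thickness prime to `p`. -/
theorem reg_of_coord (hq' : q.Prime) (hA : A.LiesOverPrime q)
    (hV₁ : ∀ f : ↥(FNbar (M * q)), f ∈ S.c₁.V ↔ f ∈ gaussV A (M * q))
    (hin : ∀ σ ∈ A.inertiaSubgroupIn ℚ, S.IsInertial (galF (M * q) σ))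
    (p : ℕ) (hp : p.Prime)
    (hcoord : ∀ s ∈ S.nodes, ∃ (e : ℕ) (t : ↥(FNbar (M * q))), ¬ p ∣ e ∧
      S.IsAnnCoord s t ((q : AlgebraicClosure ℚ) ^ e) ∧
      ∀ σ ∈ A.inertiaSubgroupIn ℚ, galF (M * q) σ • t = t)
    (j : ℕ) {f : ↥(FNbar (M * q))}
    (hfix : ∀ σ ∈ A.inertiaSubgroupIn ℚ, galF (M * q) σ • f = f)
    (G₁ : S.c₁.IsGU f) (G₂ : S.c₂.IsGU f)
    (hdiv : ∀ P : Place (AlgebraicClosure ℚ) ↥(FNbar (M * q)), ((p ^ j : ℕ) : ℤ) ∣ P.ord f) :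
    (∀ Q : Place k F₁, ((p ^ j : ℕ) : ℤ) ∣ Q.ord (S.c₁.rd f)) ∧
      (∀ Q : Place k F₂, ((p ^ j : ℕ) : ℤ) ∣ Q.ord (S.c₂.rd f)) := by
  refine reg_of_nodes S (hP_FN (M * q)) (p ^ j) G₁ G₂ hdiv (fun s hs => ?_)
  obtain ⟨e, t, hpe, ht, htfix⟩ := hcoord s hs
  have h5 := slope_dvd S hq' hA hV₁ hin hs ht htfix (p ^ j) hfix G₁ G₂ hdiv
  have hcop : IsCoprime (((p ^ j : ℕ) : ℤ)) (e : ℤ) := by
    rw [Nat.isCoprime_iff_coprime]
    exact Nat.Coprime.pow_left j ((Nat.Prime.coprime_iff_not_dvd hp).mpr hpe)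
  exact hcop.dvd_of_dvd_mul_left h5

/-- **REG12**: at a level with inertia-fixed annulus coordinates of thickness `q ^ e`, `e ∣ 12`,
for `p` odd. -/
theorem weak_of_coord (hq' : q.Prime) (hA : A.LiesOverPrime q)
    (hV₁ : ∀ f : ↥(FNbar (M * q)), f ∈ S.c₁.V ↔ f ∈ gaussV A (M * q))
    (hin : ∀ σ ∈ A.inertiaSubgroupIn ℚ, S.IsInertial (galF (M * q) σ))
    (p : ℕ) (hp : p.Prime) (hp2 : p ≠ 2)
    (hcoord : ∀ s ∈ S.nodes, ∃ (e : ℕ) (t : ↥(FNbar (M * q))), 0 < e ∧ e ∣ 12 ∧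
      S.IsAnnCoord s t ((q : AlgebraicClosure ℚ) ^ e) ∧
      ∀ σ ∈ A.inertiaSubgroupIn ℚ, galF (M * q) σ • t = t)
    (j : ℕ) {f : ↥(FNbar (M * q))}
    (hfix : ∀ σ ∈ A.inertiaSubgroupIn ℚ, galF (M * q) σ • f = f)
    (G₁ : S.c₁.IsGU f) (G₂ : S.c₂.IsGU f)
    (hdiv : ∀ P : Place (AlgebraicClosure ℚ) ↥(FNbar (M * q)), ((p ^ j : ℕ) : ℤ) ∣ P.ord f) :
    ∀ s ∈ S.nodes, ((p ^ (j - 1) : ℕ) : ℤ) ∣ s.1.ord (S.c₁.rd f) := by
  intro s hs
  obtain ⟨e, t, he0, he12, ht, htfix⟩ := hcoord s hs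
  have h5 := slope_dvd S hq' hA hV₁ hin hs ht htfix (p ^ j) hfix G₁ G₂ hdiv
  -- `p ^ j ∣ 12 · ord`
  have h12 : ((p ^ j : ℕ) : ℤ) ∣ 12 * s.1.ord (S.c₁.rd f) := by
    obtain ⟨d, hd⟩ := he12
    have : (12 : ℤ) * s.1.ord (S.c₁.rd f) = (d : ℤ) * ((e : ℤ) * s.1.ord (S.c₁.rd f)) := by
      have h12' : (12 : ℤ) = (e : ℤ) * (d : ℤ) := by exact_mod_cast hd
      rw [h12']
      ring
    rw [this]
    exact Dvd.dvd.mul_left h5 _
  rcases Nat.eq_zero_or_pos j with h0 | hpos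
  · subst h0
    simp
  -- `p ^ j = p ^ (j - 1) · p`, and `p ^ (j - 1)` is prime to `4`, `p ∣ 3 · …`
  have e1 : ((p ^ j : ℕ) : ℤ) = ((p ^ (j - 1) : ℕ) : ℤ) * (p : ℤ) := by
    rw [← Nat.cast_mul, ← pow_succ]
    congr 2
    omega
  have h3 : ((p ^ (j - 1) : ℕ) : ℤ) ∣ 12 * s.1.ord (S.c₁.rd f) :=
    Dvd.dvd.trans ⟨(p : ℤ), e1⟩ h12
  by_cases hp3 : p = 3
  · -- `3 ^ j ∣ 12 a` gives `3 ^ (j - 1) ∣ 4 a`, and `3 ^ (j - 1)` is prime to `4`
    subst hp3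
    have h4 : (3 : ℤ) * ((3 ^ (j - 1) : ℕ) : ℤ) ∣ 3 * (4 * s.1.ord (S.c₁.rd f)) := by
      have e2 : (3 : ℤ) * ((3 ^ (j - 1) : ℕ) : ℤ) = ((3 ^ j : ℕ) : ℤ) := by
        rw [e1]
        push_cast
        ring
      have e3 : (3 : ℤ) * (4 * s.1.ord (S.c₁.rd f)) = 12 * s.1.ord (S.c₁.rd f) := by ring
      rw [e2, e3]
      exact h12
    have h5' : ((3 ^ (j - 1) : ℕ) : ℤ) ∣ 4 * s.1.ord (S.c₁.rd f) :=
      (mul_dvd_mul_iff_left (by norm_num : (3 : ℤ) ≠ 0)).mp h4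
    have hcop : IsCoprime (((3 ^ (j - 1) : ℕ) : ℤ)) ((4 : ℕ) : ℤ) := by
      rw [Nat.isCoprime_iff_coprime]
      exact Nat.Coprime.pow_left _ (by norm_num)
    exact hcop.dvd_of_dvd_mul_left (by exact_mod_cast h5')
  · have hcop : IsCoprime (((p ^ (j - 1) : ℕ) : ℤ)) ((12 : ℕ) : ℤ) := by
      rw [Nat.isCoprime_iff_coprime]
      apply Nat.Coprime.pow_left
      rw [Nat.Prime.coprime_iff_not_dvd hp]
      intro hd
      have hle : p ≤ 12 := Nat.le_of_dvd (by norm_num) hd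
      interval_cases p <;> simp_all (config := { decide := true })
    exact hcop.dvd_of_dvd_mul_left (by exact_mod_cast h3)

end Reg

end Fermat.Agent.S59.LL.SQ.H69
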