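import Fermat.Agent.S59.LL.SQ.H38_T3Up
import Fermat.Agent.S59.LL.SQ.H50_SpanUp
import Fermat.Agent.S59.LL.SQ.H35_RegBridge
import Fermat.Agent.S59.LL.SQ.H35_OldRedSq
import Fermat.Agent.S59.LL.SQ.H33_CompEisFinal
import Fermat.Agent.S59.LL.H40_LLec0
import Fermat.Agent.RED.HR.H78_HRMain

/-!
# S59 / LL / SQ, UP-WIRE (helper77): `SqNewTwoAt p` for `p ≥ 5` from the TAME leaves

Level `M q²`, `q ∤ M`, `A` a valuation ring of `ℚ̄` over `q`.  The geometric leaves **(R)** REG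
(`H35.Reg11At`) and **(T′)** TOR-SPAN (`SQ.TorSpanSqAt`) are proved at the TAME levels only
(`q = 2`: `9 ∣ M`).  For `p ≥ 5` they descend from the level `M ℓ`, `ℓ = 3`, to the level `M`:

* `reg11_of_reg11At` : `Reg11At` gives helper94's `Reg11` at a level given up to equality
  (unit predicate `UnitG` = `IsUnit3` for the function of level `M' q²` with the same series);
* `reg11At_up`       : **REG** at `M ℓ` gives **REG** at `M` (`ℓ` prime, `ℓ + 1 < p`;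
  `H94.reg11_up_of_lt`, `H38.isUnit3_up`);
* `torSpanSqAt_up`   : **(T′)** at `M ℓ` gives **(T′)** at `M` (`ℓ ∣ 36`, `p ∤ [F_{Mℓq²} : F_{Mq²}]`;
  `H38.t3_up`, `H50.torSpan_descend`);
* `upLeaves_step3`   : the two leaves at `M · 3` give the two leaves at `M` (`p ≥ 5`, `q ≠ 3`);
* `upLeaves_all`     : the two leaves at all `M` with `9 ∣ M` give them at all `M`;
* `hasSqNewPartAt_of_up`, `sqNewTwoAt_of_up` : **`LL.H40.SqNewTwoAt p`**, `p ≥ 5`, from the tame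
  leaves `RegTameTwo p`, `TorSpanTameTwo p` and `CPowTwo p` (B2, all levels).

Complete (no gaps).
-/

set_option autoImplicit false
set_option synthInstance.maxHeartbeats 400000
set_option maxHeartbeats 1000000
set_option linter.unusedSectionVars false
set_option linter.unusedVariables false
set_option linter.style.haveILetI false

noncomputable section

open ModularCurve AlgebraicCurve
open Fermat.Agent.S24 Fermat.Agent.S28 Fermat.Agent.S28.H73 Fermat.Agent.RED.H73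
open Fermat.Agent.RED Fermat.Agent.S36.NU.H23 Fermat.Agent.S36.NU.H88 Fermat.Agent.S44
open Fermat.Agent.S35.H89 Fermat.Agent.BAD.H88 Fermat.Agent.Lib.HeckeComm

namespace Fermat.Agent.S59.LL.SQ.H77

open Fermat.Agent.S59.LL.SQ.H35

/-! ## REG: from `Reg11At` to `Reg11` at a level given up to equality -/

section Cast

variable (A : ValuationSubring Kbar) (N q M' : ℕ) (B' k' : ℤ) (hN : N = M' * (q * q))
  (hB' : B' * M' + k' * q = 1) (hq : q.Prime) [NeZero N] [NeZero q] [NeZero M']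
  [NeZero (M' * q)] [NeZero (M' * q * q)]
  (hqM' : ¬ q ∣ M') (hA : A.LiesOverPrime q) (hN2 : N = M' * q * q)

/-- **The unit predicate at a level given up to equality**: the function of level `M' q²` with
the same `q`-expansion is a unit for the three valuations. -/
def UnitG (h : ↥(L0 A N)) : Prop :=
  ∀ h' : ↥(L0 A (M' * q * q)),
    ((h' : FN (M' * q * q)) : LaurentSeries Kbar) = ((h : FN N) : LaurentSeries Kbar) →
    SQ.IsUnit3 A q M' B' k' hB' hq h'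

omit [NeZero N] [NeZero (M' * q)] in
/-- A unit for the three valuations is not zero. -/
theorem ne_zero_of_isUnit3 (h : ↥(L0 A (M' * q * q)))
    (hU : SQ.IsUnit3 A q M' B' k' hB' hq h) : (h : FN (M' * q * q)) ≠ 0 := by
  intro h0
  obtain ⟨h20, e⟩ := hU.1
  have hh : h = 0 := Subtype.ext h0
  subst hh
  exact e (map_zero _)

/-- **`Reg11At` gives `Reg11`** (helper94's shape), at a level given up to equality. -/
theorem reg11_of_reg11At (p : ℕ) (hp : p.Prime)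
    (H : Reg11At A q M' B' k' hB' hq hqM' hA p) :
    H94.Reg11 A N q M' B' k' hN hB' hq hqM' hA hN2 p (UnitG A N q M' B' k' hB' hq) := by
  subst hN2
  intro h hord hU h11 Q
  have hU3 : SQ.IsUnit3 A q M' B' k' hB' hq h := hU h rfl
  have hh0 := ne_zero_of_isUnit3 A q M' B' k' hB' hq h hU3
  obtain ⟨Dh, hDh, -⟩ :=
    (Fermat.Agent.S59.LL.SQ.H40.hasPD_FN (M' * q * q)).exists_divisor (h : FN (M' * q * q)) hh0
  obtain ⟨D, hD⟩ := Fermat.Agent.S43.Old.exists_divisor_div p hp.ne_zero Dh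
    (fun P => by rw [hDh P]; exact hord P)
  exact H h D (fun P => by rw [hD P, hDh P]) hU3 h11 Q

end Cast

/-! ## REG-UP for `Reg11At` -/

section RegUp

variable (A : ValuationSubring Kbar) (q M ℓ : ℕ) (B k B' k' : ℤ) (hB : B * M + k * q = 1)
  (hB' : B' * ((M * ℓ : ℕ) : ℤ) + k' * q = 1) (hq : q.Prime)
  [NeZero M] [NeZero q] [NeZero ℓ] [NeZero (M * ℓ)] [NeZero (M * q)] [NeZero (M * ℓ * q)]
  [NeZero (M * q * q)] [NeZero (M * ℓ * q * q)] [NeZero (M * q * q * ℓ)]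
  (hqM : ¬ q ∣ M) (hqMℓ : ¬ q ∣ M * ℓ) (hA : A.LiesOverPrime q)

include hA in
/-- The unit predicate passes to the level `M ℓ` along `α`. -/
theorem unitG_alpha (hℓq : Nat.Coprime ℓ q) (h : ↥(L0 A (M * q * q)))
    (hU : SQ.IsUnit3 A q M B k hB hq h) :
    UnitG A (M * q * q * ℓ) q (M * ℓ) B' k' hB' hq (H94.alphaL0 A q M ℓ h) := by
  intro h' hh'
  have hup := H38.isUnit3_up A q M ℓ B k B' k' hB hB' hq hA hℓq h hU
  have e : h' = H38.upL0 A M q (M * ℓ) (dvd_mul_right M ℓ) h := by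
    apply Subtype.ext
    apply Subtype.ext
    rw [hh', H38.coe_upL0_series]
    show ((heckeAlphaBar Kbar (M * q * q) ℓ (h : FN (M * q * q)) : FN (M * q * q * ℓ)) :
      LaurentSeries Kbar) = _
    rw [coe_heckeAlphaBar]
  rw [e]
  exact hup

/-- **REG-UP**: `Reg11At` at the level `M ℓ` gives `Reg11At` at the level `M`
(`ℓ ≠ q` prime, `ℓ + 1 < p`). -/
theorem reg11At_up (hℓ : ℓ.Prime) (hℓq : ℓ ≠ q) (p : ℕ) (hp : p.Prime) (hlt : ℓ + 1 < p)
    (H : Reg11At A q (M * ℓ) B' k' hB' hq hqMℓ hA p) :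
    Reg11At A q M B k hB hq hqM hA p := by
  have hcop : Nat.Coprime ℓ q := (Nat.coprime_primes hℓ hq).mpr hℓq
  refine reg11At_of_reg11 A q M B k hB hq hqM hA p ?_
  refine H94.reg11_up_of_lt A q M ℓ B k B' k' hB hB' hq hqM hqMℓ hA hℓ hℓq p hp hlt
    (fun h => SQ.IsUnit3 A q M B k hB hq h) (UnitG A (M * q * q * ℓ) q (M * ℓ) B' k' hB' hq)
    (fun h hU => unitG_alpha A q M ℓ B k B' k' hB hB' hq hA hcop h hU) ?_
  exact reg11_of_reg11At A (M * q * q * ℓ) q (M * ℓ) B' k' (lvlUp q M ℓ) hB' hq hqMℓ hA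
    (H94.lvlUp2 q M ℓ) p hp H

end RegUp

/-! ## TOR-SPAN-UP -/

section TorUp

variable (A : ValuationSubring Kbar) (q M ℓ : ℕ) (B k B' k' : ℤ) (hB : B * M + k * q = 1)
  (hB' : B' * ((M * ℓ : ℕ) : ℤ) + k' * q = 1) (hq : q.Prime)
  [NeZero M] [NeZero q] [NeZero ℓ] [NeZero (M * ℓ)] [NeZero (M * q)] [NeZero (M * ℓ * q)]
  [NeZero (M * q * q)] [NeZero (M * ℓ * q * q)]

/-- **TOR-SPAN-UP**: `TorSpanSqAt` at the level `M ℓ` gives `TorSpanSqAt` at the level `M`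
(`ℓ ∣ 36` prime to `q`, `p ∤ [F_{M ℓ q²} : F_{M q²}]`). -/
theorem torSpanSqAt_up (hA : A.LiesOverPrime q) (hℓ : ℓ ∣ 36) (hqℓ : ¬ q ∣ ℓ) (p : ℕ)
    (hp : p.Prime) (hpd : ¬ p ∣ H50.degSq M q (M * ℓ) (dvd_mul_right M ℓ))
    (H : SQ.TorSpanSqAt A q (M * ℓ) B' k' hB' hq p) :
    SQ.TorSpanSqAt A q M B k hB hq p := by
  intro x hx0 hxp hnew hI hT3
  obtain ⟨h1, h2, h3, h4, h5⟩ :=
    H38.t3_up A q M ℓ B k B' k' hB hB' hq hA hℓ hqℓ p hp.pos x hx0 hxp hnew hI hT3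
  have h6 := H (H38.upPull M q (M * ℓ) (dvd_mul_right M ℓ) x) h1 h2 h3 h4 h5
  exact H50.torSpan_descend M q (M * ℓ) hq (dvd_mul_right M ℓ) rfl hqℓ p hp hpd x hxp h6

end TorUp

/-! ## The two leaves, at all Bezout data -/

/-- **The leaves (R) REG and (T′) TOR-SPAN at the level `M q²`**, for all Bezout data and all
valuation rings over `q`. -/
def UpLeaves (p q M : ℕ) : Prop :=
  ∀ (B k : ℤ) (hB : B * M + k * q = 1) (hq : q.Prime)
    [NeZero M] [NeZero q] [NeZero (M * q)] [NeZero (M * q * q)] (hqM : ¬ q ∣ M)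
    (A : ValuationSubring Kbar) (hA : A.LiesOverPrime q),
    Reg11At A q M B k hB hq hqM hA p ∧ SQ.TorSpanSqAt A q M B k hB hq p

/-- `p ≥ 5` prime does not divide `[F_{M·3·q²} : F_{M q²}] ∈ {3, 4}`. -/
theorem not_dvd_degSq_three (p : ℕ) (h5 : 5 ≤ p) (q M : ℕ) (hq : q.Prime) (hq3 : q ≠ 3)
    [NeZero M] [NeZero q] [NeZero (M * 3)] [NeZero (M * q)] [NeZero (M * 3 * q)] :
    ¬ p ∣ H50.degSq M q (M * 3) (dvd_mul_right M 3) := by
  intro hdvd
  by_cases h3 : 3 ∣ M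
  · rw [H50.degSq_of_dvd M q (M * 3) (dvd_mul_right M 3) Nat.prime_three rfl h3] at hdvd
    have := Nat.le_of_dvd (by norm_num) hdvd
    omega
  · rw [H50.degSq_of_not_dvd M q (M * 3) (dvd_mul_right M 3) Nat.prime_three rfl h3
      (fun h => hq3 h.symm) hq] at hdvd
    have := Nat.le_of_dvd (by norm_num) hdvd
    omega

/-- **The step `M · 3 → M`** for the two leaves (`p ≥ 5`, `q ≠ 3`). -/
theorem upLeaves_step3 (p : ℕ) (hp : p.Prime) (h5 : 5 ≤ p) (q M : ℕ) (hq3 : q ≠ 3)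
    (H : UpLeaves p q (M * 3)) : UpLeaves p q M := by
  intro B k hB hq _ _ _ _ hqM A hA
  have hM0 : M ≠ 0 := NeZero.ne M
  have hq0 : q ≠ 0 := hq.ne_zero
  haveI : NeZero (M * 3) := ⟨mul_ne_zero hM0 (by norm_num)⟩
  haveI : NeZero (M * 3 * q) := ⟨mul_ne_zero (mul_ne_zero hM0 (by norm_num)) hq0⟩
  haveI : NeZero (M * 3 * q * q) :=
    ⟨mul_ne_zero (mul_ne_zero (mul_ne_zero hM0 (by norm_num)) hq0) hq0⟩
  haveI : NeZero (M * q * q * 3) :=
    ⟨mul_ne_zero (mul_ne_zero (mul_ne_zero hM0 hq0) hq0) (by norm_num)⟩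
  have hq3' : ¬ q ∣ 3 := fun h => hq3 ((Nat.prime_dvd_prime_iff_eq hq Nat.prime_three).1 h)
  have hqM3 : ¬ q ∣ M * 3 := by
    intro h
    rcases (Nat.Prime.dvd_mul hq).1 h with h | h
    · exact hqM h
    · exact hq3' h
  have hcop : IsCoprime (((M * 3 : ℕ) : ℤ)) (q : ℤ) :=
    Nat.isCoprime_iff_coprime.2 ((Nat.Prime.coprime_iff_not_dvd hq).2 hqM3).symm
  obtain ⟨B', k', hB'⟩ := hcop
  obtain ⟨hR, hT⟩ := H B' k' hB' hq hqM3 A hA
  refine ⟨?_, ?_⟩
  · exact reg11At_up A q M 3 B k B' k' hB hB' hq hqM hqM3 hA Nat.prime_three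
      (fun h => hq3 h.symm) p hp (by omega) hR
  · exact torSpanSqAt_up A q M 3 B k B' k' hB hB' hq hA (by norm_num) hq3' p hp
      (not_dvd_degSq_three p h5 q M hq hq3) hT

/-- **All levels from the tame levels** (`9 ∣ M`), for `p ≥ 5` and `q ≠ 3`. -/
theorem upLeaves_all (p : ℕ) (hp : p.Prime) (h5 : 5 ≤ p) (q : ℕ) (hq3 : q ≠ 3)
    (H : ∀ M : ℕ, 9 ∣ M → UpLeaves p q M) (M : ℕ) : UpLeaves p q M := by
  refine upLeaves_step3 p hp h5 q M hq3 (upLeaves_step3 p hp h5 q (M * 3) hq3 (H _ ?_))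
  exact ⟨M, by ring⟩

/-! ## The tame leaves at `q = 2` and the wiring -/

/-- **(R) REG at the tame levels of `q = 2`** (`9 ∣ M`). -/
def RegTameTwo (p : ℕ) : Prop :=
  ∀ (q M : ℕ) (B k : ℤ) (hB : B * M + k * q = 1) (hq : q.Prime)
    [NeZero M] [NeZero q] [NeZero (M * q)] [NeZero (M * q * q)] (hqM : ¬ q ∣ M)
    (A : ValuationSubring Kbar) (hA : A.LiesOverPrime q), q = 2 → 9 ∣ M →
    Reg11At A q M B k hB hq hqM hA p

/-- **(T′) TOR-SPAN at the tame levels of `q = 2`** (`9 ∣ M`). -/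
def TorSpanTameTwo (p : ℕ) : Prop :=
  ∀ (q M : ℕ) (B k : ℤ) (hB : B * M + k * q = 1) (hq : q.Prime)
    [NeZero M] [NeZero q] [NeZero (M * q)] [NeZero (M * q * q)] (hqM : ¬ q ∣ M)
    (A : ValuationSubring Kbar) (hA : A.LiesOverPrime q), q = 2 → 9 ∣ M →
    SQ.TorSpanSqAt A q M B k hB hq p

/-- **B2 for the components `20` and `02` at `q = 2`**, all levels. -/
def CPowTwo (p : ℕ) : Prop :=
  ∀ (q M : ℕ) (B k : ℤ) (hB : B * M + k * q = 1) (hq : q.Prime)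
    [NeZero M] [NeZero q] [NeZero (M * q)] [NeZero (M * q * q)] (hqM : ¬ q ∣ M)
    (A : ValuationSubring Kbar) (hA : A.LiesOverPrime q), q = 2 →
    CPow2002At A q M B k hB hq p

/-- The two leaves at `q = 2`, all levels, from the tame levels (`p ≥ 5`). -/
theorem upLeaves_two (p : ℕ) (hp : p.Prime) (h5 : 5 ≤ p) (hregT : RegTameTwo p)
    (hTT : TorSpanTameTwo p) (M : ℕ) : UpLeaves p 2 M := by
  refine upLeaves_all p hp h5 2 (by norm_num) (fun M₂ h9 => ?_) M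
  intro B k hB hq _ _ _ _ hqM A hA
  exact ⟨hregT 2 M₂ B k hB hq hqM A hA rfl h9, hTT 2 M₂ B k hB hq hqM A hA rfl h9⟩

/-- **"BAD at `q²`" at one level `M' · 2 · 2`**, `M'` odd, `p ≥ 5`, from the tame leaves. -/
theorem hasSqNewPartAt_of_up (p : ℕ) (hp : p.Prime) (h5 : 5 ≤ p) (hregT : RegTameTwo p)
    (hcp : CPowTwo p) (hTT : TorSpanTameTwo p)
    (M' : ℕ) (B k : ℤ) (hB : B * M' + k * (2 : ℕ) = 1)
    [NeZero M'] [NeZero (M' * 2)] [NeZero (M' * 2 * 2)] (hqM' : ¬ 2 ∣ M')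
    (A : ValuationSubring Kbar) (hA : A.LiesOverPrime 2) :
    H40.HasSqNewPartAt p (M' * 2) 2 A := by
  have hp2 : p ≠ 2 := by omega
  have hqp : (2 : ℕ) ≠ p := fun h => hp2 h.symm
  obtain ⟨hR, hT⟩ := upLeaves_two p hp h5 hregT hTT M' B k hB Nat.prime_two hqM' A hA
  exact SQ.hasSqNewPartAt_of Fermat.Agent.RED.H78.stmt_HRcore p hp 2 M' B k hB Nat.prime_two
    hqM' A hA
    (H33.stmt_CompEisSq p hp hp2 2 M' B k hB Nat.prime_two hqp hqM' A hA)
    (oldRedSqAt_of A 2 M' B k hB Nat.prime_two hqM' hA p hp hR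
      (hcp 2 M' B k hB Nat.prime_two hqM' A hA rfl))
    (SQ.torSqAt_of_span A 2 M' B k hB Nat.prime_two hp hT)

/-- **`SqNewTwoAt p` for `p ≥ 5`**, from the tame leaves at `q = 2` (`9 ∣ M`): (R) REG,
(T′) TOR-SPAN, and B2 at all levels. -/
theorem sqNewTwoAt_of_up (p : ℕ) (hp : p.Prime) (h5 : 5 ≤ p) (hregT : RegTameTwo p)
    (hcp : CPowTwo p) (hTT : TorSpanTameTwo p) : Fermat.Agent.S59.LL.H40.SqNewTwoAt p := by
  intro M _ h2M h4M A hA
  obtain ⟨M', rfl⟩ : ∃ M', M = M' * 2 := ⟨M / 2, (Nat.div_mul_cancel h2M).symm⟩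
  have hqM' : ¬ 2 ∣ M' := by
    rintro ⟨c, rfl⟩
    exact h4M ⟨c, by ring⟩
  have hM'0 : M' ≠ 0 := by
    rintro rfl
    exact hqM' (dvd_zero 2)
  haveI : NeZero M' := ⟨hM'0⟩
  haveI : NeZero (M' * 2 * 2) := ⟨mul_ne_zero (mul_ne_zero hM'0 (by norm_num)) (by norm_num)⟩
  have hcop : IsCoprime (M' : ℤ) ((2 : ℕ) : ℤ) :=
    Nat.isCoprime_iff_coprime.2 ((Nat.Prime.coprime_iff_not_dvd Nat.prime_two).2 hqM').symm
  obtain ⟨B, k, hB⟩ := hcop
  exact hasSqNewPartAt_of_up p hp h5 hregT hcp hTT M' B k hB hqM' A hA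

end Fermat.Agent.S59.LL.SQ.H77
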