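import Mathlib

/-!
# S59 / LL / SQ, leaf ST-RANK (g), group theory (helper83)

* `card_le_card_torsion_pow` : a finite commutative group of exponent `p ^ e` has at most
  `#G[p] ^ e` elements;
* `torsion_le_of_card` : if `Γ ≤ A` has exponent `p ^ e`, `#A[p] ≤ p ^ d` and
  `p ^ (2 e d) ≤ p ^ (e + c) · #Γ ^ 2` with `c < e`, then `A[p] ⊆ Γ`.
This file contains no unproved statement.
-/

set_option autoImplicit false

namespace Fermat.Agent.S59.LL.SQ.H83

universe u

/-- A finite commutative group of exponent `p ^ e` has at most `#G[p] ^ e` elements. -/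
theorem card_le_card_torsion_pow (p : ℕ) : ∀ (e : ℕ) (G : Type u) [CommGroup G] [Finite G],
    (∀ g : G, g ^ (p ^ e) = 1) → Nat.card G ≤ (Nat.card {g : G // g ^ p = 1}) ^ e := by
  intro e
  induction e with
  | zero =>
    intro G _ _ h
    have hs : Subsingleton G := ⟨fun a b => by
      have ha := h a
      have hb := h b
      rw [pow_zero, pow_one] at ha hb
      rw [ha, hb]⟩
    rw [pow_zero]
    exact Finite.card_le_one_iff_subsingleton.mpr hs
  | succ e ih =>
    intro G _ _ h
    set φ : G →* G := powMonoidHom p with hφ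
    have h1 : Nat.card G = Nat.card φ.ker * Nat.card φ.range := by
      rw [mul_comm, ← Nat.card_congr (QuotientGroup.quotientKerEquivRange φ).toEquiv]
      exact Subgroup.card_eq_card_quotient_mul_card_subgroup φ.ker
    have hker : Nat.card φ.ker = Nat.card {g : G // g ^ p = 1} := by
      apply Nat.card_congr
      exact Equiv.subtypeEquivRight (fun g => by rw [MonoidHom.mem_ker]; rfl)
    have hR : ∀ r : φ.range, r ^ (p ^ e) = 1 := by
      rintro ⟨r, g, rfl⟩
      apply Subtype.ext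
      show (φ g) ^ (p ^ e) = 1
      rw [hφ, powMonoidHom_apply, ← pow_mul, ← pow_succ']
      exact h g
    have h2 := ih ↥φ.range hR
    have h3 : Nat.card {r : φ.range // r ^ p = 1} ≤ Nat.card {g : G // g ^ p = 1} := by
      apply Nat.card_le_card_of_injective
        (fun r : {r : φ.range // r ^ p = 1} =>
          (⟨(r.1 : G), by
            have := congrArg (Subtype.val) r.2
            simpa using this⟩ : {g : G // g ^ p = 1}))
      intro r r' hrr
      apply Subtype.ext
      apply Subtype.ext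
      have h1 := congrArg (fun x : {g : G // g ^ p = 1} => (x : G)) hrr
      exact h1
    calc Nat.card G = Nat.card φ.ker * Nat.card φ.range := h1
      _ ≤ Nat.card {g : G // g ^ p = 1} * (Nat.card {g : G // g ^ p = 1}) ^ e := by
          rw [hker]
          exact Nat.mul_le_mul_left _ (h2.trans (Nat.pow_le_pow_left h3 e))
      _ = (Nat.card {g : G // g ^ p = 1}) ^ (e + 1) := by rw [pow_succ']

/-- **Bounded index forces the `p`-torsion**: if `Γ ≤ A` has exponent `p ^ e`,
`#A[p] ≤ p ^ d` and `p ^ (2 e d) ≤ p ^ (e + c) · #Γ ^ 2` with `c < e`, then `A[p] ⊆ Γ`. -/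
theorem torsion_le_of_card {A : Type u} [CommGroup A] [Finite A] (p e c d : ℕ) (hp : p.Prime)
    (Γ : Subgroup A) (hexp : ∀ g ∈ Γ, g ^ (p ^ e) = 1)
    (hA : Nat.card {a : A // a ^ p = 1} ≤ p ^ d)
    (hcard : p ^ (2 * e * d) ≤ p ^ (e + c) * (Nat.card Γ) ^ 2) (hce : c < e) :
    ∀ a : A, a ^ p = 1 → a ∈ Γ := by
  intro a ha
  by_contra haΓ
  have : Fact p.Prime := ⟨hp⟩
  set P : Subgroup A := (powMonoidHom p : A →* A).ker with hP
  have hmemP : ∀ x : A, x ∈ P ↔ x ^ p = 1 := fun x => by
    rw [hP, MonoidHom.mem_ker]; rfl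
  have hPcard : Nat.card P ≤ p ^ d := by
    have : Nat.card P = Nat.card {a : A // a ^ p = 1} :=
      Nat.card_congr (Equiv.subtypeEquivRight hmemP)
    rw [this]; exact hA
  set Q : Subgroup ↥P := Γ.subgroupOf P with hQ
  have hQne : Q ≠ ⊤ := by
    intro htop
    have : (⟨a, (hmemP a).mpr ha⟩ : ↥P) ∈ Q := by rw [htop]; exact Subgroup.mem_top _
    rw [hQ, Subgroup.mem_subgroupOf] at this
    exact haΓ this
  have hPp : IsPGroup p ↥P := by
    intro x
    refine ⟨1, ?_⟩
    rw [pow_one]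
    apply Subtype.ext
    exact (hmemP x.1).mp x.2
  obtain ⟨j, hj⟩ := hPp.index Q
  have hj0 : j ≠ 0 := by
    rintro rfl
    rw [pow_zero] at hj
    exact hQne (Subgroup.index_eq_one.mp hj)
  have hmul : Nat.card Q * Q.index = Nat.card P := Q.card_mul_index
  have hQcard : Nat.card Q * p ≤ p ^ d := by
    calc Nat.card Q * p ≤ Nat.card Q * Q.index := by
          rw [hj]
          exact Nat.mul_le_mul_left _ (by
            calc p = p ^ 1 := (pow_one p).symm
              _ ≤ p ^ j := Nat.pow_le_pow_right hp.pos (by omega))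
      _ = Nat.card P := hmul
      _ ≤ p ^ d := hPcard
  have hQpos : 0 < Nat.card Q := Nat.card_pos
  obtain ⟨d', rfl⟩ : ∃ d', d = d' + 1 := by
    rcases d with _ | d'
    · exfalso
      rw [pow_zero] at hQcard
      have := hp.two_le
      nlinarith
    · exact ⟨d', rfl⟩
  have hQle : Nat.card Q ≤ p ^ d' := by
    rw [pow_succ] at hQcard
    exact Nat.le_of_mul_le_mul_right hQcard hp.pos
  -- the `p`-torsion of `Γ`
  have hΓp : Nat.card {γ : ↥Γ // γ ^ p = 1} ≤ Nat.card Q := by
    apply Nat.card_le_card_of_injective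
      (fun γ : {γ : ↥Γ // γ ^ p = 1} =>
        (⟨⟨(γ.1 : A), (hmemP _).mpr (by
            have := congrArg (Subtype.val) γ.2
            simpa using this)⟩, by
          rw [hQ, Subgroup.mem_subgroupOf]
          exact γ.1.2⟩ : ↥Q))
    intro γ γ' h
    apply Subtype.ext
    apply Subtype.ext
    have h1 := congrArg (fun x : ↥Q => ((x : ↥P) : A)) h
    exact h1
  have hΓexp : ∀ γ : ↥Γ, γ ^ (p ^ e) = 1 := fun γ => Subtype.ext (hexp γ.1 γ.2)
  have hΓ := card_le_card_torsion_pow p e ↥Γ hΓexp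
  have hΓle : Nat.card Γ ≤ p ^ (d' * e) := by
    calc Nat.card Γ ≤ (Nat.card {γ : ↥Γ // γ ^ p = 1}) ^ e := hΓ
      _ ≤ (p ^ d') ^ e := Nat.pow_le_pow_left (hΓp.trans hQle) e
      _ = p ^ (d' * e) := by rw [← pow_mul]
  have h4 : p ^ (2 * e * (d' + 1)) ≤ p ^ (e + c + 2 * (d' * e)) := by
    calc p ^ (2 * e * (d' + 1)) ≤ p ^ (e + c) * (Nat.card Γ) ^ 2 := hcard
      _ ≤ p ^ (e + c) * (p ^ (d' * e)) ^ 2 :=
          Nat.mul_le_mul_left _ (Nat.pow_le_pow_left hΓle 2)
      _ = p ^ (e + c + 2 * (d' * e)) := by rw [← pow_mul, ← pow_add]; ring_nf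
  have h5 := (Nat.pow_le_pow_iff_right hp.one_lt).mp h4
  have h6 : 2 * e * (d' + 1) = 2 * e + 2 * (d' * e) := by ring
  omega

end Fermat.Agent.S59.LL.SQ.H83
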