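import Fermat.Agent.S59.LL.SQ.H83_StRankG
import Fermat.Agent.BAD.H60_TwSurj

/-!
# S59 / LL / SQ, leaf ST-RANK (f): finite part modulo toric part (helper83)

For a semistable degeneration datum `S : BAD.SSD K F k F₁ F₂` and `n` invertible in `k`:

* `divN`, `clsN` : the class of `(1/n) div γ` in `Pic0 k F` for a function `γ` with `n ∣ div γ`;
  `clsN_mem_torsion`, `exists_pow_of_clsN_eq` (equal classes: `γ = φ ^ n γ'`);
* `IsFin S n h` : `h` is a Kummer function of the FINITE part in good position (a unit for the two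
  valuations, `n ∣ div h`, no zero or pole on the fibres of the nodes); `IsFin.dvd_ord_rd₁/₂`:
  the orders of the reductions are divisible by `n`;
* `isTor_of_cls_eq` : two such functions with the same classes of reductions on both components
  differ by a toric function: `h h' ^ (n - 1)` is as in `S15.Desc.H83.IsTor`;
* `exists_tor_family` : **ST-RANK (f)**, family form.  A finite family of functions `IsFin` in a
  submonoid `M`, pairwise distinct modulo `n`-th powers, gives a family of triples `IsTor` in `M`,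
  pairwise distinct modulo `n`-th powers, with `#X ≤ #Pic0(F₁)[n] · #Pic0(F₂)[n] · #T`;
* `card_family_le`, `card_fin_family_le` : in terms of the glue subgroup `Γ = glueSubgroup S n M`:
  `n · #T ≤ #Γ` and `n · #X ≤ #Pic0(F₁)[n] · #Pic0(F₂)[n] · #Γ`;
* `exists_tor_of_card_glueSubgroup` : ST-RANK (g) in terms of `#Γ`.

This file contains no unproved statement.
-/

set_option autoImplicit false

noncomputable section

open AlgebraicCurve

attribute [local instance] Classical.propDecidable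

namespace Fermat.Agent.S59.LL.SQ.H83

open Fermat.Agent.RED.H17 Fermat.Agent.RED Fermat.Agent.BAD Fermat.Agent.S15.Desc.H83

section Cls

variable {k F : Type*} [Field k] [Field F] [Algebra k F]

/-- The divisor `(1/n) div γ`. -/
def divN (hP : HasPrincipalDivisors k F) (n : ℕ) (γ : F) : Divisor k F :=
  (dv hP γ).mapRange (fun m : ℤ => m / (n : ℤ)) (by simp)

theorem divN_apply (hP : HasPrincipalDivisors k F) (n : ℕ) (γ : F) (v : Place k F) :
    divN hP n γ v = v.ord γ / (n : ℤ) := by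
  unfold divN
  rw [Fermat.Agent.BAD.H60.mapRange_div_apply, dv_apply]

theorem degree_divN (hP : HasPrincipalDivisors k F) {n : ℕ} (hn : n ≠ 0) {γ : F}
    (hd : ∀ v : Place k F, (n : ℤ) ∣ v.ord γ) : Divisor.degree (divN hP n γ) = 0 :=
  Fermat.Agent.BAD.H60.degree_mapRange_div _ n hn (fun v => by rw [dv_apply]; exact hd v)
    (degree_dv hP γ)

/-- The class of `(1/n) div γ`. -/
def clsN (hP : HasPrincipalDivisors k F) {n : ℕ} (hn : n ≠ 0) (γ : F)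
    (hd : ∀ v : Place k F, (n : ℤ) ∣ v.ord γ) : Pic0 k F :=
  Pic0.mk ⟨divN hP n γ, Divisor.mem_degZero.mpr (degree_divN hP hn hd)⟩

theorem clsN_mem_torsion (hP : HasPrincipalDivisors k F) {n : ℕ} (hn : n ≠ 0) {γ : F}
    (hγ : γ ≠ 0) (hd : ∀ v : Place k F, (n : ℤ) ∣ v.ord γ) :
    clsN hP hn γ hd ∈ Pic0.torsion k F n := by
  rw [Pic0.mem_torsion]
  unfold clsN Pic0.mk
  rw [← QuotientAddGroup.mk_zsmul, QuotientAddGroup.eq_zero_iff, AddSubgroup.mem_addSubgroupOf]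
  refine ⟨γ, hγ, fun v => ?_⟩
  rw [AddSubgroup.coe_zsmul, Finsupp.smul_apply, divN_apply, smul_eq_mul]
  exact Int.mul_ediv_cancel' (hd v)

/-- Functions with the same class `(1/n) div` differ by an `n`-th power (`k` algebraically
closed). -/
theorem exists_pow_of_clsN_eq (H : FFHyp k F) [IsAlgClosed k] {n : ℕ} (hn : n ≠ 0) {γ γ' : F}
    (hγ : γ ≠ 0) (hγ' : γ' ≠ 0) (hd : ∀ v : Place k F, (n : ℤ) ∣ v.ord γ)
    (hd' : ∀ v : Place k F, (n : ℤ) ∣ v.ord γ')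
    (h : clsN H.principal hn γ hd = clsN H.principal hn γ' hd') :
    ∃ φ : F, φ ≠ 0 ∧ γ = φ ^ n * γ' := by
  have hnZ : (n : ℤ) ≠ 0 := by exact_mod_cast hn
  have h1 := QuotientAddGroup.eq.mp h
  rw [AddSubgroup.mem_addSubgroupOf] at h1
  obtain ⟨w, hw0, hw⟩ := h1
  have hord : ∀ v : Place k F, v.ord γ' - v.ord γ = n * v.ord w := by
    intro v
    have h2 := hw v
    rw [AddSubgroup.coe_add, AddSubgroup.coe_neg, Finsupp.add_apply, Finsupp.neg_apply] at h2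
    change -(divN H.principal n γ v) + divN H.principal n γ' v = v.ord w at h2
    rw [divN_apply, divN_apply] at h2
    obtain ⟨a, ha⟩ := hd v
    obtain ⟨b, hb⟩ := hd' v
    rw [ha, hb] at h2 ⊢
    rw [Int.mul_ediv_cancel_left _ hnZ, Int.mul_ediv_cancel_left _ hnZ] at h2
    rw [← h2]
    ring
  set u : F := γ * w ^ n / γ' with hu
  have hu0 : u ≠ 0 := div_ne_zero (mul_ne_zero hγ (pow_ne_zero _ hw0)) hγ'
  have huord : ∀ v : Place k F, v.ord u = 0 := by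
    intro v
    rw [hu, Fermat.Agent.RED.H17.ord_div v (mul_ne_zero hγ (pow_ne_zero _ hw0)) hγ',
      v.ord_mul hγ (pow_ne_zero _ hw0), Fermat.Agent.RED.H17.ord_pow]
    have := hord v
    linarith
  obtain ⟨c, hc⟩ := H.const_of_regular (fun v => le_of_eq (huord v).symm)
  have hc0 : c ≠ 0 := by
    rintro rfl
    rw [map_zero] at hc
    exact hu0 hc
  obtain ⟨α, hα⟩ := IsAlgClosed.exists_pow_nat_eq c (Nat.pos_of_ne_zero hn)
  have hα0 : α ≠ 0 := by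
    rintro rfl
    rw [zero_pow hn] at hα
    exact hc0 hα.symm
  refine ⟨algebraMap k F α / w, div_ne_zero ((map_ne_zero _).2 hα0) hw0, ?_⟩
  have e1 : γ * w ^ n = algebraMap k F c * γ' := by
    rw [← hc, hu, div_mul_cancel₀ _ hγ']
  rw [div_pow, ← map_pow, hα, div_mul_eq_mul_div, eq_div_iff (pow_ne_zero _ hw0)]
  exact e1

end Cls

section Fin

variable {K F k F₁ F₂ : Type} [Field K] [Field F] [Algebra K F] [Field k] [Field F₁]
  [Algebra k F₁] [Field F₂] [Algebra k F₂]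

/-- `h` is a Kummer function of the **finite part** in good position: a unit for the two
valuations, all orders divisible by `n`, no zero or pole on the fibres of the nodes. -/
structure IsFin (S : SSD K F k F₁ F₂) (n : ℕ) (h : F) : Prop where
  gu₁ : S.c₁.IsGU h
  gu₂ : S.c₂.IsGU h
  node : ∀ P : Place K F, S.IsNodeP P → P.ord h = 0
  dvd : ∀ P : Place K F, (n : ℤ) ∣ P.ord h

variable {S : SSD K F k F₁ F₂}

theorem isFin_of_isTor {n : ℕ} {G : F} {ψ₁ : F₁} {ψ₂ : F₂} (h : IsTor S n G ψ₁ ψ₂) :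
    IsFin S n G :=
  ⟨h.gu₁, h.gu₂, h.node, h.dvd⟩

theorem IsFin.ne_zero {n : ℕ} {h : F} (hh : IsFin S n h) : h ≠ 0 := hh.gu₁.ne_zero

theorem IsFin.dvd_ord_rd₁ (hP : HasPrincipalDivisors K F) {n : ℕ} {h : F} (hh : IsFin S n h)
    (Q : Place k F₁) : (n : ℤ) ∣ Q.ord (S.c₁.rd h) := by
  by_cases hQ : Q ∈ S.c₁.good
  · rw [S.c₁.ord_rd_eq_sum hP hh.gu₁ Q hQ]
    apply Finset.dvd_sum
    intro P _
    split_ifs
    · exact hh.dvd P
    · exact dvd_zero _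
  · rw [S.good₁] at hQ
    push Not at hQ
    obtain ⟨s, hs, hsQ⟩ := hQ
    rw [← hsQ, (Fermat.Agent.BAD.H60.ord_rd_eq_zero_of_node S hP hh.gu₁ hh.gu₂ hh.node hs).1]
    exact dvd_zero _

theorem IsFin.dvd_ord_rd₂ (hP : HasPrincipalDivisors K F) {n : ℕ} {h : F} (hh : IsFin S n h)
    (Q : Place k F₂) : (n : ℤ) ∣ Q.ord (S.c₂.rd h) := by
  by_cases hQ : Q ∈ S.c₂.good
  · rw [S.c₂.ord_rd_eq_sum hP hh.gu₂ Q hQ]
    apply Finset.dvd_sum
    intro P _
    split_ifs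
    · exact hh.dvd P
    · exact dvd_zero _
  · rw [S.good₂] at hQ
    push Not at hQ
    obtain ⟨s, hs, hsQ⟩ := hQ
    rw [← hsQ, (Fermat.Agent.BAD.H60.ord_rd_eq_zero_of_node S hP hh.gu₁ hh.gu₂ hh.node hs).2]
    exact dvd_zero _

/-- The pair of classes of the reductions of a function of the finite part. -/
def kap (S : SSD K F k F₁ F₂) (H : FFHyp K F) (H₁ : FFHyp k F₁) (H₂ : FFHyp k F₂) {n : ℕ}
    (hn : n ≠ 0) (h : F) (hh : IsFin S n h) :
    ↥(Pic0.torsion k F₁ n) × ↥(Pic0.torsion k F₂ n) :=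
  (⟨clsN H₁.principal hn (S.c₁.rd h) (hh.dvd_ord_rd₁ H.principal),
      clsN_mem_torsion H₁.principal hn hh.gu₁.2 _⟩,
    ⟨clsN H₂.principal hn (S.c₂.rd h) (hh.dvd_ord_rd₂ H.principal),
      clsN_mem_torsion H₂.principal hn hh.gu₂.2 _⟩)

/-- Two functions of the finite part with the same classes of reductions differ by a toric
function. -/
theorem isTor_of_kap_eq [IsAlgClosed k] (H : FFHyp K F) (H₁ : FFHyp k F₁) (H₂ : FFHyp k F₂)
    {n : ℕ} (hn : n ≠ 0) {h h' : F} (hh : IsFin S n h) (hh' : IsFin S n h')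
    (e : kap S H H₁ H₂ hn h hh = kap S H H₁ H₂ hn h' hh') :
    ∃ (ψ₁ : F₁) (ψ₂ : F₂), IsTor S n (h * h' ^ (n - 1)) ψ₁ ψ₂ := by
  obtain ⟨n1, hn1⟩ : ∃ n1 : ℕ, n1 + 1 = n := ⟨n - 1, by omega⟩
  have hn1' : n - 1 = n1 := by omega
  rw [hn1']
  have e₁ : clsN H₁.principal hn (S.c₁.rd h) (hh.dvd_ord_rd₁ H.principal)
      = clsN H₁.principal hn (S.c₁.rd h') (hh'.dvd_ord_rd₁ H.principal) :=
    congrArg (fun x : ↥(Pic0.torsion k F₁ n) × ↥(Pic0.torsion k F₂ n) => (x.1 : Pic0 k F₁)) e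
  have e₂ : clsN H₂.principal hn (S.c₂.rd h) (hh.dvd_ord_rd₂ H.principal)
      = clsN H₂.principal hn (S.c₂.rd h') (hh'.dvd_ord_rd₂ H.principal) :=
    congrArg (fun x : ↥(Pic0.torsion k F₁ n) × ↥(Pic0.torsion k F₂ n) => (x.2 : Pic0 k F₂)) e
  obtain ⟨φ₁, -, hφ₁⟩ := exists_pow_of_clsN_eq H₁ hn hh.gu₁.2 hh'.gu₁.2 _ _ e₁
  obtain ⟨φ₂, -, hφ₂⟩ := exists_pow_of_clsN_eq H₂ hn hh.gu₂.2 hh'.gu₂.2 _ _ e₂
  refine ⟨φ₁ * S.c₁.rd h', φ₂ * S.c₂.rd h', ?_⟩
  refine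
    { gu₁ := hh.gu₁.mul (hh'.gu₁.pow n1)
      gu₂ := hh.gu₂.mul (hh'.gu₂.pow n1)
      rd₁ := by
        rw [S.c₁.rd_mul hh.gu₁.1 (hh'.gu₁.pow n1).1, S.c₁.rd_pow hh'.gu₁.1, hφ₁, mul_pow,
          ← hn1, pow_succ (S.c₁.rd h') n1]
        ring
      rd₂ := by
        rw [S.c₂.rd_mul hh.gu₂.1 (hh'.gu₂.pow n1).1, S.c₂.rd_pow hh'.gu₂.1, hφ₂, mul_pow,
          ← hn1, pow_succ (S.c₂.rd h') n1]
        ring
      node := fun P hP => by
        rw [P.ord_mul hh.ne_zero (pow_ne_zero _ hh'.ne_zero), Fermat.Agent.RED.H17.ord_pow,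
          hh.node P hP, hh'.node P hP]
        ring
      dvd := fun P => by
        rw [P.ord_mul hh.ne_zero (pow_ne_zero _ hh'.ne_zero), Fermat.Agent.RED.H17.ord_pow]
        exact dvd_add (hh.dvd P) (Dvd.dvd.mul_left (hh'.dvd P) _) }

end Fin

section Count

variable {K F k F₁ F₂ : Type} [Field K] [Field F] [Algebra K F] [Field k] [Field F₁]
  [Algebra k F₁] [Field F₂] [Algebra k F₂]

/-- **ST-RANK (f)**, family form: a finite family of functions of the finite part in `M`,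
pairwise distinct modulo `n`-th powers, gives a family of toric triples in `M`, pairwise distinct
modulo `n`-th powers, with `#X ≤ #Pic0(F₁)[n] · #Pic0(F₂)[n] · #T`. -/
theorem exists_tor_family (S : SSD K F k F₁ F₂) [IsAlgClosed k]
    (H : FFHyp K F) (H₁ : FFHyp k F₁) (H₂ : FFHyp k F₂) (n : ℕ) (hn : n ≠ 0)
    [Finite ↥(Pic0.torsion k F₁ n)] [Finite ↥(Pic0.torsion k F₂ n)]
    (M : Submonoid F) (X : Type) [Fintype X] (h : X → F) (hM : ∀ x, h x ∈ M)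
    (hfin : ∀ x, IsFin S n (h x))
    (hinj : ∀ x x', (∃ w : F, w ^ n * h x' = h x) → x = x') :
    ∃ (T : Type) (_ : Fintype T) (G : T → F) (ψ₁ : T → F₁) (ψ₂ : T → F₂),
      (∀ t, G t ∈ M) ∧ (∀ t, IsTor S n (G t) (ψ₁ t) (ψ₂ t)) ∧
      (∀ t t', (∃ w : F, w ^ n * G t' = G t) → t = t') ∧
      Fintype.card X ≤
        Nat.card ↥(Pic0.torsion k F₁ n) * Nat.card ↥(Pic0.torsion k F₂ n) * Fintype.card T := by
  classical
  by_cases hX : IsEmpty X
  · refine ⟨PEmpty, inferInstance, PEmpty.elim, PEmpty.elim, PEmpty.elim, fun t => t.elim,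
      fun t => t.elim, fun t => t.elim, ?_⟩
    rw [Fintype.card_eq_zero]
    exact Nat.zero_le _
  rw [not_isEmpty_iff] at hX
  have : Fintype (↥(Pic0.torsion k F₁ n) × ↥(Pic0.torsion k F₂ n)) := Fintype.ofFinite _
  set κ : X → ↥(Pic0.torsion k F₁ n) × ↥(Pic0.torsion k F₂ n) :=
    fun x => kap S H H₁ H₂ hn (h x) (hfin x) with hκ
  obtain ⟨c, -, hc⟩ := Finset.exists_max_image
    (Finset.univ : Finset (↥(Pic0.torsion k F₁ n) × ↥(Pic0.torsion k F₂ n)))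
    (fun y => (Finset.univ.filter (fun x => κ x = y)).card) ⟨κ hX.some, Finset.mem_univ _⟩
  have hsum : Fintype.card X = ∑ y : ↥(Pic0.torsion k F₁ n) × ↥(Pic0.torsion k F₂ n),
      (Finset.univ.filter (fun x => κ x = y)).card := by
    rw [← Finset.card_univ]
    exact Finset.card_eq_sum_card_fiberwise (fun x _ => Finset.mem_univ (κ x))
  have hle : Fintype.card X ≤
      Fintype.card (↥(Pic0.torsion k F₁ n) × ↥(Pic0.torsion k F₂ n)) *
        (Finset.univ.filter (fun x => κ x = c)).card := by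
    rw [hsum]
    calc ∑ y : ↥(Pic0.torsion k F₁ n) × ↥(Pic0.torsion k F₂ n),
          (Finset.univ.filter (fun x => κ x = y)).card
        ≤ ∑ _y : ↥(Pic0.torsion k F₁ n) × ↥(Pic0.torsion k F₂ n),
          (Finset.univ.filter (fun x => κ x = c)).card :=
          Finset.sum_le_sum (fun y _ => hc y (Finset.mem_univ y))
      _ = _ := by rw [Finset.sum_const, Finset.card_univ, smul_eq_mul]
  have hne : (Finset.univ.filter (fun x => κ x = c)).Nonempty := by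
    by_contra hemp
    rw [Finset.not_nonempty_iff_eq_empty] at hemp
    rw [hemp, Finset.card_empty, mul_zero] at hle
    have := Fintype.card_pos (α := X)
    omega
  obtain ⟨x₀, hx₀⟩ := hne
  rw [Finset.mem_filter] at hx₀
  have hT : ∀ t : {x : X // κ x = c}, ∃ (ψ₁ : F₁) (ψ₂ : F₂),
      IsTor S n (h t.1 * h x₀ ^ (n - 1)) ψ₁ ψ₂ :=
    fun t => isTor_of_kap_eq H H₁ H₂ hn (hfin t.1) (hfin x₀) (t.2.trans hx₀.2.symm)
  choose ψ₁ ψ₂ hψ using hT
  refine ⟨{x : X // κ x = c}, inferInstance, fun t => h t.1 * h x₀ ^ (n - 1), ψ₁, ψ₂, ?_, hψ,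
    ?_, ?_⟩
  · intro t
    exact M.mul_mem (hM _) (M.pow_mem (hM _) _)
  · rintro t t' ⟨w, hw⟩
    apply Subtype.ext
    apply hinj
    refine ⟨w, ?_⟩
    have h0 : h x₀ ^ (n - 1) ≠ 0 := pow_ne_zero _ (hfin x₀).ne_zero
    apply mul_right_cancel₀ h0
    have hw' : w ^ n * (h t'.1 * h x₀ ^ (n - 1)) = h t.1 * h x₀ ^ (n - 1) := hw
    rw [← hw']
    ring
  · have e1 : Fintype.card {x : X // κ x = c} = (Finset.univ.filter (fun x => κ x = c)).card :=
      Fintype.card_subtype _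
    rw [e1, ← Nat.card_prod, Nat.card_eq_fintype_card]
    exact hle

/-- A family of toric triples in `M`, pairwise distinct modulo `n`-th powers, injects (with the
constants) into the glue subgroup: `n · #T ≤ #Γ`. -/
theorem card_family_le (S : SSD K F k F₁ F₂) [IsAlgClosed K] [IsAlgClosed k]
    (H : FFHyp K F) (H₁ : FFHyp k F₁) (H₂ : FFHyp k F₂)
    (g g₁ g₂ : ℕ) (c c₁ c₂ : ℤ) (hR : IsGenus K F g c) (hR₁ : IsGenus k F₁ g₁ c₁)
    (hR₂ : IsGenus k F₂ g₂ c₂) (hnum : g + 1 ≤ g₁ + g₂ + S.nodes.card)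
    (n : ℕ) (hn0 : n ≠ 0) (hnk : (n : k) ≠ 0) (M : Submonoid F)
    (T : Type) [Fintype T] (G : T → F) (ψ₁ : T → F₁) (ψ₂ : T → F₂) (hM : ∀ t, G t ∈ M)
    (hTor : ∀ t, IsTor S n (G t) (ψ₁ t) (ψ₂ t))
    (hinj : ∀ t t', (∃ w : F, w ^ n * G t' = G t) → t = t') :
    n * Fintype.card T ≤ Nat.card ↥(glueSubgroup S n hn0 M) := by
  have : NeZero n := ⟨hn0⟩
  have : NeZero (n : k) := ⟨hnk⟩
  have hμ : Nat.card (rootsOfUnity n k) = n := HasEnoughRootsOfUnity.natCard_rootsOfUnity k n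
  obtain ⟨n1, hn1⟩ : ∃ n1 : ℕ, n1 + 1 = n := ⟨n - 1, by omega⟩
  have hex : ∀ t, ∃ v, IsGlueVec S n (ψ₁ t) (ψ₂ t) v :=
    fun t => exists_glueVec H H₁ H₂ hn0 (hTor t)
  choose V hV using hex
  have hmemΓ : ∀ (t : T) (w : rootsOfUnity n k),
      (V t * fun _ => w⁻¹) ∈ glueSubgroup S n hn0 M := fun t w =>
    ⟨G t, ψ₁ t, _, hM t, (hTor t).scale₂ (unit_pow_eq_one w), (hV t).scale₂ w⟩
  have hinjΓ : Function.Injective (fun x : T × rootsOfUnity n k =>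
      (⟨V x.1 * fun _ => x.2⁻¹, hmemΓ x.1 x.2⟩ : ↥(glueSubgroup S n hn0 M))) := by
    rintro ⟨t, w⟩ ⟨t', w'⟩ hx
    have hx' : V t * (fun _ => w⁻¹) = V t' * fun _ => w'⁻¹ := congrArg Subtype.val hx
    have hinv : (V t')⁻¹ = V t' ^ n1 := by
      apply inv_eq_of_mul_eq_one_right
      rw [← pow_succ', hn1]
      exact pi_pow_eq_one n _
    have hconst : V t * V t' ^ n1 = fun _ => w * w'⁻¹ := by
      rw [← hinv]
      funext s
      have hs := congrFun hx' s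
      simp only [Pi.mul_apply, Pi.inv_apply] at hs ⊢
      rw [mul_inv_eq_iff_eq_mul] at hs
      rw [hs]
      calc V t' s * w'⁻¹ * w * (V t' s)⁻¹ = (V t' s * (V t' s)⁻¹) * (w * w'⁻¹) := by ac_rfl
        _ = w * w'⁻¹ := by rw [mul_inv_cancel, one_mul]
    have hT2 : IsTor S n (G t * G t' ^ n1) (ψ₁ t * ψ₁ t' ^ n1) (ψ₂ t * ψ₂ t' ^ n1) :=
      (hTor t).mul ((hTor t').pow n1)
    have hV2 : IsGlueVec S n (ψ₁ t * ψ₁ t' ^ n1) (ψ₂ t * ψ₂ t' ^ n1) (V t * V t' ^ n1) :=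
      (hV t).mul ((hV t').pow n1)
    rw [hconst] at hV2
    obtain ⟨w0, hw0⟩ := pow_of_glueVec_const H H₁ H₂ g g₁ g₂ c c₁ c₂ hR hR₁ hR₂ hnum n hnk hT2
      _ hV2
    have hG0 : G t' ≠ 0 := (hTor t').gu₁.ne_zero
    have htt : t = t' := hinj t t' ⟨w0 / G t', by
      rw [div_pow, hw0, ← hn1, pow_succ]
      field_simp⟩
    subst htt
    obtain ⟨s₀, hs₀⟩ := S.nodes_nonempty
    have hs := congrFun hx' ⟨s₀, hs₀⟩
    simp only [Pi.mul_apply] at hs
    have hw : w⁻¹ = w'⁻¹ := mul_left_cancel hs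
    rw [inv_inj] at hw
    rw [hw]
  have h1 := Nat.card_le_card_of_injective _ hinjΓ
  rwa [Nat.card_prod, Nat.card_eq_fintype_card, hμ, mul_comm] at h1

/-- **ST-RANK (f)** in terms of the glue subgroup:
`n · #X ≤ #Pic0(F₁)[n] · #Pic0(F₂)[n] · #Γ`. -/
theorem card_fin_family_le (S : SSD K F k F₁ F₂) [IsAlgClosed K] [IsAlgClosed k]
    (H : FFHyp K F) (H₁ : FFHyp k F₁) (H₂ : FFHyp k F₂)
    (g g₁ g₂ : ℕ) (c c₁ c₂ : ℤ) (hR : IsGenus K F g c) (hR₁ : IsGenus k F₁ g₁ c₁)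
    (hR₂ : IsGenus k F₂ g₂ c₂) (hnum : g + 1 ≤ g₁ + g₂ + S.nodes.card)
    (n : ℕ) (hn0 : n ≠ 0) (hnk : (n : k) ≠ 0)
    [Finite ↥(Pic0.torsion k F₁ n)] [Finite ↥(Pic0.torsion k F₂ n)]
    (M : Submonoid F) (X : Type) [Fintype X] (h : X → F) (hM : ∀ x, h x ∈ M)
    (hfin : ∀ x, IsFin S n (h x))
    (hinj : ∀ x x', (∃ w : F, w ^ n * h x' = h x) → x = x') :
    n * Fintype.card X ≤
      Nat.card ↥(Pic0.torsion k F₁ n) * Nat.card ↥(Pic0.torsion k F₂ n) *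
        Nat.card ↥(glueSubgroup S n hn0 M) := by
  obtain ⟨T, hTf, G, ψ₁, ψ₂, hGM, hTor, hTinj, hcard⟩ :=
    exists_tor_family S H H₁ H₂ n hn0 M X h hM hfin hinj
  have h1 := card_family_le S H H₁ H₂ g g₁ g₂ c c₁ c₂ hR hR₁ hR₂ hnum n hn0 hnk M T G ψ₁ ψ₂
    hGM hTor hTinj
  calc n * Fintype.card X
      ≤ n * (Nat.card ↥(Pic0.torsion k F₁ n) * Nat.card ↥(Pic0.torsion k F₂ n) *
          Fintype.card T) := Nat.mul_le_mul_left _ hcard
    _ = Nat.card ↥(Pic0.torsion k F₁ n) * Nat.card ↥(Pic0.torsion k F₂ n) *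
          (n * Fintype.card T) := by ring
    _ ≤ _ := Nat.mul_le_mul_left _ h1

/-- **ST-RANK (g)** in terms of the glue subgroup `Γ`: if
`p ^ (2 e δ) ≤ p ^ (e + c') · #Γ ^ 2` with `c' < e`, every vector `θ : nodes → μ_p` is the glue
vector of a toric triple in `M`. -/
theorem exists_tor_of_card_glueSubgroup (S : SSD K F k F₁ F₂) (p e c' : ℕ) (hp : p.Prime)
    (hce : c' < e) (M : Submonoid F)
    (hcard : p ^ (2 * e * S.nodes.card) ≤
      p ^ (e + c') * Nat.card ↥(glueSubgroup S (p ^ e) (pow_ne_zero _ hp.ne_zero) M) ^ 2)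
    (θ : Place k F₁ × Place k F₂ → k) (hθ : ∀ s ∈ S.nodes, θ s ^ p = 1) :
    ∃ (G' : F) (ψ₁' : F₁) (ψ₂' : F₂), G' ∈ M ∧ IsTor S (p ^ e) G' ψ₁' ψ₂' ∧
      ∀ s ∈ S.nodes, ∃ a b : k, b ≠ 0 ∧ VanAt s.1 (ψ₁' - algebraMap k F₁ a) ∧
        VanAt s.2 (ψ₂' - algebraMap k F₂ b) ∧ a = θ s * b := by
  have hn0 : p ^ e ≠ 0 := pow_ne_zero _ hp.ne_zero
  have : NeZero (p ^ e) := ⟨hn0⟩
  have hexp : ∀ γ ∈ glueSubgroup S (p ^ e) hn0 M, γ ^ (p ^ e) = 1 :=
    fun γ _ => pi_pow_eq_one (p ^ e) γ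
  have hA := card_torsion_pi_le S (p ^ e) p hn0 hp.ne_zero
  have key := torsion_le_of_card p e c' S.nodes.card hp (glueSubgroup S (p ^ e) hn0 M) hexp hA
    hcard hce
  have hθn : ∀ s ∈ S.nodes, θ s ^ (p ^ e) = 1 := by
    intro s hs
    obtain ⟨e1, he1⟩ : ∃ e1, e = e1 + 1 := ⟨e - 1, by omega⟩
    rw [he1, pow_succ', pow_mul, hθ s hs, one_pow]
  have hθ0 : ∀ s ∈ S.nodes, θ s ≠ 0 := by
    intro s hs h0
    have h1 := hθ s hs
    rw [h0, zero_pow hp.ne_zero] at h1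
    exact zero_ne_one h1
  set a : ↥S.nodes → rootsOfUnity (p ^ e) k := fun s => ⟨Units.mk0 (θ s.1) (hθ0 s.1 s.2), by
    rw [mem_rootsOfUnity]
    apply Units.ext
    rw [Units.val_pow_eq_pow_val, Units.val_mk0, Units.val_one]
    exact hθn s.1 s.2⟩ with ha
  have hap : a ^ p = 1 := by
    funext s
    apply Subtype.ext
    apply Units.ext
    rw [Pi.pow_apply, Pi.one_apply, Subgroup.coe_pow, Subgroup.coe_one, Units.val_pow_eq_pow_val,
      Units.val_one]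
    exact hθ s.1 s.2
  obtain ⟨G', ψ₁', ψ₂', hM', hT', hv'⟩ := key a hap
  refine ⟨G', ψ₁', ψ₂', hM', hT', fun s hs => ?_⟩
  obtain ⟨x, y, hy, h1, h2, hxy⟩ := hv' ⟨s, hs⟩
  exact ⟨x, y, hy, h1, h2, hxy⟩

/-- **ST-RANK, abstract assembly of (a), (c), (d), (f), (g) and NUM-LE.**
`NV = p ^ (2 g e)` (the count (a)), a family `X` of the finite part and a family `T` of the toric
part, both in `M` and pairwise distinct modulo `p ^ e`-th powers, with
`NV ≤ p ^ (e + c') · #X · #T` ((c) and (d)), the exact counts on the two components and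
`g + 1 = g₁ + g₂ + δ`: then every vector `θ : nodes → μ_p` is the glue vector of a toric triple
in `M`. -/
theorem exists_tor_of_families (S : SSD K F k F₁ F₂) [IsAlgClosed K] [IsAlgClosed k]
    (H : FFHyp K F) (H₁ : FFHyp k F₁) (H₂ : FFHyp k F₂)
    (g g₁ g₂ : ℕ) (c c₁ c₂ : ℤ) (hR : IsGenus K F g c) (hR₁ : IsGenus k F₁ g₁ c₁)
    (hR₂ : IsGenus k F₂ g₂ c₂) (hnum : g + 1 = g₁ + g₂ + S.nodes.card)
    (p e c' : ℕ) (hp : p.Prime) (hpk : (p : k) ≠ 0) (hce : c' < e) (M : Submonoid F)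
    (hN₁ : Nat.card ↥(Pic0.torsion k F₁ (p ^ e)) = p ^ (2 * g₁ * e))
    (hN₂ : Nat.card ↥(Pic0.torsion k F₂ (p ^ e)) = p ^ (2 * g₂ * e))
    (X : Type) [Fintype X] (h : X → F) (hXM : ∀ x, h x ∈ M)
    (hfin : ∀ x, IsFin S (p ^ e) (h x))
    (hXinj : ∀ x x', (∃ w : F, w ^ (p ^ e) * h x' = h x) → x = x')
    (T : Type) [Fintype T] (G : T → F) (ψ₁ : T → F₁) (ψ₂ : T → F₂) (hTM : ∀ t, G t ∈ M)
    (hTor : ∀ t, IsTor S (p ^ e) (G t) (ψ₁ t) (ψ₂ t))
    (hTinj : ∀ t t', (∃ w : F, w ^ (p ^ e) * G t' = G t) → t = t')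
    (hcount : p ^ (2 * g * e) ≤ p ^ (e + c') * (Fintype.card X * Fintype.card T))
    (θ : Place k F₁ × Place k F₂ → k) (hθ : ∀ s ∈ S.nodes, θ s ^ p = 1) :
    ∃ (G' : F) (ψ₁' : F₁) (ψ₂' : F₂), G' ∈ M ∧ IsTor S (p ^ e) G' ψ₁' ψ₂' ∧
      ∀ s ∈ S.nodes, ∃ a b : k, b ≠ 0 ∧ VanAt s.1 (ψ₁' - algebraMap k F₁ a) ∧
        VanAt s.2 (ψ₂' - algebraMap k F₂ b) ∧ a = θ s * b := by
  have hn0 : p ^ e ≠ 0 := pow_ne_zero _ hp.ne_zero
  have hnk : ((p ^ e : ℕ) : k) ≠ 0 := by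
    rw [Nat.cast_pow]
    exact pow_ne_zero _ hpk
  have hpos : 0 < p := hp.pos
  have hfin₁ : Finite ↥(Pic0.torsion k F₁ (p ^ e)) := by
    apply Nat.finite_of_card_ne_zero
    rw [hN₁]
    exact pow_ne_zero _ hp.ne_zero
  have hfin₂ : Finite ↥(Pic0.torsion k F₂ (p ^ e)) := by
    apply Nat.finite_of_card_ne_zero
    rw [hN₂]
    exact pow_ne_zero _ hp.ne_zero
  have hX := card_fin_family_le S H H₁ H₂ g g₁ g₂ c c₁ c₂ hR hR₁ hR₂ hnum.le (p ^ e) hn0 hnk M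
    X h hXM hfin hXinj
  have hT := card_family_le S H H₁ H₂ g g₁ g₂ c c₁ c₂ hR hR₁ hR₂ hnum.le (p ^ e) hn0 hnk M
    T G ψ₁ ψ₂ hTM hTor hTinj
  rw [hN₁, hN₂] at hX
  set Γc : ℕ := Nat.card ↥(glueSubgroup S (p ^ e) hn0 M) with hΓc
  apply exists_tor_of_card_glueSubgroup S p e c' hp hce M ?_ θ hθ
  change p ^ (2 * e * S.nodes.card) ≤ p ^ (e + c') * Γc ^ 2
  -- the arithmetic
  have h1 : (p ^ e * Fintype.card X) * (p ^ e * Fintype.card T) ≤
      (p ^ (2 * g₁ * e) * p ^ (2 * g₂ * e) * Γc) * Γc := Nat.mul_le_mul hX hT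
  have h2 : p ^ (2 * g * e) * (p ^ e * p ^ e) ≤
      p ^ (e + c') * ((p ^ (2 * g₁ * e) * p ^ (2 * g₂ * e) * Γc) * Γc) := by
    calc p ^ (2 * g * e) * (p ^ e * p ^ e)
        ≤ p ^ (e + c') * (Fintype.card X * Fintype.card T) * (p ^ e * p ^ e) :=
          Nat.mul_le_mul_right _ hcount
      _ = p ^ (e + c') * ((p ^ e * Fintype.card X) * (p ^ e * Fintype.card T)) := by ring
      _ ≤ _ := Nat.mul_le_mul_left _ h1
  have h3 : p ^ (2 * g * e) * (p ^ e * p ^ e) =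
      p ^ (2 * g₁ * e + 2 * g₂ * e) * p ^ (2 * e * S.nodes.card) := by
    rw [← pow_add, ← pow_add, ← pow_add]
    congr 1
    have : 2 * g * e + (e + e) = 2 * e * (g + 1) := by ring
    rw [this, hnum]
    ring
  have h4 : p ^ (e + c') * ((p ^ (2 * g₁ * e) * p ^ (2 * g₂ * e) * Γc) * Γc) =
      p ^ (2 * g₁ * e + 2 * g₂ * e) * (p ^ (e + c') * Γc ^ 2) := by
    rw [pow_add (a := p) (m := 2 * g₁ * e)]
    ring
  rw [h3, h4] at h2
  exact Nat.le_of_mul_le_mul_left h2 (pow_pos hpos _)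

end Count

end Fermat.Agent.S59.LL.SQ.H83
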