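import Fermat.Agent.S15.Desc.H83_GlueRel
import Fermat.Agent.BAD.H28_ABS
import Fermat.Agent.S59.LL.SQ.H83_GamAbs

/-!
# S59 / LL / SQ, leaf ST-RANK (g): the glue subgroup (helper83)

For a semistable degeneration datum `S : BAD.SSD K F k F₁ F₂` and `n = p ^ e` invertible in `k`:

* `IsGlueVec S n ψ₁ ψ₂ v` : the vector `v : nodes → μ_n` of the quotients `ψ₁(z₁) / ψ₂(z₂)` of the
  values of `ψ₁`, `ψ₂` at the two branches of the nodes;
* `exists_glueVec` : every triple as in `S15.Desc.H83.IsTor` has a glue vector;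
* `pow_of_glueVec_const` : a triple with constant glue vector is an `n`-th power (this is
  `S15.Desc.H83.core`);
* `exists_tor_of_count` : **ST-RANK (g)**.  If a finite family of triples `IsTor S (p ^ e)`, with
  functions in a submonoid `M`, pairwise distinct modulo `n`-th powers, has at least
  `p ^ (e (δ - 1) - (e + c') / 2)` members (`c' < e`, `δ` the number of nodes), then EVERY vector
  `θ : nodes → μ_p` is the glue vector of a triple `IsTor S (p ^ e) G' ψ₁' ψ₂'` with `G' ∈ M`.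

This file contains no unproved statement.
-/

set_option autoImplicit false

noncomputable section

open AlgebraicCurve

namespace Fermat.Agent.S59.LL.SQ.H83

open Fermat.Agent.RED.H17 Fermat.Agent.RED Fermat.Agent.BAD Fermat.Agent.S15.Desc.H83

section Glue

variable {K F k F₁ F₂ : Type} [Field K] [Field F] [Algebra K F] [Field k] [Field F₁]
  [Algebra k F₁] [Field F₂] [Algebra k F₂]

/-- `v` is the vector of the quotients of the values of `ψ₁` and `ψ₂` at the two branches of the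
nodes. -/
def IsGlueVec (S : SSD K F k F₁ F₂) (n : ℕ) (ψ₁ : F₁) (ψ₂ : F₂)
    (v : ↥S.nodes → rootsOfUnity n k) : Prop :=
  ∀ s : ↥S.nodes, ∃ a b : k, b ≠ 0 ∧ VanAt s.1.1 (ψ₁ - algebraMap k F₁ a) ∧
    VanAt s.1.2 (ψ₂ - algebraMap k F₂ b) ∧ a = (((v s : rootsOfUnity n k) : kˣ) : k) * b

variable {S : SSD K F k F₁ F₂}

theorem isGlueVec_one (n : ℕ) : IsGlueVec S n (1 : F₁) (1 : F₂) 1 := by
  intro s
  refine ⟨1, 1, one_ne_zero, vanAt_one_sub s.1.1, vanAt_one_sub s.1.2, ?_⟩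
  simp

theorem IsGlueVec.mul {n : ℕ} {ψ₁ ψ₁' : F₁} {ψ₂ ψ₂' : F₂} {v v' : ↥S.nodes → rootsOfUnity n k}
    (h : IsGlueVec S n ψ₁ ψ₂ v) (h' : IsGlueVec S n ψ₁' ψ₂' v') :
    IsGlueVec S n (ψ₁ * ψ₁') (ψ₂ * ψ₂') (v * v') := by
  intro s
  obtain ⟨a, b, hb, h1, h2, hab⟩ := h s
  obtain ⟨a', b', hb', h1', h2', hab'⟩ := h' s
  refine ⟨a * a', b * b', mul_ne_zero hb hb', Fermat.Agent.BAD.H28.vanAt_mul_sub h1 h1',
    Fermat.Agent.BAD.H28.vanAt_mul_sub h2 h2', ?_⟩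
  rw [hab, hab']
  simp only [Pi.mul_apply, Subgroup.coe_mul, Units.val_mul]
  ring

theorem IsGlueVec.pow {n : ℕ} {ψ₁ : F₁} {ψ₂ : F₂} {v : ↥S.nodes → rootsOfUnity n k}
    (h : IsGlueVec S n ψ₁ ψ₂ v) (m : ℕ) : IsGlueVec S n (ψ₁ ^ m) (ψ₂ ^ m) (v ^ m) := by
  induction m with
  | zero =>
    rw [pow_zero, pow_zero, pow_zero]
    exact isGlueVec_one n
  | succ m ih =>
    rw [pow_succ, pow_succ, pow_succ]
    exact ih.mul h

/-- Change of the root on the second component by an `n`-th root of unity `w`. -/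
theorem IsGlueVec.scale₂ {n : ℕ} {ψ₁ : F₁} {ψ₂ : F₂} {v : ↥S.nodes → rootsOfUnity n k}
    (h : IsGlueVec S n ψ₁ ψ₂ v) (w : rootsOfUnity n k) :
    IsGlueVec S n ψ₁ (algebraMap k F₂ (((w : rootsOfUnity n k) : kˣ) : k) * ψ₂)
      (v * fun _ => w⁻¹) := by
  intro s
  obtain ⟨a, b, hb, h1, h2, hab⟩ := h s
  refine ⟨a, (((w : rootsOfUnity n k) : kˣ) : k) * b, mul_ne_zero (Units.ne_zero _) hb, h1,
    Fermat.Agent.BAD.H28.vanAt_mul_sub (vanAt_const_sub s.1.2 _) h2, ?_⟩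
  rw [hab]
  simp only [Pi.mul_apply, Subgroup.coe_mul, Units.val_mul, InvMemClass.coe_inv]
  rw [mul_assoc, ← mul_assoc (((w : rootsOfUnity n k) : kˣ)⁻¹ : kˣ).1, ← Units.val_mul,
    inv_mul_cancel, Units.val_one, one_mul]

theorem unit_pow_eq_one {n : ℕ} (w : rootsOfUnity n k) :
    ((((w : rootsOfUnity n k) : kˣ) : k)) ^ n = 1 := by
  have h := (mem_rootsOfUnity n (w : kˣ)).mp w.2
  rw [← Units.val_pow_eq_pow_val, h, Units.val_one]

/-- Every triple as in `IsTor` has a glue vector. -/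
theorem exists_glueVec (H : FFHyp K F) (H₁ : FFHyp k F₁) (H₂ : FFHyp k F₂) {n : ℕ} (hn0 : n ≠ 0)
    {G : F} {ψ₁ : F₁} {ψ₂ : F₂} (hG : IsTor S n G ψ₁ ψ₂) :
    ∃ v : ↥S.nodes → rootsOfUnity n k, IsGlueVec S n ψ₁ ψ₂ v := by
  have hv₁ : ∀ s ∈ S.nodes, ∃ a : k, a ≠ 0 ∧ VanAt s.1 (ψ₁ - algebraMap k F₁ a) :=
    fun s hs => Fermat.Agent.BAD.H60.exists_value_ne_zero (H₁.deg_one s.1) (hG.ne₁ hn0)
      (hG.ord_eq_zero hn0 H.principal hs).1
  have hv₂ : ∀ s ∈ S.nodes, ∃ a : k, a ≠ 0 ∧ VanAt s.2 (ψ₂ - algebraMap k F₂ a) :=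
    fun s hs => Fermat.Agent.BAD.H60.exists_value_ne_zero (H₂.deg_one s.2) (hG.ne₂ hn0)
      (hG.ord_eq_zero hn0 H.principal hs).2
  choose! a₁ ha₁0 ha₁ using hv₁
  choose! a₂ ha₂0 ha₂ using hv₂
  have hζ : ∀ s ∈ S.nodes, (a₁ s / a₂ s) ^ n = 1 := by
    intro s hs
    obtain ⟨a, h1, h2⟩ := S.glue s hs G hG.gu₁.1 hG.gu₂.1 (fun P hPs => by
      rw [hG.node P ⟨s, hs, hPs⟩])
    rw [← S.c₁.rd_of_mem hG.gu₁.1, hG.rd₁] at h1
    rw [← S.c₂.rd_of_mem hG.gu₂.1, hG.rd₂] at h2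
    have e1 := value_unique s.1 h1 (Fermat.Agent.BAD.H60.vanAt_pow_sub (ha₁ s hs) n)
    have e2 := value_unique s.2 h2 (Fermat.Agent.BAD.H60.vanAt_pow_sub (ha₂ s hs) n)
    rw [div_pow, ← e1, ← e2, div_self]
    rw [e2]
    exact pow_ne_zero _ (ha₂0 s hs)
  have hζ0 : ∀ s ∈ S.nodes, a₁ s / a₂ s ≠ 0 := fun s hs =>
    div_ne_zero (ha₁0 s hs) (ha₂0 s hs)
  refine ⟨fun s => ⟨Units.mk0 (a₁ s.1 / a₂ s.1) (hζ0 s.1 s.2), ?_⟩, ?_⟩
  · rw [mem_rootsOfUnity]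
    apply Units.ext
    rw [Units.val_pow_eq_pow_val, Units.val_mk0, Units.val_one]
    exact hζ s.1 s.2
  · intro s
    refine ⟨a₁ s.1, a₂ s.1, ha₂0 s.1 s.2, ha₁ s.1 s.2, ha₂ s.1 s.2, ?_⟩
    show a₁ s.1 = a₁ s.1 / a₂ s.1 * a₂ s.1
    rw [div_mul_cancel₀ _ (ha₂0 s.1 s.2)]

/-- **The core**: a triple with constant glue vector is an `n`-th power. -/
theorem pow_of_glueVec_const [IsAlgClosed K] [Infinite k]
    (H : FFHyp K F) (H₁ : FFHyp k F₁) (H₂ : FFHyp k F₂)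
    (g g₁ g₂ : ℕ) (c c₁ c₂ : ℤ) (hR : IsGenus K F g c) (hR₁ : IsGenus k F₁ g₁ c₁)
    (hR₂ : IsGenus k F₂ g₂ c₂) (hnum : g + 1 ≤ g₁ + g₂ + S.nodes.card)
    (n : ℕ) (hn : (n : k) ≠ 0) {G : F} {ψ₁ : F₁} {ψ₂ : F₂} (hG : IsTor S n G ψ₁ ψ₂)
    (w : rootsOfUnity n k) (hv : IsGlueVec S n ψ₁ ψ₂ (fun _ => w)) :
    ∃ t : F, t ^ n = G := by
  have hTor' := hG.scale₂ (unit_pow_eq_one w)
  refine core Fermat.Agent.BAD.H28.stmt_GoodLift Fermat.Agent.BAD.H28.stmt_TIss S H H₁ H₂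
    g g₁ g₂ c c₁ c₂ hR hR₁ hR₂ hnum n hn hTor' ?_
  intro s hs
  obtain ⟨a, b, -, h1, h2, hab⟩ := hv ⟨s, hs⟩
  refine ⟨a, h1, ?_⟩
  rw [hab]
  exact Fermat.Agent.BAD.H28.vanAt_mul_sub (vanAt_const_sub s.2 _) h2

/-- The glue vectors of the triples `IsTor S n G ψ₁ ψ₂` with `G ∈ M` form a submonoid. -/
def glueSubmonoid (S : SSD K F k F₁ F₂) (n : ℕ) (M : Submonoid F) :
    Submonoid (↥S.nodes → rootsOfUnity n k) where
  carrier := {v | ∃ (G : F) (ψ₁ : F₁) (ψ₂ : F₂), G ∈ M ∧ IsTor S n G ψ₁ ψ₂ ∧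
    IsGlueVec S n ψ₁ ψ₂ v}
  one_mem' := ⟨1, 1, 1, M.one_mem, isTor_one n, isGlueVec_one n⟩
  mul_mem' := by
    rintro v v' ⟨G, ψ₁, ψ₂, hM, hT, hv⟩ ⟨G', ψ₁', ψ₂', hM', hT', hv'⟩
    exact ⟨G * G', ψ₁ * ψ₁', ψ₂ * ψ₂', M.mul_mem hM hM', hT.mul hT', hv.mul hv'⟩

theorem pi_pow_eq_one (n : ℕ) (v : ↥S.nodes → rootsOfUnity n k) : v ^ n = 1 := by
  funext s
  rw [Pi.pow_apply, Pi.one_apply]
  apply Subtype.ext
  rw [Subgroup.coe_pow, Subgroup.coe_one]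
  exact (mem_rootsOfUnity n _).mp (v s).2

/-- The glue vectors of the triples `IsTor S n G ψ₁ ψ₂` with `G ∈ M` form a subgroup. -/
def glueSubgroup (S : SSD K F k F₁ F₂) (n : ℕ) (hn0 : n ≠ 0) (M : Submonoid F) :
    Subgroup (↥S.nodes → rootsOfUnity n k) :=
  { glueSubmonoid S n M with
    inv_mem' := by
      intro v hv
      obtain ⟨n1, hn1⟩ : ∃ n1 : ℕ, n1 + 1 = n := ⟨n - 1, by omega⟩
      have h1 : v⁻¹ = v ^ n1 := by
        apply inv_eq_of_mul_eq_one_right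
        rw [← pow_succ', hn1]
        exact pi_pow_eq_one n v
      rw [h1]
      exact (glueSubmonoid S n M).pow_mem hv n1 }

theorem mem_glueSubgroup (n : ℕ) (hn0 : n ≠ 0) (M : Submonoid F)
    (v : ↥S.nodes → rootsOfUnity n k) :
    v ∈ glueSubgroup S n hn0 M ↔ ∃ (G : F) (ψ₁ : F₁) (ψ₂ : F₂), G ∈ M ∧ IsTor S n G ψ₁ ψ₂ ∧
      IsGlueVec S n ψ₁ ψ₂ v := Iff.rfl

end Glue

section Main

variable {K F k F₁ F₂ : Type} [Field K] [Field F] [Algebra K F] [Field k] [Field F₁]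
  [Algebra k F₁] [Field F₂] [Algebra k F₂]

/-- The `p`-torsion of `μ_n ^ nodes` has at most `p ^ δ` elements. -/
theorem card_torsion_pi_le (S : SSD K F k F₁ F₂) (n p : ℕ) (hn0 : n ≠ 0) (hp : p ≠ 0) :
    Nat.card {a : ↥S.nodes → rootsOfUnity n k // a ^ p = 1} ≤ p ^ S.nodes.card := by
  have : NeZero n := ⟨hn0⟩
  have : NeZero p := ⟨hp⟩
  have h1 : Nat.card (↥S.nodes → rootsOfUnity p k) ≤ p ^ S.nodes.card := by
    rw [Nat.card_fun, Nat.card_eq_fintype_card (α := ↥S.nodes), Fintype.card_coe]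
    exact Nat.pow_le_pow_left (card_rootsOfUnity k p) _
  refine le_trans (Nat.card_le_card_of_injective
    (fun a : {a : ↥S.nodes → rootsOfUnity n k // a ^ p = 1} =>
      (fun s => (⟨((a.1 s : rootsOfUnity n k) : kˣ), by
        rw [mem_rootsOfUnity]
        have h := congrArg (fun x : rootsOfUnity n k => (x : kˣ)) (congrFun a.2 s)
        simpa using h⟩ : rootsOfUnity p k))) ?_) h1
  intro a a' haa
  apply Subtype.ext
  funext s
  apply Subtype.ext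
  have h := congrArg (fun x : rootsOfUnity p k => (x : kˣ)) (congrFun haa s)
  exact h

/-- **ST-RANK (g)**: a large family of triples `IsTor S (p ^ e)`, pairwise distinct modulo
`p ^ e`-th powers, realises every vector `θ : nodes → μ_p` as a glue vector. -/
theorem exists_tor_of_count (S : SSD K F k F₁ F₂) [IsAlgClosed K] [IsAlgClosed k]
    (H : FFHyp K F) (H₁ : FFHyp k F₁) (H₂ : FFHyp k F₂)
    (g g₁ g₂ : ℕ) (c c₁ c₂ : ℤ) (hR : IsGenus K F g c) (hR₁ : IsGenus k F₁ g₁ c₁)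
    (hR₂ : IsGenus k F₂ g₂ c₂) (hnum : g + 1 ≤ g₁ + g₂ + S.nodes.card)
    (p e c' : ℕ) (hp : p.Prime) (hpk : (p : k) ≠ 0) (hce : c' < e) (M : Submonoid F)
    (T : Type) [Fintype T] (G : T → F) (ψ₁ : T → F₁) (ψ₂ : T → F₂) (hM : ∀ t, G t ∈ M)
    (hTor : ∀ t, IsTor S (p ^ e) (G t) (ψ₁ t) (ψ₂ t))
    (hinj : ∀ t t', (∃ h : F, h ^ (p ^ e) * G t' = G t) → t = t')
    (hcard : p ^ (2 * e * (S.nodes.card - 1)) ≤ p ^ (e + c') * Fintype.card T ^ 2)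
    (θ : Place k F₁ × Place k F₂ → k) (hθ : ∀ s ∈ S.nodes, θ s ^ p = 1) :
    ∃ (G' : F) (ψ₁' : F₁) (ψ₂' : F₂), G' ∈ M ∧ IsTor S (p ^ e) G' ψ₁' ψ₂' ∧
      ∀ s ∈ S.nodes, ∃ a b : k, b ≠ 0 ∧ VanAt s.1 (ψ₁' - algebraMap k F₁ a) ∧
        VanAt s.2 (ψ₂' - algebraMap k F₂ b) ∧ a = θ s * b := by
  set n : ℕ := p ^ e with hn
  have hn0 : n ≠ 0 := pow_ne_zero _ hp.ne_zero
  have hnk : (n : k) ≠ 0 := by
    rw [hn, Nat.cast_pow]
    exact pow_ne_zero _ hpk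
  have : NeZero n := ⟨hn0⟩
  have : NeZero (n : k) := ⟨hnk⟩
  have hμ : Nat.card (rootsOfUnity n k) = n := HasEnoughRootsOfUnity.natCard_rootsOfUnity k n
  obtain ⟨n1, hn1⟩ : ∃ n1 : ℕ, n1 + 1 = n := ⟨n - 1, by omega⟩
  -- glue vectors of the family
  have hex : ∀ t, ∃ v, IsGlueVec S n (ψ₁ t) (ψ₂ t) v :=
    fun t => exists_glueVec H H₁ H₂ hn0 (hTor t)
  choose V hV using hex
  set Γ := glueSubgroup S n hn0 M with hΓ
  -- the injection
  have hmemΓ : ∀ (t : T) (w : rootsOfUnity n k), (V t * fun _ => w⁻¹) ∈ Γ := fun t w =>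
    ⟨G t, ψ₁ t, _, hM t, (hTor t).scale₂ (unit_pow_eq_one w), (hV t).scale₂ w⟩
  have hinjΓ : Function.Injective (fun x : T × rootsOfUnity n k =>
      (⟨V x.1 * fun _ => x.2⁻¹, hmemΓ x.1 x.2⟩ : ↥Γ)) := by
    rintro ⟨t, w⟩ ⟨t', w'⟩ hx
    have hx' : V t * (fun _ => w⁻¹) = V t' * fun _ => w'⁻¹ := congrArg Subtype.val hx
    have hinv : (V t')⁻¹ = V t' ^ n1 := by
      apply inv_eq_of_mul_eq_one_right
      rw [← pow_succ', hn1]
      exact pi_pow_eq_one n _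
    have hconst : V t * V t' ^ n1 = fun _ => w * w'⁻¹ := by
      rw [← hinv]
      funext s
      have hs := congrFun hx' s
      simp only [Pi.mul_apply, Pi.inv_apply] at hs ⊢
      rw [mul_inv_eq_iff_eq_mul] at hs
      rw [hs]
      calc V t' s * w'⁻¹ * w * (V t' s)⁻¹ = (V t' s * (V t' s)⁻¹) * (w * w'⁻¹) := by ac_rfl
        _ = w * w'⁻¹ := by rw [mul_inv_cancel, one_mul]
    have hT2 : IsTor S n (G t * G t' ^ n1) (ψ₁ t * ψ₁ t' ^ n1) (ψ₂ t * ψ₂ t' ^ n1) :=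
      (hTor t).mul ((hTor t').pow n1)
    have hV2 : IsGlueVec S n (ψ₁ t * ψ₁ t' ^ n1) (ψ₂ t * ψ₂ t' ^ n1) (V t * V t' ^ n1) :=
      (hV t).mul ((hV t').pow n1)
    rw [hconst] at hV2
    obtain ⟨h, hh⟩ := pow_of_glueVec_const H H₁ H₂ g g₁ g₂ c c₁ c₂ hR hR₁ hR₂ hnum n hnk hT2
      _ hV2
    have hG0 : G t' ≠ 0 := (hTor t').gu₁.ne_zero
    have htt : t = t' := hinj t t' ⟨h / G t', by
      rw [div_pow, hh, ← hn1, pow_succ]
      field_simp⟩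
    subst htt
    obtain ⟨s₀, hs₀⟩ := S.nodes_nonempty
    have hs := congrFun hx' ⟨s₀, hs₀⟩
    simp only [Pi.mul_apply] at hs
    have hw : w⁻¹ = w'⁻¹ := mul_left_cancel hs
    rw [inv_inj] at hw
    rw [hw]
  have hcardΓ : Fintype.card T * n ≤ Nat.card Γ := by
    have h1 := Nat.card_le_card_of_injective _ hinjΓ
    rwa [Nat.card_prod, Nat.card_eq_fintype_card, hμ] at h1
  have hδ : 1 ≤ S.nodes.card := Finset.card_pos.mpr S.nodes_nonempty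
  have hcard2 : p ^ (2 * e * S.nodes.card) ≤ p ^ (e + c') * (Nat.card Γ) ^ 2 := by
    obtain ⟨d', hd'⟩ : ∃ d', S.nodes.card = d' + 1 := ⟨S.nodes.card - 1, by omega⟩
    rw [hd'] at hcard ⊢
    rw [Nat.add_sub_cancel] at hcard
    calc p ^ (2 * e * (d' + 1)) = p ^ (2 * e * d') * (p ^ e) ^ 2 := by
          rw [← pow_mul, ← pow_add]
          ring_nf
      _ ≤ p ^ (e + c') * Fintype.card T ^ 2 * (p ^ e) ^ 2 := Nat.mul_le_mul_right _ hcard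
      _ = p ^ (e + c') * (Fintype.card T * n) ^ 2 := by
          rw [hn]
          ring
      _ ≤ p ^ (e + c') * (Nat.card Γ) ^ 2 :=
          Nat.mul_le_mul_left _ (Nat.pow_le_pow_left hcardΓ 2)
  have hexp : ∀ γ ∈ Γ, γ ^ (p ^ e) = 1 := fun γ _ => pi_pow_eq_one n γ
  have hA := card_torsion_pi_le S n p hn0 hp.ne_zero
  have key := torsion_le_of_card p e c' S.nodes.card hp Γ hexp hA hcard2 hce
  -- `θ` as a vector of roots of unity
  have hθn : ∀ s ∈ S.nodes, θ s ^ n = 1 := by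
    intro s hs
    obtain ⟨e1, he1⟩ : ∃ e1, e = e1 + 1 := ⟨e - 1, by omega⟩
    rw [hn, he1, pow_succ', pow_mul, hθ s hs, one_pow]
  have hθ0 : ∀ s ∈ S.nodes, θ s ≠ 0 := by
    intro s hs h0
    have h1 := hθ s hs
    rw [h0, zero_pow hp.ne_zero] at h1
    exact zero_ne_one h1
  set a : ↥S.nodes → rootsOfUnity n k := fun s => ⟨Units.mk0 (θ s.1) (hθ0 s.1 s.2), by
    rw [mem_rootsOfUnity]
    apply Units.ext
    rw [Units.val_pow_eq_pow_val, Units.val_mk0, Units.val_one]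
    exact hθn s.1 s.2⟩ with ha
  have hap : a ^ p = 1 := by
    funext s
    apply Subtype.ext
    apply Units.ext
    rw [Pi.pow_apply, Pi.one_apply, Subgroup.coe_pow, Subgroup.coe_one, Units.val_pow_eq_pow_val,
      Units.val_one]
    exact hθ s.1 s.2
  obtain ⟨G', ψ₁', ψ₂', hM', hT', hv'⟩ := key a hap
  refine ⟨G', ψ₁', ψ₂', hM', hT', fun s hs => ?_⟩
  obtain ⟨x, y, hy, h1, h2, hxy⟩ := hv' ⟨s, hs⟩
  exact ⟨x, y, hy, h1, h2, hxy⟩

end Main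

end Fermat.Agent.S59.LL.SQ.H83
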