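import Fermat.Agent.S36.NU.H10_Top
import Fermat.Agent.S59.LL.SQ.H96_TI3Mod
attribute [local instance 10000] SubalgebraClass.toAlgebra
attribute [local instance 10000] HahnSeries.powerSeriesAlgebra

/-!
# S59, package LL / SQ, step (T′) tame assembly, leaf G2 GEN-MOD (helper84)

Level `N = M q²`, `q ∤ M` tame, `A` a valuation ring of `ℚ̄` over `q`, `D` a modular datum
(`H79.IsNuM`, e.g. `H79.nuM`).

**GEN-MOD**: for every `n > 0` and every `I`-fixed function `H` of level `M q²` which is a unit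
for the three valuations (`∀ i, D.T.rdN i H ≠ 0`) and whose divisor over `ℚ̄` is divisible by
`n`, there is a local generator of `H` at every triple point `z ∈ D.SS = ssM`:
`∃ s, D.IsGen n z H s`.

This is helper24's `H24.exists_isGen` in the chart of `j` (`H88.chart0`), with (HOR) of exponent
`1` (helper64's HOR1, in the form `H96.hor1_inst`) and the point data of the chart of `j`
(`H10.TopInputs.hpt0`).

* `genMod_of_pt0` : from `PointData chart0 D q`;
* `genMod_of_top` : from `H10.TopInputs`;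
* `genMod_unit3`  : the same with `H10.IsUnit3` in place of `∀ i, D.T.rdN i H ≠ 0`;
* `Stmt_GenMod`, `stmt_GenMod_of` : the statement for all modular data at one level.
-/

set_option autoImplicit false
set_option synthInstance.maxHeartbeats 400000
set_option maxHeartbeats 1000000
set_option linter.style.haveILetI false
set_option linter.unusedSectionVars false

noncomputable section

open ModularCurve AlgebraicCurve IntermediateField

attribute [local instance] Classical.propDecidable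

namespace Fermat.Agent.S59.LL.SQ.H84

open Fermat.Agent.S24 Fermat.Agent.BAD Fermat.Agent.BAD.H88 Fermat.Agent.S28 Fermat.Agent.S28.H73
  Fermat.Agent.S36.NU.H23
  Fermat.Agent.S36.NU.H41 Fermat.Agent.S36.NU.H88 Fermat.Agent.S36.NU.H16
  Fermat.Agent.S36.NU.H17 Fermat.Agent.S36.NU.H24 Fermat.Agent.S36.NU.H79
  Fermat.Agent.S36.NU.H65 Fermat.Agent.S36.NU.H74 Fermat.Agent.S36.NU.H10
  Fermat.Agent.Lib.HeckeComm

section GenMod

variable (A : ValuationSubring Kbar) (q M : ℕ) (B k : ℤ) (hB : B * M + k * q = 1) (hq : q.Prime)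
  [NeZero M] [NeZero q] [NeZero (M * q)] [NeZero (M * q * q)]
  (hqM : ¬ q ∣ M) (hA : A.LiesOverPrime q) (ht : H91.TameAt M q)

attribute [local instance] algkM

/-- **GEN-MOD from the point data of the chart of `j`**: local generators at the triple
points. -/
theorem genMod_of_pt0 (D : NUDataM A q M) (hD : IsNuM A q M B k hB hq hqM hA ht D)
    (hpt0 : PointData (chart0 A q M B k hB hq hqM hA ht) D ((q : ℕ) : ↥(Rur A)))
    (n : ℕ) (hn : 0 < n) (H : ↥(L0 A (M * q * q))) (hu : ∀ i, D.T.rdN i H ≠ 0)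
    (hdiv : ∀ P : Place Kbar (FN (M * q * q)), (n : ℤ) ∣ P.ord (H : FN (M * q * q)))
    (z : Place (kV A) (FM A M)) (hz : z ∈ D.SS) : ∃ s, D.IsGen n z H s := by
  haveI : IsAlgClosed (kV A) := Fermat.Agent.RED.H73.isAlgClosed_kV A
  haveI : Infinite (kV A) := IsAlgClosed.instInfinite
  haveI : IsNoetherianRing ↥(chart0 A q M B k hB hq hqM hA ht).B :=
    isNoetherianRing_chart0 A q M hq hA
  haveI : IsFractionRing ↥(chart0 A q M B k hB hq hqM hA ht).B ↥(L0 A (M * q * q)) :=
    isFractionRing_chart0 A q M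
  have hT := hD.hT
  have hSSeq := hD.hSS
  have H0 : H ≠ 0 := by
    intro h0
    apply hu D.i₂₀
    rw [h0, D.T.rdN_of_mem (D.T.V _).zero_mem]
    exact map_zero _
  have hc0 : Compat (chart0 A q M B k hB hq hqM hA ht) D.T := by
    rw [hT]; exact compat_chart0 A q M B k hB hq hqM hA ht
  have hSS0 : ∀ z ∈ D.SS, InChart (chart0 A q M B k hB hq hqM hA ht) D.T z := by
    rw [hT, hSSeq]
    exact inChart_ssM A q M B k hB hq hqM hA ht _ rfl
  have hHOR0 : HOR (chart0 A q M B k hB hq hqM hA ht) ((q : ℕ) : ↥(Rur A)) n H :=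
    Fermat.Agent.S59.LL.SQ.H96.hor1_inst (M * q * q)
      (Fermat.Agent.S59.LL.SQ.H96.stmt_HOR1_all _) A q hq hA n H H0 hdiv _
  exact exists_isGen D hc0 (Fermat.Agent.S36.NU.H74.hasPrincipalDivisors_FN (M * q * q))
    ((q : ℕ) : ↥(Rur A)) hn hHOR0 hpt0 hu hz (hSS0 z hz)

/-- **GEN-MOD from `TopInputs`.** -/
theorem genMod_of_top (D : NUDataM A q M) (hD : IsNuM A q M B k hB hq hqM hA ht D)
    (hI : TopInputs A q M B k hB hq hqM hA ht D)
    (n : ℕ) (hn : 0 < n) (H : ↥(L0 A (M * q * q))) (hu : ∀ i, D.T.rdN i H ≠ 0)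
    (hdiv : ∀ P : Place Kbar (FN (M * q * q)), (n : ℤ) ∣ P.ord (H : FN (M * q * q)))
    (z : Place (kV A) (FM A M)) (hz : z ∈ D.SS) : ∃ s, D.IsGen n z H s :=
  genMod_of_pt0 A q M B k hB hq hqM hA ht D hD hI.hpt0 n hn H hu hdiv z hz

/-- **GEN-MOD for units of the three valuations** (`H10.IsUnit3`). -/
theorem genMod_unit3 (D : NUDataM A q M) (hD : IsNuM A q M B k hB hq hqM hA ht D)
    (hpt0 : PointData (chart0 A q M B k hB hq hqM hA ht) D ((q : ℕ) : ↥(Rur A)))
    (n : ℕ) (hn : 0 < n) (H : ↥(L0 A (M * q * q))) (H0 : H ≠ 0)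
    (hU : IsUnit3 A q M B k hB hq H)
    (hdiv : ∀ P : Place Kbar (FN (M * q * q)), (n : ℤ) ∣ P.ord (H : FN (M * q * q)))
    (z : Place (kV A) (FM A M)) (hz : z ∈ D.SS) : ∃ s, D.IsGen n z H s := by
  refine genMod_of_pt0 A q M B k hB hq hqM hA ht D hD hpt0 n hn H (fun i => ?_) hdiv z hz
  have hT := hD.hT
  rw [hT]
  exact Fermat.Agent.S36.NU.H15.hunit_totM A q M B k hB hq hqM hA ht H H0 hU i

/-- **The statement GEN-MOD** at the level `M q²`, for a modular datum `D`. -/
def Stmt_GenMod (D : NUDataM A q M) : Prop :=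
  ∀ n : ℕ, 0 < n → ∀ H : ↥(L0 A (M * q * q)), (∀ i, D.T.rdN i H ≠ 0) →
    (∀ P : Place Kbar (FN (M * q * q)), (n : ℤ) ∣ P.ord (H : FN (M * q * q))) →
    ∀ z ∈ D.SS, ∃ s, D.IsGen n z H s

/-- **GEN-MOD** from `TopInputs`. -/
theorem stmt_GenMod_of (D : NUDataM A q M) (hD : IsNuM A q M B k hB hq hqM hA ht D)
    (hI : TopInputs A q M B k hB hq hqM hA ht D) : Stmt_GenMod A q M D :=
  fun n hn H hu hdiv z hz => genMod_of_top A q M B k hB hq hqM hA ht D hD hI n hn H hu hdiv z hz

end GenMod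

end Fermat.Agent.S59.LL.SQ.H84
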