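import Mathlib

/-!
# S59 / LL / SQ, leaf (R), hypothesis CPOW2002 (helper87): the abstract steps

Generic lemmas (no modular curves) for `H87_CPow.lean`:

* `cpa_val_eq_one` : an element of a valuation ring with non-zero reduction has valuation `1`;
* `cpa_red_unit_form` : the reduction of `c' g' ^ p` (`c'` a unit constant, `g'` a unit) is
  `res c' · (red g') ^ p`, both factors non-zero;
* `cpa_pow_of_phi` : if `φ x = c₁ G ^ p` for a semilinear automorphism `φ` acting on the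
  constants by `c ↦ c ^ q` over an algebraically closed field then `x = a y ^ p`;
* `cpa_coe_const_mul_pow` : the coercion of `a y ^ p` from an intermediate field.

This file contains no `sorry`.
-/

set_option autoImplicit false

namespace Fermat.Agent.S59.LL.SQ.H87

section Abs

variable {K F : Type*} [Field K] [Field F] [Algebra K F]
variable {κ E₁ : Type*} [Field κ] [Field E₁] [Algebra κ E₁]

/-- An element of a valuation ring with non-zero reduction has valuation `1`. -/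
theorem cpa_val_eq_one (W : ValuationSubring F) (red : ↥W →+* E₁)
    (hred : ∀ u : ↥W, red u = 0 ↔ u ∈ IsLocalRing.maximalIdeal ↥W)
    (n : F) (hn : n ∈ W) (h : red ⟨n, hn⟩ ≠ 0) : W.valuation n = 1 := by
  have hunit : IsUnit (⟨n, hn⟩ : ↥W) := by
    by_contra hnu
    exact h ((hred _).2 ((IsLocalRing.mem_maximalIdeal _).2 hnu))
  exact (W.valuation_eq_one_iff ⟨n, hn⟩).1 hunit

/-- The reduction of a unit is non-zero. -/
theorem cpa_red_ne_zero (W : ValuationSubring F) (red : ↥W →+* E₁)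
    (hred : ∀ u : ↥W, red u = 0 ↔ u ∈ IsLocalRing.maximalIdeal ↥W)
    (n : F) (hn : n ∈ W) (h : W.valuation n = 1) : red ⟨n, hn⟩ ≠ 0 := by
  intro h0
  have h1 := (hred _).1 h0
  exact ((IsLocalRing.mem_maximalIdeal _).1 h1) ((W.valuation_eq_one_iff ⟨n, hn⟩).2 h)

/-- The reduction of `c' g' ^ p`, with a unit constant `c'` and a unit `g'`. -/
theorem cpa_red_unit_form (A : ValuationSubring K) (W : ValuationSubring F)
    (res : ↥A →+* κ) (hres : ∀ c : ↥A, IsUnit c → res c ≠ 0)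
    (red : ↥W →+* E₁)
    (hred : ∀ u : ↥W, red u = 0 ↔ u ∈ IsLocalRing.maximalIdeal ↥W)
    (hmem : ∀ c : K, c ∈ A → algebraMap K F c ∈ W)
    (hconst : ∀ (c : ↥A) (h : algebraMap K F (c : K) ∈ W),
      red ⟨_, h⟩ = algebraMap κ E₁ (res c))
    (p : ℕ) (c' : K) (g' : F) (hc' : A.valuation c' = 1) (hg' : W.valuation g' = 1)
    (n : F) (hn : n ∈ W) (hne : n = algebraMap K F c' * g' ^ p) :
    ∃ (c₁ : κ) (G : E₁), c₁ ≠ 0 ∧ G ≠ 0 ∧ red ⟨n, hn⟩ = algebraMap κ E₁ c₁ * G ^ p := by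
  have hc'A : c' ∈ A := (A.valuation_le_one_iff c').1 hc'.le
  have hc'W : algebraMap K F c' ∈ W := hmem c' hc'A
  have hg'W : g' ∈ W := (W.valuation_le_one_iff g').1 hg'.le
  have hc'u : IsUnit (⟨c', hc'A⟩ : ↥A) := (A.valuation_eq_one_iff ⟨c', hc'A⟩).2 hc'
  refine ⟨res ⟨c', hc'A⟩, red ⟨g', hg'W⟩, hres _ hc'u,
    cpa_red_ne_zero W red hred g' hg'W hg', ?_⟩
  have hprod : (⟨n, hn⟩ : ↥W) = ⟨algebraMap K F c', hc'W⟩ * ⟨g', hg'W⟩ ^ p := by
    apply Subtype.ext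
    rw [MulMemClass.coe_mul, SubmonoidClass.coe_pow]
    exact hne
  rw [hprod, map_mul, map_pow]
  exact congrArg (· * red ⟨g', hg'W⟩ ^ p) (hconst ⟨c', hc'A⟩ hc'W)

variable {E : Type*} [Field E] [Algebra κ E]

/-- If `φ x = c₁ G ^ p`, where `φ` acts on the constants by `c ↦ c ^ q`, then `x = a y ^ p`. -/
theorem cpa_pow_of_phi [IsAlgClosed κ] (φ : E ≃+* E) (q : ℕ) (hq : 0 < q)
    (hφ : ∀ c : κ, φ (algebraMap κ E c) = algebraMap κ E (c ^ q))
    (p : ℕ) (x : E) (c₁ : κ) (G : E) (hc₁ : c₁ ≠ 0) (hG : G ≠ 0)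
    (hx : φ x = algebraMap κ E c₁ * G ^ p) :
    ∃ (a : κ) (y : E), a ≠ 0 ∧ y ≠ 0 ∧ x = algebraMap κ E a * y ^ p := by
  obtain ⟨a, ha⟩ := IsAlgClosed.exists_pow_nat_eq c₁ hq
  refine ⟨a, φ.symm G, ?_, ?_, ?_⟩
  · rintro rfl
    rw [zero_pow hq.ne'] at ha
    exact hc₁ ha.symm
  · intro h0
    exact hG (by rw [← φ.apply_symm_apply G, h0, map_zero])
  · apply φ.injective
    rw [hx, map_mul, map_pow, RingEquiv.apply_symm_apply, hφ, ha]

/-- The chain of the abstract steps: from `φ x = j (red n)`, `n = c' g' ^ p` with units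
`c'`, `g'`, to `x = a y ^ p`. -/
theorem cpa_main [IsAlgClosed κ] (A : ValuationSubring K) (W : ValuationSubring F)
    (res : ↥A →+* κ) (hres : ∀ c : ↥A, IsUnit c → res c ≠ 0)
    (red : ↥W →+* E₁)
    (hred : ∀ u : ↥W, red u = 0 ↔ u ∈ IsLocalRing.maximalIdeal ↥W)
    (hmem : ∀ c : K, c ∈ A → algebraMap K F c ∈ W)
    (hconst : ∀ (c : ↥A) (h : algebraMap K F (c : K) ∈ W),
      red ⟨_, h⟩ = algebraMap κ E₁ (res c))
    (j : E₁ →ₐ[κ] E) (φ : E ≃+* E) (q : ℕ) (hq : 0 < q)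
    (hφ : ∀ c : κ, φ (algebraMap κ E c) = algebraMap κ E (c ^ q))
    (p : ℕ) (c' : K) (g' : F) (hc' : A.valuation c' = 1) (hg' : W.valuation g' = 1)
    (n : F) (hn : n ∈ W) (hne : n = algebraMap K F c' * g' ^ p)
    (x : E) (hx : φ x = j (red ⟨n, hn⟩)) :
    ∃ (a : κ) (y : E), a ≠ 0 ∧ y ≠ 0 ∧ x = algebraMap κ E a * y ^ p := by
  obtain ⟨c₁, G, hc₁, hG, e⟩ :=
    cpa_red_unit_form A W res hres red hred hmem hconst p c' g' hc' hg' n hn hne
  refine cpa_pow_of_phi φ q hq hφ p x c₁ (j G) hc₁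
    ((map_ne_zero_iff _ j.injective).2 hG) ?_
  rw [hx, e, map_mul, map_pow, AlgHom.commutes]

/-- `x ≠ 0` and `φ x = j (red n)` give `v(n) = 1`. -/
theorem cpa_unit (W : ValuationSubring F) (red : ↥W →+* E₁)
    (hred : ∀ u : ↥W, red u = 0 ↔ u ∈ IsLocalRing.maximalIdeal ↥W)
    (j : E₁ →ₐ[κ] E) (φ : E ≃+* E) (n : F) (hn : n ∈ W)
    (x : E) (hx0 : x ≠ 0) (hx : φ x = j (red ⟨n, hn⟩)) : W.valuation n = 1 := by
  apply cpa_val_eq_one W red hred n hn
  intro h0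
  rw [h0, map_zero] at hx
  exact hx0 ((map_eq_zero_iff _ φ.injective).1 hx)

/-- The coercion of `a y ^ p` from an intermediate field. -/
theorem cpa_coe_const_mul_pow {L : Type*} [Field L] [Algebra κ L] (S : IntermediateField κ L)
    (a : κ) (y : ↥S) (p : ℕ) :
    ((algebraMap κ ↥S a * y ^ p : ↥S) : L) = algebraMap κ L a * (y : L) ^ p := by
  rw [IntermediateField.coe_mul, IntermediateField.coe_pow]
  rfl

end Abs

end Fermat.Agent.S59.LL.SQ.H87
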