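import Fermat.Agent.S36.NU.H89_NmN3
import Fermat.Agent.S36.NU.H51_ValVecLow
import Fermat.Agent.S36.NU.H10_FinTopDefs
import Fermat.Agent.S59.LL.SQ.H87_CPowAbs
attribute [local instance 10000] SubalgebraClass.toAlgebra
attribute [local instance 10000] HahnSeries.powerSeriesAlgebra

/-!
# S59 / LL / SQ, leaf (R), hypothesis CPOW2002 (helper87): B2 at the components `20` and `02`

Level `N = M q²`, `q ∤ M`, `A` over `q`.  Let `h` be an inertia-fixed function of level `N` whose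
norms along `α`, `β : F_{M q} → F_N` are constants times `p`-th powers (`H10.IsNormPow0`: the
case of a Kummer function of a `q`-new class).

* `exists_unit_form` : a unit `c g ^ p` (`c` an inertia-fixed constant, `g` inertia-fixed) of a
  valuation with values in `v(q)^ℤ` is `c' g' ^ p` with units `c'`, `g'`;
* `cpow02` : if `h` is a unit at `V₀₂` then `s₀₂ h = c · (s₀₂ g) ^ p`
  (from `N_α`: `red₂ (N_α h) = φ (r₀₂ h)`, helper69's NORM-RED `serA2`);
* `cpow20` : if `h` is a unit at `V₂₀` then `s₂₀ h = c · (s₂₀ g) ^ p`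
  (from `N_β`: `red₁ (N_β h) = φ (r₂₀ h)`, `serB1`).

No tameness hypothesis and no `NUData` are needed.  This file contains no `sorry`.
-/

set_option autoImplicit false
set_option synthInstance.maxHeartbeats 400000
set_option maxHeartbeats 1000000
set_option linter.style.haveILetI false
set_option linter.unusedSectionVars false

noncomputable section

open ModularCurve AlgebraicCurve
open Fermat.Agent.S24 Fermat.Agent.BAD.H88 Fermat.Agent.S28 Fermat.Agent.S28.H73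
open Fermat.Agent.RED.H73 Fermat.Agent.RED.H17 Fermat.Agent.S36.NU.H88
open Fermat.Agent.Lib.HeckeComm Fermat.Agent.S36.NU.H23 Fermat.Agent.S36.NU.H89
open Fermat.Agent.S36.NU.H51 Fermat.Agent.S36.NU.H82 Fermat.Agent.S36.NU.H10

namespace Fermat.Agent.S59.LL.SQ.H87

/-! ## Scaling -/

section Scale

variable (A : ValuationSubring Kbar) {N : ℕ} [NeZero N] {q : ℕ}

/-- A unit `c g ^ p`, with `c` an inertia-fixed constant and `g` inertia-fixed, is `c' g' ^ p`
with units `c'` and `g'`. -/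
theorem exists_unit_form (hq : q.Prime) (hA : A.LiesOverPrime q)
    {W : ValuationSubring (FN N)} (hW : IsLowVal A N q W) (p : ℕ) (hp : 0 < p)
    (c : Kbar) (g : FN N) (hc : ∀ σ ∈ A.inertiaSubgroupIn ℚ, σ c = c) (hg : g ∈ L0 A N)
    (hu : W.valuation (algebraMap Kbar (FN N) c * g ^ p) = 1) :
    ∃ (c' : Kbar) (g' : FN N), A.valuation c' = 1 ∧ W.valuation g' = 1 ∧
      algebraMap Kbar (FN N) c * g ^ p = algebraMap Kbar (FN N) c' * g' ^ p := by
  have hc0 : c ≠ 0 := by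
    rintro rfl
    rw [map_zero, zero_mul, map_zero] at hu
    exact zero_ne_one hu
  have hg0 : g ≠ 0 := by
    rintro rfl
    rw [zero_pow hp.ne', mul_zero, map_zero] at hu
    exact zero_ne_one hu
  obtain ⟨m, hm⟩ := valuation_Kur A hq hA c hc hc0
  obtain ⟨j, hj⟩ := hW.exact g hg hg0
  have hqK0 : (q : Kbar) ≠ 0 := by exact_mod_cast hq.ne_zero
  have hqF0 : ((q : ℕ) : FN N) ≠ 0 := by
    have e : ((q : ℕ) : FN N) = algebraMap Kbar (FN N) (q : Kbar) := (map_natCast _ q).symm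
    rw [e]
    exact (map_ne_zero _).2 hqK0
  have hvq0 : W.valuation ((q : ℕ) : FN N) ≠ 0 := (Valuation.ne_zero_iff _).2 hqF0
  have hvq1 : W.valuation ((q : ℕ) : FN N) ≠ 1 := (hW.val_q_lt_one hA).ne
  have hAq0 : A.valuation (q : Kbar) ≠ 0 := (Valuation.ne_zero_iff _).2 hqK0
  -- the value of the constant
  have hcW : W.valuation (algebraMap Kbar (FN N) c) = W.valuation ((q : ℕ) : FN N) ^ m := by
    have h1 : A.valuation c = A.valuation ((q : Kbar) ^ m) := by rw [map_zpow₀]; exact hm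
    have h2 := val_algebraMap_congr A W hW.const h1
    rw [h2, map_zpow₀, map_natCast, map_zpow₀]
  -- `m + j p = 0`
  have hsum : m + j * p = 0 := by
    have h1 : W.valuation ((q : ℕ) : FN N) ^ (m + j * p) = 1 := by
      rw [zpow_add₀ hvq0, zpow_mul, zpow_natCast, ← hcW, ← hj, ← map_pow, ← map_mul]
      exact hu
    exact (zpow_eq_one_iff_right₀ zero_le hvq1).1 h1
  refine ⟨c * (q : Kbar) ^ (j * p), g * ((q : ℕ) : FN N) ^ (-j), ?_, ?_, ?_⟩
  · rw [map_mul, map_zpow₀, hm, ← zpow_add₀ hAq0, hsum, zpow_zero]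
  · rw [map_mul, map_zpow₀, hj, ← zpow_add₀ hvq0, add_neg_cancel, zpow_zero]
  · have e : algebraMap Kbar (FN N) ((q : Kbar) ^ (j * p)) = ((q : ℕ) : FN N) ^ (j * p) := by
      rw [map_zpow₀, map_natCast]
    rw [map_mul, e, mul_pow, ← zpow_natCast (((q : ℕ) : FN N) ^ (-j)) p, ← zpow_mul]
    have e2 : ((q : ℕ) : FN N) ^ (j * p) * ((q : ℕ) : FN N) ^ (-j * (p : ℤ)) = 1 := by
      rw [← zpow_add₀ hqF0]
      have : j * (p : ℤ) + -j * (p : ℤ) = 0 := by ring
      rw [this, zpow_zero]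
    calc algebraMap Kbar (FN N) c * g ^ p
        = algebraMap Kbar (FN N) c * g ^ p
            * (((q : ℕ) : FN N) ^ (j * p) * ((q : ℕ) : FN N) ^ (-j * (p : ℤ))) := by
          rw [e2, mul_one]
      _ = algebraMap Kbar (FN N) c * ((q : ℕ) : FN N) ^ (j * p)
            * (g ^ p * ((q : ℕ) : FN N) ^ (-j * (p : ℤ))) := by ring

end Scale

/-! ## The two components -/

section CPow

variable (A : ValuationSubring Kbar) (q M : ℕ) (B k : ℤ) (hB : B * M + k * q = 1) (hq : q.Prime)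
  [NeZero M] [NeZero q] [NeZero (M * q * q)] [NeZero (M * q)] (hqM : ¬ q ∣ M)
  (hA : A.LiesOverPrime q)

/-- `φ` on the constants. -/
theorem phiM_const (c : kV A) :
    phiM A q M hq hqM hA (algebraMap (kV A) (FM A M) c)
      = algebraMap (kV A) (FM A M) (c ^ q) := by
  have e := @Fermat.Agent.BAD.H73.frobE_algebraMap (kV A) _ q ⟨hq⟩
    (Fermat.Agent.BAD.H82.charP_kV A hq hA)
    (@Fermat.Agent.BAD.H73.perfectRing_kV _ _ _ A q ⟨hq⟩
      (Fermat.Agent.BAD.H82.charP_kV A hq hA)) _ (frobStable_FM A q M hq hqM hA) c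
  rw [frobeniusEquiv_apply] at e
  exact e

/-- The residue map of `A` does not vanish at the units. -/
theorem resV_ne_zero (c : ↥A) (hc : IsUnit c) : resV A c ≠ 0 :=
  (IsLocalRing.residue_ne_zero_iff_isUnit _).2 hc

/-- The constants of `V₁`. -/
theorem const_mem_V1 (c : Kbar) (hc : c ∈ A) : algebraMap Kbar (FN (M * q)) c ∈ V1 A q M :=
  (const_mem1 A q M c).2 hc

/-- The constants of `V₂`. -/
theorem const_mem_V2 (c : Kbar) (hc : c ∈ A) :
    algebraMap Kbar (FN (M * q)) c ∈ V2 A q M k B (hab_of_hB q M B k hB) hq :=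
  (const_mem2 A q M k B (hab_of_hB q M B k hB) hq c).2 ((const_mem1 A q M c).2 hc)

/-- The reduction of the constants at `V₂`. -/
theorem red2_const' (c : ↥A)
    (h : algebraMap Kbar (FN (M * q)) (c : Kbar) ∈ V2 A q M k B (hab_of_hB q M B k hB) hq) :
    red2 A q M k B (hab_of_hB q M B k hB) hq ⟨_, h⟩
      = algebraMap (kV A) (F1 A q M) (resV A c) := by
  have h1 : algebraMap Kbar (FN (M * q)) (c : Kbar) ∈ V1 A q M := const_mem_V1 A q M c c.2
  rw [const_red2 A q M k B (hab_of_hB q M B k hB) hq (c : Kbar) h1 h]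
  exact red1_const A q M c h1

include hq hqM hA in
/-- **CPOW at `V₀₂`**, residue form. -/
theorem cpow02_r (p : ℕ) (hp : 0 < p) (h : ↥(L0 A (M * q * q))) (h02 : h ∈ V02o A q M B k hB)
    (hr0 : r02 A q M B k hB hq hqM hA ⟨h, h02⟩ ≠ 0)
    (hN : IsNormPow0 A q M (heckeAlphaBar Kbar (M * q) q) p (h : FN (M * q * q))) :
    ∃ (a : kV A) (y : FM A M), a ≠ 0 ∧ y ≠ 0 ∧
      r02 A q M B k hB hq hqM hA ⟨h, h02⟩ = algebraMap (kV A) (FM A M) a * y ^ p := by
  obtain ⟨hm, hser⟩ := serA2 A q M B k hB hq hqM hA h h02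
  obtain ⟨c, g, hc, hg, hNe⟩ := hN
  have hNe' : NalphaM A q M h = algebraMap Kbar (FN (M * q)) c * g ^ p := hNe
  have hx : phiM A q M hq hqM hA (r02 A q M B k hB hq hqM hA ⟨h, h02⟩)
      = cF1 A q M B k hB hq hA
          (red2 A q M k B (hab_of_hB q M B k hB) hq ⟨NalphaM A q M h, hm⟩) :=
    Subtype.ext (hser.symm.trans (coe_cF1 A q M B k hB hq hA _).symm)
  have hu := cpa_unit (V2 A q M k B (hab_of_hB q M B k hB) hq)
    (red2 A q M k B (hab_of_hB q M B k hB) hq)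
    (red2_eq_zero_iff A q M k B (hab_of_hB q M B k hB) hq)
    (cF1 A q M B k hB hq hA) (phiM A q M hq hqM hA) (NalphaM A q M h) hm _ hr0 hx
  rw [hNe'] at hu
  obtain ⟨c', g', hc', hg', he⟩ := exists_unit_form A hq hA
    (isLowVal_V2 A q M k B (hab_of_hB q M B k hB) hq hA) p hp c g hc hg hu
  haveI : IsAlgClosed (kV A) := Fermat.Agent.RED.H73.isAlgClosed_kV A
  exact cpa_main A (V2 A q M k B (hab_of_hB q M B k hB) hq) (resV A) (resV_ne_zero A)
    (red2 A q M k B (hab_of_hB q M B k hB) hq)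
    (red2_eq_zero_iff A q M k B (hab_of_hB q M B k hB) hq)
    (const_mem_V2 A q M B k hB hq) (red2_const' A q M B k hB hq)
    (cF1 A q M B k hB hq hA) (phiM A q M hq hqM hA) q hq.pos (phiM_const A q M hq hqM hA)
    p c' g' hc' hg' (NalphaM A q M h) hm (hNe'.trans he) _ hx

include hq hqM hA in
/-- **CPOW at `V₀₂`**: if `h` is a unit at `V₀₂` and `N_α h = c g ^ p` then
`s₀₂ h = c' (s₀₂ g') ^ p`. -/
theorem cpow02 (p : ℕ) (hp : 0 < p) (h : ↥(L0 A (M * q * q))) (h02 : h ∈ V02o A q M B k hB)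
    (hs : s02 A q M B k hB ⟨h, h02⟩ ≠ 0)
    (hN : IsNormPow0 A q M (heckeAlphaBar Kbar (M * q) q) p (h : FN (M * q * q))) :
    ∃ (c : kV A) (g : ↥(V02o A q M B k hB)), c ≠ 0 ∧ s02 A q M B k hB g ≠ 0 ∧
      s02 A q M B k hB ⟨h, h02⟩
        = algebraMap (kV A) (LaurentSeries (kV A)) c * s02 A q M B k hB g ^ p := by
  have hr0 : r02 A q M B k hB hq hqM hA ⟨h, h02⟩ ≠ 0 := by
    intro h0
    exact hs (congrArg Subtype.val h0)
  obtain ⟨a, y, ha, hy, hxy⟩ := cpow02_r A q M B k hB hq hqM hA p hp h h02 hr0 hN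
  obtain ⟨g₀, hg₀⟩ := r02_surjective A q M B k hB hq hqM hA y
  refine ⟨a, g₀, ha, ?_, ?_⟩
  · intro h0
    apply hy
    rw [← hg₀]
    exact Subtype.ext h0
  · rw [← hg₀] at hxy
    exact (congrArg Subtype.val hxy).trans
      (cpa_coe_const_mul_pow (redField A (modularFunctionFieldBar M) (hScM A M)) a
        (r02 A q M B k hB hq hqM hA g₀) p)

include hq hqM hA hB in
/-- **CPOW at `V₂₀`**, residue form. -/
theorem cpow20_r (p : ℕ) (hp : 0 < p) (h : ↥(L0 A (M * q * q))) (h20 : h ∈ V20o A q M)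
    (hr0 : r20 A q M hq hqM hA ⟨h, h20⟩ ≠ 0)
    (hN : IsNormPow0 A q M (heckeBetaBar Kbar (M * q) q) p (h : FN (M * q * q))) :
    ∃ (a : kV A) (y : FM A M), a ≠ 0 ∧ y ≠ 0 ∧
      r20 A q M hq hqM hA ⟨h, h20⟩ = algebraMap (kV A) (FM A M) a * y ^ p := by
  obtain ⟨hm, hser⟩ := serB1 A q M hq hqM hA h h20
  obtain ⟨c, g, hc, hg, hNe⟩ := hN
  have hNe' : NbetaM A q M h = algebraMap Kbar (FN (M * q)) c * g ^ p := hNe
  have hx : phiM A q M hq hqM hA (r20 A q M hq hqM hA ⟨h, h20⟩)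
      = cF1 A q M B k hB hq hA (red1 A q M ⟨NbetaM A q M h, hm⟩) :=
    Subtype.ext (hser.symm.trans (coe_cF1 A q M B k hB hq hA _).symm)
  have hu := cpa_unit (V1 A q M) (red1 A q M) (red1_eq_zero_iff A q M)
    (cF1 A q M B k hB hq hA) (phiM A q M hq hqM hA) (NbetaM A q M h) hm _ hr0 hx
  rw [hNe'] at hu
  have hlow : IsLowVal A (M * q) q (V1 A q M) := isLowVal_V20 A (M * q) q hq hA
  obtain ⟨c', g', hc', hg', he⟩ := exists_unit_form A hq hA hlow p hp c g hc hg hu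
  haveI : IsAlgClosed (kV A) := Fermat.Agent.RED.H73.isAlgClosed_kV A
  exact cpa_main A (V1 A q M) (resV A) (resV_ne_zero A) (red1 A q M)
    (red1_eq_zero_iff A q M) (const_mem_V1 A q M) (red1_const A q M)
    (cF1 A q M B k hB hq hA) (phiM A q M hq hqM hA) q hq.pos (phiM_const A q M hq hqM hA)
    p c' g' hc' hg' (NbetaM A q M h) hm (hNe'.trans he) _ hx

include hq hqM hA hB in
/-- **CPOW at `V₂₀`**: if `h` is a unit at `V₂₀` and `N_β h = c g ^ p` then
`s₂₀ h = c' (s₂₀ g') ^ p`. -/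
theorem cpow20 (p : ℕ) (hp : 0 < p) (h : ↥(L0 A (M * q * q))) (h20 : h ∈ V20o A q M)
    (hs : s20 A q M ⟨h, h20⟩ ≠ 0)
    (hN : IsNormPow0 A q M (heckeBetaBar Kbar (M * q) q) p (h : FN (M * q * q))) :
    ∃ (c : kV A) (g : ↥(V20o A q M)), c ≠ 0 ∧ s20 A q M g ≠ 0 ∧
      s20 A q M ⟨h, h20⟩
        = algebraMap (kV A) (LaurentSeries (kV A)) c * s20 A q M g ^ p := by
  have hr0 : r20 A q M hq hqM hA ⟨h, h20⟩ ≠ 0 := by
    intro h0
    exact hs (congrArg Subtype.val h0)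
  obtain ⟨a, y, ha, hy, hxy⟩ := cpow20_r A q M B k hB hq hqM hA p hp h h20 hr0 hN
  obtain ⟨g₀, hg₀⟩ := r20_surjective A q M hq hqM hA y
  refine ⟨a, g₀, ha, ?_, ?_⟩
  · intro h0
    apply hy
    rw [← hg₀]
    exact Subtype.ext h0
  · rw [← hg₀] at hxy
    exact (congrArg Subtype.val hxy).trans
      (cpa_coe_const_mul_pow (redField A (modularFunctionFieldBar M) (hScM A M)) a
        (r20 A q M hq hqM hA g₀) p)

end CPow

end Fermat.Agent.S59.LL.SQ.H87
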