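import Fermat.Agent.RED.H10_NormRedAbs

/-!
# S59 / LL / SQ, leaf (E), sub-leaf NV11 (helper87): the abstract norm lemma

`E ⊆ L` finite of degree `n`, valuation rings `V = V' ∩ E`, residue maps `red`, `red'`
(`red'` surjective with kernel the non-units), compatible, `[L : E] = [κ' : κ]`.

* `nvabs_norm_mem`  : the norm maps `V'` into `V` (`RED.H10.stmt_NormRedAbs`);
* `nvabs_norm_unit` : the norm maps the units of `V'` to units of `V`;
* `nvabs_val_norm`  : if moreover `β : E → L` is a second embedding with `V = β⁻¹ V'`, which is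
  the identity on an element `c` with `v(h) ^ m = v(c) ^ k`, `m > 0`, then
  `v (N (β h)) = v(h) ^ n`.

This file contains no `sorry`.
-/

set_option autoImplicit false
set_option linter.unusedSectionVars false

noncomputable section

namespace Fermat.Agent.S59.LL.SQ.H87

section Abs

variable {E L κ κ' : Type} [Field E] [Field L] [Field κ] [Field κ'] [Algebra E L]
  [Algebra κ κ'] [Module.Finite E L]
variable {V : ValuationSubring E} {V' : ValuationSubring L}
variable {red : ↥V →+* κ} {red' : ↥V' →+* κ'}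

/-- The norm maps `V'` into `V`. -/
theorem nvabs_norm_mem (hV : ∀ a : E, a ∈ V ↔ algebraMap E L a ∈ V')
    (hsurj : Function.Surjective red')
    (hker : ∀ a : ↥V', red' a = 0 ↔ ¬ IsUnit a)
    (hcompat : ∀ (a : ↥V) (ha : algebraMap E L (a : E) ∈ V'),
      red' ⟨algebraMap E L (a : E), ha⟩ = algebraMap κ κ' (red a))
    (hdeg : Module.finrank E L = Module.finrank κ κ')
    (y : L) (hy : y ∈ V') : Algebra.norm E y ∈ V := by
  obtain ⟨hN, -⟩ := Fermat.Agent.RED.H10.stmt_NormRedAbs E L κ κ' V V' red red' hV hsurj hker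
    hcompat hdeg ⟨y, hy⟩
  exact hN

/-- The norm maps units of `V'` to units of `V`. -/
theorem nvabs_norm_unit (hV : ∀ a : E, a ∈ V ↔ algebraMap E L a ∈ V')
    (hsurj : Function.Surjective red')
    (hker : ∀ a : ↥V', red' a = 0 ↔ ¬ IsUnit a)
    (hcompat : ∀ (a : ↥V) (ha : algebraMap E L (a : E) ∈ V'),
      red' ⟨algebraMap E L (a : E), ha⟩ = algebraMap κ κ' (red a))
    (hdeg : Module.finrank E L = Module.finrank κ κ')
    (y : L) (hy0 : y ≠ 0) (hy : y ∈ V') (hy' : y⁻¹ ∈ V') :
    V.valuation (Algebra.norm E y) = 1 := by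
  have h1 := nvabs_norm_mem hV hsurj hker hcompat hdeg y hy
  have h2 := nvabs_norm_mem hV hsurj hker hcompat hdeg y⁻¹ hy'
  rw [← ValuationSubring.valuation_le_one_iff] at h1 h2
  have hn0 : Algebra.norm E y ≠ 0 := Algebra.norm_ne_zero_iff.mpr hy0
  have e : Algebra.norm E y⁻¹ = (Algebra.norm E y)⁻¹ := by
    have h3 : Algebra.norm E y * Algebra.norm E y⁻¹ = 1 := by
      rw [← map_mul, mul_inv_cancel₀ hy0, map_one]
    exact eq_inv_of_mul_eq_one_right h3
  rw [e, map_inv₀] at h2
  have hv0 : V.valuation (Algebra.norm E y) ≠ 0 := (Valuation.ne_zero_iff _).2 hn0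
  have h4 : 1 ≤ V.valuation (Algebra.norm E y) := by
    by_contra hlt
    push Not at hlt
    have : 1 < (V.valuation (Algebra.norm E y))⁻¹ := (one_lt_inv₀ (zero_lt_iff.2 hv0)).2 hlt
    exact absurd h2 (not_le.2 this)
  exact le_antisymm h1 h4

/-- **The valuation of the norm of `β h`.** -/
theorem nvabs_val_norm (hV : ∀ a : E, a ∈ V ↔ algebraMap E L a ∈ V')
    (hsurj : Function.Surjective red')
    (hker : ∀ a : ↥V', red' a = 0 ↔ ¬ IsUnit a)
    (hcompat : ∀ (a : ↥V) (ha : algebraMap E L (a : E) ∈ V'),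
      red' ⟨algebraMap E L (a : E), ha⟩ = algebraMap κ κ' (red a))
    (hdeg : Module.finrank E L = Module.finrank κ κ')
    (β : E →+* L) (hβ : ∀ a : E, a ∈ V → β a ∈ V')
    (c : E) (hc0 : c ≠ 0) (hβc : β c = algebraMap E L c)
    (h : E) (hh : h ≠ 0) (m : ℕ) (hm : 0 < m) (k : ℤ)
    (hval : V.valuation h ^ m = V.valuation c ^ k) :
    V.valuation (Algebra.norm E (β h)) = V.valuation h ^ (Module.finrank E L) := by
  set n := Module.finrank E L with hn
  -- the unit `u = h ^ m c ^ (-k)`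
  set u : E := h ^ m * c ^ (-k) with hu
  have hu0 : u ≠ 0 := mul_ne_zero (pow_ne_zero _ hh) (zpow_ne_zero _ hc0)
  have hvc0 : V.valuation c ≠ 0 := (Valuation.ne_zero_iff _).2 hc0
  have hvu : V.valuation u = 1 := by
    rw [hu, map_mul, map_pow, map_zpow₀, hval, ← zpow_add₀ hvc0, add_neg_cancel, zpow_zero]
  have huV : u ∈ V := (ValuationSubring.valuation_le_one_iff V u).1 hvu.le
  have huV' : u⁻¹ ∈ V := by
    rw [← ValuationSubring.valuation_le_one_iff, map_inv₀, hvu, inv_one]
  have hβu0 : β u ≠ 0 := (map_ne_zero β).2 hu0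
  have h1 := nvabs_norm_unit hV hsurj hker hcompat hdeg (β u) hβu0 (hβ u huV)
    (by rw [← map_inv₀]; exact hβ _ huV')
  -- the norm of `β u`
  have hβck : β (c ^ (-k)) = algebraMap E L (c ^ (-k)) := by
    rw [map_zpow₀, map_zpow₀, hβc]
  have h2 : Algebra.norm E (β u) = Algebra.norm E (β h) ^ m * (c ^ (-k)) ^ n := by
    rw [hu, map_mul, map_pow, hβck, map_mul, map_pow, Algebra.norm_algebraMap]
  rw [h2, map_mul, map_pow, map_pow, map_zpow₀] at h1
  -- conclude
  have h3 : V.valuation (Algebra.norm E (β h)) ^ m = (V.valuation h ^ n) ^ m := by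
    have h4 : (V.valuation c ^ (-k)) ^ n ≠ 0 := pow_ne_zero _ (zpow_ne_zero _ hvc0)
    have h5 : V.valuation (Algebra.norm E (β h)) ^ m = ((V.valuation c ^ (-k)) ^ n)⁻¹ :=
      eq_inv_of_mul_eq_one_left h1
    rw [h5, ← pow_mul, mul_comm n m, pow_mul, hval, ← inv_pow, ← zpow_neg, neg_neg]
  exact (pow_left_inj₀ zero_le zero_le hm.ne').1 h3

end Abs

end Fermat.Agent.S59.LL.SQ.H87
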