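import Fermat.Agent.S59.LL.SQ.H86_PBGlueAbs

/-!
# S59 / LL / SQ, step (T'), leaf G5 (ii) (helper89): LOW → GLUE, abstract part

Setting: helper79's `NUData` `D`, its lower level `D.T'` (two valuations `p₁`, `p₂`, the
reduction map `ρ`, the bijection `β` of the two components), `L₀' ⊂ L'` the inertia-fixed
functions of the lower level, helper86's `GlueLow`.

* `exists_common_value_low` : a unit for both valuations without zero or pole on the fibre of a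
  node takes the same non-zero value on the two branches;
* `glueLow_of_tor` : **G5 (ii)**.  If `f ∈ L₀'`, `h ∈ L'` a unit for both valuations, the
  reductions of `f hⁿ` are `ψ₁ⁿ`, `ψ₂ⁿ`, `f hⁿ` has no zero or pole on the fibres of the nodes
  `zz z` (`z ∈ SS`), the values of `ψ₁`, `ψ₂` at the two branches are `a`, `θ z · a`, and `f` has
  local generators in `L₀'` (GENLOW), then `GlueLow D zz n f θ`.

The value ratio does not depend on the generator: for a local generator `s ∈ L₀'`, `s / h` is a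
unit of `R_{zz z}`, so it takes the same value on both branches (relation of the node).
-/

set_option autoImplicit false
set_option linter.style.haveILetI false
set_option linter.unusedSectionVars false

noncomputable section

open AlgebraicCurve

attribute [local instance] Classical.propDecidable

namespace Fermat.Agent.S59.LL.SQ.H89LG

open Fermat.Agent.RED.H17 Fermat.Agent.RED Fermat.Agent.BAD.H79 Fermat.Agent.BAD
  Fermat.Agent.S36.NU.H79 Fermat.Agent.S59.LL.SQ.H40 Fermat.Agent.S59.LL.SQ.H86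

section Low

variable {K' L' k L₁ L₂ : Type*} [Field K'] [Field L'] [Algebra K' L'] [Field k]
  [Field L₁] [Algebra k L₁] [Field L₂] [Algebra k L₂]

/-- A unit for both valuations without zero or pole on the fibre of a node takes the same
non-zero value on the two branches. -/
theorem exists_common_value_low [Infinite k] (hP : HasPrincipalDivisors K' L')
    (T' : TotData K' L' k L₁ L₂) {z' : Place k L₁} (hnode : T'.IsNode z') (hd₁ : z'.deg = 1)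
    {w : L'} (hw₁ : T'.p₁.IsGU w) (hw₂ : T'.p₂.IsGU w)
    (hord : ∀ Q, T'.ρ Q = z' → Q.ord w = 0) :
    ∃ τ : k, τ ≠ 0 ∧ HasValue z' (T'.p₁.rd w) τ ∧ HasValue (T'.β z') (T'.p₂.rd w) τ := by
  have hR : T'.InR z' w :=
    ⟨hw₁.mem, hw₂.mem, fun Q hQ => regAt_of_ord_nonneg (hord Q hQ).ge⟩
  obtain ⟨τ, hτ⟩ := exists_value z' hd₁ (hR.regAt₁ hP)
  have hτ₁ : HasValue z' (T'.p₁.rd w) τ := hτ
  have hτ₂ : HasValue (T'.β z') (T'.p₂.rd w) τ := (hnode w hR τ).mp hτ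
  refine ⟨τ, ?_, hτ₁, hτ₂⟩
  rintro rfl
  have hRi : T'.InR z' w⁻¹ := ⟨hw₁.inv_mem, hw₂.inv_mem, fun Q hQ =>
    regAt_of_ord_nonneg (by rw [Place.ord_inv, hord Q hQ, neg_zero])⟩
  obtain ⟨σ, hσ⟩ := exists_value z' hd₁ (hRi.regAt₁ hP)
  have hσ₁ : HasValue z' (T'.p₁.rd w⁻¹) σ := hσ
  have h1 : HasValue z' (T'.p₁.rd w * T'.p₁.rd w⁻¹) (0 * σ) := hτ₁.mul hσ₁
  rw [← T'.p₁.rd_mul hw₁.mem hw₁.inv_mem, mul_inv_cancel₀ hw₁.ne_zero, T'.p₁.rd_one,
    zero_mul] at h1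
  exact one_ne_zero ((hasValue_one z').unique h1)

end Low

variable {K L₀ L k ι Z : Type*} {E : ι → Type*} {K' L' L₁ L₂ : Type*}
  [Field K] [Field L₀] [Field L] [Algebra K L] [Algebra L₀ L] [Field k] [Fintype ι]
  [∀ i, Field (E i)] [∀ i, Algebra k (E i)] [Field K'] [Field L'] [Algebra K' L']
  [Field L₁] [Algebra k L₁] [Field L₂] [Algebra k L₂]
  {L₀' : Type*} [Field L₀'] [Algebra L₀' L']

variable (D : NUData K L₀ L k ι Z E K' L' L₁ L₂)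

/-- The quotient of a local generator (in `L₀'`) of `f` by a global root `h` of `f hⁿ` has no
zero or pole on the fibre. -/
theorem ord_quot_eq_zero {n : ℕ} (hn : n ≠ 0) {z' : Place k L₁} {f s : L₀'} {h : L'}
    (hf0 : f ≠ 0) (hs0 : s ≠ 0) (hh0 : h ≠ 0)
    (hs : ∀ Q, D.T'.ρ Q = z' → Q.ord (algebraMap L₀' L' (f * s ^ n)) = 0)
    (hord : ∀ Q, D.T'.ρ Q = z' → Q.ord (algebraMap L₀' L' f * h ^ n) = 0)
    (Q : Place K' L') (hQ : D.T'.ρ Q = z') : Q.ord (algebraMap L₀' L' s / h) = 0 := by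
  have hF0 : algebraMap L₀' L' f ≠ 0 := (map_ne_zero (algebraMap L₀' L')).2 hf0
  have hS0 : algebraMap L₀' L' s ≠ 0 := (map_ne_zero (algebraMap L₀' L')).2 hs0
  have e : (algebraMap L₀' L' s / h) ^ n
      = algebraMap L₀' L' (f * s ^ n) * (algebraMap L₀' L' f * h ^ n)⁻¹ := by
    rw [map_mul, map_pow, div_pow]
    have hX : h ^ n ≠ 0 := pow_ne_zero n hh0
    generalize h ^ n = X at hX ⊢
    generalize algebraMap L₀' L' s ^ n = Y
    field_simp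
  have h1 : algebraMap L₀' L' (f * s ^ n) ≠ 0 :=
    (map_ne_zero (algebraMap L₀' L')).2 (mul_ne_zero hf0 (pow_ne_zero n hs0))
  have h2 : (algebraMap L₀' L' f * h ^ n)⁻¹ ≠ 0 :=
    inv_ne_zero (mul_ne_zero hF0 (pow_ne_zero n hh0))
  have h3 : Q.ord ((algebraMap L₀' L' s / h) ^ n) = 0 := by
    rw [e, Place.ord_mul _ h1 h2, Place.ord_inv, hs Q hQ, hord Q hQ]
    simp
  rw [ord_pow] at h3
  rcases mul_eq_zero.mp h3 with h4 | h4
  · exact absurd (by exact_mod_cast h4) hn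
  · exact h4

/-- **G5 (ii), abstract form**: gluing data of the lower level from a torsion triple
`(f hⁿ, ψ₁, ψ₂)` with prescribed value ratio at the nodes and local generators in `L₀'`. -/
theorem glueLow_of_tor [Infinite k] (hP : HasPrincipalDivisors K' L')
    {zz : Z → Place k L₁} (hnode : ∀ z ∈ D.SS, D.T'.IsNode (zz z))
    (hd₁ : ∀ z ∈ D.SS, (zz z).deg = 1)
    {n : ℕ} (hn : n ≠ 0) {f : L₀'} {h : L'} {ψ₁ : L₁} {ψ₂ : L₂} {θ : Z → k}
    (hh₁ : D.T'.p₁.IsGU h) (hh₂ : D.T'.p₂.IsGU h)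
    (hG₁ : D.T'.p₁.IsGU (algebraMap L₀' L' f * h ^ n))
    (hG₂ : D.T'.p₂.IsGU (algebraMap L₀' L' f * h ^ n))
    (hrd₁ : D.T'.p₁.rd (algebraMap L₀' L' f * h ^ n) = ψ₁ ^ n)
    (hrd₂ : D.T'.p₂.rd (algebraMap L₀' L' f * h ^ n) = ψ₂ ^ n)
    (hord : ∀ z ∈ D.SS, ∀ Q, D.T'.ρ Q = zz z → Q.ord (algebraMap L₀' L' f * h ^ n) = 0)
    (hval : ∀ z ∈ D.SS, ∃ a b : k, a ≠ 0 ∧ b ≠ 0 ∧ HasValue (zz z) ψ₁ a ∧
      HasValue (D.T'.β (zz z)) ψ₂ b ∧ b = θ z * a)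
    (hgen : ∀ z ∈ D.SS, ∃ s : L₀', IsGenLow D n (zz z) f s) :
    GlueLow D zz n f θ := by
  have hh0 : h ≠ 0 := hh₁.ne_zero
  have hX : h ^ n ≠ 0 := pow_ne_zero n hh0
  have eF : algebraMap L₀' L' f = (algebraMap L₀' L' f * h ^ n) / h ^ n := by
    rw [mul_div_assoc, div_self hX, mul_one]
  have hF₁ : D.T'.p₁.IsGU (algebraMap L₀' L' f) := by
    rw [eF]; exact hG₁.div (hh₁.pow n)
  have hF₂ : D.T'.p₂.IsGU (algebraMap L₀' L' f) := by
    rw [eF]; exact hG₂.div (hh₂.pow n)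
  have hF0 : algebraMap L₀' L' f ≠ 0 := hF₁.ne_zero
  have hf0 : f ≠ 0 := fun h0 => hF0 (by rw [h0, map_zero])
  have hr₁ : D.T'.p₁.rd (algebraMap L₀' L' f) = (ψ₁ / D.T'.p₁.rd h) ^ n := by
    conv_lhs => rw [eF]
    rw [hG₁.rd_div (hh₁.pow n), hrd₁, D.T'.p₁.rd_pow hh₁.mem, div_pow]
  have hr₂ : D.T'.p₂.rd (algebraMap L₀' L' f) = (ψ₂ / D.T'.p₂.rd h) ^ n := by
    conv_lhs => rw [eF]
    rw [hG₂.rd_div (hh₂.pow n), hrd₂, D.T'.p₂.rd_pow hh₂.mem, div_pow]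
  refine ⟨hF₁.rd_ne_zero, hF₂.rd_ne_zero, fun z hz => ?_, 1, ψ₁ / D.T'.p₁.rd h,
    ψ₂ / D.T'.p₂.rd h, one_ne_zero, ?_, ?_, fun z hz => ?_⟩
  · obtain ⟨a, b, ha, hb, -, -, hab⟩ := hval z hz
    intro h0
    rw [h0, zero_mul] at hab
    exact hb hab
  · rw [map_one, one_mul, hr₁]
  · rw [map_one, one_mul, hr₂]
  · obtain ⟨s, hs⟩ := hgen z hz
    obtain ⟨a, b, ha, hb, hva, hvb, hab⟩ := hval z hz
    have hS₁ : D.T'.p₁.IsGU (algebraMap L₀' L' s) := isGU_of_rd_ne_zero _ hs.1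
    have hS₂ : D.T'.p₂.IsGU (algebraMap L₀' L' s) := isGU_of_rd_ne_zero _ hs.2.1
    have hs0 : s ≠ 0 := fun h0 => hS₁.ne_zero (by rw [h0, map_zero])
    have hw₁ : D.T'.p₁.IsGU (algebraMap L₀' L' s / h) := hS₁.div hh₁
    have hw₂ : D.T'.p₂.IsGU (algebraMap L₀' L' s / h) := hS₂.div hh₂
    obtain ⟨τ, hτ0, hτ₁, hτ₂⟩ := exists_common_value_low hP D.T' (hnode z hz) (hd₁ z hz)
      hw₁ hw₂ (ord_quot_eq_zero D hn hf0 hs0 hh0 hs.2.2 (hord z hz))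
    refine ⟨s, a * τ, hs, mul_ne_zero ha hτ0, ?_, ?_⟩
    · have e : ψ₁ / D.T'.p₁.rd h * D.T'.p₁.rd (algebraMap L₀' L' s)
          = ψ₁ * D.T'.p₁.rd (algebraMap L₀' L' s / h) := by
        rw [hS₁.rd_div hh₁]; ring
      rw [e]
      exact hva.mul hτ₁
    · have e : ψ₂ / D.T'.p₂.rd h * D.T'.p₂.rd (algebraMap L₀' L' s)
          = ψ₂ * D.T'.p₂.rd (algebraMap L₀' L' s / h) := by
        rw [hS₂.rd_div hh₂]; ring
      have e' : θ z * (a * τ) = b * τ := by rw [hab]; ring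
      rw [e, e']
      exact hvb.mul hτ₂

/-- `GlueLow` only depends on the values of `θ` on the triple points. -/
theorem glueLow_congr {zz : Z → Place k L₁} {n : ℕ} {f : L₀'} {θ θ' : Z → k}
    (h : GlueLow D zz n f θ) (hθ : ∀ z ∈ D.SS, θ z = θ' z) : GlueLow D zz n f θ' := by
  obtain ⟨c, G₁, G₂, hc, hG₁, hG₂, hgl⟩ := h.glue
  refine ⟨h.unit₁, h.unit₂, fun z hz => ?_, c, G₁, G₂, hc, hG₁, hG₂, fun z hz => ?_⟩
  · rw [← hθ z hz]; exact h.ne z hz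
  · rw [← hθ z hz]; exact hgl z hz

/-- **G5 (ii), abstract form, second version**: `f` (instead of `h`) is a unit for both
valuations. -/
theorem glueLow_of_tor' [Infinite k] (hP : HasPrincipalDivisors K' L')
    {zz : Z → Place k L₁} (hnode : ∀ z ∈ D.SS, D.T'.IsNode (zz z))
    (hd₁ : ∀ z ∈ D.SS, (zz z).deg = 1)
    {n : ℕ} (hn : n ≠ 0) {f : L₀'} {h : L'} {ψ₁ : L₁} {ψ₂ : L₂} {θ : Z → k}
    (hF₁ : D.T'.p₁.IsGU (algebraMap L₀' L' f)) (hF₂ : D.T'.p₂.IsGU (algebraMap L₀' L' f))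
    (hG₁ : D.T'.p₁.IsGU (algebraMap L₀' L' f * h ^ n))
    (hG₂ : D.T'.p₂.IsGU (algebraMap L₀' L' f * h ^ n))
    (hrd₁ : D.T'.p₁.rd (algebraMap L₀' L' f * h ^ n) = ψ₁ ^ n)
    (hrd₂ : D.T'.p₂.rd (algebraMap L₀' L' f * h ^ n) = ψ₂ ^ n)
    (hord : ∀ z ∈ D.SS, ∀ Q, D.T'.ρ Q = zz z → Q.ord (algebraMap L₀' L' f * h ^ n) = 0)
    (hval : ∀ z ∈ D.SS, ∃ a b : k, a ≠ 0 ∧ b ≠ 0 ∧ HasValue (zz z) ψ₁ a ∧
      HasValue (D.T'.β (zz z)) ψ₂ b ∧ b = θ z * a)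
    (hgen : ∀ z ∈ D.SS, ∃ s : L₀', IsGenLow D n (zz z) f s) :
    GlueLow D zz n f θ := by
  have hF0 : algebraMap L₀' L' f ≠ 0 := hF₁.ne_zero
  have e : h ^ n = (algebraMap L₀' L' f * h ^ n) / algebraMap L₀' L' f := by
    rw [mul_comm, mul_div_assoc, div_self hF0, mul_one]
  have hh₁ : D.T'.p₁.IsGU h := isGU_of_pow _ hn (by rw [e]; exact hG₁.div hF₁)
  have hh₂ : D.T'.p₂.IsGU h := isGU_of_pow _ hn (by rw [e]; exact hG₂.div hF₂)
  exact glueLow_of_tor D hP hnode hd₁ hn hh₁ hh₂ hG₁ hG₂ hrd₁ hrd₂ hord hval hgen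

/-- The orders of `f` are divisible by `n` if those of `f hⁿ` are. -/
theorem dvd_ord_of_mul_pow {n : ℕ} {f : L₀'} {h : L'} (hf0 : algebraMap L₀' L' f ≠ 0)
    (hh0 : h ≠ 0) (hdvd : ∀ Q : Place K' L', (n : ℤ) ∣ Q.ord (algebraMap L₀' L' f * h ^ n))
    (Q : Place K' L') : (n : ℤ) ∣ Q.ord (algebraMap L₀' L' f) := by
  have h1 := hdvd Q
  rw [Place.ord_mul _ hf0 (pow_ne_zero n hh0), ord_pow] at h1
  exact (Int.dvd_add_left (Dvd.intro _ rfl)).mp h1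

end Fermat.Agent.S59.LL.SQ.H89LG
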