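/-
S59, package LL / SQ, step (T′), GENLOW closed at the tame levels (helper92).

`D = H79.nuMod`, `zz = zA` or `zB`: helper89's `H89LG.GenLowAt` (the units of `L0 A (M q)` with
divisor divisible by `n` have local generators in `L0 A (M q)` at the nodes `zz z`, `z ∈ D.SS`),
for every `n > 0` prime to `q`:

* `topInputs_mod`, `topInputs_tame` : helper10's `TopInputs` for `nuMod` (closed statements of
  S36: `H10_Close`, `H10_Inputs`, `H10_Core`);
* `genMod_mod`                      : GEN-MOD (helper84) for `nuMod`;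
* `genLowAtA_cases`, `genLowAtB_cases` : `GenLowAt` along `α`, `β` (the tame level given by the
  three cases);
* `genLowAtA_tame`, `genLowAtB_tame`   : the same with `TameNU (M q) q`.
-/
import Fermat.Agent.S59.LL.SQ.H89_GenLowAt
import Fermat.Agent.S59.LL.SQ.H92_GenLowMod
import Fermat.Agent.S59.LL.SQ.H84_GenMod
import Fermat.Agent.S36.NU.H10_Core

set_option autoImplicit false
set_option synthInstance.maxHeartbeats 400000
set_option maxHeartbeats 1000000
set_option linter.style.haveILetI false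
set_option linter.unusedSectionVars false
set_option linter.unusedVariables false

noncomputable section

open ModularCurve AlgebraicCurve
open Fermat.Agent.S24 Fermat.Agent.BAD.H88 Fermat.Agent.S28 Fermat.Agent.S28.H73
open Fermat.Agent.RED.H73 Fermat.Agent.RED.H17 Fermat.Agent.S36.NU.H88
open Fermat.Agent.Lib.HeckeComm Fermat.Agent.S36.NU.H23 Fermat.Agent.S36.NU.H74
open Fermat.Agent.S36.NU.H89 Fermat.Agent.S36.NU.H79 Fermat.Agent.S36.NU.H10

namespace Fermat.Agent.S59.LL.SQ.H92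

open Fermat.Agent.BAD Fermat.Agent.RED Fermat.Agent.BAD.H79 Fermat.Agent.S59.LL.SQ.H86
  Fermat.Agent.S59.LL.SQ.H89LG

section Mod

variable (A : ValuationSubring Kbar) (q M : ℕ) (B k : ℤ) (hB : B * M + k * q = 1) (hq : q.Prime)
  [NeZero M] [NeZero q] [NeZero (M * q)] [NeZero (M * q * q)]
  (hqM : ¬ q ∣ M) (hA : A.LiesOverPrime q) (ht : H91.TameAt M q)

/-- **`TopInputs` for the modular datum `nuMod`** at the tame levels. -/
theorem topInputs_mod (hc : (5 ≤ q ∧ 4 ∣ M) ∨ (q = 3 ∧ 4 ∣ M) ∨ (q = 2 ∧ 9 ∣ M)) :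
    TopInputs A q M B k hB hq hqM hA ht (nuMod A q M B k hB hq hqM hA ht) :=
  stmt_TopAll_of (stmt_Pt0All_of stmt_MidSmall stmt_PtHypsAll) (stmt_PtooAll_of stmt_BrooAll)
    A q M B k hB hq hqM hA ht hc _ (isNuM_nuMod A q M B k hB hq hqM hA ht)

/-- **GEN-MOD for `nuMod`** at the tame levels. -/
theorem genMod_mod (hc : (5 ≤ q ∧ 4 ∣ M) ∨ (q = 3 ∧ 4 ∣ M) ∨ (q = 2 ∧ 9 ∣ M))
    {n : ℕ} (hn : 0 < n) :
    letI := algkM A M
    ∀ H : ↥(L0 A (M * q * q)), (∀ i, (nuMod A q M B k hB hq hqM hA ht).T.rdN i H ≠ 0) →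
      (∀ P : Place Kbar (FN (M * q * q)),
        (n : ℤ) ∣ P.ord (algebraMap ↥(L0 A (M * q * q)) (FN (M * q * q)) H)) →
      ∀ z ∈ (nuMod A q M B k hB hq hqM hA ht).SS,
        ∃ s, (nuMod A q M B k hB hq hqM hA ht).IsGen n z H s := by
  letI := algkM A M
  intro H hu hdiv z hz
  exact Fermat.Agent.S59.LL.SQ.H84.genMod_of_top A q M B k hB hq hqM hA ht _
    (isNuM_nuMod A q M B k hB hq hqM hA ht) (topInputs_mod A q M B k hB hq hqM hA ht hc)
    n hn H hu hdiv z hz

/-- **`GenLowAt` along `α`** at the tame levels (three cases). -/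
theorem genLowAtA_cases (hc : (5 ≤ q ∧ 4 ∣ M) ∨ (q = 3 ∧ 4 ∣ M) ∨ (q = 2 ∧ 9 ∣ M))
    {n : ℕ} (hn : 0 < n) (hcop : Nat.Coprime q n) :
    GenLowAt A q M B k hB hq hqM hA ht (zA A q M B k hB hq hA) n := by
  letI := algkM A M
  exact genLowAtA_mod A q M B k hB hq hqM hA ht hcop
    (fun g => nalpha_pull A q M hq g) (fun h => nalpha_mem A q M h)
    (genMod_mod A q M B k hB hq hqM hA ht hc hn)

/-- **`GenLowAt` along `β`** at the tame levels (three cases). -/
theorem genLowAtB_cases (hc : (5 ≤ q ∧ 4 ∣ M) ∨ (q = 3 ∧ 4 ∣ M) ∨ (q = 2 ∧ 9 ∣ M))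
    {n : ℕ} (hn : 0 < n) (hcop : Nat.Coprime q n) :
    GenLowAt A q M B k hB hq hqM hA ht (zB A q M B k hB hq hqM hA) n := by
  letI := algkM A M
  exact genLowAtB_mod A q M B k hB hq hqM hA ht hcop
    (fun g => nbeta_pull A q M hq hqM g) (fun h => nbeta_mem A q M h)
    (genMod_mod A q M B k hB hq hqM hA ht hc hn)

/-- **`GenLowAt` along `α`, unconditionally**, at every level `M q²` with `TameNU (M q) q`. -/
theorem genLowAtA_tame (htame : Fermat.Agent.S36.NU.H81.TameNU (M * q) q)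
    {n : ℕ} (hn : 0 < n) (hcop : Nat.Coprime q n) :
    GenLowAt A q M B k hB hq hqM hA (tameAt_of_tameNU hq htame) (zA A q M B k hB hq hA) n :=
  genLowAtA_cases A q M B k hB hq hqM hA (tameAt_of_tameNU hq htame)
    (cases_of_tameNU hq htame) hn hcop

/-- **`GenLowAt` along `β`, unconditionally**, at every level `M q²` with `TameNU (M q) q`. -/
theorem genLowAtB_tame (htame : Fermat.Agent.S36.NU.H81.TameNU (M * q) q)
    {n : ℕ} (hn : 0 < n) (hcop : Nat.Coprime q n) :
    GenLowAt A q M B k hB hq hqM hA (tameAt_of_tameNU hq htame) (zB A q M B k hB hq hqM hA) n :=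
  genLowAtB_cases A q M B k hB hq hqM hA (tameAt_of_tameNU hq htame)
    (cases_of_tameNU hq htame) hn hcop

end Mod

end Fermat.Agent.S59.LL.SQ.H92
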