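import Fermat.Agent.S59.LL.SQ.H94_RegUpAt
import Fermat.Agent.S59.LL.SQ.H16_RegFinal

/-!
# S59 / LL / SQ, REG at the component `11` at ALL levels, for `p ≥ 5` (helper94)

helper16's REG-TAME (`H16.reg11At_tame`: `4 ∣ M` if `q` is odd, `9 ∣ M` if `q = 2`) and REG-UP
(`H94.reg11On_step`, prime steps `ℓ = 2` resp. `ℓ = 3`, `ℓ + 1 < p`) give helper35's
`H35.Reg11At` at every level `M q²`, `q ∤ M`, for every prime `p ≥ 5`:

* `reg11At_of_four` : for `q ≠ 2`, `5 ≤ p`: `Reg11At` at the levels with `4 ∣ M` implies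
  `Reg11At` at all the levels;
* `reg11On_tame` : `Reg11At` on the tame levels (helper16);
* `reg11At_all` : **`Reg11At A q M B k hB hq hqM hA p` for every level and every prime
  `p ≥ 5`, unconditionally.**
-/

set_option autoImplicit false
set_option linter.style.haveILetI false
set_option linter.unusedSectionVars false
set_option linter.unusedVariables false
set_option synthInstance.maxHeartbeats 400000
set_option maxHeartbeats 1000000

noncomputable section

open AlgebraicCurve ModularCurve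
open Fermat.Agent.S24

namespace Fermat.Agent.S59.LL.SQ.H94

open Fermat.Agent.S59.LL.SQ.H35

section All

variable (A : ValuationSubring Kbar) (q : ℕ) (hq : q.Prime) [NeZero q] (hA : A.LiesOverPrime q)

/-- **REG at all the levels from REG at the levels divisible by `4`** (`q ≠ 2`, `5 ≤ p`). -/
theorem reg11At_of_four (hq2 : q ≠ 2) (p : ℕ) (hp : p.Prime) (h5 : 5 ≤ p)
    (H : Reg11On A q hq hA p (fun M => 4 ∣ M)) :
    Reg11On A q hq hA p (fun _ => True) := by
  have h2 : Nat.Prime 2 := Nat.prime_two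
  have hlt : 2 + 1 < p := by omega
  have H1 : Reg11On A q hq hA p (fun M => 4 ∣ M * 2) :=
    reg11On_step A q hq hA 2 h2 (Ne.symm hq2) p hp hlt _ H
  have H2 : Reg11On A q hq hA p (fun M => 4 ∣ M * 2 * 2) :=
    reg11On_step A q hq hA 2 h2 (Ne.symm hq2) p hp hlt _ H1
  intro M B k hB _ _ _ hqM _
  exact H2 M B k hB hqM ⟨M, by ring⟩

/-- REG on the tame levels with `4 ∣ M`, `q` odd (helper16). -/
theorem reg11On_four (hq2 : q ≠ 2) (p : ℕ) (hp : 0 < p) :
    Reg11On A q hq hA p (fun M => 4 ∣ M) := by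
  intro M B k hB _ _ _ hqM h4
  exact Fermat.Agent.S59.LL.SQ.H16.reg11At_tame A q M B k hB hq hqM hA
    (Or.inl ⟨hq2, Dvd.dvd.mul_right h4 q⟩) p hp

/-- REG on the tame levels with `9 ∣ M`, `q = 2` (helper16). -/
theorem reg11On_nine (hq2 : q = 2) (p : ℕ) (hp : 0 < p) :
    Reg11On A q hq hA p (fun M => 9 ∣ M) := by
  intro M B k hB _ _ _ hqM h9
  exact Fermat.Agent.S59.LL.SQ.H16.reg11At_tame A q M B k hB hq hqM hA
    (Or.inr ⟨hq2, Dvd.dvd.mul_right h9 q⟩) p hp

/-- **REG at the component `11`, at every level and for every prime `p ≥ 5`.** -/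
theorem reg11On_all (p : ℕ) (hp : p.Prime) (h5 : 5 ≤ p) :
    Reg11On A q hq hA p (fun _ => True) := by
  by_cases hq2 : q = 2
  · have hq3 : q ≠ 3 := by omega
    exact reg11At_of_nine A q hq hA hq3 p hp h5 (reg11On_nine A q hq hA hq2 p hp.pos)
  · exact reg11At_of_four A q hq hA hq2 p hp h5 (reg11On_four A q hq hA hq2 p hp.pos)

end All

/-- **REG at the component `11`, at every level and for every prime `p ≥ 5`**, in helper35's
form. -/
theorem reg11At_all (A : ValuationSubring Kbar) (q M : ℕ) (B k : ℤ) (hB : B * M + k * q = 1)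
    (hq : q.Prime) [NeZero M] [NeZero q] [NeZero (M * q)] [NeZero (M * q * q)]
    (hqM : ¬ q ∣ M) (hA : A.LiesOverPrime q) (p : ℕ) (hp : p.Prime) (h5 : 5 ≤ p) :
    Reg11At A q M B k hB hq hqM hA p :=
  reg11On_all A q hq hA p hp h5 M B k hB hqM trivial

end Fermat.Agent.S59.LL.SQ.H94
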