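import Fermat.Agent.S59.LL.SQ.H94_RegUp
import Fermat.Agent.S59.LL.SQ.H35_RDefs
import Fermat.Agent.S59.LL.SQ.H35_RegBridge
import Fermat.Agent.S59.LL.SQ.H33_CompEisNV
import Fermat.Agent.GTor.H33_CurveQbar

/-!
# S59 / LL / SQ, leaf U3 REG-UP in its final form (helper94)

`H35.Reg11At` (helper35's REG at the component `11`, the hypothesis of `H35.oldRedSqAt_of`)
descends from the level `M ℓ` to the level `M`:

* `IsUnit3g` : "unit for the three valuations" at a level `N = M' q²` given up to equality;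
* `isUnit3g_alpha` : `SQ.IsUnit3 h → IsUnit3g (α h)`  (`α : F_{M q²} → F_{M q² ℓ}`);
* `reg11_of_at` : `Reg11At` at `M'` gives `Reg11` at any `N = M' q²` (relative to `IsUnit3g`);
* `reg11At_up` : `Reg11At` at `M ℓ` implies `Reg11At` at `M`, for a prime `ℓ ≠ q`, `ℓ + 1 < p`;
* `reg11At_up'` : the same with a variable upper level `M₂ = M * ℓ`;
* `reg11At_of_nine` : for `q ≠ 3` and `5 ≤ p`: `Reg11At` at all levels `M` with `9 ∣ M` implies
  `Reg11At` at all levels `M`.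

No `sorry`.
-/

set_option autoImplicit false
set_option linter.style.haveILetI false
set_option linter.unusedSectionVars false
set_option linter.unusedVariables false
set_option synthInstance.maxHeartbeats 400000
set_option maxHeartbeats 1000000

noncomputable section

open AlgebraicCurve ModularCurve
open Fermat.Agent.S24 Fermat.Agent.BAD Fermat.Agent.BAD.H88
open Fermat.Agent.S28 Fermat.Agent.S28.H73 Fermat.Agent.RED.H73 Fermat.Agent.RED.H17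
open Fermat.Agent.S36.NU.H88 Fermat.Agent.S36.NU.H23 Fermat.Agent.S36.NU.H26
open Fermat.Agent.S43.Old.H35 Fermat.Agent.Lib.HeckeComm

namespace Fermat.Agent.S59.LL.SQ.H94

open Fermat.Agent.S59.LL.SQ.H35

/-! ## Units for the three valuations, at a level given up to equality -/

section Gen

variable (A : ValuationSubring Kbar) (N q M' : ℕ) (B' k' : ℤ) (hN : N = M' * (q * q))
  (hB' : B' * M' + k' * q = 1) (hq : q.Prime) [NeZero N] [NeZero q] [NeZero M']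

/-- `h` is a unit for the three valuations `V₂₀`, `V₁₁`, `V₀₂` of the level `N = M' q²`. -/
def IsUnit3g (h : ↥(L0 A N)) : Prop :=
  (∃ h20 : ((h : FN N) : LaurentSeries Kbar) ∈ gaussRingV A,
      gaussRedV A ⟨((h : FN N) : LaurentSeries Kbar), h20⟩ ≠ 0) ∧
  (∃ h11 : cMid N q M' B' k' hN hB' hq (h : FN N) ∈ gaussRingV A,
      gaussRedV A ⟨cMid N q M' B' k' hN hB' hq (h : FN N), h11⟩ ≠ 0) ∧
  (∃ h02 : ((wSq N q M' B' k' hN hB' (h : FN N) : FN N) : LaurentSeries Kbar) ∈ gaussRingV A,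
      gaussRedV A ⟨((wSq N q M' B' k' hN hB' (h : FN N) : FN N) : LaurentSeries Kbar), h02⟩ ≠ 0)

end Gen

section Low

variable (A : ValuationSubring Kbar) (q M : ℕ) (B k : ℤ) (hB : B * M + k * q = 1) (hq : q.Prime)
  [NeZero M] [NeZero q] [NeZero (M * q * q)]

/-- At the level `M q²` this is `SQ.IsUnit3`. -/
theorem isUnit3g_iff (h : ↥(L0 A (M * q * q))) :
    IsUnit3g A (M * q * q) q M B k (lvl q M) hB hq h ↔ SQ.IsUnit3 A q M B k hB hq h := by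
  constructor
  · rintro ⟨⟨h20, hs20⟩, ⟨h11, hs11⟩, ⟨h02, hs02⟩⟩
    refine ⟨⟨(mem_V20o_iff A q M h).mpr h20, ?_⟩,
      ⟨(mem_V11o_iff A q M B k hB hq h).mpr h11, ?_⟩,
      ⟨(mem_V02o_iff A q M B k hB h).mpr h02, ?_⟩⟩
    · rw [s20_mk]; exact hs20
    · rw [s11_mk]; exact hs11
    · rw [s02_mk]; exact hs02
  · rintro ⟨⟨h20, hs20⟩, ⟨h11, hs11⟩, ⟨h02, hs02⟩⟩
    rw [s20_mk] at hs20
    rw [s11_mk] at hs11
    rw [s02_mk] at hs02
    exact ⟨⟨(mem_V20o_iff A q M h).mp h20, hs20⟩,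
      ⟨(mem_V11o_iff A q M B k hB hq h).mp h11, hs11⟩,
      ⟨(mem_V02o_iff A q M B k hB h).mp h02, hs02⟩⟩

end Low

/-! ## Transfer along `α` -/

section Up

variable (A : ValuationSubring Kbar) (q M ℓ : ℕ) (B k B' k' : ℤ) (hB : B * M + k * q = 1)
  (hB' : B' * ((M * ℓ : ℕ) : ℤ) + k' * q = 1) (hq : q.Prime)
  [NeZero M] [NeZero q] [NeZero ℓ] [NeZero (M * q * q)] [NeZero (M * q * q * ℓ)]
  [NeZero (M * ℓ)]

theorem coe_alphaL0_series (h : ↥(L0 A (M * q * q))) :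
    (((alphaL0 A q M ℓ h : ↥(L0 A (M * q * q * ℓ))) : FN (M * q * q * ℓ)) :
      LaurentSeries Kbar) = ((h : FN (M * q * q)) : LaurentSeries Kbar) :=
  coe_heckeAlphaBar (M * q * q) ℓ (h : FN (M * q * q))

theorem alpha_mem20 (h : ↥(L0 A (M * q * q)))
    (h20 : ((h : FN (M * q * q)) : LaurentSeries Kbar) ∈ gaussRingV A) :
    (((alphaL0 A q M ℓ h : ↥(L0 A (M * q * q * ℓ))) : FN (M * q * q * ℓ)) :
        LaurentSeries Kbar) ∈ gaussRingV A := by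
  rw [coe_alphaL0_series]
  exact h20


theorem alpha_red20 (h : ↥(L0 A (M * q * q)))
    (h20 : ((h : FN (M * q * q)) : LaurentSeries Kbar) ∈ gaussRingV A)
    (h20' : (((alphaL0 A q M ℓ h : ↥(L0 A (M * q * q * ℓ))) : FN (M * q * q * ℓ)) :
        LaurentSeries Kbar) ∈ gaussRingV A) :
    gaussRedV A ⟨_, h20'⟩ = gaussRedV A ⟨_, h20⟩ :=
  congrArg (gaussRedV A) (Subtype.ext (coe_alphaL0_series A q M ℓ h))

theorem alpha_unit20 (h : ↥(L0 A (M * q * q)))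
    (h20 : ((h : FN (M * q * q)) : LaurentSeries Kbar) ∈ gaussRingV A)
    (hs20 : gaussRedV A ⟨((h : FN (M * q * q)) : LaurentSeries Kbar), h20⟩ ≠ 0) :
    ∃ h20' : (((alphaL0 A q M ℓ h : ↥(L0 A (M * q * q * ℓ))) : FN (M * q * q * ℓ)) :
        LaurentSeries Kbar) ∈ gaussRingV A,
      gaussRedV A ⟨_, h20'⟩ ≠ 0 := by
  refine ⟨alpha_mem20 A q M ℓ h h20, ?_⟩
  rw [alpha_red20 A q M ℓ h h20]
  exact hs20


theorem alpha_mem11 (hA : A.LiesOverPrime q) (hℓq : Nat.Coprime ℓ q) (h : ↥(L0 A (M * q * q)))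
    (h11 : cMid (M * q * q) q M B k (lvl q M) hB hq (h : FN (M * q * q)) ∈ gaussRingV A) :
    cMid (M * q * q * ℓ) q (M * ℓ) B' k' (lvlUp q M ℓ) hB' hq
        ((alphaL0 A q M ℓ h : ↥(L0 A (M * q * q * ℓ))) : FN (M * q * q * ℓ)) ∈ gaussRingV A :=
  (Fermat.Agent.S59.LL.SQ.H35.alpha_mem_V11_iff A q M ℓ B k B' k' hB hB' hq hA hℓq _
      h.2).mpr h11

theorem alpha_red11 (hA : A.LiesOverPrime q) (hℓq : Nat.Coprime ℓ q) (h : ↥(L0 A (M * q * q)))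
    (h11 : cMid (M * q * q) q M B k (lvl q M) hB hq (h : FN (M * q * q)) ∈ gaussRingV A)
    (h11' : cMid (M * q * q * ℓ) q (M * ℓ) B' k' (lvlUp q M ℓ) hB' hq
        ((alphaL0 A q M ℓ h : ↥(L0 A (M * q * q * ℓ))) : FN (M * q * q * ℓ)) ∈ gaussRingV A) :
    gaussRedV A ⟨_, h11'⟩ = gaussRedV A ⟨_, h11⟩ :=
  Fermat.Agent.S59.LL.SQ.H35.red_alpha A q M ℓ B k B' k' hB hB' hq hA hℓq _ h.2 h11 h11'

include hq in
theorem wSq_alpha (h : FN (M * q * q)) :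
    wSq (M * q * q * ℓ) q (M * ℓ) B' k' (lvlUp q M ℓ) hB' (heckeAlphaBar Kbar (M * q * q) ℓ h)
      = heckeAlphaBar Kbar (M * q * q) ℓ (wS q M B k hB h) :=
  congrArg (fun g : FN (M * q * q) →ₐ[Kbar] FN (M * q * q * ℓ) => g h)
    (Fermat.Agent.S59.LL.SQ.H33.wSqUp_comp_alpha q M B k hB hq ℓ B' k' hB')

include hq in
theorem coe_wSq_alphaL0 (h : ↥(L0 A (M * q * q))) :
    ((wSq (M * q * q * ℓ) q (M * ℓ) B' k' (lvlUp q M ℓ) hB'
        ((alphaL0 A q M ℓ h : ↥(L0 A (M * q * q * ℓ))) : FN (M * q * q * ℓ)) :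
          FN (M * q * q * ℓ)) : LaurentSeries Kbar)
      = ((wS q M B k hB (h : FN (M * q * q)) : FN (M * q * q)) : LaurentSeries Kbar) :=
  (congrArg (fun x : FN (M * q * q * ℓ) => (x : LaurentSeries Kbar))
    (wSq_alpha q M ℓ B k B' k' hB hB' hq (h : FN (M * q * q)))).trans
    (coe_heckeAlphaBar (M * q * q) ℓ _)

include hq in
theorem alpha_mem02 (h : ↥(L0 A (M * q * q)))
    (h02 : ((wSq (M * q * q) q M B k (lvl q M) hB (h : FN (M * q * q)) : FN (M * q * q)) :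
      LaurentSeries Kbar) ∈ gaussRingV A) :
    ((wSq (M * q * q * ℓ) q (M * ℓ) B' k' (lvlUp q M ℓ) hB'
        ((alphaL0 A q M ℓ h : ↥(L0 A (M * q * q * ℓ))) : FN (M * q * q * ℓ)) :
          FN (M * q * q * ℓ)) : LaurentSeries Kbar) ∈ gaussRingV A := by
  rw [coe_wSq_alphaL0 A q M ℓ B k B' k' hB hB' hq h]
  exact h02

include hq in
theorem alpha_red02 (h : ↥(L0 A (M * q * q)))
    (h02 : ((wSq (M * q * q) q M B k (lvl q M) hB (h : FN (M * q * q)) : FN (M * q * q)) :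
      LaurentSeries Kbar) ∈ gaussRingV A)
    (h02' : ((wSq (M * q * q * ℓ) q (M * ℓ) B' k' (lvlUp q M ℓ) hB'
        ((alphaL0 A q M ℓ h : ↥(L0 A (M * q * q * ℓ))) : FN (M * q * q * ℓ)) :
          FN (M * q * q * ℓ)) : LaurentSeries Kbar) ∈ gaussRingV A) :
    gaussRedV A ⟨_, h02'⟩ = gaussRedV A ⟨_, h02⟩ :=
  congrArg (gaussRedV A) (Subtype.ext (coe_wSq_alphaL0 A q M ℓ B k B' k' hB hB' hq h))


/-- `α` preserves the units for the three valuations (generic form at the lower level). -/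
theorem isUnit3g_alpha_gen (hA : A.LiesOverPrime q) (hℓq : Nat.Coprime ℓ q)
    (h : ↥(L0 A (M * q * q)))
    (hU : IsUnit3g A (M * q * q) q M B k (lvl q M) hB hq h) :
    IsUnit3g A (M * q * q * ℓ) q (M * ℓ) B' k' (lvlUp q M ℓ) hB' hq (alphaL0 A q M ℓ h) := by
  obtain ⟨⟨h20, hs20⟩, ⟨h11, hs11⟩, ⟨h02, hs02⟩⟩ := hU
  have m20 := alpha_mem20 A q M ℓ h h20
  have m11 := alpha_mem11 A q M ℓ B k B' k' hB hB' hq hA hℓq h h11
  have m02 := alpha_mem02 A q M ℓ B k B' k' hB hB' hq h h02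
  exact ⟨⟨m20, fun h0 => hs20 ((alpha_red20 A q M ℓ h h20 m20).symm.trans h0)⟩,
    ⟨m11, fun h0 => hs11
      ((alpha_red11 A q M ℓ B k B' k' hB hB' hq hA hℓq h h11 m11).symm.trans h0)⟩,
    ⟨m02, fun h0 => hs02
      ((alpha_red02 A q M ℓ B k B' k' hB hB' hq h h02 m02).symm.trans h0)⟩⟩

/-- `α` preserves the units for the three valuations. -/
theorem isUnit3g_alpha (hA : A.LiesOverPrime q) (hℓq : Nat.Coprime ℓ q)
    (h : ↥(L0 A (M * q * q))) (hU : SQ.IsUnit3 A q M B k hB hq h) :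
    IsUnit3g A (M * q * q * ℓ) q (M * ℓ) B' k' (lvlUp q M ℓ) hB' hq (alphaL0 A q M ℓ h) :=
  isUnit3g_alpha_gen A q M ℓ B k B' k' hB hB' hq hA hℓq h
    ((isUnit3g_iff A q M B k hB hq h).mpr hU)

end Up

/-! ## From `Reg11At` to `Reg11` at a level given up to equality -/

section Bridge

variable (A : ValuationSubring Kbar)

/-- A divisor `D` with `p D = div h`, if `p` divides all the orders of `h`. -/
theorem exists_divisor_of_dvd (N : ℕ) [NeZero N] (p : ℕ) (h : FN N)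
    (hord : ∀ P : Place Kbar (FN N), (p : ℤ) ∣ P.ord h) :
    ∃ D : Divisor Kbar (FN N), ∀ P : Place Kbar (FN N), (p : ℤ) * D P = P.ord h := by
  rcases eq_or_ne h 0 with rfl | hh
  · exact ⟨0, fun P => by rw [Place.ord_zero, Finsupp.zero_apply, mul_zero]⟩
  · haveI := Fermat.Agent.GTor.H33.hasPrincipalDivisors_FN N
    obtain ⟨D₀, hD₀, -⟩ := HasPrincipalDivisors.exists_divisor (K := Kbar) (F := FN N) h hh
    refine ⟨D₀.mapRange (fun x : ℤ => x / (p : ℤ)) (by simp), fun P => ?_⟩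
    rw [Finsupp.mapRange_apply, hD₀ P]
    exact Int.mul_ediv_cancel' (hord P)

variable (N q M' : ℕ) (B' k' : ℤ) (hN : N = M' * (q * q))
  (hB' : B' * M' + k' * q = 1) (hq : q.Prime) [NeZero N] [NeZero q] [NeZero M']
  [NeZero (M' * q)] [NeZero (M' * q * q)]
  (hqM' : ¬ q ∣ M') (hA : A.LiesOverPrime q) (hN2 : N = M' * q * q)

/-- `Reg11At` at `M'` is `Reg11` at any level `N = M' q²`, relative to `IsUnit3g`. -/
theorem reg11_of_at (p : ℕ) (H : Reg11At A q M' B' k' hB' hq hqM' hA p) :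
    Reg11 A N q M' B' k' hN hB' hq hqM' hA hN2 p (IsUnit3g A N q M' B' k' hN hB' hq) := by
  subst hN2
  intro h hord hU h11 Q
  obtain ⟨D, hD⟩ := exists_divisor_of_dvd (M' * q * q) p (h : FN (M' * q * q)) hord
  exact H h D hD ((isUnit3g_iff A q M' B' k' hB' hq h).mp hU) h11 Q

end Bridge

/-! ## REG-UP for `Reg11At` -/

section Final

variable (A : ValuationSubring Kbar) (q M ℓ : ℕ) (B k B' k' : ℤ) (hB : B * M + k * q = 1)
  (hB' : B' * ((M * ℓ : ℕ) : ℤ) + k' * q = 1) (hq : q.Prime)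
  [NeZero M] [NeZero q] [NeZero (M * q)] [NeZero (M * q * q)]
  [NeZero (M * ℓ)] [NeZero (M * ℓ * q)] [NeZero (M * ℓ * q * q)]
  (hqM : ¬ q ∣ M) (hqMℓ : ¬ q ∣ M * ℓ) (hA : A.LiesOverPrime q)

/-- **REG-UP** for helper35's `Reg11At`: from the level `M ℓ` to the level `M`. -/
theorem reg11At_up (hℓ : ℓ.Prime) (hℓq : ℓ ≠ q) (p : ℕ) (hp : p.Prime) (hlt : ℓ + 1 < p)
    (H : Reg11At A q (M * ℓ) B' k' hB' hq hqMℓ hA p) :
    Reg11At A q M B k hB hq hqM hA p := by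
  haveI : NeZero ℓ := ⟨hℓ.ne_zero⟩
  haveI : NeZero (M * q * q * ℓ) := ⟨Nat.mul_ne_zero (NeZero.ne (M * q * q)) hℓ.ne_zero⟩
  have hcop : Nat.Coprime ℓ q := (Nat.coprime_primes hℓ hq).mpr hℓq
  apply reg11At_of_reg11 A q M B k hB hq hqM hA p
  refine reg11_up_of_lt A q M ℓ B k B' k' hB hB' hq hqM hqMℓ hA hℓ hℓq p hp hlt
    (fun h => SQ.IsUnit3 A q M B k hB hq h)
    (IsUnit3g A (M * q * q * ℓ) q (M * ℓ) B' k' (lvlUp q M ℓ) hB' hq)
    (fun h hU => isUnit3g_alpha A q M ℓ B k B' k' hB hB' hq hA hcop h hU) ?_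
  exact reg11_of_at A (M * q * q * ℓ) q (M * ℓ) B' k' (lvlUp q M ℓ) hB' hq hqMℓ hA
    (lvlUp2 q M ℓ) p H

end Final

section FinalVar

variable (A : ValuationSubring Kbar) (q M M₂ ℓ : ℕ) (B k B' k' : ℤ) (hB : B * M + k * q = 1)
  (hB' : B' * (M₂ : ℤ) + k' * q = 1) (hq : q.Prime)
  [NeZero M] [NeZero q] [NeZero (M * q)] [NeZero (M * q * q)]
  [NeZero M₂] [NeZero (M₂ * q)] [NeZero (M₂ * q * q)]
  (hqM : ¬ q ∣ M) (hqM₂ : ¬ q ∣ M₂) (hA : A.LiesOverPrime q)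

/-- **REG-UP** with a variable upper level `M₂ = M * ℓ`. -/
theorem reg11At_up' (hM₂ : M₂ = M * ℓ) (hℓ : ℓ.Prime) (hℓq : ℓ ≠ q) (p : ℕ) (hp : p.Prime)
    (hlt : ℓ + 1 < p) (H : Reg11At A q M₂ B' k' hB' hq hqM₂ hA p) :
    Reg11At A q M B k hB hq hqM hA p := by
  subst hM₂
  exact reg11At_up A q M ℓ B k B' k' hB hB' hq hqM hqM₂ hA hℓ hℓq p hp hlt H

end FinalVar

/-! ## Reduction to the levels divisible by `9` -/

section Nine

variable (A : ValuationSubring Kbar) (q : ℕ) (hq : q.Prime) [NeZero q] (hA : A.LiesOverPrime q)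

/-- `Reg11At` at all the levels, as a hypothesis on a class of levels. -/
def Reg11On (p : ℕ) (C : ℕ → Prop) : Prop :=
  ∀ (M : ℕ) (B k : ℤ) (hB : B * M + k * q = 1) [NeZero M] [NeZero (M * q)] [NeZero (M * q * q)]
    (hqM : ¬ q ∣ M), C M → Reg11At A q M B k hB hq hqM hA p

include hq in
theorem exists_bezout_mul (M ℓ : ℕ) (hqM : ¬ q ∣ M) (hℓ : ℓ.Prime) (hℓq : ℓ ≠ q) :
    ¬ q ∣ M * ℓ ∧ ∃ B' k' : ℤ, B' * ((M * ℓ : ℕ) : ℤ) + k' * q = 1 := by
  have hqMℓ : ¬ q ∣ M * ℓ := by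
    intro hd
    rcases (Nat.Prime.dvd_mul hq).mp hd with hd | hd
    · exact hqM hd
    · exact hℓq ((Nat.prime_dvd_prime_iff_eq hq hℓ).mp hd).symm
  refine ⟨hqMℓ, ?_⟩
  have hcop : Nat.Coprime (M * ℓ) q := ((Nat.Prime.coprime_iff_not_dvd hq).mpr hqMℓ).symm
  obtain ⟨u, v, huv⟩ := Nat.isCoprime_iff_coprime.mpr hcop
  exact ⟨u, v, huv⟩

/-- One step: `Reg11At` on the levels `M` with `C (M ℓ)` from `Reg11At` on the levels with
`C`. -/
theorem reg11On_step (ℓ : ℕ) (hℓ : ℓ.Prime) (hℓq : ℓ ≠ q) (p : ℕ) (hp : p.Prime)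
    (hlt : ℓ + 1 < p) (C : ℕ → Prop) (H : Reg11On A q hq hA p C) :
    Reg11On A q hq hA p (fun M => C (M * ℓ)) := by
  intro M B k hB _ _ _ hqM hC
  obtain ⟨hqMℓ, B', k', hB'⟩ := exists_bezout_mul q hq M ℓ hqM hℓ hℓq
  haveI : NeZero (M * ℓ) := ⟨Nat.mul_ne_zero (NeZero.ne M) hℓ.ne_zero⟩
  haveI : NeZero (M * ℓ * q) := ⟨Nat.mul_ne_zero (NeZero.ne (M * ℓ)) hq.ne_zero⟩
  haveI : NeZero (M * ℓ * q * q) := ⟨Nat.mul_ne_zero (NeZero.ne (M * ℓ * q)) hq.ne_zero⟩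
  exact reg11At_up A q M ℓ B k B' k' hB hB' hq hqM hqMℓ hA hℓ hℓq p hp hlt
    (H (M * ℓ) B' k' hB' hqMℓ hC)

/-- **REG at all the levels from REG at the levels divisible by `9`** (`q ≠ 3`, `5 ≤ p`). -/
theorem reg11At_of_nine (hq3 : q ≠ 3) (p : ℕ) (hp : p.Prime) (h5 : 5 ≤ p)
    (H : Reg11On A q hq hA p (fun M => 9 ∣ M)) :
    Reg11On A q hq hA p (fun _ => True) := by
  have h3 : Nat.Prime 3 := Nat.prime_three
  have hlt : 3 + 1 < p := by omega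
  have H1 : Reg11On A q hq hA p (fun M => 9 ∣ M * 3) :=
    reg11On_step A q hq hA 3 h3 (Ne.symm hq3) p hp hlt _ H
  have H2 : Reg11On A q hq hA p (fun M => 9 ∣ M * 3 * 3) :=
    reg11On_step A q hq hA 3 h3 (Ne.symm hq3) p hp hlt _ H1
  intro M B k hB _ _ _ hqM _
  exact H2 M B k hB hqM ⟨M, by ring⟩

end Nine

end Fermat.Agent.S59.LL.SQ.H94
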