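import Fermat.Agent.BAD.H21_Num
import Fermat.Agent.BAD.H30_Num23Abs
import Fermat.Agent.RED.H34_Fib
attribute [local instance 10000] SubalgebraClass.toAlgebra
attribute [local instance 10000] HahnSeries.powerSeriesAlgebra

/-!
# S59 / LL / SQ, leaf NUM-LE (helper96): the number of supersingular points is AT MOST
`g(M q) + 1 - 2 g(M)`   (`q ≥ 5`)

Mirror of helper21's `BAD.H21.H21_num` / `H21_num_final` (the inequality `≥`).

`q ≥ 5` prime, `q ∤ M`, `A` a valuation ring of `ℚ̄` over `q`, `k = kV A`, `F~ = redField` the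
residue field of the Gauss valuation of `F_M · ℚ̄`, `j~` the reduction of `j`.

* `fibre_le` : (FIB ≤) in terms of places: the fibre of `j~` over `ρ mod m` has at most as many
  points as the fibre of `j` over `ρ` (chart theorem, `RED.H34.RedSetting.ncard_ptsOver_red_le`);
* `card_generic_le`, `card_zero_le`, `card_1728_le` : the fibres of `j~` have at most `ψ(M)`,
  `orbN M (S T)`, `orbN M S` points;
* `num_le` : for the supersingular polynomial `H`: every finite set `Z` of places of `F~`, none a
  pole of `j~`, all zeros of `H(j~)`, satisfies `2 g(M) + #Z ≤ g(M q) + 1`;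
* `num_le_final` : the same for the zeros of the Gauss reduction of `Δ(t)/Δ(t^q)`;
* `num_eq_final` : there is a finite set `Z` of such places with `2 g(M) + #Z = g(M q) + 1`
  containing all of them.
-/

set_option autoImplicit false
set_option linter.style.haveILetI false
set_option linter.unusedSectionVars false
set_option linter.unusedVariables false
set_option synthInstance.maxHeartbeats 400000
set_option maxHeartbeats 1000000

noncomputable section

open AlgebraicCurve Polynomial IntermediateField

namespace Fermat.Agent.S59.LL.SQ.H96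

open ModularCurve Fermat.Agent.S28.H73 Fermat.Agent.RED.H73 Fermat.Agent.RED.H34
  Fermat.Agent.RED.H76 Fermat.Agent.RED.H51 Fermat.Agent.BAD.H21 Fermat.Agent.BAD.H30
open Fermat.Agent.S24 (Kbar FN)
open Fermat.Agent.BAD

/-! ## Abstract counting -/

section Abs

variable {K F : Type} [Field K] [Field F] [Algebra K F]

/-- A zero of `H(x)` at which `x` is regular is a zero of `x - a` for a root `a` of `H`
(`K` algebraically closed). -/
theorem exists_root_of_ord_aeval_pos [IsAlgClosed K] (z : Place K F) {x : F}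
    (hx : 0 ≤ z.ord x) {H : K[X]} (hH : H ≠ 0) (hz : 0 < z.ord (aeval x H)) :
    ∃ a : K, H.IsRoot a ∧ 0 < z.ord (x - algebraMap K F a) := by
  classical
  by_contra hcon
  push Not at hcon
  -- `H = c ∏ (X - a)`
  have hsplit : H.Splits := IsAlgClosed.splits H
  have hprod := Polynomial.Splits.eq_prod_roots hsplit
  have hlc : H.leadingCoeff ≠ 0 := leadingCoeff_ne_zero.mpr hH
  have haeval : aeval x H = algebraMap K F H.leadingCoeff *
      (H.roots.map (fun a => x - algebraMap K F a)).prod := by
    conv_lhs => rw [hprod]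
    rw [map_mul, aeval_C, map_multiset_prod, Multiset.map_map]
    congr 2
    refine Multiset.map_congr rfl fun a _ => ?_
    simp
  -- every factor has order `0`
  have hfac : ∀ a ∈ H.roots, (x - algebraMap K F a) ≠ 0 ∧ z.ord (x - algebraMap K F a) = 0 := by
    intro a ha
    have hroot : H.IsRoot a := (mem_roots hH).mp ha
    have h1 := hcon a hroot
    have hne : x - algebraMap K F a ≠ 0 := by
      intro h0
      rw [haeval] at hz
      have : (H.roots.map (fun a => x - algebraMap K F a)).prod = 0 :=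
        Multiset.prod_eq_zero (Multiset.mem_map.mpr ⟨a, ha, h0⟩)
      rw [this, mul_zero, Place.ord_zero] at hz
      exact lt_irrefl _ hz
    refine ⟨hne, ?_⟩
    have h2 : OrdGe z 0 (x - algebraMap K F a) := by
      have hx' : OrdGe z 0 x := by
        rcases eq_or_ne x 0 with rfl | hx0
        · exact ordGe_zero z 0
        · exact Or.inr hx
      exact hx'.sub (ordGe_algebraMap z a)
    have := h2.le hne
    omega
  have hprod0 : ∀ (m : Multiset K), (∀ a ∈ m, (x - algebraMap K F a) ≠ 0 ∧
      z.ord (x - algebraMap K F a) = 0) →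
      (m.map (fun a => x - algebraMap K F a)).prod ≠ 0 ∧
        z.ord ((m.map (fun a => x - algebraMap K F a)).prod) = 0 := by
    intro m
    induction m using Multiset.induction_on with
    | empty =>
      intro _
      simp
    | cons a m ih =>
      intro h
      have h1 := h a (Multiset.mem_cons_self a m)
      have h2 := ih (fun b hb => h b (Multiset.mem_cons_of_mem hb))
      rw [Multiset.map_cons, Multiset.prod_cons]
      refine ⟨mul_ne_zero h1.1 h2.1, ?_⟩
      rw [z.ord_mul h1.1 h2.1, h1.2, h2.2, add_zero]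
  have h3 := hprod0 H.roots hfac
  have hc0 : algebraMap K F H.leadingCoeff ≠ 0 := (_root_.map_ne_zero _).mpr hlc
  rw [haeval, z.ord_mul hc0 h3.1, ord_algebraMap, h3.2, add_zero] at hz
  exact lt_irrefl _ hz

open Classical in
/-- **Counting (≤)**: if the fibre of `x` over every `a ∈ S` has at most `c a` points (and is
finite), a finite set of places each of which is a zero of some `x - a`, `a ∈ S`, has at most
`∑_{a ∈ S} c a` elements. -/
theorem card_le_sum (x : F) (S : Finset K) (c : K → ℕ)
    (hc : ∀ a ∈ S, {z : Place K F | 0 < z.ord (x - algebraMap K F a)}.Finite ∧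
      Nat.card {z : Place K F // 0 < z.ord (x - algebraMap K F a)} ≤ c a)
    (Z : Finset (Place K F)) (hZ : ∀ z ∈ Z, ∃ a ∈ S, 0 < z.ord (x - algebraMap K F a)) :
    Z.card ≤ ∑ a ∈ S, c a := by
  let Zf : K → Finset (Place K F) := fun a => if h : a ∈ S then (hc a h).1.toFinset else ∅
  have hsub : Z ⊆ S.biUnion Zf := by
    intro z hz
    obtain ⟨a, ha, hza⟩ := hZ z hz
    rw [Finset.mem_biUnion]
    refine ⟨a, ha, ?_⟩
    simp only [Zf, dif_pos ha, Set.Finite.mem_toFinset]
    exact hza
  refine (Finset.card_le_card hsub).trans (Finset.card_biUnion_le.trans ?_)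
  apply Finset.sum_le_sum
  intro a ha
  simp only [Zf, dif_pos ha]
  rw [← Set.ncard_eq_toFinset_card _ (hc a ha).1, ← Nat.card_coe_set_eq]
  exact (hc a ha).2

end Abs

/-! ## The modular case -/

section Modular

variable (M : ℕ) [NeZero M] {ℓ : ℕ} (hℓ : ℓ.Prime) (hℓM : ¬ ℓ ∣ M)
  (A : ValuationSubring Kbar) (hA : A.LiesOverPrime ℓ)

include hℓ hℓM hA in
/-- The fibres of `j~` are finite, with at most `ψ(M)` points. -/
theorem fibre_finite (γ : kV A) :
    {z : Place (kV A) ↥(redField A (laurentBaseChange Kbar (modularFunctionFieldFull M))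
          (hasScale_laurentBaseChange A M)) |
        0 < z.ord (H21_jt M A - algebraMap (kV A) _ γ)}.Finite ∧
    Nat.card {z : Place (kV A) ↥(redField A
          (laurentBaseChange Kbar (modularFunctionFieldFull M))
          (hasScale_laurentBaseChange A M)) //
        0 < z.ord (H21_jt M A - algebraMap (kV A) _ γ)} ≤ dedekindPsi M := by
  obtain ⟨h1, h2, h3, h4, h5⟩ := goodChart_pre M ℓ hℓ hℓM A hA
  haveI := h2
  haveI hfdt := RedSetting.finiteDimensional_red (jF_mem A M) h4
  have hfin := (num23_zeros_finite (H21_jt M A) h1 γ).1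
  refine ⟨hfin, ?_⟩
  have hle := num23_card_zeros_le (H21_jt M A) h1 γ
  rw [h4, finrank_jF M] at hle
  exact hle

include hℓ hℓM hA in
/-- **(FIB ≤)** in terms of places (`ℓ ≥ 5`). -/
theorem fibre_le (h5 : 5 ≤ ℓ) (ρ : ↥(redSetting A (hasScale_laurentBaseChange A M)).O) :
    Nat.card {z : Place (kV A) ↥(redField A
          (laurentBaseChange Kbar (modularFunctionFieldFull M))
          (hasScale_laurentBaseChange A M)) //
        0 < z.ord (H21_jt M A - algebraMap (kV A) _
          ((redSetting A (hasScale_laurentBaseChange A M)).resO ρ))}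
      ≤ Nat.card {v : Place Kbar (FN M) //
        0 < v.ord (jF (L := Kbar) M - algebraMap Kbar (FN M) (ρ : Kbar))} := by
  haveI : IsAlgClosed (kV A) := isAlgClosed_kV A
  obtain ⟨h1, h2, h3, h4, h5'⟩ := goodChart_pre M ℓ hℓ hℓM A hA
  haveI := h2
  haveI := h3
  haveI := h5'
  haveI hfdt := RedSetting.finiteDimensional_red (jF_mem A M) h4
  rw [← card_ptsOver _ (transcendental_jF M) (ρ : Kbar),
    ← card_ptsOver _ h1 ((redSetting A (hasScale_laurentBaseChange A M)).resO ρ),
    Nat.card_coe_set_eq, Nat.card_coe_set_eq]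
  exact RedSetting.ncard_ptsOver_red_le (jF_mem A M) h1 h4
    (stmt_chartNormal Kbar _ (kV A) _ (redSetting A (hasScale_laurentBaseChange A M))
      (jF M) (jF_mem A M) h1 inferInstance h4 inferInstance
      (branch_distinct_jF M hℓ h5 A hA)) ρ

/-- The fibre of `j` over `0` in characteristic `0` has at most `orbN M (S T)` points. -/
theorem char0_zero_le :
    Nat.card {v : Place Kbar (FN M) //
        0 < v.ord (jF (L := Kbar) M - algebraMap Kbar (FN M) 0)}
      ≤ Fermat.Agent.S24.orbN M (ModularGroup.S * ModularGroup.T) := by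
  rcases Nat.lt_or_ge 1 M with hM | hM
  · rw [← jF_eq]
    exact (Fermat.Agent.S24.asm_card_zeros_zero (Fermat.Agent.S24.modClosure M) hM).le
  · have hM1 : M = 1 := le_antisymm hM (Nat.pos_of_ne_zero (NeZero.ne M))
    haveI := finiteDimensional_jF M
    have hle := num23_card_zeros_le (jF (L := Kbar) M) (transcendental_jF M) (0 : Kbar)
    rw [finrank_jF M] at hle
    refine hle.trans ?_
    have h1 := Fermat.Agent.S24.asm_orb_ST M
    have hψ : dedekindPsi M = 1 := by rw [hM1]; exact dedekindPsi_one
    have hν : nuThree M = 1 := by rw [hM1]; exact Fermat.Agent.S24.asm_nuThree_one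
    rw [hψ, hν] at h1
    rw [hψ]
    omega

/-- The fibre of `j` over `1728` in characteristic `0` has at most `orbN M S` points. -/
theorem char0_1728_le :
    Nat.card {v : Place Kbar (FN M) //
        0 < v.ord (jF (L := Kbar) M - algebraMap Kbar (FN M) 1728)}
      ≤ Fermat.Agent.S24.orbN M ModularGroup.S := by
  rcases Nat.lt_or_ge 1 M with hM | hM
  · rw [← jF_eq]
    exact (Fermat.Agent.S24.asm_card_zeros_1728 (Fermat.Agent.S24.modClosure M) hM).le
  · have hM1 : M = 1 := le_antisymm hM (Nat.pos_of_ne_zero (NeZero.ne M))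
    haveI := finiteDimensional_jF M
    have hle := num23_card_zeros_le (jF (L := Kbar) M) (transcendental_jF M) (1728 : Kbar)
    rw [finrank_jF M] at hle
    refine hle.trans ?_
    have h1 := Fermat.Agent.S24.asm_orb_S M
    have hψ : dedekindPsi M = 1 := by rw [hM1]; exact dedekindPsi_one
    have hν : nuTwo M = 1 := by rw [hM1]; exact Fermat.Agent.S24.asm_nuTwo_one
    rw [hψ, hν] at h1
    rw [hψ]
    omega

section Red

variable (h5 : 5 ≤ ℓ)

include hℓ hℓM hA h5

/-- The fibre of `j~` over `0` has at most `orbN M (S T)` points. -/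
theorem card_zero_le :
    Nat.card {z : Place (kV A) ↥(redField A
          (laurentBaseChange Kbar (modularFunctionFieldFull M))
          (hasScale_laurentBaseChange A M)) //
        0 < z.ord (H21_jt M A - algebraMap (kV A) _ 0)}
      ≤ Fermat.Agent.S24.orbN M (ModularGroup.S * ModularGroup.T) := by
  have key := fibre_le M hℓ hℓM A hA h5 0
  rw [map_zero] at key
  exact key.trans (char0_zero_le M)

/-- The fibre of `j~` over `1728` has at most `orbN M S` points. -/
theorem card_1728_le :
    Nat.card {z : Place (kV A) ↥(redField A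
          (laurentBaseChange Kbar (modularFunctionFieldFull M))
          (hasScale_laurentBaseChange A M)) //
        0 < z.ord (H21_jt M A - algebraMap (kV A) _ 1728)}
      ≤ Fermat.Agent.S24.orbN M ModularGroup.S := by
  have key := fibre_le M hℓ hℓM A hA h5 1728
  rw [map_ofNat] at key
  exact key.trans (char0_1728_le M)

open Classical in
/-- **NUM-LE at level `M`** (`ℓ ≥ 5`): every finite set `Z` of places of the reduced curve of
level `M`, none a pole of `j~`, all zeros of `H(j~)`, has `2 g(M) + #Z ≤ g(M ℓ) + 1`. -/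
theorem num_le (H : Polynomial (kV A)) (S : Finset (kV A)) (hH0 : H ≠ 0)
    (hS : ∀ x, x ∈ S ↔ H.IsRoot x)
    (hcard : S.card = H21_ssM ℓ + H21_ssA ℓ + H21_ssB ℓ)
    (h0 : (0 : kV A) ∈ S ↔ ℓ % 3 = 2) (h1728 : (1728 : kV A) ∈ S ↔ ℓ % 4 = 3)
    (Z : Finset (Place (kV A) ↥(redField A
          (laurentBaseChange Kbar (modularFunctionFieldFull M))
          (hasScale_laurentBaseChange A M))))
    (hZ : ∀ z ∈ Z, 0 ≤ z.ord (H21_jt M A) ∧ 0 < z.ord (aeval (H21_jt M A) H)) :
    2 * genusFormula M + (Z.card : ℚ) ≤ genusFormula (M * ℓ) + 1 := by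
  haveI : Fact ℓ.Prime := ⟨hℓ⟩
  haveI : IsAlgClosed (kV A) := isAlgClosed_kV A
  have h01 : (0 : kV A) ≠ 1728 := (H21_resO_1728_ne_zero hℓ A hA h5).symm
  have hcardZ := card_le_sum (H21_jt M A) S
    (fun J => if J = 0 then Fermat.Agent.S24.orbN M (ModularGroup.S * ModularGroup.T)
      else if J = 1728 then Fermat.Agent.S24.orbN M ModularGroup.S else dedekindPsi M) (by
    intro a ha
    refine ⟨(fibre_finite M hℓ hℓM A hA a).1, ?_⟩
    by_cases e0 : a = 0
    · subst e0
      simp only [if_true]
      exact card_zero_le M hℓ hℓM A hA h5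
    · by_cases e1 : a = 1728
      · subst e1
        simp only [if_neg e0, if_true]
        exact card_1728_le M hℓ hℓM A hA h5
      · simp only [if_neg e0, if_neg e1]
        exact (fibre_finite M hℓ hℓM A hA a).2) Z (by
    intro z hz
    obtain ⟨a, ha, hza⟩ := exists_root_of_ord_aeval_pos z (hZ z hz).1 hH0 (hZ z hz).2
    exact ⟨a, (hS a).mpr ha, hza⟩)
  have hA1 : H21_ssA ℓ ≤ 1 := by unfold H21_ssA; split_ifs <;> omega
  have hB1 : H21_ssB ℓ ≤ 1 := by unfold H21_ssB; split_ifs <;> omega
  have hA' : ℓ % 3 = 2 ↔ H21_ssA ℓ = 1 := by unfold H21_ssA; split_ifs <;> simp [*]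
  have hB' : ℓ % 4 = 3 ↔ H21_ssB ℓ = 1 := by unfold H21_ssB; split_ifs <;> simp [*]
  have hsum := H21_sum_ss S h01 (dedekindPsi M) (Fermat.Agent.S24.orbN M ModularGroup.S)
    (Fermat.Agent.S24.orbN M (ModularGroup.S * ModularGroup.T)) (H21_ssM ℓ) (H21_ssA ℓ)
    (H21_ssB ℓ) hcard (h0.trans hA') (h1728.trans hB') hA1 hB1
  have har := H21_arith h5 hℓM (Fermat.Agent.S24.orbN M ModularGroup.S)
    (Fermat.Agent.S24.orbN M (ModularGroup.S * ModularGroup.T))
    (Fermat.Agent.S24.asm_orb_S M) (Fermat.Agent.S24.asm_orb_ST M)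
  rw [hsum] at hcardZ
  have h2 : (Z.card : ℚ) ≤ ((H21_ssM ℓ * dedekindPsi M
      + H21_ssA ℓ * Fermat.Agent.S24.orbN M (ModularGroup.S * ModularGroup.T)
      + H21_ssB ℓ * Fermat.Agent.S24.orbN M ModularGroup.S : ℕ) : ℚ) := by
    exact_mod_cast hcardZ
  linarith

end Red

end Modular

/-- **NUM-LE at level `M`, `q ≥ 5`**: a finite set `Z` of places of the reduced function field of
level `M`, none a pole of `j~`, at each of which some `y` with the `q`-expansion of the Gauss
reduction of the modular unit `Δ(t)/Δ(t^q)` vanishes, has `2 g(M) + #Z ≤ g(M q) + 1`. -/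
theorem num_le_final (M q : ℕ) [NeZero M] [NeZero (M * q)] (hq : q.Prime) (h5 : 5 ≤ q)
    (hqM : ¬ q ∣ M) (A : ValuationSubring (AlgebraicClosure ℚ)) (hA : A.LiesOverPrime q)
    (hd : q ∣ M * q)
    (Z : Finset (Place (kV A) ↥(redField A (FNbar M) (hasScale_laurentBaseChange A M))))
    (hZ0 : ∀ z ∈ Z, 0 ≤ z.ord (gaussRes A M ⟨jF (L := Kbar) M, jF_mem A M⟩))
    (hZ : haveI : NeZero q := ⟨hq.ne_zero⟩
      ∀ z ∈ Z, ∃ y : ↥(redField A (FNbar M) (hasScale_laurentBaseChange A M)),
        (y : LaurentSeries (kV A))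
          = ((gaussRes A (M * q) ⟨unitF (M * q) q hd, unitF_mem_gaussV A (M * q) q hd⟩ :
              ↥(redField A (FNbar (M * q)) (hasScale_laurentBaseChange A (M * q)))) :
              LaurentSeries (kV A)) ∧ 0 < z.ord y) :
    2 * genusFormula M + (Z.card : ℚ) ≤ genusFormula (M * q) + 1 := by
  haveI : NeZero q := ⟨hq.ne_zero⟩
  haveI : Fact q.Prime := ⟨hq⟩
  obtain ⟨H, S, hH0, hH, hS, hcard, h0, h1728⟩ :=
    gaussRes_unitF_eq_aeval A (M * q) q hA hd h5
  refine num_le M hq hqM A hA h5 H S hH0 hS hcard h0 h1728 Z ?_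
  intro z hz
  refine ⟨hZ0 z hz, ?_⟩
  obtain ⟨y, hy, hzy⟩ := hZ z hz
  have e : y = aeval (H21_jt M A) H := by
    apply Subtype.ext
    rw [hy, H21_coe_aeval_jt]
    exact hH
  rw [← e]
  exact hzy

end Fermat.Agent.S59.LL.SQ.H96
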